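import Fermat.Agent.AbVar.CartierBound

/-!
# The denominator divisor of a generating set of functions

Local equations for the denominators of finitely many generators of the function field give a
class of points.  Its symmetrisation is an effective symmetric class bounding the generators
(`exists_goodClass`).
-/

set_option autoImplicit false

noncomputable section

open CategoryTheory AlgebraicGeometry

namespace Fermat.Agent.AbVar

universe u

variable {K : Type u} [Field K] [IsAlgClosed K] {X : AData K}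

open AData

/-- The equations of a system of charts. -/
def AData.Charts.family {Y : Finset X.FF} (D : X.Charts Y) : EqFamily X where
  t x := D.eqn (D.idx x)
  ne_zero x := (D.genAt _ x (D.mem_idx x)).1
  spec {z x} h := (D.genAt _ z (D.mem_idx z)).unitAt
    (D.genAt _ z (h.mem_open (D.W (D.idx x)).isOpen (D.mem_idx x)))

theorem AData.Charts.cls_finite {Y : Finset X.FF} (D : X.Charts Y) {L : Type u} [Field L]
    [Algebra K L] (P : X.Pt L) :
    ∃ S : Finset L, ∀ V : KVal K L, (∀ x ∈ S, x ∈ V.toVal) → D.family.clsAt P V = 0 := by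
  classical
  set i := D.idx (X.ptAt P) with hi
  have : Nonempty (D.W i) := ⟨⟨_, D.mem_idx (X.ptAt P)⟩⟩
  obtain ⟨G, hG⟩ := X.exists_generators (D.isAffine i)
  refine ⟨G.image fun r => X.value P (X.A.germToFunctionField (D.W i) r), fun V hV => ?_⟩
  have hc : X.centre V P ∈ D.W i := centre_mem_of_generators (D.isAffine i) hG P (D.mem_idx _) V
    fun r hr => hV _ (Finset.mem_image_of_mem _ hr)
  have hu : X.UnitAt (X.centre V P) (D.family.t (X.centre V P) / D.family.t (X.ptAt P)) :=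
    (D.genAt _ _ (D.mem_idx _)).unitAt (D.genAt i _ hc)
  have hsp := specializes_centre V P
  refine (QuotientGroup.eq_one_iff _).2 ?_
  show D.family.jump P (X.centre V P) ∈ V.units
  rw [KVal.mem_units_iff, D.family.coe_jump P hsp]
  refine ⟨value_mem_val V P hu.2.1, ?_⟩
  have h3 : X.value P (D.family.t (X.centre V P) / D.family.t (X.ptAt P)) *
      X.value P (D.family.t (X.centre V P) / D.family.t (X.ptAt P))⁻¹ = 1 := by
    rw [← value_mul P (hu.mono hsp).2.1 (hu.mono hsp).2.2, mul_inv_cancel₀ hu.1, value_one]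
  rw [inv_eq_of_mul_eq_one_right h3]
  exact value_mem_val V P hu.2.2

/-- The class data of a system of charts. -/
def AData.Charts.classData {Y : Finset X.FF} (D : X.Charts Y) : ClassData X :=
  (D.family.classData fun P => D.cls_finite P).symmetrize

/-- The classes of a family at a generic point differ from the equations by a constant. -/
theorem EqFamily.clsAt_generic (T : EqFamily X) (Q : X.Pt X.FF)
    (hQ : X.ptAt Q = genericPoint X.A) :
    ∃ e : (X.FF)ˣ, ∀ (V : KVal K X.FF) (a : (X.FF)ˣ),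
      (a : X.FF) = X.value Q (T.t (X.centre V Q)) →
      T.clsAt Q V + V.cls (Additive.ofMul e) = V.cls (Additive.ofMul a) := by
  have hreg : ∀ f, f ∈ X.regAt (X.ptAt Q) := fun f => by
    rw [hQ]; exact X.mem_regAt_genericPoint f
  have hne : X.value Q (T.t (X.ptAt Q)) ≠ 0 :=
    (UnitAt.isUnit_value Q (f := T.t (X.ptAt Q)) ⟨T.ne_zero _, hreg _, hreg _⟩).ne_zero
  refine ⟨Units.mk0 _ hne, fun V a ha => ?_⟩
  show V.cls _ + V.cls _ = _
  rw [← map_add, ← ofMul_mul]
  refine congrArg V.cls (congrArg Additive.ofMul (Units.ext ?_))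
  rw [Units.val_mul, Units.val_mk0, T.coe_jump Q (specializes_centre V Q), ha,
    ← value_mul Q (hreg _) (hreg _), div_mul_cancel₀ _ (T.ne_zero _)]

/-- **The denominator class.** -/
theorem exists_goodClass (X : AData K) : Nonempty (GoodClass X) := by
  classical
  have := X.bundle.proper
  obtain ⟨U₀, hU₀, hηU₀, -⟩ := exists_isAffineOpen_mem_and_subset (X := X.A)
    (x := genericPoint X.A) (U := ⊤) trivial
  set U : X.A.Opens := U₀ ⊓ X.negHom ⁻¹ᵁ U₀ with hUdef
  have hU : IsAffineOpen U :=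
    isAffineHom_diagonal_iff.mp (inferInstance : IsAffineHom (Limits.pullback.diagonal X.f)) ⊤
      (isAffineOpen_top _) U₀ le_top (X.negHom ⁻¹ᵁ U₀) le_top hU₀ (hU₀.preimage X.negHom)
  have hηU : genericPoint X.A ∈ U := ⟨hηU₀, by
    show X.negHom (genericPoint X.A) ∈ U₀
    rwa [X.negHom_genericPoint]⟩
  have hUneg : ∀ x ∈ U, X.negHom x ∈ U := fun x hx => ⟨hx.2, by
    show X.negHom (X.negHom x) ∈ U₀
    rw [X.negHom_negHom_apply]
    exact hx.1⟩
  have : Nonempty U := ⟨⟨_, hηU⟩⟩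
  obtain ⟨G, hG⟩ := X.exists_generators hU
  set e := (X.A.germToFunctionField U).hom with he
  set Y : Finset X.FF := G.image e with hY
  have hYU : ∀ y ∈ Y, ∀ z ∈ U, y ∈ X.regAt z := fun y hy z hz => by
    obtain ⟨r, -, rfl⟩ := Finset.mem_image.1 hy
    exact X.germToFF_mem_regAt hz r
  have hgenU : ∀ V : KVal K X.FF, (∀ y ∈ Y, y ∈ V.toVal) → X.centre V X.genPt ∈ U :=
    fun V hV => centre_mem_of_generators hU hG X.genPt (by rw [ptAt_genPt]; exact hηU) V
      fun r hr => by rw [value_genPt]; exact hV _ (Finset.mem_image_of_mem _ hr)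
  have hnegU : ∀ V : KVal K X.FF, (∀ y ∈ Y, y ∈ V.toVal) → X.centre V (-X.genPt) ∈ U :=
    fun V hV => by rw [X.centre_neg]; exact hUneg _ (hgenU V hV)
  obtain ⟨D⟩ := X.nonempty_charts Y
  set T := D.family with hT
  obtain ⟨e₁, he₁⟩ := T.clsAt_generic X.genPt X.ptAt_genPt
  obtain ⟨e₂, he₂⟩ := T.clsAt_generic (-X.genPt) X.ptAt_neg_genPt
  set h : ClGroup K X.FF :=
    D.classData.cls X.genPt + princ K X.FF (Additive.ofMul (e₁ * e₂)) with hh
  -- the equations of `h`
  set a₁ : KVal K X.FF → X.FF := fun V => X.value X.genPt (T.t (X.centre V X.genPt)) with ha₁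
  set a₂ : KVal K X.FF → X.FF := fun V => X.value (-X.genPt) (T.t (X.centre V (-X.genPt))) with ha₂
  have hreg₂ : ∀ f, f ∈ X.regAt (X.ptAt (-X.genPt)) := fun f => by
    rw [X.ptAt_neg_genPt]; exact X.mem_regAt_genericPoint f
  have ha₁0 : ∀ V, a₁ V ≠ 0 := fun V => by
    rw [ha₁]; simp only [value_genPt]; exact T.ne_zero _
  have ha₂0 : ∀ V, a₂ V ≠ 0 := fun V =>
    (UnitAt.isUnit_value (-X.genPt) (f := T.t (X.centre V (-X.genPt)))
      ⟨T.ne_zero _, hreg₂ _, hreg₂ _⟩).ne_zero
  have key : ∀ (V : KVal K X.FF) (x : (X.FF)ˣ), h V = V.cls (Additive.ofMul x) →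
      ((x : X.FF))⁻¹ * (a₁ V * a₂ V) ∈ V.toVal ∧ (a₁ V * a₂ V)⁻¹ * (x : X.FF) ∈ V.toVal := by
    intro V x hx
    have h1 := he₁ V (Units.mk0 _ (ha₁0 V)) rfl
    have h2 := he₂ V (Units.mk0 _ (ha₂0 V)) rfl
    have h3 : h V = V.cls (Additive.ofMul (Units.mk0 _ (ha₁0 V) * Units.mk0 _ (ha₂0 V))) := by
      show (T.clsAt X.genPt V + T.clsAt (-X.genPt) V) + V.cls (Additive.ofMul (e₁ * e₂)) = _
      rw [ofMul_mul, map_add, ofMul_mul, map_add, ← h1, ← h2]
      exact add_add_add_comm (T.clsAt X.genPt V) _ _ _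
    have h4 := (V.cls_eq_iff).1 (hx.symm.trans h3)
    rwa [Units.val_mul, Units.val_mk0, Units.val_mk0] at h4
  have hint₁ : ∀ V, a₁ V ∈ V.toVal := fun V =>
    value_mem_val V _ (D.genAt _ _ (D.mem_idx _)).mem.1
  have hint₂ : ∀ V, a₂ V ∈ V.toVal := fun V =>
    value_mem_val V _ (D.genAt _ _ (D.mem_idx _)).mem.1
  have hne : ∀ V, a₁ V * a₂ V ≠ 0 := fun V => mul_ne_zero (ha₁0 V) (ha₂0 V)
  refine ⟨{ toClassData := D.classData, symm := ?_, h := h, h_eq := ?_, effective := ?_, Y := Y,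
            Y_gen := ?_, Y_mem := ?_, bound := ?_ }⟩
  · intro L _ _ P
    exact ClassData.symmetrize_symm _ P
  · exact ⟨Additive.ofMul (e₁ * e₂),
      (add_sub_cancel_left (D.classData.cls X.genPt)
        (princ K X.FF (Additive.ofMul (e₁ * e₂)))).symm⟩
  · intro V x hx
    have e : (x : X.FF) = a₁ V * a₂ V * ((a₁ V * a₂ V)⁻¹ * (x : X.FF)) := by
      rw [← mul_assoc, mul_inv_cancel₀ (hne V), one_mul]
    rw [e]
    exact mul_mem (mul_mem (hint₁ V) (hint₂ V)) (key V x hx).2
  · rw [eq_top_iff]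
    intro f _
    have := functionField_isFractionRing_of_isAffineOpen X.A U hU
    have hall : ∀ r, e r ∈ IntermediateField.adjoin K (Y : Set X.FF) := by
      refine hG ((IntermediateField.adjoin K (Y : Set X.FF)).toSubfield.toSubring.comap e)
        (fun c => ?_) fun r hr => ?_
      · show e _ ∈ IntermediateField.adjoin K (Y : Set X.FF)
        rw [he, X.germToFF_sectConst U c]
        exact IntermediateField.algebraMap_mem _ c
      · exact IntermediateField.subset_adjoin K _ (Finset.mem_image_of_mem _ hr)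
    obtain ⟨a, b, -, rfl⟩ := IsFractionRing.div_surjective Γ(X.A, U) f
    exact div_mem (hall a) (hall b)
  · intro y hy V x hx
    have h1 : y * a₁ V ∈ V.toVal := by
      show y * X.value X.genPt (T.t (X.centre V X.genPt)) ∈ V.toVal
      rw [value_genPt, mul_comm]
      have h2 := value_mem_val V X.genPt ((D.genAt _ _ (D.mem_idx (X.centre V X.genPt))).mem.2 y hy)
      rwa [value_genPt] at h2
    have e : y * (x : X.FF) = y * a₁ V * a₂ V * ((a₁ V * a₂ V)⁻¹ * (x : X.FF)) := by
      rw [mul_assoc y (a₁ V), mul_assoc y, ← mul_assoc (a₁ V * a₂ V), mul_inv_cancel₀ (hne V),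
        one_mul]
    rw [e]
    exact mul_mem (mul_mem h1 (hint₂ V)) (key V x hx).2
  · obtain ⟨C₁, hC₁⟩ := exists_monBound_inv_value D X.genPt X.ptAt_genPt U hYU hgenU
    obtain ⟨C₂, hC₂⟩ := exists_monBound_inv_value D (-X.genPt) X.ptAt_neg_genPt U hYU hnegU
    refine ⟨C₁ + C₂, fun V x hx => ?_⟩
    obtain ⟨l, hl, hlY, hl0, hlV⟩ := (hC₁ V).mul (hC₂ V)
    refine ⟨l, hl, hlY, hl0, ?_⟩
    have e : (x : X.FF)⁻¹ * l.prod⁻¹ =
        ((x : X.FF)⁻¹ * (a₁ V * a₂ V)) * ((a₁ V)⁻¹ * (a₂ V)⁻¹ * l.prod⁻¹) := by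
      rw [← mul_inv (a₁ V), mul_assoc, ← mul_assoc (a₁ V * a₂ V), mul_inv_cancel₀ (hne V), one_mul]
    rw [e]
    exact mul_mem (key V x hx).1 hlV

end Fermat.Agent.AbVar
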