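import Fermat.Agent.AbVar.Classes

/-!
# Values of rational functions at points with values in local rings

A rational function which is regular at the centre of a point has a value there, and the value
commutes with a change of the ring.
-/

set_option autoImplicit false

noncomputable section

open CategoryTheory AlgebraicGeometry
open IsLocalRing (closedPoint)

namespace Fermat.Agent.AbVar

universe u

/-- A map factoring through the local ring at `x` reads its values there. -/
theorem exists_stalkSpecializes_stalkClosedPointTo {X : Scheme.{u}} {S : CommRingCat.{u}}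
    [IsLocalRing S] {x : X} (ψ : X.presheaf.stalk x ⟶ S) (Q : Spec S ⟶ X)
    (hQ : Spec.map ψ ≫ X.fromSpecStalk x = Q) :
    ∃ h : Q (closedPoint S) ⤳ x,
      X.presheaf.stalkSpecializes h ≫ Scheme.stalkClosedPointTo Q = ψ := by
  have h : Q (closedPoint S) ⤳ x := by
    have h' : Q (closedPoint S) ∈ Set.range (X.fromSpecStalk x) :=
      ⟨Spec.map ψ (closedPoint S), by rw [← hQ]; rfl⟩
    rwa [Scheme.range_fromSpecStalk] at h'
  refine ⟨h, Spec.map_injective ?_⟩
  rw [← cancel_mono (X.fromSpecStalk x), Spec.map_comp, Category.assoc,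
    Scheme.SpecMap_stalkSpecializes_fromSpecStalk, Scheme.Spec_stalkClosedPointTo_fromSpecStalk,
    hQ]

variable {K : Type u} [Field K] [IsAlgClosed K] (X : AData K)

namespace AData

/-- The functions regular at a point. -/
def regAt (x : X.A) : Subring X.FF := (algebraMap (X.A.presheaf.stalk x) X.FF).range

theorem toFF_injective (x : X.A) :
    Function.Injective (algebraMap (X.A.presheaf.stalk x) X.FF) :=
  IsFractionRing.injective (X.A.presheaf.stalk x) X.FF

theorem toFF_stalkSpecializes {z x : X.A} (h : z ⤳ x) (r : X.A.presheaf.stalk x) :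
    algebraMap (X.A.presheaf.stalk z) X.FF (X.A.presheaf.stalkSpecializes h r) =
      algebraMap (X.A.presheaf.stalk x) X.FF r := by
  simp [RingHom.algebraMap_toAlgebra, ← ConcreteCategory.comp_apply,
    TopCat.Presheaf.stalkSpecializes_comp]

theorem regAt_mono {z x : X.A} (h : z ⤳ x) : X.regAt x ≤ X.regAt z := by
  rintro _ ⟨r, rfl⟩
  exact ⟨X.A.presheaf.stalkSpecializes h r, X.toFF_stalkSpecializes h r⟩

theorem toFF_const (x : X.A) (c : K) :
    algebraMap (X.A.presheaf.stalk x) X.FF (algebraMap K (X.A.presheaf.stalk x) c) =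
      algebraMap K X.FF c := by
  show ((X.stalkConst x) ≫ X.A.presheaf.stalkSpecializes (genericPoint_specializes x)) c =
    X.stalkConst (genericPoint X.A) c
  rw [AData.stalkConst, AData.stalkConst, Category.assoc, Category.assoc]
  erw [TopCat.Presheaf.germ_stalkSpecializes]

theorem mem_regAt_genericPoint (f : X.FF) : f ∈ X.regAt (genericPoint X.A) := by
  refine ⟨f, ?_⟩
  simp [RingHom.algebraMap_toAlgebra]

/-- A unit at a point. -/
def UnitAt (x : X.A) (f : X.FF) : Prop := f ≠ 0 ∧ f ∈ X.regAt x ∧ f⁻¹ ∈ X.regAt x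

variable {X}

theorem UnitAt.mono {z x : X.A} (h : z ⤳ x) {f : X.FF} (hf : X.UnitAt x f) : X.UnitAt z f :=
  ⟨hf.1, X.regAt_mono h hf.2.1, X.regAt_mono h hf.2.2⟩

theorem UnitAt.inv {x : X.A} {f : X.FF} (hf : X.UnitAt x f) : X.UnitAt x f⁻¹ :=
  ⟨inv_ne_zero hf.1, hf.2.2, by rw [inv_inv]; exact hf.2.1⟩

theorem UnitAt.mul {x : X.A} {f g : X.FF} (hf : X.UnitAt x f) (hg : X.UnitAt x g) :
    X.UnitAt x (f * g) :=
  ⟨mul_ne_zero hf.1 hg.1, mul_mem hf.2.1 hg.2.1, by rw [mul_inv]; exact mul_mem hf.2.2 hg.2.2⟩

section Value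

variable {R : Type u} [CommRing R] [IsLocalRing R] [Algebra K R] {S : Type u} [CommRing S]
  [IsLocalRing S] [Algebra K S]

variable (X) in
open Classical in
/-- The value at a point of a function regular there. -/
def value (P : X.Pt R) (f : X.FF) : R :=
  if h : f ∈ X.regAt (X.ptAt P) then X.evalAt P (RingHom.mem_range.1 h).choose else 0

theorem value_toFF (P : X.Pt R) (r : X.A.presheaf.stalk (X.ptAt P)) :
    X.value P (algebraMap _ X.FF r) = X.evalAt P r := by
  have h : algebraMap (X.A.presheaf.stalk (X.ptAt P)) X.FF r ∈ X.regAt (X.ptAt P) := ⟨r, rfl⟩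
  rw [value, dif_pos h]
  congr 1
  exact X.toFF_injective _ (RingHom.mem_range.1 h).choose_spec

theorem value_mul (P : X.Pt R) {f g : X.FF} (hf : f ∈ X.regAt (X.ptAt P))
    (hg : g ∈ X.regAt (X.ptAt P)) : X.value P (f * g) = X.value P f * X.value P g := by
  obtain ⟨a, rfl⟩ := hf
  obtain ⟨b, rfl⟩ := hg
  rw [← map_mul, value_toFF, value_toFF, value_toFF, map_mul]

theorem value_add (P : X.Pt R) {f g : X.FF} (hf : f ∈ X.regAt (X.ptAt P))
    (hg : g ∈ X.regAt (X.ptAt P)) : X.value P (f + g) = X.value P f + X.value P g := by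
  obtain ⟨a, rfl⟩ := hf
  obtain ⟨b, rfl⟩ := hg
  rw [← map_add, value_toFF, value_toFF, value_toFF, map_add]

theorem value_algebraMap (P : X.Pt R) (c : K) :
    X.value P (algebraMap K X.FF c) = algebraMap K R c := by
  rw [← X.toFF_const (X.ptAt P) c, value_toFF, AlgHom.commutes]

theorem value_one (P : X.Pt R) : X.value P 1 = 1 := by
  rw [← map_one (algebraMap K X.FF), value_algebraMap, map_one]

theorem UnitAt.isUnit_value (P : X.Pt R) {f : X.FF} (hf : X.UnitAt (X.ptAt P) f) :
    IsUnit (X.value P f) :=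
  IsUnit.of_mul_eq_one (X.value P f⁻¹)
    (by rw [← value_mul P hf.2.1 hf.2.2, mul_inv_cancel₀ hf.1, value_one])

omit [IsAlgClosed K] in
/-- A change of the ring moves the centre to a generalisation and commutes with values. -/
theorem exists_specializes_ptMap (φ : R →ₐ[K] S) (P : X.Pt R) :
    ∃ h : X.ptAt (X.ptMap φ P) ⤳ X.ptAt P, ∀ r,
      X.evalAt (X.ptMap φ P) (X.A.presheaf.stalkSpecializes h r) = φ (X.evalAt P r) := by
  obtain ⟨h, hh⟩ := exists_stalkSpecializes_stalkClosedPointTo (S := CommRingCat.of S)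
    (Scheme.stalkClosedPointTo P.1 ≫ CommRingCat.ofHom φ.toRingHom) (X.ptMap φ P).1
    (by rw [Spec.map_comp, Category.assoc, Scheme.Spec_stalkClosedPointTo_fromSpecStalk,
      ptMap_val])
  exact ⟨h, fun r => ConcreteCategory.congr_hom hh r⟩

omit [IsAlgClosed K] in
theorem specializes_ptMap (φ : R →ₐ[K] S) (P : X.Pt R) : X.ptAt (X.ptMap φ P) ⤳ X.ptAt P :=
  (exists_specializes_ptMap φ P).choose

/-- Values commute with a change of the ring. -/
theorem value_ptMap (φ : R →ₐ[K] S) (P : X.Pt R) {f : X.FF} (hf : f ∈ X.regAt (X.ptAt P)) :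
    X.value (X.ptMap φ P) f = φ (X.value P f) := by
  obtain ⟨r, rfl⟩ := hf
  obtain ⟨h, hh⟩ := exists_specializes_ptMap φ P
  rw [value_toFF, ← hh, ← value_toFF, X.toFF_stalkSpecializes]

end Value

/-! ## The generic point and centres -/

variable (X) in
theorem ptAt_genPt : X.ptAt X.genPt = genericPoint X.A := by
  show (Spec.map _ ≫ X.A.fromSpecStalk (genericPoint X.A)) (closedPoint X.FF) = genericPoint X.A
  exact (congrArg (X.A.fromSpecStalk (genericPoint X.A))
    (IsLocalRing.comap_closedPoint (AlgHom.id K X.FF).toRingHom)).trans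
      Scheme.fromSpecStalk_closedPoint

theorem value_genPt (f : X.FF) : X.value X.genPt f = f := by
  obtain ⟨h, hh⟩ := exists_stalkSpecializes_stalkClosedPointTo (X := X.A)
    (S := CommRingCat.of X.FF) (x := genericPoint X.A)
    (CommRingCat.ofHom (AlgHom.id K X.FF).toRingHom) X.genPt.1 rfl
  obtain ⟨r, hr⟩ := X.mem_regAt_genericPoint f
  conv_lhs => rw [← hr, ← X.toFF_stalkSpecializes h r]
  refine (value_toFF X.genPt _).trans ((ConcreteCategory.congr_hom hh r).trans ?_)
  have : X.A.presheaf.stalkSpecializes (genericPoint_specializes (genericPoint X.A)) r = r := by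
    simp
  exact this.symm.trans hr

section Centre

variable {L : Type u} [Field L] [Algebra K L]

variable (X) in
/-- The integral point extending a point with values in a field. -/
def valPt (V : KVal K L) (P : X.Pt L) : X.Pt V.toVal := (valEquiv V).symm P

omit [IsAlgClosed K] in
theorem ptMap_valPt (V : KVal K L) (P : X.Pt L) : X.ptMap V.incl (X.valPt V P) = P :=
  (valEquiv (X := X) V).apply_symm_apply P

omit [IsAlgClosed K] in
theorem valPt_eq {V : KVal K L} {P : X.Pt L} {Q : X.Pt V.toVal} (h : X.ptMap V.incl Q = P) :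
    X.valPt V P = Q :=
  (ptMap_incl_bijective V).1 ((ptMap_valPt V P).trans h.symm)

variable (X) in
/-- The centre of a point at a valuation ring. -/
def centre (V : KVal K L) (P : X.Pt L) : X.A := X.ptAt (X.valPt V P)

omit [IsAlgClosed K] in
theorem specializes_centre (V : KVal K L) (P : X.Pt L) : X.ptAt P ⤳ X.centre V P := by
  have h := specializes_ptMap V.incl (X.valPt V P)
  rwa [ptMap_valPt] at h

theorem value_eq_valPt (V : KVal K L) (P : X.Pt L) {f : X.FF}
    (hf : f ∈ X.regAt (X.centre V P)) :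
    X.value P f = ((X.value (X.valPt V P) f : V.toVal) : L) := by
  conv_lhs => rw [← ptMap_valPt V P, value_ptMap V.incl _ hf]
  rfl

theorem value_mem_val (V : KVal K L) (P : X.Pt L) {f : X.FF}
    (hf : f ∈ X.regAt (X.centre V P)) : X.value P f ∈ V.toVal := by
  rw [value_eq_valPt V P hf]
  exact SetLike.coe_mem _

end Centre

end AData

end Fermat.Agent.AbVar
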