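import Fermat.Agent.AbVar.CartierBasic

/-!
# Centres in affine open sets and negation

Negation of the abelian variety moves centres (`centre_neg`), and the values of finitely many
generators decide whether the centre of a point lies in an affine open set
(`centre_mem_of_generators`).
-/

set_option autoImplicit false

noncomputable section

open CategoryTheory AlgebraicGeometry GoodReductionJacobian NeronModelInfra
open IsLocalRing (closedPoint)

namespace Fermat.Agent.AbVar

universe u

variable {K : Type u} [Field K] [IsAlgClosed K] (X : AData K)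

namespace AData

omit [IsAlgClosed K] in
/-- The inverse of the group law is natural. -/
theorem inv_natural {T T' : Scheme.{u}} (t : T ⟶ Spec (CommRingCat.of K))
    (t' : T' ⟶ Spec (CommRingCat.of K)) (ψ : T' ⟶ T) (hψ : ψ ≫ t = t')
    (x : SchemeHomOver t X.f) :
    schemeHomOverComp ψ hψ (X.G.inv t x) = X.G.inv t' (schemeHomOverComp ψ hψ x) := by
  let := RelativeGroupLaw.pointGroup X.G t'
  have h : X.G.mul t' (schemeHomOverComp ψ hψ (X.G.inv t x)) (schemeHomOverComp ψ hψ x) =
      X.G.one t' := by
    rw [← X.G.mul_natural t t' ψ hψ, X.G.inv_mul_cancel, X.G.one_natural t t' ψ hψ]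
  exact eq_inv_of_mul_eq_one_left h

/-- Negation. -/
def negHom : X.A ⟶ X.A := (X.G.inv X.f ⟨𝟙 X.A, Category.id_comp _⟩).1

omit [IsAlgClosed K] in
theorem negHom_over : X.negHom ≫ X.f = X.f := (X.G.inv X.f ⟨𝟙 X.A, Category.id_comp _⟩).2

omit [IsAlgClosed K] in
theorem neg_val {R : Type u} [CommRing R] [Algebra K R] (P : X.Pt R) :
    (-P : X.Pt R).1 = P.1 ≫ X.negHom := by
  refine Eq.trans ?_ (congrArg Subtype.val
    (X.inv_natural X.f (base K R) P.1 P.2 ⟨𝟙 X.A, Category.id_comp _⟩).symm)
  exact congrArg (fun Q => (X.G.inv (base K R) Q).1) (Subtype.ext (Category.comp_id P.1).symm)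

omit [IsAlgClosed K] in
theorem negHom_negHom : X.negHom ≫ X.negHom = 𝟙 X.A := by
  let := RelativeGroupLaw.pointGroup X.G X.f
  refine (congrArg Subtype.val
    (X.inv_natural X.f X.f X.negHom X.negHom_over ⟨𝟙 X.A, Category.id_comp _⟩)).trans ?_
  have h : (schemeHomOverComp X.negHom X.negHom_over ⟨𝟙 X.A, Category.id_comp _⟩ :
      SchemeHomOver X.f X.f) = X.G.inv X.f ⟨𝟙 X.A, Category.id_comp _⟩ :=
    Subtype.ext (Category.comp_id _)
  rw [h]
  exact congrArg Subtype.val (inv_inv (⟨𝟙 X.A, Category.id_comp _⟩ : SchemeHomOver X.f X.f))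

instance isIso_negHom : IsIso X.negHom := ⟨⟨X.negHom, X.negHom_negHom, X.negHom_negHom⟩⟩

omit [IsAlgClosed K] in
theorem negHom_negHom_apply (x : X.A) : X.negHom (X.negHom x) = x := by
  rw [← Scheme.Hom.comp_apply, X.negHom_negHom]
  rfl

theorem negHom_genericPoint : X.negHom (genericPoint X.A) = genericPoint X.A := by
  refine (Specializes.antisymm ?_ (genericPoint_specializes _)).eq
  have h := (genericPoint_specializes (X.negHom (genericPoint X.A))).map X.negHom.continuous
  rwa [X.negHom_negHom_apply] at h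

omit [IsAlgClosed K] in
theorem ptAt_neg {R : Type u} [CommRing R] [IsLocalRing R] [Algebra K R] (P : X.Pt R) :
    X.ptAt (-P) = X.negHom (X.ptAt P) := by
  show (-P : X.Pt R).1 (closedPoint R) = X.negHom (P.1 (closedPoint R))
  rw [X.neg_val]
  rfl

omit [IsAlgClosed K] in
/-- Negation moves the centre by negation. -/
theorem centre_neg {L : Type u} [Field L] [Algebra K L] (V : KVal K L) (P : X.Pt L) :
    X.centre V (-P) = X.negHom (X.centre V P) := by
  show X.ptAt (X.valPt V (-P)) = _
  rw [show X.valPt V (-P) = -X.valPt V P from map_neg _ P]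
  exact X.ptAt_neg _

theorem ptAt_neg_genPt : X.ptAt (-X.genPt) = genericPoint X.A := by
  rw [ptAt_neg, ptAt_genPt, negHom_genericPoint]

/-! ## Affine open sets -/

theorem germToFF_sectConst (W : X.A.Opens) [Nonempty W] (c : K) :
    X.A.germToFunctionField W (X.sectConst W c) = algebraMap K X.FF c :=
  ConcreteCategory.congr_hom (X.sectConst_germ W (genericPoint X.A)
    (((genericPoint_spec X.A).mem_open_set_iff W.isOpen).mpr (by simpa using ‹Nonempty W›))) c

omit [IsAlgClosed K] in
theorem exists_generators {W : X.A.Opens} (hW : IsAffineOpen W) :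
    ∃ G : Finset Γ(X.A, W), ∀ S : Subring Γ(X.A, W), (∀ c, X.sectConst W c ∈ S) →
      (∀ r ∈ G, r ∈ S) → ∀ r, r ∈ S := by
  have := X.smooth
  have := X.bundle.proper
  have h : (Scheme.Hom.appLE X.f ⊤ W le_top).hom.FiniteType :=
    LocallyOfFiniteType.finiteType_appLE X.f (isAffineOpen_top _) hW le_top
  let := (Scheme.Hom.appLE X.f ⊤ W le_top).hom.toAlgebra
  obtain ⟨G, hG⟩ := (h : Algebra.FiniteType _ Γ(X.A, W)).out
  refine ⟨G, fun S hc hS r => ?_⟩
  have hr : r ∈ Algebra.adjoin _ (G : Set Γ(X.A, W)) := hG ▸ Algebra.mem_top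
  induction hr using Algebra.adjoin_induction with
  | mem x hx => exact hS x hx
  | algebraMap a =>
    have e : algebraMap _ Γ(X.A, W) a =
        X.sectConst W ((Scheme.ΓSpecIso (CommRingCat.of K)).hom a) := by
      show Scheme.Hom.appLE X.f ⊤ W le_top a = _
      rw [sectConst, ← ConcreteCategory.comp_apply, Iso.hom_inv_id_assoc]
      rfl
    rw [e]
    exact hc _
  | add x y _ _ hx hy => exact add_mem hx hy
  | mul x y _ _ hx hy => exact mul_mem hx hy

variable {X}
variable {L : Type u} [Field L] [Algebra K L]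

/-- A point whose values on an affine open set are integral has its centre there. -/
theorem centre_mem_of_forall_value_mem {W : X.A.Opens} (hW : IsAffineOpen W) [Nonempty W]
    (P : X.Pt L) (hP : X.ptAt P ∈ W) (V : KVal K L)
    (h : ∀ r, X.value P (X.A.germToFunctionField W r) ∈ V.toVal) : X.centre V P ∈ W := by
  set g : Γ(X.A, W) ⟶ CommRingCat.of L :=
    X.A.presheaf.germ W (P.1 (closedPoint L)) hP ≫ Scheme.stalkClosedPointTo P.1 with hgdef
  have hg : ∀ r, g r = X.value P (X.A.germToFunctionField W r) := fun r => by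
    rw [← Scheme.algebraMap_germ_eq_germToFunctionField (X := X.A) hP r, value_toFF]
    rfl
  have hP1 : P.1 = Spec.map g ≫ hW.fromSpec := by
    rw [hgdef, Spec.map_comp, Category.assoc]
    refine Eq.symm ?_
    show Spec.map (Scheme.stalkClosedPointTo P.1) ≫ hW.fromSpecStalk hP = _
    exact (congrArg (fun m => Spec.map (Scheme.stalkClosedPointTo P.1) ≫ m)
      (hW.fromSpecStalk_eq_fromSpecStalk hP)).trans
      (Scheme.Spec_stalkClosedPointTo_fromSpecStalk P.1)
  let g' : Γ(X.A, W) ⟶ CommRingCat.of V.toVal :=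
    CommRingCat.ofHom (g.hom.codRestrict V.toVal.toSubring fun r => hg r ▸ h r)
  have hgg' : g' ≫ CommRingCat.ofHom V.incl.toRingHom = g := by
    ext r
    rfl
  have hover : (Spec.map g' ≫ hW.fromSpec) ≫ X.f = base K V.toVal := by
    obtain ⟨φ, hφ⟩ : ∃ φ, Spec.map φ = (Spec.map g' ≫ hW.fromSpec) ≫ X.f :=
      ⟨_, Spec.map_preimage _⟩
    rw [← hφ]
    refine congrArg Spec.map (CommRingCat.hom_ext (RingHom.ext fun c => Subtype.ext ?_))
    have h1 : φ ≫ CommRingCat.ofHom V.incl.toRingHom = CommRingCat.ofHom (algebraMap K L) := by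
      apply Spec.map_injective
      rw [Spec.map_comp, hφ, ← Category.assoc, ← Category.assoc, ← Spec.map_comp, hgg', ← hP1]
      exact P.2
    exact ConcreteCategory.congr_hom h1 c
  have hv : X.valPt V P = ⟨Spec.map g' ≫ hW.fromSpec, hover⟩ := valPt_eq (Pt.ext (by
    rw [ptMap_val, ← Category.assoc, ← Spec.map_comp, hgg', hP1]))
  show X.ptAt (X.valPt V P) ∈ W
  rw [hv]
  have hr : (Spec.map g' ≫ hW.fromSpec) (closedPoint V.toVal) ∈ Set.range hW.fromSpec :=
    ⟨Spec.map g' (closedPoint V.toVal), rfl⟩
  rw [hW.range_fromSpec] at hr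
  exact hr

theorem value_germToFF_sectConst (P : X.Pt L) (W : X.A.Opens) [Nonempty W] (c : K) :
    X.value P (X.A.germToFunctionField W (X.sectConst W c)) = algebraMap K L c := by
  rw [X.germToFF_sectConst, value_algebraMap]

/-- Finitely many values decide whether the centre lies in an affine open set. -/
theorem centre_mem_of_generators {W : X.A.Opens} (hW : IsAffineOpen W) [Nonempty W]
    {G : Finset Γ(X.A, W)}
    (hG : ∀ S : Subring Γ(X.A, W), (∀ c, X.sectConst W c ∈ S) →
      (∀ r ∈ G, r ∈ S) → ∀ r, r ∈ S)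
    (P : X.Pt L) (hP : X.ptAt P ∈ W) (V : KVal K L)
    (h : ∀ r ∈ G, X.value P (X.A.germToFunctionField W r) ∈ V.toVal) : X.centre V P ∈ W := by
  have hreg : ∀ r : Γ(X.A, W), X.A.germToFunctionField W r ∈ X.regAt (X.ptAt P) := fun r =>
    ⟨_, Scheme.algebraMap_germ_eq_germToFunctionField (X := X.A) hP r⟩
  let S : Subring Γ(X.A, W) :=
    { carrier := {r | X.value P (X.A.germToFunctionField W r) ∈ V.toVal}
      mul_mem' := fun {a b} ha hb => by
        show X.value P _ ∈ V.toVal
        rw [map_mul, value_mul P (hreg a) (hreg b)]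
        exact mul_mem ha hb
      one_mem' := by
        show X.value P _ ∈ V.toVal
        rw [map_one, value_one]
        exact one_mem _
      add_mem' := fun {a b} ha hb => by
        show X.value P _ ∈ V.toVal
        rw [map_add, value_add P (hreg a) (hreg b)]
        exact add_mem ha hb
      zero_mem' := by
        show X.value P _ ∈ V.toVal
        rw [map_zero, ← map_zero (algebraMap K X.FF), value_algebraMap, map_zero]
        exact zero_mem _
      neg_mem' := fun {a} ha => by
        show X.value P _ ∈ V.toVal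
        have e : X.value P (X.A.germToFunctionField W (-a)) =
            -X.value P (X.A.germToFunctionField W a) := by
          rw [eq_neg_iff_add_eq_zero, ← value_add P (hreg _) (hreg a), ← map_add, neg_add_cancel,
            map_zero, ← map_zero (algebraMap K X.FF), value_algebraMap, map_zero]
        rw [e]
        exact neg_mem ha }
  refine centre_mem_of_forall_value_mem hW P hP V (hG S (fun c => ?_) h)
  show X.value P _ ∈ V.toVal
  rw [value_germToFF_sectConst]
  exact V.algebraMap_mem' c

end AData

end Fermat.Agent.AbVar
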