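import Mathlib.RingTheory.Filtration
import Mathlib.Tactic.LinearCombination
import Mathlib.Tactic.Ring
import Mathlib.RingTheory.UniqueFactorizationDomain.GCDMonoid
import Mathlib.RingTheory.Finiteness.Prod
import Mathlib.RingTheory.LocalRing.MaximalIdeal.Basic

/-!
# Colon ideals in a local ring with factorial completion

If a noetherian local ring `R` maps to a factorial noetherian local domain `S` compatibly with
all powers of the maximal ideals and with dense image, then every colon ideal `(a) : (T)` of `R`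
is principal.  No flatness is used: Artin-Rees and Krull's intersection theorem suffice.
-/

set_option autoImplicit false

open IsLocalRing

universe u

namespace Fermat.Agent.AbVar

/-- Krull's intersection theorem for an ideal. -/
theorem mem_of_forall_mem_sup_pow {S : Type u} [CommRing S] [IsNoetherianRing S] [IsLocalRing S]
    (I : Ideal S) {x : S} (h : ∀ n, x ∈ I ⊔ maximalIdeal S ^ n) : x ∈ I := by
  have hbot := Ideal.iInf_pow_smul_eq_bot_of_isLocalRing (M := S ⧸ I) (maximalIdeal S)
    (maximalIdeal.isMaximal S).ne_top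
  have hx : Submodule.Quotient.mk (p := I) x ∈ (⊥ : Submodule S (S ⧸ I)) := by
    rw [← hbot, Submodule.mem_iInf]
    intro n
    obtain ⟨y, hy, z, hz, hyz⟩ := Submodule.mem_sup.mp (h n)
    have : Submodule.Quotient.mk (p := I) x = z • Submodule.Quotient.mk (p := I) (1 : S) := by
      rw [← Submodule.Quotient.mk_smul, Submodule.Quotient.eq, smul_eq_mul, mul_one, ← hyz]
      simpa using hy
    rw [this]
    exact Submodule.smul_mem_smul hz Submodule.mem_top
  rw [Submodule.mem_bot, Submodule.Quotient.mk_eq_zero] at hx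
  exact hx

section Factorial

variable {S : Type u} [CommRing S] [IsDomain S] [UniqueFactorizationMonoid S]

/-- In a factorial domain `{s | x ∣ s * y}` is a principal ideal. -/
theorem exists_dvd_mul_iff {x : S} (hx : x ≠ 0) (y : S) :
    ∃ c : S, ∀ s : S, x ∣ s * y ↔ c ∣ s := by
  obtain ⟨x', y', d, hrel, hx', hy'⟩ := UniqueFactorizationMonoid.exists_reduced_factors x hx y
  refine ⟨x', fun s => ?_⟩
  subst hx' hy'
  have hd : d ≠ 0 := left_ne_zero_of_mul hx
  rw [mul_left_comm, mul_dvd_mul_iff_left hd]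
  exact ⟨fun h => hrel.dvd_of_dvd_mul_right h, fun h => h.mul_right _⟩

/-- In a factorial domain `{s | ∀ y ∈ T, x ∣ s * y}` is a principal ideal. -/
theorem exists_forall_dvd_mul_iff {ι : Type*} {x : S} (hx : x ≠ 0) (T : Finset ι) (y : ι → S) :
    ∃ c : S, ∀ s : S, (∀ i ∈ T, x ∣ s * y i) ↔ c ∣ s := by
  classical
  obtain ⟨inst⟩ : Nonempty (GCDMonoid S) := ⟨UniqueFactorizationMonoid.toGCDMonoid S⟩
  induction T using Finset.induction_on with
  | empty => exact ⟨1, fun s => by simp⟩
  | insert i T _ ih =>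
    obtain ⟨c, hc⟩ := ih
    obtain ⟨d, hd⟩ := exists_dvd_mul_iff hx (y i)
    exact ⟨lcm d c, fun s => by simp only [Finset.forall_mem_insert, hd, hc, lcm_dvd_iff]⟩

end Factorial

variable {R S : Type u} [CommRing R] [IsNoetherianRing R] [IsLocalRing R] [CommRing S]
  [IsDomain S] [IsNoetherianRing S] [IsLocalRing S] [UniqueFactorizationMonoid S]

/-- A local ring with dense compatible image in a factorial local ring has principal colon
ideals. -/
theorem colon_isPrincipal (phi : R →+* S)
    (hcomap : ∀ n, ((maximalIdeal S) ^ n).comap phi = (maximalIdeal R) ^ n)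
    (hsurj : ∀ n (s : S), ∃ r, s - phi r ∈ (maximalIdeal S) ^ n)
    (J : Ideal R) (a : R) (T : Finset R) (hJ : ∀ r, r ∈ J ↔ ∀ b ∈ T, a ∣ r * b) :
    J.IsPrincipal := by
  classical
  have hinj : Function.Injective phi := by
    rw [injective_iff_map_eq_zero]
    intro r hr
    have : r ∈ (⊥ : Ideal R) := mem_of_forall_mem_sup_pow ⊥ fun n => by
      rw [bot_sup_eq, ← hcomap n, Ideal.mem_comap, hr]
      exact Ideal.zero_mem _
    simpa using this
  by_cases ha : a = 0
  · subst ha
    have hcase : J = ⊤ ∨ J = ⊥ := by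
      by_cases hT : ∀ b ∈ T, b = 0
      · exact Or.inl (Ideal.eq_top_iff_one _ |>.mpr ((hJ 1).mpr fun b hb => by simp [hT b hb]))
      · push Not at hT
        obtain ⟨b, hb, hb0⟩ := hT
        refine Or.inr ((Submodule.eq_bot_iff _).mpr fun r hr => ?_)
        have h0 : r * b = 0 := zero_dvd_iff.mp ((hJ r).mp hr b hb)
        have h1 : phi r * phi b = 0 := by rw [← map_mul, h0, map_zero]
        rcases mul_eq_zero.mp h1 with h | h
        · exact (map_eq_zero_iff phi hinj).mp h
        · exact absurd ((map_eq_zero_iff phi hinj).mp h) hb0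
    rcases hcase with rfl | rfl
    · exact top_isPrincipal
    · exact bot_isPrincipal
  have hphia : phi a ≠ 0 := fun h => ha ((map_eq_zero_iff phi hinj).mp h)
  obtain ⟨c, hc⟩ := exists_forall_dvd_mul_iff hphia T fun b => phi b
  have hcJ : ∀ j ∈ J, c ∣ phi j := fun j hj => (hc _).mp fun b hb => by
    rw [← map_mul]
    exact map_dvd phi ((hJ j).mp hj b hb)
  have hc0 : c ≠ 0 := by
    rintro rfl
    exact hphia (zero_dvd_iff.mp (hcJ a ((hJ a).mpr fun b _ => dvd_mul_right a b)))
  -- the colon ideal of `R` generates the colon ideal of `S`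
  have hcmem : c ∈ J.map phi := by
    let psi : R →ₗ[R] (↥T → R ⧸ Ideal.span {a}) :=
      LinearMap.pi fun b => (Submodule.mkQ (Ideal.span {a})).comp (LinearMap.mulRight R (b : R))
    have hker : ∀ r, psi r = 0 → r ∈ J := fun r hr => (hJ r).mpr fun b hb => by
      have h0 : psi r ⟨b, hb⟩ = 0 := congr_fun hr ⟨b, hb⟩
      change Submodule.Quotient.mk (r * b) = 0 at h0
      rw [Submodule.Quotient.mk_eq_zero] at h0
      exact Ideal.mem_span_singleton.mp h0
    obtain ⟨k, hk⟩ := Ideal.exists_pow_inf_eq_pow_smul (maximalIdeal R) (LinearMap.range psi)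
    refine mem_of_forall_mem_sup_pow _ fun j => ?_
    obtain ⟨r, hr⟩ := hsurj (j + k) c
    have hcomp : ∀ b ∈ T, ∃ m ∈ maximalIdeal R ^ (j + k), a ∣ r * b - m := fun b hb => by
      obtain ⟨s, hs⟩ := ((hc c).mpr dvd_rfl) b hb
      obtain ⟨t, ht⟩ := hsurj (j + k) s
      refine ⟨r * b - a * t, ?_, ⟨t, by ring⟩⟩
      rw [← hcomap, Ideal.mem_comap, map_sub, map_mul, map_mul]
      have : phi r * phi b - phi a * phi t = phi a * (s - phi t) - (c - phi r) * phi b := by
        linear_combination hs
      rw [this]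
      exact Ideal.sub_mem _ (Ideal.mul_mem_left _ _ ht) (Ideal.mul_mem_right _ _ hr)
    have hpsi : psi r ∈ maximalIdeal R ^ (j + k) • (⊤ : Submodule R (↥T → R ⧸ Ideal.span {a})) := by
      choose m hm hma using hcomp
      have hsum : psi r = ∑ b : ↥T, m b b.2 •
          (Pi.single b (Submodule.Quotient.mk 1) : ↥T → R ⧸ Ideal.span {a}) := by
        funext b
        simp only [Finset.sum_apply, Pi.smul_apply]
        rw [Finset.sum_eq_single b (fun b' _ hb' => by simp [Pi.single_eq_of_ne hb'.symm])
          (fun h => absurd (Finset.mem_univ b) h), Pi.single_eq_same]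
        change Submodule.Quotient.mk (r * (b : R)) = _
        rw [← Submodule.Quotient.mk_smul, Submodule.Quotient.eq, smul_eq_mul, mul_one]
        exact Ideal.mem_span_singleton.mpr (hma b b.2)
      rw [hsum]
      exact Submodule.sum_mem _ fun b _ => Submodule.smul_mem_smul (hm b b.2) Submodule.mem_top
    have hmem : psi r ∈ maximalIdeal R ^ j • LinearMap.range psi := by
      have h := hk (j + k) le_add_self
      rw [Nat.add_sub_cancel] at h
      have hinf : psi r ∈ maximalIdeal R ^ (j + k) • ⊤ ⊓ LinearMap.range psi :=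
        ⟨hpsi, LinearMap.mem_range_self psi r⟩
      rw [h] at hinf
      exact Submodule.smul_mono le_rfl inf_le_right hinf
    rw [LinearMap.range_eq_map, ← Submodule.map_smul''] at hmem
    obtain ⟨x, hx, hxr⟩ := Submodule.mem_map.mp hmem
    rw [smul_eq_mul, Ideal.mul_top] at hx
    refine Submodule.mem_sup.mpr ⟨phi (r - x), Ideal.mem_map_of_mem phi
      (hker _ (by rw [map_sub, hxr, sub_self])), phi x + (c - phi r), ?_, by rw [map_sub]; ring⟩
    refine Ideal.add_mem _ ?_ (Ideal.pow_le_pow_right (Nat.le_add_right j k) hr)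
    rw [← Ideal.mem_comap, hcomap]
    exact hx
  -- one element of `J` is already associated with `c`
  obtain ⟨g, hg, u, hu, hgu⟩ : ∃ g ∈ J, ∃ u : S, IsUnit u ∧ phi g = c * u := by
    by_contra hne
    push Not at hne
    have hle : J.map phi ≤ Ideal.span {c} * maximalIdeal S := by
      rw [Ideal.map_le_iff_le_comap]
      intro g hg
      obtain ⟨u, hu⟩ := hcJ g hg
      rw [Ideal.mem_comap, hu]
      exact Ideal.mul_mem_mul (Ideal.mem_span_singleton_self c)
        ((mem_maximalIdeal u).mpr fun hu' => hne g hg u hu' hu)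
    obtain ⟨z, hz, hcz⟩ := Ideal.mem_span_singleton_mul.mp (hle hcmem)
    have : z = 1 := mul_left_cancel₀ hc0 (by rw [hcz, mul_one])
    exact (maximalIdeal.isMaximal S).ne_top (Ideal.eq_top_iff_one _ |>.mpr (this ▸ hz))
  refine ⟨⟨g, le_antisymm (fun r hr => ?_) ((Ideal.span_singleton_le_iff_mem _).mpr hg)⟩⟩
  refine mem_of_forall_mem_sup_pow (Ideal.span {g}) fun n => ?_
  obtain ⟨d, hd⟩ := hcJ r hr
  obtain ⟨v, rfl⟩ := hu
  obtain ⟨t, ht⟩ := hsurj n (d * ↑v⁻¹)
  refine Submodule.mem_sup.mpr ⟨g * t, Ideal.mem_span_singleton.mpr (dvd_mul_right g t),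
    r - g * t, ?_, by ring⟩
  rw [← hcomap, Ideal.mem_comap, map_sub, map_mul]
  have hval : phi r - phi g * phi t = phi g * (d * ↑v⁻¹ - phi t) := by
    rw [hgu, hd]
    linear_combination (-c * d) * v.mul_inv
  rw [hval]
  exact Ideal.mul_mem_left _ _ ht

end Fermat.Agent.AbVar
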