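import Mathlib.RingTheory.MvPowerSeries.Equiv
import Mathlib.RingTheory.PowerSeries.WeierstrassPreparation
import Mathlib.RingTheory.UniqueFactorizationDomain.Kaplansky
import Mathlib.RingTheory.Polynomial.UniqueFactorization
import Mathlib.RingTheory.AdicCompletion.Noetherian
import Mathlib.Algebra.MvPolynomial.Funext

/-!
# The formal power series ring over a field

For a field `K` the ring `K⟦x₁,…,x_g⟧` is complete for its maximal ideal, whose powers are
described by vanishing of coefficients, and (for infinite `K`) it is factorial: a linear change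
of variables makes a given series regular in the first variable, and Weierstrass preparation
reduces factoriality to that of a polynomial ring over one variable fewer.
-/

set_option autoImplicit false

open IsLocalRing

universe u

namespace Fermat.Agent.AbVar

variable (K : Type u) [Field K]

instance mvPowerSeries_isDomain (σ : Type*) : IsDomain (MvPowerSeries σ K) :=
  NoZeroDivisors.to_isDomain _

section MaximalIdeal

variable {K} {σ : Type*}

theorem mem_maximalIdeal_iff_constantCoeff (f : MvPowerSeries σ K) :
    f ∈ maximalIdeal (MvPowerSeries σ K) ↔ MvPowerSeries.constantCoeff f = 0 := by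
  rw [mem_maximalIdeal, mem_nonunits_iff, MvPowerSeries.isUnit_iff_constantCoeff,
    isUnit_iff_ne_zero, not_not]

theorem coeff_eq_zero_of_mem_maximalIdeal_pow {n : ℕ} {f : MvPowerSeries σ K}
    (hf : f ∈ maximalIdeal (MvPowerSeries σ K) ^ n) (d : σ →₀ ℕ) (hd : d.degree < n) :
    MvPowerSeries.coeff d f = 0 := by
  suffices h : (n : ℕ∞) ≤ MvPowerSeries.order f from
    MvPowerSeries.coeff_of_lt_order (lt_of_lt_of_le (by exact_mod_cast hd) h)
  clear hd
  induction n generalizing f with
  | zero => simp
  | succ n ih =>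
    rw [pow_succ] at hf
    refine Submodule.mul_induction_on hf (fun a ha b hb => ?_) (fun a b ha hb => ?_)
    · refine le_trans ?_ MvPowerSeries.le_order_mul
      rw [Nat.cast_succ]
      exact add_le_add (ih ha) (MvPowerSeries.one_le_order_iff_constCoeff_eq_zero.mpr
        ((mem_maximalIdeal_iff_constantCoeff b).mp hb))
    · exact le_trans (le_min ha hb) MvPowerSeries.min_order_le_add

theorem mem_maximalIdeal_pow_of_coeff_eq_zero [Finite σ] (n : ℕ) {f : MvPowerSeries σ K}
    (hf : ∀ d : σ →₀ ℕ, d.degree < n → MvPowerSeries.coeff d f = 0) :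
    f ∈ maximalIdeal (MvPowerSeries σ K) ^ n := by
  classical
  cases nonempty_fintype σ
  induction n generalizing f with
  | zero => rw [pow_zero, Ideal.one_eq_top]; trivial
  | succ n ih =>
    let sel : (σ →₀ ℕ) → Option σ := fun y =>
      if h : y.support.Nonempty then some h.choose else none
    let part : σ → MvPowerSeries σ K := fun i x =>
      if sel (x + Finsupp.single i 1) = some i then
        MvPowerSeries.coeff (x + Finsupp.single i 1) f else 0
    have hpart : ∀ i x, MvPowerSeries.coeff x (part i) =
        if sel (x + Finsupp.single i 1) = some i then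
          MvPowerSeries.coeff (x + Finsupp.single i 1) f else 0 := fun _ _ => rfl
    have hterm : ∀ i y, MvPowerSeries.coeff y (MvPowerSeries.X i * part i) =
        if sel y = some i then MvPowerSeries.coeff y f else 0 := fun i y => by
      rw [MvPowerSeries.X_def, MvPowerSeries.coeff_monomial_mul, one_mul]
      by_cases hle : Finsupp.single i 1 ≤ y
      · rw [if_pos hle, hpart, tsub_add_cancel_of_le hle]
      · rw [if_neg hle, if_neg]
        intro hsel
        simp only [sel] at hsel
        split_ifs at hsel with hne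
        obtain rfl := Option.some.inj hsel
        exact hle (Finsupp.single_le_iff.mpr
          (Nat.one_le_iff_ne_zero.mpr (Finsupp.mem_support_iff.mp hne.choose_spec)))
    have hsum : f = ∑ i, MvPowerSeries.X i * part i := by
      ext y
      rw [map_sum]
      simp only [hterm]
      by_cases hy : y.support.Nonempty
      · rw [Finset.sum_eq_single hy.choose]
        · rw [if_pos (by simp only [sel, dif_pos hy])]
        · intro i _ hi
          rw [if_neg]
          simp only [sel, dif_pos hy, Option.some.injEq]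
          exact fun h => hi h.symm
        · exact fun h => absurd (Finset.mem_univ _) h
      · rw [Finset.sum_eq_zero fun i _ => if_neg (by simp only [sel, dif_neg hy]; exact nofun)]
        obtain rfl : y = 0 := Finsupp.support_eq_empty.mp (Finset.not_nonempty_iff_eq_empty.mp hy)
        exact hf 0 (by simp)
    rw [hsum, pow_succ']
    refine Ideal.sum_mem _ fun i _ => Ideal.mul_mem_mul
      ((mem_maximalIdeal_iff_constantCoeff _).mpr (MvPowerSeries.constantCoeff_X i))
      (ih fun x hx => ?_)
    rw [hpart]
    split_ifs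
    · exact hf _ (by rw [map_add, Finsupp.degree_single]; omega)
    · rfl

end MaximalIdeal

/-- The powers of the maximal ideal of a power series ring. -/
theorem mem_maximalIdeal_pow_iff {g : ℕ} (n : ℕ) (f : MvPowerSeries (Fin g) K) :
    f ∈ maximalIdeal (MvPowerSeries (Fin g) K) ^ n ↔
      ∀ d : Fin g →₀ ℕ, d.degree < n → MvPowerSeries.coeff d f = 0 :=
  ⟨coeff_eq_zero_of_mem_maximalIdeal_pow, mem_maximalIdeal_pow_of_coeff_eq_zero n⟩

instance mvPowerSeries_isAdicComplete (g : ℕ) :
    IsAdicComplete (maximalIdeal (MvPowerSeries (Fin g) K)) (MvPowerSeries (Fin g) K) where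
  prec' f hf := by
    simp only [SModEq.sub_mem, smul_eq_mul, Ideal.mul_top] at hf ⊢
    let L : MvPowerSeries (Fin g) K := fun d => MvPowerSeries.coeff d (f (d.degree + 1))
    refine ⟨L, fun n => (mem_maximalIdeal_pow_iff K n _).mpr fun d hd => ?_⟩
    have hL : MvPowerSeries.coeff d L = MvPowerSeries.coeff d (f (d.degree + 1)) := rfl
    rw [map_sub, hL, ← map_sub, ← neg_sub, map_neg,
      (mem_maximalIdeal_pow_iff K (d.degree + 1) _).mp (hf hd) d (Nat.lt_succ_self _), neg_zero]

section Regular

variable {K} {n : ℕ}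

/-- Restriction to the axis of the first variable. -/
noncomputable def axisRestrict (n : ℕ) :
    MvPowerSeries (Fin (n + 1)) K →+* PowerSeries K :=
  (PowerSeries.map MvPowerSeries.constantCoeff).comp
    (MvPowerSeries.finSuccEquiv K n).toRingEquiv.toRingHom

theorem coeff_axisRestrict (k : ℕ) (h : MvPowerSeries (Fin (n + 1)) K) :
    PowerSeries.coeff k (axisRestrict n h) =
      MvPowerSeries.coeff ((0 : Fin n →₀ ℕ).cons k) h := by
  rw [← MvPowerSeries.coeff_coeff_finSuccEquiv]
  simp [axisRestrict, MvPowerSeries.coeff_zero_eq_constantCoeff_apply]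

/-- The substitution `x₀ ↦ s x₀`, `x_{i+1} ↦ x_{i+1} + t_i x₀`. -/
noncomputable def shearFun (s : K) (t : Fin n → K) :
    Fin (n + 1) → MvPowerSeries (Fin (n + 1)) K :=
  Fin.cons (MvPowerSeries.C s * MvPowerSeries.X 0)
    (fun i => MvPowerSeries.X i.succ + MvPowerSeries.C (t i) * MvPowerSeries.X 0)

theorem hasSubst_shearFun (s : K) (t : Fin n → K) : MvPowerSeries.HasSubst (shearFun s t) :=
  MvPowerSeries.hasSubst_of_constantCoeff_zero fun i => by
    cases i using Fin.cases <;> simp [shearFun]

theorem subst_shearFun_comp {s s' : K} {t t' : Fin n → K} (hs : s * s' = 1)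
    (ht : ∀ i, t' i + t i * s' = 0) (f : MvPowerSeries (Fin (n + 1)) K) :
    MvPowerSeries.subst (shearFun s' t') (MvPowerSeries.subst (shearFun s t) f) = f := by
  rw [MvPowerSeries.subst_comp_subst_apply (hasSubst_shearFun s t) (hasSubst_shearFun s' t')]
  have : (fun i => MvPowerSeries.subst (shearFun s' t') (shearFun s t i)) = MvPowerSeries.X := by
    funext i
    have h0 : ∀ (a : K) (b : Fin n → K),
        shearFun a b 0 = MvPowerSeries.C a * MvPowerSeries.X 0 :=
      fun a b => by simp [shearFun]
    have h1 : ∀ (a : K) (b : Fin n → K) (j : Fin n), shearFun a b j.succ =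
        MvPowerSeries.X j.succ + MvPowerSeries.C (b j) * MvPowerSeries.X 0 :=
      fun a b j => by simp [shearFun]
    cases i using Fin.cases with
    | zero =>
      rw [h0, MvPowerSeries.subst_mul (hasSubst_shearFun s' t'), MvPowerSeries.subst_C,
        MvPowerSeries.subst_X (hasSubst_shearFun s' t'), h0, ← mul_assoc, ← map_mul, hs, map_one,
        one_mul]
    | succ i =>
      rw [h1, MvPowerSeries.subst_add (hasSubst_shearFun s' t'),
        MvPowerSeries.subst_mul (hasSubst_shearFun s' t'), MvPowerSeries.subst_C,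
        MvPowerSeries.subst_X (hasSubst_shearFun s' t'),
        MvPowerSeries.subst_X (hasSubst_shearFun s' t'), h0, h1, add_assoc, ← mul_assoc,
        ← map_mul, ← add_mul, ← map_add, ht, map_zero, zero_mul, add_zero]
  rw [this, MvPowerSeries.subst_self]
  rfl

/-- The automorphism of power series moving the first axis onto the line through `v`. -/
noncomputable def shearEquiv (v : Fin (n + 1) → K) (hv : v 0 ≠ 0) :
    MvPowerSeries (Fin (n + 1)) K ≃+* MvPowerSeries (Fin (n + 1)) K :=
  RingEquiv.ofRingHom
    (MvPowerSeries.substAlgHom (hasSubst_shearFun (v 0) (Fin.tail v))).toRingHom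
    (MvPowerSeries.substAlgHom
      (hasSubst_shearFun (v 0)⁻¹ (fun i => -(v i.succ * (v 0)⁻¹)))).toRingHom
    (RingHom.ext fun f => by
      simpa using subst_shearFun_comp (inv_mul_cancel₀ hv)
        (fun i => by simp only [Fin.tail]; field_simp; ring) f)
    (RingHom.ext fun f => by
      simpa using subst_shearFun_comp (mul_inv_cancel₀ hv)
        (fun i => by simp only [Fin.tail]; ring) f)

theorem shearEquiv_apply (v : Fin (n + 1) → K) (hv : v 0 ≠ 0)
    (f : MvPowerSeries (Fin (n + 1)) K) :
    shearEquiv v hv f = MvPowerSeries.subst (shearFun (v 0) (Fin.tail v)) f := by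
  simp [shearEquiv]

theorem axisRestrict_shearFun (v : Fin (n + 1) → K) (i : Fin (n + 1)) :
    axisRestrict n (shearFun (v 0) (Fin.tail v) i) = PowerSeries.C (v i) * PowerSeries.X := by
  cases i using Fin.cases <;> simp [shearFun, axisRestrict, Fin.tail]

theorem coeff_axisRestrict_subst (v : Fin (n + 1) → K) (k : ℕ)
    (f : MvPowerSeries (Fin (n + 1)) K) :
    PowerSeries.coeff k (axisRestrict n (MvPowerSeries.subst (shearFun (v 0) (Fin.tail v)) f)) =
      MvPolynomial.eval v (∑ d ∈ Finset.finsuppAntidiag Finset.univ k,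
        MvPolynomial.monomial d (MvPowerSeries.coeff d f)) := by
  classical
  rw [coeff_axisRestrict, MvPowerSeries.coeff_subst (hasSubst_shearFun _ _), map_sum]
  have hterm : ∀ d : Fin (n + 1) →₀ ℕ,
      MvPowerSeries.coeff ((0 : Fin n →₀ ℕ).cons k)
        (d.prod fun i e => shearFun (v 0) (Fin.tail v) i ^ e) =
      if k = d.degree then d.prod fun i e => v i ^ e else 0 := fun d => by
    rw [← coeff_axisRestrict, map_finsuppProd]
    simp only [map_pow, axisRestrict_shearFun, mul_pow]
    rw [Finsupp.prod, Finset.prod_mul_distrib, Finset.prod_pow_eq_pow_sum]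
    simp only [← map_pow, ← map_prod, PowerSeries.coeff_C_mul, PowerSeries.coeff_X_pow]
    rw [mul_ite, mul_one, mul_zero]
    rfl
  simp only [hterm, smul_eq_mul, mul_ite, mul_zero, MvPolynomial.eval_monomial]
  rw [finsum_eq_sum_of_support_subset _ (s := Finset.finsuppAntidiag Finset.univ k)]
  · refine Finset.sum_congr rfl fun d hd => ?_
    rw [if_pos]
    rw [Finsupp.degree_eq_sum]
    exact ((Finset.mem_finsuppAntidiag.mp hd).1).symm
  · intro d hd
    rw [Function.mem_support, ne_eq, ite_eq_right_iff, Classical.not_imp] at hd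
    simp only [Finset.mem_coe, Finset.mem_finsuppAntidiag, Finset.subset_univ, and_true]
    rw [hd.1, Finsupp.degree_eq_sum]

variable [Infinite K]

/-- Some automorphism makes a given nonzero series regular in the first variable. -/
theorem exists_regular {f : MvPowerSeries (Fin (n + 1)) K} (hf : f ≠ 0) :
    ∃ e : MvPowerSeries (Fin (n + 1)) K ≃+* MvPowerSeries (Fin (n + 1)) K,
      axisRestrict n (e f) ≠ 0 := by
  classical
  obtain ⟨d₀, hd₀⟩ : ∃ d, MvPowerSeries.coeff d f ≠ 0 := by
    by_contra h
    push Not at h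
    exact hf (MvPowerSeries.ext h)
  set P : MvPolynomial (Fin (n + 1)) K :=
    ∑ d ∈ Finset.finsuppAntidiag Finset.univ d₀.degree,
      MvPolynomial.monomial d (MvPowerSeries.coeff d f) with hP
  have hP0 : P ≠ 0 := fun h => hd₀ <| by
    have h' := congrArg (MvPolynomial.coeff d₀) h
    rw [hP, MvPolynomial.coeff_sum] at h'
    simp only [MvPolynomial.coeff_monomial, MvPolynomial.coeff_zero] at h'
    rw [Finset.sum_ite_eq', if_pos] at h'
    · exact h'
    · simp [Finset.mem_finsuppAntidiag, Finsupp.degree_eq_sum]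
  obtain ⟨v, hv⟩ : ∃ v, MvPolynomial.eval v (P * MvPolynomial.X 0) ≠ 0 := by
    by_contra h
    push Not at h
    exact mul_ne_zero hP0 (MvPolynomial.X_ne_zero 0)
      (MvPolynomial.funext fun x => by rw [h x, map_zero])
  rw [map_mul, MvPolynomial.eval_X] at hv
  refine ⟨shearEquiv v (right_ne_zero_of_mul hv), fun h => left_ne_zero_of_mul hv ?_⟩
  rw [hP, ← coeff_axisRestrict_subst, ← shearEquiv_apply v (right_ne_zero_of_mul hv), h, map_zero]

end Regular

section Weierstrass

variable {A : Type*} [CommRing A] [IsDomain A] [IsLocalRing A]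
  [IsAdicComplete (maximalIdeal A) A] [UniqueFactorizationMonoid A]

/-- A prime ideal of `A⟦X⟧` with an element regular in `X` contains a prime element. -/
theorem exists_prime_mem_of_regular (P : Ideal (PowerSeries A)) [P.IsPrime] {f : PowerSeries A}
    (hfP : f ∈ P) (hreg : f.map (residue A) ≠ 0) : ∃ q ∈ P, Prime q := by
  obtain ⟨h, u, H⟩ := f.exists_isWeierstrassFactorization hreg
  have hhP : (h : PowerSeries A) ∈ P := by
    rw [H.eq_mul] at hfP
    exact (Ideal.IsPrime.mem_or_mem ‹_› hfP).resolve_right fun hu =>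
      Ideal.IsPrime.ne_top ‹_› (P.eq_top_of_isUnit_mem hu H.isUnit)
  let Q : Ideal (Polynomial A) :=
    P.comap (Polynomial.coeToPowerSeries.ringHom : Polynomial A →+* PowerSeries A)
  have hmonic := H.isDistinguishedAt.monic
  obtain ⟨q, hqQ, hq, hqh⟩ : ∃ q ∈ Q, Prime q ∧ q ∣ h := by
    obtain ⟨s, hs, w, hw⟩ := UniqueFactorizationMonoid.exists_prime_factors h hmonic.ne_zero
    have hh : h ∈ Q := hhP
    rw [← hw] at hh
    have hsQ : s.prod ∈ Q := (Ideal.IsPrime.mem_or_mem inferInstance hh).resolve_right fun hu =>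
      Ideal.IsPrime.ne_top (I := Q) inferInstance (Q.eq_top_of_isUnit_mem hu w.isUnit)
    obtain ⟨q, hqs, hqQ⟩ :=
      (Ideal.IsPrime.multiset_prod_mem_iff_exists_mem (I := Q) inferInstance s).mp hsQ
    exact ⟨q, hqQ, hs q hqs, (Multiset.dvd_prod hqs).trans ⟨w, hw.symm⟩⟩
  obtain ⟨c, hc⟩ : IsUnit q.leadingCoeff := by
    obtain ⟨r, hr⟩ := hqh
    refine IsUnit.of_mul_eq_one r.leadingCoeff ?_
    rw [← Polynomial.leadingCoeff_mul, ← hr, hmonic.leadingCoeff]
  set q' := Polynomial.C (↑c⁻¹ : A) * q with hq'
  have hassoc : Associated q q' :=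
    (associated_unit_mul_left q _ (Polynomial.isUnit_C.mpr (Units.isUnit _))).symm
  have hm' : q'.Monic :=
    Polynomial.monic_C_mul_of_mul_leadingCoeff_eq_one (by rw [← hc, c.inv_mul])
  have hdvd : q' ∣ h := hassoc.symm.dvd.trans hqh
  have hdist : q'.IsDistinguishedAt (maximalIdeal A) := by
    have hmap : q'.map (residue A) ∣ Polynomial.X ^ h.natDegree := by
      have : h.map (residue A) = Polynomial.X ^ h.natDegree := H.isDistinguishedAt.map_eq_X_pow
      rw [← this]
      exact Polynomial.map_dvd _ hdvd
    obtain ⟨j, -, hj⟩ := (dvd_prime_pow Polynomial.prime_X _).mp hmap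
    have heq := Polynomial.eq_of_monic_of_associated (hm'.map _) (Polynomial.monic_X_pow j) hj
    have hdeg : q'.natDegree = j := by
      rw [← hm'.natDegree_map (residue A), heq, Polynomial.natDegree_X_pow]
    refine ⟨⟨fun {i} hi => ?_⟩, hm'⟩
    have := congrArg (fun p => Polynomial.coeff p i) heq
    simp only [Polynomial.coeff_map, Polynomial.coeff_X_pow] at this
    rw [if_neg (by omega)] at this
    exact Ideal.Quotient.eq_zero_iff_mem.mp this
  have hq'P : (q' : PowerSeries A) ∈ P := Q.mul_mem_left _ hqQ
  refine ⟨_, hq'P, ?_⟩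
  have hprime : Prime q' := hassoc.prime hq
  have : (Ideal.span {q'}).IsPrime := (Ideal.span_singleton_prime hprime.ne_zero).mpr hprime
  have hdom : IsDomain (PowerSeries A ⧸ Ideal.span {(q' : PowerSeries A)}) :=
    MulEquiv.isDomain (Polynomial A ⧸ Ideal.span {q'})
      hdist.algEquivQuotient.symm.toRingEquiv.toMulEquiv
  have hne : (q' : PowerSeries A) ≠ 0 := by simpa using hprime.ne_zero
  exact (Ideal.span_singleton_prime hne).mp ((Ideal.Quotient.isDomain_iff_prime _).mp hdom)

end Weierstrass

variable [Infinite K]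

/-- `K⟦x₁,…,x_g⟧` is factorial. -/
theorem ufd_mvPowerSeries (g : ℕ) : UniqueFactorizationMonoid (MvPowerSeries (Fin g) K) := by
  induction g with
  | zero =>
    exact
      (MvPowerSeries.isEmptyEquiv (Fin 0) K).symm.toRingEquiv.toMulEquiv.uniqueFactorizationMonoid
      inferInstance
  | succ n ih =>
    rw [UniqueFactorizationMonoid.iff_exists_prime_mem_of_isPrime]
    intro P hP hPp
    obtain ⟨f, hfP, hf⟩ := Submodule.exists_mem_ne_zero_of_ne_bot hP
    obtain ⟨e, he⟩ := exists_regular hf
    let E : MvPowerSeries (Fin (n + 1)) K ≃+* PowerSeries (MvPowerSeries (Fin n) K) :=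
      e.trans (MvPowerSeries.finSuccEquiv K n).toRingEquiv
    have hreg : (E f).map (residue (MvPowerSeries (Fin n) K)) ≠ 0 := fun h => he <| by
      ext k
      have hk : residue (MvPowerSeries (Fin n) K) (PowerSeries.coeff k (E f)) = 0 := by
        rw [← PowerSeries.coeff_map, h, map_zero]
      rw [residue_eq_zero_iff, mem_maximalIdeal_iff_constantCoeff] at hk
      rw [map_zero, ← hk]
      simp [axisRestrict, E]
    have : (P.comap (E.symm : PowerSeries (MvPowerSeries (Fin n) K) →+*
        MvPowerSeries (Fin (n + 1)) K)).IsPrime := hPp.comap _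
    obtain ⟨q, hqP, hq⟩ := exists_prime_mem_of_regular
      (P.comap (E.symm : PowerSeries (MvPowerSeries (Fin n) K) →+*
        MvPowerSeries (Fin (n + 1)) K)) (f := E f)
      (by rw [Ideal.mem_comap]; simpa using hfP) hreg
    exact ⟨E.symm q, hqP, (MulEquiv.prime_iff E.symm).mpr hq⟩

end Fermat.Agent.AbVar
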