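import Fermat.Agent.AbVar.CartierBasic
import Fermat.Agent.AbVar.Colon
import Fermat.Agent.AbVar.PowerSeries

/-!
# Local equations of the denominators of finitely many functions

The functions which carry the given ones into the local ring form, near each point, the multiples
of one function.
-/

set_option autoImplicit false

noncomputable section

open CategoryTheory AlgebraicGeometry

namespace Fermat.Agent.AbVar

universe u

variable {K : Type u} [Field K] [IsAlgClosed K] (X : AData K)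

namespace AData

theorem germToFF_mem_regAt {W : X.A.Opens} [Nonempty W] {z : X.A} (hz : z ∈ W) (r : Γ(X.A, W)) :
    X.A.germToFunctionField W r ∈ X.regAt z :=
  ⟨_, Scheme.algebraMap_germ_eq_germToFunctionField (X := X.A) hz r⟩

theorem isOpen_setOf_mem_regAt (f : X.FF) : IsOpen {z | f ∈ X.regAt z} := by
  refine isOpen_iff_forall_mem_open.2 fun z hz => ?_
  obtain ⟨r, rfl⟩ := hz
  obtain ⟨U, hzU, s, rfl⟩ := X.A.presheaf.exists_germ_eq r
  have : Nonempty U := ⟨⟨z, hzU⟩⟩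
  refine ⟨U, fun w hw => ?_, U.isOpen, hzU⟩
  show algebraMap _ X.FF (X.A.presheaf.germ U z hzU s) ∈ X.regAt w
  rw [Scheme.algebraMap_germ_eq_germToFunctionField (X := X.A) hzU s]
  exact X.germToFF_mem_regAt hw s

theorem exists_germToFF_div {W : X.A.Opens} (hW : IsAffineOpen W) [Nonempty W] {z : X.A}
    (hz : z ∈ W) {f : X.FF} (hf : f ∈ X.regAt z) :
    ∃ a d : Γ(X.A, W), X.UnitAt z (X.A.germToFunctionField W d) ∧
      f * X.A.germToFunctionField W d = X.A.germToFunctionField W a := by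
  obtain ⟨r, rfl⟩ := hf
  let := TopCat.Presheaf.algebra_section_stalk X.A.presheaf (⟨z, hz⟩ : W)
  have : IsLocalization.AtPrime (X.A.presheaf.stalk z) (hW.primeIdealOf ⟨z, hz⟩).asIdeal :=
    hW.isLocalization_stalk ⟨z, hz⟩
  obtain ⟨⟨a, d⟩, h⟩ := IsLocalization.surj (hW.primeIdealOf ⟨z, hz⟩).asIdeal.primeCompl r
  obtain ⟨v, hv⟩ := IsLocalization.map_units (X.A.presheaf.stalk z) d
  have e : ∀ b : Γ(X.A, W), algebraMap (X.A.presheaf.stalk z) X.FF
      (algebraMap Γ(X.A, W) (X.A.presheaf.stalk z) b) = X.A.germToFunctionField W b := fun b =>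
    Scheme.algebraMap_germ_eq_germToFunctionField (X := X.A) hz b
  refine ⟨a, d, ?_, ?_⟩
  · rw [← e, ← hv]
    refine ⟨(v.isUnit.map _).ne_zero, ⟨_, rfl⟩, ⟨((v⁻¹ : _ˣ) : X.A.presheaf.stalk z), ?_⟩⟩
    exact eq_inv_of_mul_eq_one_right (by rw [← map_mul, Units.mul_inv, map_one])
  · rw [← e, ← e, ← map_mul]
    exact congrArg _ h

/-- The function generates the denominators of `Y` at `x`. -/
def GenAt (Y : Finset X.FF) (x : X.A) (t : X.FF) : Prop :=
  t ≠ 0 ∧ ∀ f, (f ∈ X.regAt x ∧ ∀ y ∈ Y, f * y ∈ X.regAt x) ↔ f / t ∈ X.regAt x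

variable {X}

theorem GenAt.mem {Y : Finset X.FF} {x : X.A} {t : X.FF} (h : X.GenAt Y x t) :
    t ∈ X.regAt x ∧ ∀ y ∈ Y, t * y ∈ X.regAt x :=
  (h.2 t).2 (by rw [div_self h.1]; exact one_mem _)

theorem GenAt.unitAt {Y : Finset X.FF} {x : X.A} {s t : X.FF} (hs : X.GenAt Y x s)
    (ht : X.GenAt Y x t) : X.UnitAt x (s / t) :=
  ⟨div_ne_zero hs.1 ht.1, (ht.2 s).1 hs.mem, by rw [inv_div]; exact (hs.2 t).1 ht.mem⟩

theorem genAt_one {Y : Finset X.FF} {x : X.A} (h : ∀ y ∈ Y, y ∈ X.regAt x) : X.GenAt Y x 1 :=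
  ⟨one_ne_zero, fun f => by
    rw [div_one]
    exact ⟨fun hf => hf.1, fun hf => ⟨hf, fun y hy => mul_mem hf (h y hy)⟩⟩⟩

variable (X)

/-- The denominators at a closed point are principal. -/
theorem exists_genAt (Y : Finset X.FF) (c : X.A) (hc : IsClosed ({c} : Set X.A)) :
    ∃ t, X.GenAt Y c t := by
  classical
  obtain ⟨co⟩ := X.exists_coordsAt c hc
  have := ufd_mvPowerSeries (K := K) X.g
  obtain ⟨⟨a, ha⟩, hint⟩ := IsLocalization.exist_integer_multiples_of_finset
    (nonZeroDivisors (X.A.presheaf.stalk c)) Y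
  have ha0 : a ≠ 0 := nonZeroDivisors.ne_zero ha
  set e := algebraMap (X.A.presheaf.stalk c) X.FF
  have he : Function.Injective e := X.toFF_injective c
  choose b hb using fun y : Y => hint y y.2
  have hb' : ∀ y : Y, e (b y) = e a * y := fun y => by
    rw [hb y, Algebra.smul_def]
  let T : Finset (X.A.presheaf.stalk c) := Finset.univ.image b
  let J : Ideal (X.A.presheaf.stalk c) :=
    { carrier := {r | ∀ x ∈ T, a ∣ r * x}
      add_mem' := fun {r s} hr hs x hx => by rw [add_mul]; exact dvd_add (hr x hx) (hs x hx)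
      zero_mem' := fun x _ => by rw [zero_mul]; exact dvd_zero a
      smul_mem' := fun k r hr x hx => by
        rw [smul_eq_mul, mul_assoc]; exact dvd_mul_of_dvd_right (hr x hx) k }
  obtain ⟨j, hj⟩ := (colon_isPrincipal co.φ.toRingHom co.comap_pow co.surj_mod J a T
    fun _ => Iff.rfl).principal
  have hmem : ∀ r, r ∈ J ↔ ∀ y ∈ Y, e r * y ∈ X.regAt c := by
    intro r
    refine ⟨fun hr y hy => ?_, fun h x hx => ?_⟩
    · obtain ⟨q, hq⟩ := hr (b ⟨y, hy⟩) (Finset.mem_image_of_mem _ (Finset.mem_univ _))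
      refine ⟨q, mul_left_cancel₀ ((map_ne_zero_iff e he).2 ha0) ?_⟩
      rw [← map_mul, ← hq, map_mul, hb']
      ring
    · obtain ⟨y, -, rfl⟩ := Finset.mem_image.1 hx
      obtain ⟨q, hq⟩ := h y y.2
      refine ⟨q, he ?_⟩
      rw [map_mul, map_mul, hb', show e q = e r * y from hq]
      ring
  have haJ : a ∈ J := fun x _ => dvd_mul_right a x
  have hj0 : j ≠ 0 := fun h0 => ha0 (by
    rw [hj, h0] at haJ
    simpa using haJ)
  have hje : e j ≠ 0 := (map_ne_zero_iff e he).2 hj0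
  refine ⟨e j, hje, fun f => ⟨?_, ?_⟩⟩
  · rintro ⟨⟨r, rfl⟩, hr⟩
    obtain ⟨q, hq⟩ := Ideal.mem_span_singleton'.1 (hj.le ((hmem r).2 hr))
    exact ⟨q, by rw [eq_div_iff hje]; exact (map_mul e q j).symm.trans (congrArg e hq)⟩
  · rintro ⟨q, hq⟩
    have hfq : f = e (q * j) := by
      rw [map_mul, show e q = f / e j from hq, div_mul_cancel₀ _ hje]
    refine ⟨hfq ▸ ⟨_, rfl⟩, fun y hy => ?_⟩
    rw [hfq]
    exact (hmem _).1 (hj.ge (Ideal.mem_span_singleton'.2 ⟨q, rfl⟩)) y hy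

/-- The denominators have one equation near each point. -/
theorem exists_affine_genAt (Y : Finset X.FF) (x : X.A) :
    ∃ (W : X.A.Opens) (t : X.FF), IsAffineOpen W ∧ x ∈ W ∧ ∀ z ∈ W, X.GenAt Y z t := by
  classical
  obtain ⟨c, hc, hxc⟩ := X.exists_isClosed_specializes x
  obtain ⟨t, ht⟩ := X.exists_genAt Y c hc
  obtain ⟨V, hV, hcV, -⟩ := exists_isAffineOpen_mem_and_subset (X := X.A) (x := c) (U := ⊤) trivial
  have : Nonempty V := ⟨⟨c, hcV⟩⟩
  have : IsNoetherianRing Γ(X.A, V) :=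
    IsLocallyNoetherian.component_noetherian ⟨V, hV⟩
  set e := (X.A.germToFunctionField V).hom
  let J : Ideal Γ(X.A, V) :=
    { carrier := {r | ∀ y ∈ Y, e r * y ∈ e.range}
      add_mem' := fun {r s} hr hs y hy => by
        rw [map_add, add_mul]; exact add_mem (hr y hy) (hs y hy)
      zero_mem' := fun y _ => by rw [map_zero, zero_mul]; exact zero_mem _
      smul_mem' := fun k r hr y hy => by
        rw [smul_eq_mul, map_mul, mul_assoc]; exact mul_mem ⟨k, rfl⟩ (hr y hy) }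
  obtain ⟨G, hG⟩ := (IsNoetherian.noetherian J : J.FG)
  set fs : Finset X.FF := insert t (Y.image (t * ·) ∪ G.image fun r => e r / t) with hfs
  have hcfs : ∀ f ∈ fs, f ∈ X.regAt c := by
    intro f hf
    simp only [hfs, Finset.mem_insert, Finset.mem_union, Finset.mem_image] at hf
    rcases hf with rfl | ⟨y, hy, rfl⟩ | ⟨r, hr, rfl⟩
    · exact ht.mem.1
    · exact ht.mem.2 y hy
    · refine (ht.2 _).1 ⟨X.germToFF_mem_regAt hcV r, fun y hy => ?_⟩
      obtain ⟨s, hs⟩ := (hG.le (Submodule.subset_span hr) : r ∈ J) y hy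
      rw [← hs]
      exact X.germToFF_mem_regAt hcV s
  have hopen : IsOpen (⋂ f ∈ fs, {z | f ∈ X.regAt z}) :=
    isOpen_biInter_finset fun f _ => X.isOpen_setOf_mem_regAt f
  obtain ⟨W, hW, hcW, hWsub⟩ := exists_isAffineOpen_mem_and_subset (X := X.A) (x := c)
    (U := V ⊓ ⟨_, hopen⟩) ⟨hcV, Set.mem_iInter₂.2 hcfs⟩
  refine ⟨W, t, hW, hxc.mem_open W.isOpen hcW, fun z hz => ?_⟩
  obtain ⟨hzV, hzfs⟩ := hWsub hz
  have hz' : ∀ f ∈ fs, f ∈ X.regAt z := fun f hf => Set.mem_iInter₂.1 hzfs f hf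
  refine ⟨ht.1, fun f => ⟨?_, fun hf => ?_⟩⟩
  · rintro ⟨hf, hfy⟩
    obtain ⟨a₀, d₀, hd₀, he₀⟩ := X.exists_germToFF_div hV hzV hf
    choose ay dy hdy hey using fun y : Y => X.exists_germToFF_div hV hzV (hfy y y.2)
    set D := d₀ * ∏ y : Y, dy y with hD
    have hDu : X.UnitAt z (e D) := by
      rw [hD, map_mul, map_prod]
      exact hd₀.mul (Finset.prod_induction _ (X.UnitAt z) (fun _ _ h h' => h.mul h')
        ⟨one_ne_zero, one_mem _, by rw [inv_one]; exact one_mem _⟩ fun y _ => hdy y)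
    have hr : a₀ * ∏ y : Y, dy y ∈ J := by
      intro y hy
      refine ⟨ay ⟨y, hy⟩ * d₀ * ∏ y' ∈ Finset.univ.erase (⟨y, hy⟩ : Y), dy y', ?_⟩
      rw [← Finset.mul_prod_erase Finset.univ dy (Finset.mem_univ (⟨y, hy⟩ : Y)), map_mul, map_mul,
        map_mul, map_mul]
      have h1 : f * e d₀ = e a₀ := he₀
      have h2 : f * y * e (dy ⟨y, hy⟩) = e (ay ⟨y, hy⟩) := hey ⟨y, hy⟩
      rw [← h1, ← h2]
      ring
    have hfD : f = e (a₀ * ∏ y : Y, dy y) * (e D)⁻¹ := by
      rw [eq_mul_inv_iff_mul_eq₀ hDu.1, hD, map_mul, map_mul, ← mul_assoc]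
      exact congrArg (· * _) he₀
    rw [hfD, mul_comm, mul_div_assoc]
    refine mul_mem hDu.2.2 ?_
    rw [← hG] at hr
    refine Submodule.span_induction (p := fun r _ => e r / t ∈ X.regAt z) (fun r hr => ?_) ?_
      (fun r s _ _ h h' => ?_) (fun k r _ h => ?_) hr
    · exact hz' _ (Finset.mem_insert_of_mem
        (Finset.mem_union_right _ (Finset.mem_image_of_mem _ hr)))
    · rw [map_zero, zero_div]; exact zero_mem _
    · rw [map_add, add_div]; exact add_mem h h'
    · rw [smul_eq_mul, map_mul, mul_div_assoc]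
      exact mul_mem (X.germToFF_mem_regAt hzV k) h
  · have ht' : t ∈ X.regAt z := hz' t (Finset.mem_insert_self _ _)
    refine ⟨?_, fun y hy => ?_⟩
    · rw [← div_mul_cancel₀ f ht.1]
      exact mul_mem hf ht'
    · rw [← div_mul_cancel₀ f ht.1, mul_assoc]
      exact mul_mem hf (hz' _ (Finset.mem_insert_of_mem
        (Finset.mem_union_left _ (Finset.mem_image_of_mem _ hy))))

/-- A finite cover by affine open sets with an equation on each. -/
structure Charts (X : AData K) (Y : Finset X.FF) where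
  /-- the number of charts -/
  n : ℕ
  /-- the charts -/
  W : Fin n → X.A.Opens
  isAffine : ∀ i, IsAffineOpen (W i)
  /-- the index of a point -/
  idx : X.A → Fin n
  mem_idx : ∀ x, x ∈ W (idx x)
  /-- the equations -/
  eqn : Fin n → X.FF
  genAt : ∀ i, ∀ z ∈ W i, X.GenAt Y z (eqn i)

theorem nonempty_charts (Y : Finset X.FF) : Nonempty (X.Charts Y) := by
  choose W t hW hxW ht using X.exists_affine_genAt Y
  obtain ⟨s, hs⟩ := (isCompact_univ (X := X.A)).elim_finite_subcover (fun x => (W x : Set X.A))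
    (fun x => (W x).isOpen) fun x _ => Set.mem_iUnion.2 ⟨x, hxW x⟩
  have h : ∀ x, ∃ i : Fin s.card, x ∈ W (s.equivFin.symm i) := by
    intro x
    obtain ⟨y, hy, hxy⟩ := Set.mem_iUnion₂.1 (hs (Set.mem_univ x))
    exact ⟨s.equivFin ⟨y, hy⟩, by simpa using hxy⟩
  choose idx hidx using h
  exact ⟨⟨s.card, fun i => W (s.equivFin.symm i), fun i => hW _, idx, hidx,
    fun i => t (s.equivFin.symm i), fun i z hz => ht _ z hz⟩⟩

end AData

end Fermat.Agent.AbVar
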