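import Fermat.Agent.AbVar.CartierClass
import Fermat.Agent.AbVar.CartierEquations
import Fermat.Agent.AbVar.CartierCentre

/-!
# The denominators are bounded by monomials in the given functions

At every valuation of the function field the inverse of a local equation is dominated by a
monomial of bounded degree in the given functions (`exists_monBound_inv_value`).
-/

set_option autoImplicit false

noncomputable section

open CategoryTheory AlgebraicGeometry

namespace Fermat.Agent.AbVar

universe u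

variable {K : Type u} [Field K] [IsAlgClosed K] {X : AData K}

/-! ## Domination by monomials -/

/-- `f` divided by a monomial of degree at most `C` in `Y` is integral at `V`. -/
def MonBound (Y : Finset X.FF) (C : ℕ) (V : KVal K X.FF) (f : X.FF) : Prop :=
  ∃ l : List X.FF, l.length ≤ C ∧ (∀ y ∈ l, y ∈ Y) ∧ l.prod ≠ 0 ∧ f * l.prod⁻¹ ∈ V.toVal

theorem MonBound.mono {Y : Finset X.FF} {C C' : ℕ} (hC : C ≤ C') {V : KVal K X.FF} {f : X.FF}
    (h : MonBound Y C V f) : MonBound Y C' V f := by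
  obtain ⟨l, hl, hY, hne, hf⟩ := h
  exact ⟨l, hl.trans hC, hY, hne, hf⟩

theorem MonBound.of_mem {Y : Finset X.FF} {V : KVal K X.FF} {f : X.FF} (h : f ∈ V.toVal) (C : ℕ) :
    MonBound Y C V f :=
  ⟨[], Nat.zero_le _, by simp, by simp, by simpa using h⟩

theorem MonBound.mul {Y : Finset X.FF} {C C' : ℕ} {V : KVal K X.FF} {f g : X.FF}
    (h : MonBound Y C V f) (h' : MonBound Y C' V g) : MonBound Y (C + C') V (f * g) := by
  obtain ⟨l, hl, hY, hne, hf⟩ := h
  obtain ⟨l', hl', hY', hne', hf'⟩ := h'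
  refine ⟨l ++ l', by simpa using Nat.add_le_add hl hl', fun y hy => ?_, ?_, ?_⟩
  · rcases List.mem_append.1 hy with hy | hy
    · exact hY y hy
    · exact hY' y hy
  · simpa using And.intro hne hne'
  · rw [List.prod_append, mul_inv, mul_mul_mul_comm]
    exact mul_mem hf hf'

/-- One monomial dominates finitely many bounded functions. -/
theorem exists_monomial_forall {ι : Type} {Y : Finset X.FF} {C : ℕ} {V : KVal K X.FF}
    (b : ι → X.FF) (s : Finset ι) (hb : ∀ i ∈ s, MonBound Y C V (b i)) :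
    ∃ l : List X.FF, l.length ≤ C ∧ (∀ y ∈ l, y ∈ Y) ∧ l.prod ≠ 0 ∧ l.prod⁻¹ ∈ V.toVal ∧
      ∀ i ∈ s, b i * l.prod⁻¹ ∈ V.toVal := by
  classical
  induction s using Finset.induction_on with
  | empty => exact ⟨[], Nat.zero_le _, by simp, by simp, by simp, by simp⟩
  | insert a s ha ih =>
    obtain ⟨l₁, h1, h2, h3, h4, h5⟩ := ih fun i hi => hb i (Finset.mem_insert_of_mem hi)
    obtain ⟨l₂, g1, g2, g3, g4⟩ := hb a (Finset.mem_insert_self a s)
    rcases V.toVal.mem_or_inv_mem (l₁.prod * l₂.prod⁻¹) with h | h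
    · refine ⟨l₂, g1, g2, g3, ?_, fun i hi => ?_⟩
      · have e : l₂.prod⁻¹ = l₁.prod⁻¹ * (l₁.prod * l₂.prod⁻¹) := by
          rw [← mul_assoc, inv_mul_cancel₀ h3, one_mul]
        rw [e]
        exact mul_mem h4 h
      · rcases Finset.mem_insert.1 hi with rfl | hi
        · exact g4
        · have e : b i * l₂.prod⁻¹ = b i * l₁.prod⁻¹ * (l₁.prod * l₂.prod⁻¹) := by
            rw [mul_assoc, ← mul_assoc l₁.prod⁻¹, inv_mul_cancel₀ h3, one_mul]
          rw [e]
          exact mul_mem (h5 i hi) h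
    · rw [mul_inv, inv_inv] at h
      refine ⟨l₁, h1, h2, h3, h4, fun i hi => ?_⟩
      rcases Finset.mem_insert.1 hi with rfl | hi
      · have e : b i * l₁.prod⁻¹ = b i * l₂.prod⁻¹ * (l₁.prod⁻¹ * l₂.prod) := by
          rw [mul_comm l₁.prod⁻¹, mul_assoc, ← mul_assoc l₂.prod⁻¹, inv_mul_cancel₀ g3, one_mul]
        rw [e]
        exact mul_mem g4 h
      · exact h5 i hi

/-- A root of a monic equation with bounded coefficients is bounded. -/
theorem MonBound.of_root {Y : Finset X.FF} {C : ℕ} {V : KVal K X.FF} {f : X.FF}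
    (p : Polynomial X.FF) (hp : p.Monic) (hr : p.eval f = 0)
    (hb : ∀ i, i < p.natDegree → MonBound Y C V (p.coeff i)) : MonBound Y C V f := by
  obtain ⟨l, h1, h2, h3, h4, h5⟩ :=
    exists_monomial_forall (fun i => p.coeff i) (Finset.range p.natDegree) fun i hi =>
      hb i (Finset.mem_range.1 hi)
  refine ⟨l, h1, h2, h3, ?_⟩
  set z := l.prod⁻¹
  set d := p.natDegree
  by_contra hw
  have hw' : (f * z)⁻¹ ∈ V.toVal := (V.toVal.mem_or_inv_mem _).resolve_left hw
  have hwne : f * z ≠ 0 := fun h => hw (h ▸ zero_mem _)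
  refine hw ?_
  -- `w = f z` is a sum of multiples of non positive powers of itself
  have hd : d ≠ 0 := fun hd => by
    rw [Polynomial.Monic.natDegree_eq_zero hp |>.1 hd, Polynomial.eval_one] at hr
    exact one_ne_zero hr
  have hsum : f ^ d = -∑ i ∈ Finset.range d, p.coeff i * f ^ i := by
    rw [eq_neg_iff_add_eq_zero]
    rw [Polynomial.eval_eq_sum_range, Finset.sum_range_succ, hp.coeff_natDegree, one_mul,
      add_comm] at hr
    exact hr
  have key : f * z = -∑ i ∈ Finset.range d,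
      p.coeff i * z * z ^ (d - 1 - i) * ((f * z)⁻¹) ^ (d - 1 - i) := by
    have h0 : (f * z) ^ (d - 1) * (f * z) = -∑ i ∈ Finset.range d,
        (f * z) ^ (d - 1) * (p.coeff i * z * z ^ (d - 1 - i) * ((f * z)⁻¹) ^ (d - 1 - i)) := by
      rw [← pow_succ, Nat.sub_add_cancel (Nat.one_le_iff_ne_zero.2 hd), mul_pow, hsum, neg_mul,
        Finset.sum_mul]
      refine congrArg Neg.neg (Finset.sum_congr rfl fun i hi => ?_)
      have hi' : i + (d - 1 - i) = d - 1 := by
        have := Finset.mem_range.1 hi; omega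
      have hz : z ^ d = z ^ i * (z * z ^ (d - 1 - i)) := by
        rw [← pow_succ', ← pow_add]
        congr 1
        omega
      generalize d - 1 - i = m at hi' hz ⊢
      rw [hz, ← hi', pow_add]
      have h1 : (f * z) ^ m * ((f * z)⁻¹) ^ m = 1 := by
        rw [← mul_pow, mul_inv_cancel₀ hwne, one_pow]
      calc p.coeff i * f ^ i * (z ^ i * (z * z ^ m))
          = (f * z) ^ i * (p.coeff i * z * z ^ m) * 1 := by rw [mul_pow]; ring
        _ = (f * z) ^ i * (f * z) ^ m * (p.coeff i * z * z ^ m * ((f * z)⁻¹) ^ m) := by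
            rw [← h1]; ring
    rw [← Finset.mul_sum, ← mul_neg] at h0
    exact mul_left_cancel₀ (pow_ne_zero _ hwne) h0
  rw [key]
  exact neg_mem (sum_mem fun i hi => mul_mem (mul_mem (h5 i hi) (pow_mem h4 _)) (pow_mem hw' _))

open AData

/-! ## The bound for the local equations -/

/-- The equations are bounded by monomials along a generic point whose centres follow `Y`. -/
theorem exists_monBound_inv_value {Y : Finset X.FF} (D : X.Charts Y) (Q : X.Pt X.FF)
    (hQ : X.ptAt Q = genericPoint X.A) (U : X.A.Opens)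
    (hYU : ∀ y ∈ Y, ∀ z ∈ U, y ∈ X.regAt z)
    (hQU : ∀ V : KVal K X.FF, (∀ y ∈ Y, y ∈ V.toVal) → X.centre V Q ∈ U) :
    ∃ C : ℕ, ∀ V : KVal K X.FF,
      MonBound Y C V (X.value Q (D.eqn (D.idx (X.centre V Q))))⁻¹ := by
  classical
  have hreg : ∀ f, f ∈ X.regAt (X.ptAt Q) := fun f => by
    rw [hQ]; exact X.mem_regAt_genericPoint f
  suffices h : ∀ i : Fin D.n, ∃ C : ℕ, ∀ V : KVal K X.FF, X.centre V Q ∈ D.W i →
      MonBound Y C V (X.value Q (D.eqn i))⁻¹ by
    choose C hC using h
    exact ⟨Finset.univ.sup C, fun V => (hC _ V (D.mem_idx _)).mono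
      (Finset.le_sup (f := C) (Finset.mem_univ _))⟩
  intro i
  by_cases hne : Nonempty (D.W i)
  swap
  · exact ⟨0, fun V hV => (hne ⟨⟨_, hV⟩⟩).elim⟩
  have := hne
  let B : Subring X.FF :=
    { carrier := {f | ∃ C, ∀ V : KVal K X.FF, X.centre V Q ∈ D.W i → MonBound Y C V f}
      mul_mem' := fun {f g} ⟨C, hC⟩ ⟨C', hC'⟩ =>
        ⟨C + C', fun V hV => (hC V hV).mul (hC' V hV)⟩
      one_mem' := ⟨0, fun V _ => MonBound.of_mem (one_mem _) 0⟩
      add_mem' := fun {f g} ⟨C, hC⟩ ⟨C', hC'⟩ => ⟨max C C', fun V hV => by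
        obtain ⟨l, h1, h2, h3, -, h5⟩ := exists_monomial_forall (ι := Bool)
          (fun b => bif b then f else g) Finset.univ (Y := Y) (C := max C C') (V := V)
          (fun b _ => by
            cases b
            · exact (hC' V hV).mono (le_max_right _ _)
            · exact (hC V hV).mono (le_max_left _ _))
        refine ⟨l, h1, h2, h3, ?_⟩
        rw [add_mul]
        exact add_mem (h5 true (Finset.mem_univ _)) (h5 false (Finset.mem_univ _))⟩
      zero_mem' := ⟨0, fun V _ => MonBound.of_mem (zero_mem _) 0⟩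
      neg_mem' := fun {f} ⟨C, hC⟩ => ⟨C, fun V hV => by
        obtain ⟨l, h1, h2, h3, h4⟩ := hC V hV
        exact ⟨l, h1, h2, h3, by rw [neg_mul]; exact neg_mem h4⟩⟩ }
  have hint : (X.value Q (D.eqn i))⁻¹ ∈ (integralClosure B X.FF).toSubring := by
    rw [← B.closure_eq, ← iInf_valuationSubring_superset, Subring.mem_iInf]
    rintro ⟨V', hV'⟩
    have hK : ∀ c : K, algebraMap K X.FF c ∈ V' := fun c =>
      hV' ⟨0, fun V _ => MonBound.of_mem (V.algebraMap_mem' c) 0⟩
    set V : KVal K X.FF := ⟨V', hK⟩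
    have hY : ∀ y ∈ Y, y ∈ V.toVal := fun y hy => hV' ⟨1, fun V₁ _ => by
      by_cases hy0 : y = 0
      · exact MonBound.of_mem (hy0 ▸ zero_mem _) 1
      · exact ⟨[y], by simp, by simpa using hy, by simpa using hy0, by simp [hy0]⟩⟩
    have hcW : X.centre V Q ∈ D.W i := by
      have hgW : genericPoint X.A ∈ D.W i :=
        ((genericPoint_spec X.A).mem_open_set_iff (D.W i).isOpen).mpr
          (by simpa using (inferInstance : Nonempty (D.W i)))
      refine centre_mem_of_forall_value_mem (D.isAffine i) Q (by rw [hQ]; exact hgW) V fun r =>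
        hV' ⟨0, fun V₁ hV₁ => MonBound.of_mem
          (value_mem_val V₁ Q (X.germToFF_mem_regAt hV₁ r)) 0⟩
    have hu : X.UnitAt (X.centre V Q) (D.eqn i / 1) :=
      (D.genAt i _ hcW).unitAt (genAt_one fun y hy => hYU y hy _ (hQU V hY))
    rw [div_one] at hu
    have hinv : (X.value Q (D.eqn i))⁻¹ = X.value Q (D.eqn i)⁻¹ :=
      inv_eq_of_mul_eq_one_right (by
        rw [← value_mul Q (hreg _) (hreg _), mul_inv_cancel₀ hu.1, value_one])
    rw [hinv]
    exact value_mem_val V Q hu.2.2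
  obtain ⟨p, hp, hr⟩ := hint
  choose Cf hCf using fun n : Fin p.natDegree => (p.coeff n).2
  refine ⟨Finset.univ.sup Cf, fun V hV => ?_⟩
  refine MonBound.of_root (p.map (algebraMap B X.FF)) (hp.map _) ?_ fun n hn => ?_
  · rw [Polynomial.eval_map]
    exact hr
  · rw [hp.natDegree_map] at hn
    rw [Polynomial.coeff_map]
    exact (hCf ⟨n, hn⟩ V hV).mono (Finset.le_sup (f := Cf) (Finset.mem_univ _))

end Fermat.Agent.AbVar
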