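import Fermat.Agent.AbVar.CartierBasic

/-!
# The class of points given by local equations

A family of local equations gives every point with values in a field a class, functorial in the
field and compatible with reduction at places (`EqFamily.classData`).
-/

set_option autoImplicit false

noncomputable section

open CategoryTheory AlgebraicGeometry
open IsLocalRing (closedPoint)

namespace Fermat.Agent.AbVar

universe u

variable {K : Type u} [Field K] [IsAlgClosed K] {X : AData K}
  {L : Type u} [Field L] [Algebra K L] {L' : Type u} [Field L'] [Algebra K L']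
  {Λ : Type u} [Field Λ] [Algebra K Λ]

/-! ## Maps between valuation rings -/

/-- The map of valuation rings under an embedding. -/
def KVal.comapHom (W : KVal K L') (φ : L →ₐ[K] L') : (W.comap φ).toVal →ₐ[K] W.toVal where
  toFun x := ⟨φ (x : L), KVal.mem_comap.1 x.2⟩
  map_one' := Subtype.ext (map_one φ)
  map_mul' x y := Subtype.ext (map_mul φ (x : L) (y : L))
  map_zero' := Subtype.ext (map_zero φ)
  map_add' x y := Subtype.ext (map_add φ (x : L) (y : L))
  commutes' c := Subtype.ext (φ.commutes c)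

instance KVal.isLocalHom_comapHom (W : KVal K L') (φ : L →ₐ[K] L') :
    IsLocalHom (W.comapHom φ).toRingHom where
  map_nonunit x hx := by
    obtain ⟨u, hu⟩ := hx
    have h1 : φ (x : L) = ((u : W.toVal) : L') := (congrArg Subtype.val hu).symm
    have h2 : ((u : W.toVal) : L') * (((u⁻¹ : _ˣ) : W.toVal) : L') = 1 := by
      rw [← MulMemClass.coe_mul, Units.mul_inv]; rfl
    have hx0 : (x : L) ≠ 0 := fun e => by
      rw [e, map_zero] at h1
      rw [← h1, zero_mul] at h2
      exact zero_ne_one h2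
    refine IsUnit.of_mul_eq_one ⟨(x : L)⁻¹, ?_⟩ (Subtype.ext (mul_inv_cancel₀ hx0))
    rw [KVal.mem_comap, map_inv₀, h1, inv_eq_of_mul_eq_one_right h2]
    exact SetLike.coe_mem _

/-- Inclusion of one valuation ring in a bigger one. -/
def KVal.inclusion {V' V : KVal K L} (h : ∀ x, x ∈ V'.toVal → x ∈ V.toVal) :
    V'.toVal →ₐ[K] V.toVal where
  toFun x := ⟨x, h x x.2⟩
  map_one' := rfl
  map_mul' _ _ := rfl
  map_zero' := rfl
  map_add' _ _ := rfl
  commutes' _ := rfl

omit [IsAlgClosed K] in
theorem KVal.incl_comp_inclusion {V' V : KVal K L} (h : ∀ x, x ∈ V'.toVal → x ∈ V.toVal) :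
    V.incl.comp (KVal.inclusion h) = V'.incl :=
  AlgHom.ext fun _ => rfl

/-- The values of a place on the valuation ring cut out by a valuation ring of the values. -/
def KPlace.pullHom (π : KPlace K L Λ) (W : KVal K Λ) : (π.pull W).toVal →ₐ[K] W.toVal :=
  { (π.resAlg.comp (KVal.inclusion fun _ hx => (KPlace.mem_pull.1 hx).1)).toRingHom.codRestrict
      W.toVal.toSubring fun x => (KPlace.mem_pull.1 x.2).2 with
    commutes' := fun c => Subtype.ext (π.res_algebraMap c) }

omit [IsAlgClosed K] in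
theorem KPlace.mem_of_mem_pull (π : KPlace K L Λ) (W : KVal K Λ) :
    ∀ x, x ∈ (π.pull W).toVal → x ∈ π.toKVal.toVal := fun _ hx => (KPlace.mem_pull.1 hx).1

omit [IsAlgClosed K] in
theorem KPlace.incl_comp_pullHom (π : KPlace K L Λ) (W : KVal K Λ) :
    W.incl.comp (π.pullHom W) =
      π.resAlg.comp (KVal.inclusion (π.mem_of_mem_pull W)) :=
  AlgHom.ext fun _ => rfl

instance KPlace.isLocalHom_pullHom (π : KPlace K L Λ) (W : KVal K Λ) :
    IsLocalHom (π.pullHom W).toRingHom where
  map_nonunit x hx := by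
    obtain ⟨u, hu⟩ := hx
    obtain ⟨h1, h2⟩ := KPlace.mem_pull.1 x.2
    have hval : π.res ⟨x, h1⟩ = ((u : W.toVal) : Λ) := (congrArg Subtype.val hu).symm
    have h3 : ((u : W.toVal) : Λ) * (((u⁻¹ : _ˣ) : W.toVal) : Λ) = 1 := by
      rw [← MulMemClass.coe_mul, Units.mul_inv]; rfl
    have hne : π.res ⟨x, h1⟩ ≠ 0 := fun e => by
      rw [hval] at e
      rw [e, zero_mul] at h3
      exact zero_ne_one h3
    have hx0 : (x : L) ≠ 0 := fun e => hne (by
      rw [show (⟨(x : L), h1⟩ : π.toKVal.toVal) = 0 from Subtype.ext e, map_zero])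
    have hi := π.inv_mem_of_res_ne_zero hne
    refine IsUnit.of_mul_eq_one ⟨(x : L)⁻¹, hi, ?_⟩ (Subtype.ext (mul_inv_cancel₀ hx0))
    have h4 : π.res ⟨(x : L)⁻¹, hi⟩ = (((u⁻¹ : _ˣ) : W.toVal) : Λ) := by
      refine (inv_eq_of_mul_eq_one_right (a := π.res ⟨x, h1⟩) ?_).symm.trans
        (inv_eq_of_mul_eq_one_right (by rw [hval]; exact h3))
      rw [← map_mul, show (⟨(x : L), h1⟩ : π.toKVal.toVal) * ⟨(x : L)⁻¹, hi⟩ = 1 from
        Subtype.ext (mul_inv_cancel₀ hx0), map_one]
    rw [h4]
    exact SetLike.coe_mem _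

instance KPlace.isLocalHom_resAlg (π : KPlace K L Λ) : IsLocalHom π.resAlg.toRingHom where
  map_nonunit x hx := π.isUnit_of_res_ne_zero x hx.ne_zero

namespace AData

omit [IsAlgClosed K] in
theorem centre_ptMap (W : KVal K L') (φ : L →ₐ[K] L') (P : X.Pt L) :
    X.centre W (X.ptMap φ P) = X.centre (W.comap φ) P := by
  have hc : W.incl.comp (W.comapHom φ) = φ.comp (W.comap φ).incl := AlgHom.ext fun _ => rfl
  rw [centre, valPt_eq (Q := X.ptMap (W.comapHom φ) (X.valPt (W.comap φ) P))
    (by rw [ptMap_comp, hc, ← ptMap_comp, ptMap_valPt])]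
  exact ptAt_ptMap _ inferInstance _

omit [IsAlgClosed K] in
theorem red_eq (π : KPlace K L Λ) (P : X.Pt L) :
    X.red π P = X.ptMap π.resAlg (X.valPt π.toKVal P) := rfl

omit [IsAlgClosed K] in
theorem ptAt_red_eq_centre (π : KPlace K L Λ) (P : X.Pt L) :
    X.ptAt (X.red π P) = X.centre π.toKVal P := by
  rw [red_eq]
  exact ptAt_ptMap _ inferInstance _

omit [IsAlgClosed K] in
theorem valPt_of_le {V' V : KVal K L} (h : ∀ x, x ∈ V'.toVal → x ∈ V.toVal) (P : X.Pt L) :
    X.valPt V P = X.ptMap (KVal.inclusion h) (X.valPt V' P) :=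
  valPt_eq (by rw [ptMap_comp, KVal.incl_comp_inclusion, ptMap_valPt])

omit [IsAlgClosed K] in
theorem centre_red (π : KPlace K L Λ) (W : KVal K Λ) (P : X.Pt L) :
    X.centre W (X.red π P) = X.centre (π.pull W) P := by
  rw [centre, valPt_eq (Q := X.ptMap (π.pullHom W) (X.valPt (π.pull W) P))
    (by rw [ptMap_comp, π.incl_comp_pullHom, ← ptMap_comp, ← valPt_of_le, red_eq])]
  exact ptAt_ptMap _ inferInstance _

omit [IsAlgClosed K] in
theorem centre_specializes_of_le {V' V : KVal K L} (h : ∀ x, x ∈ V'.toVal → x ∈ V.toVal)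
    (P : X.Pt L) : X.centre V P ⤳ X.centre V' P := by
  rw [centre, centre, valPt_of_le h]
  exact specializes_ptMap _ _

end AData

open AData

/-- Local equations: one function for each point, changing by units under generisation. -/
structure EqFamily (X : AData K) where
  /-- the equation at a point -/
  t : X.A → X.FF
  ne_zero : ∀ x, t x ≠ 0
  spec : ∀ {z x : X.A}, z ⤳ x → X.UnitAt z (t z / t x)

namespace EqFamily

variable (T : EqFamily X)

open Classical in
/-- The value of the change of equation, as a unit of the field. -/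
def jump (P : X.Pt L) (c : X.A) : Lˣ :=
  if h : X.value P (T.t c / T.t (X.ptAt P)) ≠ 0 then Units.mk0 _ h else 1

theorem unitAt_div {z c : X.A} (h : z ⤳ c) : X.UnitAt z (T.t c / T.t z) := by
  rw [← inv_div]
  exact (T.spec h).inv

theorem coe_jump (P : X.Pt L) {c : X.A} (h : X.ptAt P ⤳ c) :
    (T.jump P c : L) = X.value P (T.t c / T.t (X.ptAt P)) := by
  rw [jump, dif_pos ((T.unitAt_div h).isUnit_value P).ne_zero, Units.val_mk0]

/-- The class of a point. -/
def clsAt (P : X.Pt L) : ClGroup K L :=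
  fun V => V.cls (Additive.ofMul (T.jump P (X.centre V P)))

/-- The class is functorial in the field. -/
theorem clsAt_map (φ : L →ₐ[K] L') (P : X.Pt L) :
    T.clsAt (X.ptMap φ P) = mapCl φ (T.clsAt P) := by
  refine funext fun W => ?_
  rw [mapCl_apply, clsAt, clsAt, KVal.clsMap_cls]
  refine congrArg W.cls (congrArg Additive.ofMul (Units.ext ?_))
  rw [T.coe_jump _ (specializes_centre W (X.ptMap φ P)), Units.coe_map,
    T.coe_jump _ (specializes_centre (W.comap φ) P), centre_ptMap,
    ptAt_ptMap φ inferInstance P]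
  exact value_ptMap φ P (T.unitAt_div (specializes_centre (W.comap φ) P)).2.1

/-- The class commutes with reduction at a place. -/
theorem clsAt_red (π : KPlace K L Λ) (P : X.Pt L) :
    SpecTo π (T.clsAt P) (T.clsAt (X.red π P)) := by
  set V := π.toKVal with hV
  set c₀ := X.centre V P with hc₀
  have hp : X.ptAt P ⤳ c₀ := specializes_centre V P
  refine ⟨T.jump P c₀, fun W => ?_⟩
  set c₁ := X.centre (π.pull W) P with hc₁
  have h10 : c₀ ⤳ c₁ := centre_specializes_of_le (π.mem_of_mem_pull W) P
  have hu := T.unitAt_div h10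
  set a := X.value (X.valPt V P) (T.t c₁ / T.t c₀) with ha
  have hau : IsUnit a := hu.isUnit_value (X.valPt V P)
  have hxe : X.value P (T.t c₁ / T.t c₀) = (a : L) := value_eq_valPt V P hu.2.1
  have hxne : X.value P (T.t c₁ / T.t c₀) ≠ 0 := ((hu.mono hp).isUnit_value P).ne_zero
  have hredc : X.ptAt (X.red π P) = c₀ := ptAt_red_eq_centre π P
  have hye : X.value (X.red π P) (T.t c₁ / T.t c₀) = π.res a := by
    rw [red_eq]
    exact value_ptMap π.resAlg _ hu.2.1
  refine ⟨Units.mk0 _ hxne, ?_, T.jump (X.red π P) c₁, ?_, ?_, ?_, ?_⟩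
  · rw [Units.val_mk0, hxe]
    exact SetLike.coe_mem _
  · rw [Units.val_mk0, hxe]
    obtain ⟨u, hu'⟩ := hau
    rw [← hu']
    have h1 : ((u : V.toVal) : L) * (((u⁻¹ : _ˣ) : V.toVal) : L) = 1 := by
      rw [← MulMemClass.coe_mul, Units.mul_inv]; rfl
    rw [inv_eq_of_mul_eq_one_right h1]
    exact SetLike.coe_mem _
  · rw [T.coe_jump (X.red π P) (by rw [hredc]; exact h10), hredc, hye]
    exact congrArg π.res (Subtype.ext hxe)
  · show (π.pull W).cls (Additive.ofMul (T.jump P c₁)) = _
    refine congrArg (π.pull W).cls (congrArg Additive.ofMul (Units.ext ?_))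
    rw [Units.val_mul, Units.val_mk0, T.coe_jump P (hp.trans h10), T.coe_jump P hp,
      ← value_mul P (T.unitAt_div hp).2.1 (hu.mono hp).2.1]
    congr 1
    field_simp [T.ne_zero]
  · show W.cls _ = W.cls _
    rw [centre_red]

theorem clsAt_const_of_local (O : Subalgebra K L) [IsLocalRing O] (P : X.Pt O) :
    ∃ h : Lˣ, ∀ V : KVal K L, (∀ x ∈ O, x ∈ V.toVal) →
      T.clsAt (X.ptMap O.val P) V = V.cls (Additive.ofMul h) := by
  set PL := X.ptMap O.val P
  have hpq : X.ptAt PL ⤳ X.ptAt P := specializes_ptMap O.val P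
  refine ⟨T.jump PL (X.ptAt P), fun V hOV => ?_⟩
  let j : O →ₐ[K] V.toVal :=
    { toFun := fun x => ⟨x, hOV x x.2⟩
      map_one' := rfl
      map_mul' := fun _ _ => rfl
      map_zero' := rfl
      map_add' := fun _ _ => rfl
      commutes' := fun _ => rfl }
  have hv : X.valPt V PL = X.ptMap j P := valPt_eq (by
    rw [ptMap_comp]
    rfl)
  have hcq : X.centre V PL ⤳ X.ptAt P := by
    rw [centre, hv]
    exact specializes_ptMap j P
  have hu : X.UnitAt (X.centre V PL) (T.t (X.centre V PL) / T.t (X.ptAt P)) := T.spec hcq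
  have hw : X.value PL (T.t (X.centre V PL) / T.t (X.ptAt P)) ≠ 0 :=
    ((hu.mono (specializes_centre V PL)).isUnit_value PL).ne_zero
  have hval : (T.jump PL (X.centre V PL) : L) =
      X.value PL (T.t (X.centre V PL) / T.t (X.ptAt P)) * (T.jump PL (X.ptAt P) : L) := by
    rw [T.coe_jump PL (specializes_centre V PL), T.coe_jump PL hpq,
      ← value_mul PL (hu.mono (specializes_centre V PL)).2.1 (T.unitAt_div hpq).2.1]
    congr 1
    field_simp [T.ne_zero]
  have hmem : Units.mk0 _ hw ∈ V.units := by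
    rw [KVal.mem_units_iff, Units.val_mk0]
    refine ⟨value_mem_val V PL hu.2.1, ?_⟩
    have h2 := value_mem_val V PL hu.2.2
    have h3 : X.value PL (T.t (X.centre V PL) / T.t (X.ptAt P)) *
        X.value PL (T.t (X.centre V PL) / T.t (X.ptAt P))⁻¹ = 1 := by
      rw [← value_mul PL (hu.mono (specializes_centre V PL)).2.1
        (hu.mono (specializes_centre V PL)).2.2, mul_inv_cancel₀ hu.1, value_one]
    rwa [inv_eq_of_mul_eq_one_right h3]
  have hj : T.jump PL (X.centre V PL) = Units.mk0 _ hw * T.jump PL (X.ptAt P) :=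
    Units.ext hval
  show V.cls (Additive.ofMul (T.jump PL (X.centre V PL))) = _
  rw [hj, ofMul_mul, map_add, show V.cls (Additive.ofMul (Units.mk0 _ hw)) = 0 from
    (QuotientGroup.eq_one_iff _).2 hmem]
  exact zero_add (V.cls (Additive.ofMul (T.jump PL (X.ptAt P))))

/-- The class data of a family of equations. -/
def classData (hfin : ∀ {L : Type u} [Field L] [Algebra K L] (P : X.Pt L), ∃ S : Finset L,
    ∀ V : KVal K L, (∀ x ∈ S, x ∈ V.toVal) → T.clsAt P V = 0) : ClassData X where
  cls P := T.clsAt P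
  cls_map φ P := T.clsAt_map φ P
  cls_red π P := T.clsAt_red π P
  cls_const_of_local O _ P := T.clsAt_const_of_local O P
  cls_finite P := hfin P

end EqFamily

/-- A class and its pullback by negation. -/
def ClassData.symmetrize (D : ClassData X) : ClassData X where
  cls P := D.cls P + D.cls (-P)
  cls_map φ P := by rw [← map_neg, D.cls_map, D.cls_map, map_add]
  cls_red π P := by
    have h2 := D.cls_red π (-P)
    rw [map_neg] at h2
    exact (D.cls_red π P).add h2
  cls_const_of_local O _ P := by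
    obtain ⟨a, ha⟩ := D.cls_const_of_local O P
    obtain ⟨b, hb⟩ := D.cls_const_of_local O (-P)
    refine ⟨a * b, fun V hV => ?_⟩
    show D.cls _ V + D.cls (-_) V = _
    rw [← map_neg, ha V hV, hb V hV, ← map_add, ofMul_mul]
  cls_finite P := by
    classical
    obtain ⟨S₁, h₁⟩ := D.cls_finite P
    obtain ⟨S₂, h₂⟩ := D.cls_finite (-P)
    refine ⟨S₁ ∪ S₂, fun V hV => ?_⟩
    show D.cls P V + D.cls (-P) V = _
    rw [h₁ V fun x hx => hV x (Finset.mem_union_left _ hx),
      h₂ V fun x hx => hV x (Finset.mem_union_right _ hx)]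
    exact add_zero (0 : Additive (_ ⧸ V.units))

omit [IsAlgClosed K] in
theorem ClassData.symmetrize_symm (D : ClassData X) (P : X.Pt L) :
    D.symmetrize.cls (-P) = D.symmetrize.cls P := by
  show D.cls (-P) + D.cls (-(-P)) = D.cls P + D.cls (-P)
  rw [neg_neg]
  exact add_comm (D.cls (-P)) (D.cls P)

end Fermat.Agent.AbVar
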