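import Fermat.Agent.AbVar.Generic

/-!
# Classes of points: what a Cartier divisor on the abelian variety gives

`ClassData` is a functorial class for the points with values in fields, `GoodClass` is a symmetric
effective one which bounds generators of the function field.
-/

set_option autoImplicit false

noncomputable section

namespace Fermat.Agent.AbVar

universe u

variable {K : Type u} [Field K]

/-- A class for every point with values in a field, functorial, compatible with reduction. -/
structure ClassData (X : AData K) where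
  /-- the class of a point -/
  cls : ∀ {L : Type u} [Field L] [Algebra K L], X.Pt L → ClGroup K L
  cls_map : ∀ {L L' : Type u} [Field L] [Algebra K L] [Field L'] [Algebra K L'] (φ : L →ₐ[K] L')
    (P : X.Pt L), cls (X.ptMap φ P) = mapCl φ (cls P)
  cls_red : ∀ {L Λ : Type u} [Field L] [Algebra K L] [Field Λ] [Algebra K Λ] (π : KPlace K L Λ)
    (P : X.Pt L), SpecTo π (cls P) (cls (X.red π P))
  cls_const_of_local : ∀ {L : Type u} [Field L] [Algebra K L] (O : Subalgebra K L) [IsLocalRing O]
    (P : X.Pt O), ∃ h : Lˣ, ∀ V : KVal K L, (∀ x ∈ O, x ∈ V.toVal) →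
      cls (X.ptMap O.val P) V = V.cls (Additive.ofMul h)
  cls_finite : ∀ {L : Type u} [Field L] [Algebra K L] (P : X.Pt L), ∃ S : Finset L,
    ∀ V : KVal K L, (∀ x ∈ S, x ∈ V.toVal) → cls P V = 0

variable [IsAlgClosed K]

/-- An effective symmetric class on the abelian variety, big enough to see the functions. -/
structure GoodClass (X : AData K) extends ClassData X where
  symm : ∀ {L : Type u} [Field L] [Algebra K L] (P : X.Pt L), cls (-P) = cls P
  /-- the divisor on the function field -/
  h : ClGroup K X.FF
  h_eq : IsPrinc (h - cls X.genPt)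
  effective : ∀ (V : KVal K X.FF) (x : (X.FF)ˣ), h V = V.cls (Additive.ofMul x) →
    (x : X.FF) ∈ V.toVal
  /-- functions with poles bounded by the divisor -/
  Y : Finset X.FF
  Y_gen : IntermediateField.adjoin K (Y : Set X.FF) = ⊤
  Y_mem : ∀ y ∈ Y, ∀ (V : KVal K X.FF) (x : (X.FF)ˣ), h V = V.cls (Additive.ofMul x) →
    y * (x : X.FF) ∈ V.toVal
  bound : ∃ C : ℕ, ∀ (V : KVal K X.FF) (x : (X.FF)ˣ), h V = V.cls (Additive.ofMul x) →
    ∃ l : List X.FF, l.length ≤ C ∧ (∀ y ∈ l, y ∈ Y) ∧ l.prod ≠ 0 ∧
      (x : X.FF)⁻¹ * l.prod⁻¹ ∈ V.toVal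

end Fermat.Agent.AbVar
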