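import Fermat.Agent.CurveTorsion.ConstExt
import Fermat.Agent.FF.Genus
import Fermat.Agent.FF.RepartitionH1

/-!
# Constant extensions of function fields over algebraically closed fields

Existence, the genus does not change, and Riemann-Roch spaces extend. No hypothesis on the
characteristic.
-/

set_option autoImplicit false

noncomputable section

namespace Fermat.Agent.AbVar

open AlgebraicCurve Polynomial TensorProduct
open scoped IntermediateField
open Fermat.Agent.FF
open Fermat.Agent.CurveTorsion

universe u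

/-! ### Specialisation -/

section Spec

variable {K : Type u} [Field K] [IsAlgClosed K]

/-- A nonzero element of a finitely generated domain is nonzero at a rational point. -/
theorem exists_algHom_ne_zero {R : Type u} [CommRing R] [IsDomain R] [Algebra K R]
    [Algebra.FiniteType K R] {c : R} (hc : c ≠ 0) : ∃ χ : R →ₐ[K] K, χ c ≠ 0 := by
  have : IsJacobsonRing R := isJacobsonRing_of_finiteType (A := K)
  have hj : (⊥ : Ideal R).jacobson = ⊥ :=
    IsJacobsonRing.out inferInstance (Ideal.isPrime_bot (α := R)).isRadical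
  have hcj : c ∉ (⊥ : Ideal R).jacobson := by rwa [hj, Ideal.mem_bot]
  obtain ⟨m, hm, hcm⟩ : ∃ m : Ideal R, m.IsMaximal ∧ c ∉ m := by
    by_contra h
    push Not at h
    exact hcj (Ideal.mem_sInf.mpr fun {J} hJ => h J hJ.2)
  let := Ideal.Quotient.field m
  have : Module.Finite K (R ⧸ m) := finite_of_finite_type_of_isJacobsonRing K (R ⧸ m)
  let e : K ≃ₐ[K] R ⧸ m := AlgEquiv.ofBijective (Algebra.ofId K (R ⧸ m))
    IsAlgClosed.algebraMap_bijective_of_isIntegral
  refine ⟨e.symm.toAlgHom.comp (Ideal.Quotient.mkₐ K m), fun h => hcm ?_⟩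
  have h' : Ideal.Quotient.mk m c = 0 := e.symm.injective (h.trans (map_zero _).symm)
  exact Ideal.Quotient.eq_zero_iff_mem.mp h'

variable {L F : Type u} [Field L] [Algebra K L] [Field F] [Algebra K F]

/-- `L ⊗ F` is a domain when `K` is algebraically closed. -/
theorem isDomain_tensor : IsDomain (L ⊗[K] F) := by
  classical
  have : Nontrivial (L ⊗[K] F) :=
    (Algebra.TensorProduct.includeLeft_injective (S := K)
      (algebraMap K F).injective).nontrivial
  suffices NoZeroDivisors (L ⊗[K] F) from NoZeroDivisors.to_isDomain _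
  refine ⟨fun {a b} hab => ?_⟩
  let e := Module.Free.chooseBasis K F
  let eL := e.baseChange L
  set s : Finset L := (eL.repr a).support.image (eL.repr a) ∪ (eL.repr b).support.image (eL.repr b)
  let R : Subalgebra K L := Algebra.adjoin K (s : Set L)
  have : Algebra.FiniteType K R := (Subalgebra.fg_iff_finiteType R).mp ⟨s, rfl⟩
  let ι : R ⊗[K] F →ₐ[K] L ⊗[K] F := Algebra.TensorProduct.map R.val (AlgHom.id K F)
  have hι : Function.Injective ι :=
    Module.Flat.rTensor_preserves_injective_linearMap (M := F) R.val.toLinearMap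
      Subtype.val_injective
  have lift : ∀ z : L ⊗[K] F, (∀ i, eL.repr z i ∈ R) →
      ∃ z₀ : R ⊗[K] F, ι z₀ = z ∧ ∀ χ : R →ₐ[K] K, ∀ i,
        e.repr ((Algebra.TensorProduct.lift ((Algebra.ofId K F).comp χ) (AlgHom.id K F)
          fun _ _ => Commute.all _ _) z₀) i = if h : eL.repr z i ∈ R then χ ⟨_, h⟩ else 0 := by
    intro z hz
    refine ⟨∑ i ∈ (eL.repr z).support, (⟨_, hz i⟩ : R) ⊗ₜ e i, ?_, fun χ i => ?_⟩
    · rw [map_sum]
      conv_rhs => rw [← eL.linearCombination_repr z]
      rw [Finsupp.linearCombination_apply, Finsupp.sum]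
      refine Finset.sum_congr rfl fun i _ => ?_
      rw [Module.Basis.baseChange_apply, TensorProduct.smul_tmul', smul_eq_mul, mul_one]
      rfl
    · rw [dif_pos (hz i), map_sum, map_sum, Finsupp.finsetSum_apply]
      rw [Finset.sum_eq_single i]
      · simp [← Algebra.smul_def]
      · intro j _ hj
        simp [← Algebra.smul_def, hj]
      · intro hi
        rw [Finsupp.notMem_support_iff] at hi
        rw [show (⟨eL.repr z i, hz i⟩ : R) = 0 from Subtype.ext hi, TensorProduct.zero_tmul]
        simp
  have hmem : ∀ z ∈ ({a, b} : Set (L ⊗[K] F)), ∀ i, eL.repr z i ∈ R := by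
    intro z hz i
    by_cases hi : eL.repr z i = 0
    · rw [hi]; exact zero_mem _
    refine Algebra.subset_adjoin ?_
    rcases hz with rfl | rfl
    · exact Finset.mem_union_left _ (Finset.mem_image_of_mem _ (Finsupp.mem_support_iff.mpr hi))
    · exact Finset.mem_union_right _ (Finset.mem_image_of_mem _ (Finsupp.mem_support_iff.mpr hi))
  obtain ⟨a₀, ha₀, hχa⟩ := lift a (hmem a (by simp))
  obtain ⟨b₀, hb₀, hχb⟩ := lift b (hmem b (by simp))
  by_contra h
  push Not at h
  obtain ⟨i, hi⟩ : ∃ i, eL.repr a i ≠ 0 := by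
    by_contra hall
    push Not at hall
    exact h.1 (eL.repr.map_eq_zero_iff.mp (Finsupp.ext hall))
  obtain ⟨j, hj⟩ : ∃ j, eL.repr b j ≠ 0 := by
    by_contra hall
    push Not at hall
    exact h.2 (eL.repr.map_eq_zero_iff.mp (Finsupp.ext hall))
  have hai := hmem a (by simp) i
  have hbj := hmem b (by simp) j
  obtain ⟨χ, hχ⟩ := exists_algHom_ne_zero (K := K) (R := R) (c := ⟨_, hai⟩ * ⟨_, hbj⟩)
    (mul_ne_zero (fun h0 => hi (congrArg Subtype.val h0)) fun h0 => hj (congrArg Subtype.val h0))
  rw [map_mul] at hχ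
  have h0 : a₀ * b₀ = 0 := hι (by rw [map_mul, map_zero, ha₀, hb₀, hab])
  have := congrArg (Algebra.TensorProduct.lift ((Algebra.ofId K F).comp χ) (AlgHom.id K F)
    fun _ _ => Commute.all _ _) h0
  rw [map_mul, map_zero, mul_eq_zero] at this
  rcases this with h1 | h1
  · have := hχa χ i
    rw [h1, dif_pos hai] at this
    exact left_ne_zero_of_mul hχ (by simpa using this.symm)
  · have := hχb χ j
    rw [h1, dif_pos hbj] at this
    exact right_ne_zero_of_mul hχ (by simpa using this.symm)

/-- **A constant extension exists.** -/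
theorem exists_constExt [IsFunctionField K F] :
    ∃ (M : Type u) (_ : Field M) (_ : Algebra K M) (_ : Algebra L M) (_ : Algebra F M),
      IsScalarTower K L M ∧ IsScalarTower K F M ∧ IsConstExt F L M := by
  have := isDomain_tensor (K := K) (L := L) (F := F)
  let M := FractionRing (L ⊗[K] F)
  let iF : F →+* M := (algebraMap (L ⊗[K] F) M).comp
    (Algebra.TensorProduct.includeRight (A := L) (B := F) : F →ₐ[K] L ⊗[K] F).toRingHom
  let : Algebra F M := iF.toAlgebra
  have hL : ∀ l : L, algebraMap L M l = algebraMap (L ⊗[K] F) M (l ⊗ₜ 1) := fun l =>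
    (IsScalarTower.algebraMap_apply L (L ⊗[K] F) M l)
  have hF : ∀ f : F, algebraMap F M f = algebraMap (L ⊗[K] F) M (1 ⊗ₜ f) := fun f => rfl
  have hKL : IsScalarTower K L M := inferInstance
  have hKF : IsScalarTower K F M := IsScalarTower.of_algebraMap_eq fun c => by
    rw [IsScalarTower.algebraMap_apply K (L ⊗[K] F) M, hF]
    congr 1
    rw [Algebra.TensorProduct.algebraMap_apply, ← mul_one (algebraMap K L c), ← Algebra.smul_def,
      TensorProduct.smul_tmul, ← Algebra.algebraMap_eq_smul_one]
  refine ⟨M, inferInstance, inferInstance, inferInstance, inferInstance, hKL, hKF, ?_, ?_⟩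
  · refine eq_top_iff.mpr fun x _ => ?_
    obtain ⟨a, b, -, rfl⟩ := IsFractionRing.div_surjective (L ⊗[K] F) x
    have key : ∀ z : L ⊗[K] F, algebraMap (L ⊗[K] F) M z ∈
        IntermediateField.adjoin L (Set.range (algebraMap F M)) := by
      intro z
      induction z using TensorProduct.induction_on with
      | zero => rw [map_zero]; exact zero_mem _
      | tmul l f =>
        rw [show l ⊗ₜ[K] f = l ⊗ₜ 1 * 1 ⊗ₜ f by simp, map_mul, ← hL, ← hF]
        exact mul_mem (IntermediateField.algebraMap_mem _ l)
          (IntermediateField.subset_adjoin _ _ ⟨f, rfl⟩)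
      | add y z hy hz => rw [map_add]; exact add_mem hy hz
    exact div_mem (key a) (key b)
  · obtain ⟨x, hx, -⟩ := IsFunctionField.exists_transcendental_finite (K := K) (F := F)
    refine ⟨x, transcendental_iff.mpr fun p hp => ?_⟩
    have hinc : Function.Injective
        ((Algebra.TensorProduct.map (AlgHom.id K L) (aeval x)).toLinearMap :
          L ⊗[K] K[X] →ₗ[K] L ⊗[K] F) :=
      Module.Flat.lTensor_preserves_injective_linearMap (M := L) (aeval x).toLinearMap
        (transcendental_iff_injective.mp hx)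
    set φ : L[X] →ₐ[L] L ⊗[K] F := aeval (1 ⊗ₜ x) with hφ
    have hφp : φ p = 0 := by
      refine IsFractionRing.injective (L ⊗[K] F) M ?_
      rw [map_zero, hφ, ← aeval_algebraMap_apply, ← hF]
      exact hp
    have hcomp : φ.restrictScalars K =
        (Algebra.TensorProduct.map (AlgHom.id K L) (aeval x)).comp
          ((polyEquivTensor' K L).toAlgHom.restrictScalars K) := by
      refine AlgHom.ext fun q => ?_
      induction q using Polynomial.induction_on' with
      | add q r hq hr => simp only [map_add, hq, hr]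
      | monomial n l =>
        simp [hφ, ← C_mul_X_pow_eq_monomial, Algebra.TensorProduct.algebraMap_apply,
          Algebra.TensorProduct.tmul_pow]
    have h0 := AlgHom.congr_fun hcomp p
    rw [AlgHom.restrictScalars_apply, hφp] at h0
    exact (polyEquivTensor' K L).injective ((hinc (h0.symm.trans (map_zero _).symm)).trans
      (map_zero _).symm)

end Spec

/-! ### The extension -/

variable {K F L M : Type u} [Field K] [Field F] [Field L] [Field M] [Algebra K F] [Algebra K L]
  [Algebra L M] [Algebra F M] [Algebra K M] [IsScalarTower K L M] [IsScalarTower K F M]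
  [IsAlgClosed K] [IsAlgClosed L] [IsFunctionField K F] [IsFunctionField L M]
  [hext : IsConstExt F L M]

section Lift

variable {R : Type u} [CommRing R] [Algebra K R] (j : R →ₐ[K] L)

/-- The map of a coefficient ring tensored with `F` into the extension. -/
def constLift : R ⊗[K] F →ₐ[K] M :=
  Algebra.TensorProduct.lift ((IsScalarTower.toAlgHom K L M).comp j) (IsScalarTower.toAlgHom K F M)
    fun _ _ => Commute.all _ _

omit hext [IsAlgClosed K] [IsAlgClosed L] [IsFunctionField K F] [IsFunctionField L M] in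
theorem constLift_tmul (r : R) (f : F) :
    constLift (M := M) j (r ⊗ₜ[K] f) = algebraMap L M (j r) * algebraMap F M f := by
  simp [constLift]

include hext in
theorem constLift_injective (hj : Function.Injective j) :
    Function.Injective (constLift (F := F) (M := M) j) := by
  classical
  rw [injective_iff_map_eq_zero]
  intro z hz
  let e := Module.Free.chooseBasis K F
  let eR := e.baseChange R
  rw [← eR.linearCombination_repr z, Finsupp.linearCombination_apply, Finsupp.sum, map_sum] at hz
  set s := (eR.repr z).support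
  have hli : LinearIndependent L fun i : s => algebraMap F M (e i) :=
    linearIndependent_algebraMap (K₀ := K) (K := L) (F := M)
      (e.linearIndependent.comp _ Subtype.val_injective)
  have h0 := Fintype.linearIndependent_iff.mp hli (fun i => j (eR.repr z i)) (by
    refine Eq.trans ?_ hz
    rw [← Finset.sum_coe_sort s]
    refine Finset.sum_congr rfl fun i _ => ?_
    rw [Module.Basis.baseChange_apply, TensorProduct.smul_tmul', smul_eq_mul, mul_one,
      constLift_tmul, Algebra.smul_def])
  refine eR.repr.map_eq_zero_iff.mp (Finsupp.ext fun i => ?_)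
  by_contra hi
  exact hi (hj (by rw [h0 ⟨i, Finsupp.mem_support_iff.mpr hi⟩, Finsupp.zero_apply, map_zero]))

end Lift

include hext in
/-- `L ⊗ F → M` is injective. -/
theorem tensorLift_injective :
    Function.Injective (constLift (F := F) (M := M) (AlgHom.id K L)) :=
  constLift_injective _ Function.injective_id

/-! ### Leading terms at a place -/

section Leading

variable (v : Place K F)

/-- The span of the functions of `F` of order at least `m`. -/
def spanGE (m : ℤ) : Submodule L M :=
  Submodule.span L (algebraMap F M '' (ordGE v m : Set F))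

include hext in
theorem spanGE_le (m : ℤ) : spanGE (L := L) (M := M) v m ≤ ordGE (extPlace L M v) m :=
  Submodule.span_le.mpr fun _ ⟨_, hf, e⟩ => e ▸ (mem_ordGE_extPlace (K := L) (F := M)).mpr hf

omit hext [IsFunctionField L M] [IsAlgClosed L] in
theorem exists_sub_mem_spanGE {m : ℤ} {t : F} (ht0 : t ≠ 0) (ht : v.ord t = m) {a : M}
    (ha : a ∈ spanGE (L := L) v m) :
    ∃ l : L, a - l • algebraMap F M t ∈ spanGE (L := L) v (m + 1) := by
  induction ha using Submodule.span_induction with
  | mem a ha =>
    obtain ⟨f, hf, rfl⟩ := ha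
    have h0 : t⁻¹ * f ∈ ordGE v 0 := by
      have := mul_mem_ordGE v (mem_ordGE_of_le_ord v (le_refl (v.ord t⁻¹))) hf
      rwa [v.ord_inv, ht, neg_add_cancel] at this
    refine ⟨algebraMap K L (ev v (t⁻¹ * f)), Submodule.subset_span
      ⟨f - ev v (t⁻¹ * f) • t, ?_, ?_⟩⟩
    · have h1 := mul_mem_ordGE v (mem_ordGE_of_le_ord v (le_refl (v.ord t))) (sub_ev_mem v h0)
      rw [ht, mul_sub, mul_inv_cancel_left₀ ht0, mul_comm t, ← Algebra.smul_def] at h1
      exact h1
    · rw [map_sub, Algebra.smul_def, map_mul, Algebra.smul_def,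
        ← IsScalarTower.algebraMap_apply K F M, ← IsScalarTower.algebraMap_apply K L M]
  | zero => exact ⟨0, by simp⟩
  | add a b _ _ ha hb =>
    obtain ⟨l, hl⟩ := ha
    obtain ⟨l', hl'⟩ := hb
    exact ⟨l + l', by rw [add_smul, add_sub_add_comm]; exact add_mem hl hl'⟩
  | smul c a _ ha =>
    obtain ⟨l, hl⟩ := ha
    exact ⟨c * l, by rw [mul_smul, ← smul_sub]; exact Submodule.smul_mem _ c hl⟩

include hext in
/-- **Leading term.** -/
theorem exists_leading {a : M} (ha : a ∈ Submodule.span L (Set.range (algebraMap F M)))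
    (ha0 : a ≠ 0) : ∃ (t : F) (l : L), t ≠ 0 ∧ v.ord t = (extPlace L M v).ord a ∧ l ≠ 0 ∧
      a - l • algebraMap F M t ∈ spanGE (L := L) v ((extPlace L M v).ord a + 1) := by
  set w := extPlace L M v
  obtain ⟨m, hm⟩ : ∃ m : ℤ, a ∈ spanGE (L := L) v m := by
    clear ha0
    induction ha using Submodule.span_induction with
    | mem a ha =>
      obtain ⟨f, rfl⟩ := ha
      exact ⟨v.ord f, Submodule.subset_span ⟨f, mem_ordGE_of_le_ord v le_rfl, rfl⟩⟩
    | zero => exact ⟨0, zero_mem _⟩
    | add a b _ _ ha hb =>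
      obtain ⟨i, hi⟩ := ha
      obtain ⟨j, hj⟩ := hb
      exact ⟨min i j, add_mem
        (Submodule.span_mono (Set.image_mono (ordGE_antitone v (min_le_left i j))) hi)
        (Submodule.span_mono (Set.image_mono (ordGE_antitone v (min_le_right i j))) hj)⟩
    | smul c a _ ha =>
      obtain ⟨i, hi⟩ := ha
      exact ⟨i, Submodule.smul_mem _ c hi⟩
  have hmle : m ≤ w.ord a := (mem_ordGE_of_ne_zero w ha0).mp (spanGE_le v m hm)
  have hlead : ∀ j : ℤ, a ∈ spanGE (L := L) v j → j ≤ w.ord a → ∀ t : F, t ≠ 0 → v.ord t = j →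
      ∀ l : L, a - l • algebraMap F M t ∈ spanGE (L := L) v (j + 1) →
        (j < w.ord a → l = 0) ∧ (j = w.ord a → l ≠ 0) := by
    intro j hj hjle t ht0 ht l hl
    have h1 := spanGE_le (L := L) (M := M) v (j + 1) hl
    constructor
    · intro hlt
      by_contra hl0
      have h2 : algebraMap L M l * algebraMap F M t ∈ ordGE w (j + 1) := by
        have := sub_mem (mem_ordGE_of_le_ord w (show j + 1 ≤ w.ord a by omega)) h1
        rwa [sub_sub_cancel, Algebra.smul_def] at this
      have hl' : algebraMap L M l ≠ 0 := by simpa using hl0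
      have ht' : algebraMap F M t ≠ 0 := by simpa using ht0
      rw [mem_ordGE_of_ne_zero w (mul_ne_zero hl' ht'), w.ord_mul hl' ht', ord_algebraMap,
        ord_extPlace, ht] at h2
      omega
    · intro heq hl0
      rw [hl0, zero_smul, sub_zero, mem_ordGE_of_ne_zero w ha0] at h1
      omega
  have hstep : ∀ d : ℕ, m + d ≤ w.ord a → a ∈ spanGE (L := L) v (m + d) := by
    intro d
    induction d with
    | zero => intro _; simpa using hm
    | succ d ih =>
      intro hd
      push_cast at hd
      have hd' := ih (by omega)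
      obtain ⟨t, ht0, ht⟩ := exists_ne_zero_ord_eq v (m + d)
      obtain ⟨l, hl⟩ := exists_sub_mem_spanGE v ht0 ht hd'
      have := (hlead _ hd' (by omega) t ht0 ht l hl).1 (by omega)
      rw [this, zero_smul, sub_zero] at hl
      push_cast
      rwa [← add_assoc]
  obtain ⟨d, hd⟩ : ∃ d : ℕ, w.ord a = m + d := ⟨(w.ord a - m).toNat, by omega⟩
  have hk := hstep d hd.ge
  rw [← hd] at hk
  obtain ⟨t, ht0, ht⟩ := exists_ne_zero_ord_eq v (w.ord a)
  obtain ⟨l, hl⟩ := exists_sub_mem_spanGE v ht0 ht hk
  exact ⟨t, l, ht0, ht, (hlead _ hk le_rfl t ht0 ht l hl).2 rfl, hl⟩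

end Leading

/-! ### Specialisation of a function -/

section Specialise

variable (R : Subalgebra K L)

/-- Evaluation of the coefficients at a point. -/
def specMap (χ : R →ₐ[K] K) : R ⊗[K] F →ₐ[K] F :=
  Algebra.TensorProduct.lift ((Algebra.ofId K F).comp χ) (AlgHom.id K F) fun _ _ => Commute.all _ _

omit [IsAlgClosed K] [IsAlgClosed L] [IsFunctionField K F] in
theorem specMap_tmul (χ : R →ₐ[K] K) (r : R) (f : F) :
    specMap R χ (r ⊗ₜ[K] f) = χ r • f := by
  simp [specMap, Algebra.smul_def]

end Specialise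

/-- `a` is defined over every large enough coefficient ring, with specialisations in `T`. -/
def Liftable (T : Set F) (a : M) : Prop :=
  ∃ s : Finset L, ∀ R : Subalgebra K L, (s : Set L) ⊆ R →
    ∃ z : R ⊗[K] F, constLift (M := M) R.val z = a ∧ ∀ χ, specMap R χ z ∈ T

include hext in
/-- Elements of the span lift with a leading term at `v`. -/
theorem exists_lift_leading (v : Place K F) {a : M}
    (ha : a ∈ Submodule.span L (Set.range (algebraMap F M))) (ha0 : a ≠ 0) :
    ∃ (s : Finset L) (l : L), l ≠ 0 ∧ ∀ R : Subalgebra K L, (s : Set L) ⊆ R →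
      ∃ (z : R ⊗[K] F) (hl : l ∈ R), constLift (M := M) R.val z = a ∧ ∀ χ : R →ₐ[K] K,
        χ ⟨l, hl⟩ ≠ 0 → specMap R χ z ≠ 0 ∧ v.ord (specMap R χ z) = (extPlace L M v).ord a := by
  classical
  obtain ⟨t, l, ht0, ht, hl0, hmem⟩ := exists_leading v ha ha0
  set k := (extPlace L M v).ord a
  obtain ⟨n, c, g, hg⟩ := Submodule.mem_span_set'.mp hmem
  choose f hf hfe using fun i => (g i).2
  refine ⟨insert l (Finset.univ.image c), l, hl0, fun R hR => ?_⟩
  have hlR : l ∈ R := hR (by simp)
  have hcR : ∀ i, c i ∈ R := fun i => hR (by simp)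
  refine ⟨(⟨l, hlR⟩ : R) ⊗ₜ t + ∑ i, (⟨c i, hcR i⟩ : R) ⊗ₜ f i, hlR, ?_, fun χ hχ => ?_⟩
  · rw [map_add, map_sum, constLift_tmul]
    have : ∑ i, constLift (M := M) R.val ((⟨c i, hcR i⟩ : R) ⊗ₜ[K] f i) =
        a - l • algebraMap F M t := by
      rw [← hg]
      refine Finset.sum_congr rfl fun i _ => ?_
      rw [constLift_tmul, ← hfe i, Algebra.smul_def]
      rfl
    rw [this, Algebra.smul_def]
    exact add_sub_cancel _ _
  · rw [map_add, map_sum, specMap_tmul]
    simp only [specMap_tmul]
    set r := ∑ i, χ ⟨c i, hcR i⟩ • f i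
    have hr : r ∈ ordGE v (k + 1) := Submodule.sum_mem _ fun i _ => Submodule.smul_mem _ _ (hf i)
    have h1 : χ ⟨l, hlR⟩ • t ≠ 0 := smul_ne_zero hχ ht0
    have h2 : v.ord (χ ⟨l, hlR⟩ • t) = k := by
      rw [Algebra.smul_def, v.ord_mul (by simpa using hχ) ht0, ord_algebraMap, zero_add, ht]
    exact ord_eq_of_sub_mem v h1 (by rw [add_sub_cancel_left, h2]; exact hr) |>.imp_right
      fun h => h.trans h2

omit [IsAlgClosed K] [IsAlgClosed L] [IsFunctionField K F] [IsFunctionField L M] hext in
theorem liftable_closure {x : F} {T : Subring F} (hK : ∀ c : K, algebraMap K F c ∈ T)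
    (hx : x ∈ T) {a : M}
    (ha : a ∈ Subring.closure (Set.range (algebraMap L M) ∪ {algebraMap F M x})) :
    Liftable (K := K) (L := L) (T : Set F) a := by
  classical
  induction ha using Subring.closure_induction with
  | mem a ha =>
    rcases ha with ⟨l, rfl⟩ | rfl
    · refine ⟨{l}, fun R hR => ⟨(⟨l, hR (by simp)⟩ : R) ⊗ₜ 1, by simp [constLift_tmul],
        fun χ => ?_⟩⟩
      rw [specMap_tmul, ← Algebra.algebraMap_eq_smul_one]
      exact hK _
    · exact ⟨∅, fun R _ => ⟨1 ⊗ₜ x, by simp [constLift_tmul],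
        fun χ => by rw [specMap_tmul, map_one, one_smul]; exact hx⟩⟩
  | zero => exact ⟨∅, fun R _ => ⟨0, map_zero _, fun χ => by simp [T.zero_mem]⟩⟩
  | one => exact ⟨∅, fun R _ => ⟨1, map_one _, fun χ => by simp [T.one_mem]⟩⟩
  | neg a _ ha =>
    obtain ⟨s, hs⟩ := ha
    refine ⟨s, fun R hR => ?_⟩
    obtain ⟨z, hz, hT⟩ := hs R hR
    exact ⟨-z, by rw [map_neg, hz], fun χ => by rw [map_neg]; exact T.neg_mem (hT χ)⟩
  | add a b _ _ ha hb =>
    obtain ⟨s, hs⟩ := ha
    obtain ⟨s', hs'⟩ := hb
    refine ⟨s ∪ s', fun R hR => ?_⟩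
    obtain ⟨z, hz, hT⟩ := hs R fun i hi => hR (by simp [hi])
    obtain ⟨z', hz', hT'⟩ := hs' R fun i hi => hR (by simp [hi])
    exact ⟨z + z', by rw [map_add, hz, hz'],
      fun χ => by rw [map_add]; exact T.add_mem (hT χ) (hT' χ)⟩
  | mul a b _ _ ha hb =>
    obtain ⟨s, hs⟩ := ha
    obtain ⟨s', hs'⟩ := hb
    refine ⟨s ∪ s', fun R hR => ?_⟩
    obtain ⟨z, hz, hT⟩ := hs R fun i hi => hR (by simp [hi])
    obtain ⟨z', hz', hT'⟩ := hs' R fun i hi => hR (by simp [hi])
    exact ⟨z * z', by rw [map_mul, hz, hz'],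
      fun χ => by rw [map_mul]; exact T.mul_mem (hT χ) (hT' χ)⟩

omit [IsAlgClosed L] [IsFunctionField L M] in
include hext in
/-- Every element of `M` is a quotient of combinations of elements of `F`. -/
theorem exists_div_span (z : M) : ∃ a ∈ Submodule.span L (Set.range (algebraMap F M)),
    ∃ b ∈ Submodule.span L (Set.range (algebraMap F M)), z = a / b := by
  have hz : z ∈ IntermediateField.adjoin L (Set.range (algebraMap F M)) := by
    rw [hext.gen]; exact IntermediateField.mem_top
  obtain ⟨a, ha, b, hb, rfl⟩ := IntermediateField.mem_adjoin_iff_div.mp hz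
  have hle : Subalgebra.toSubmodule (Algebra.adjoin L (Set.range (algebraMap F M))) ≤
      Submodule.span L (Set.range (algebraMap F M)) := by
    rw [Algebra.adjoin_eq_span]
    refine Submodule.span_le.mpr fun y hy => Submodule.subset_span ?_
    have : Submonoid.closure (Set.range (algebraMap F M)) ≤
        MonoidHom.mrange (algebraMap F M : F →* M) := Submonoid.closure_le.mpr fun _ h => h
    exact this hy
  exact ⟨a, hle ha, b, hle hb, rfl⟩

include hext in
/-- **Specialisation of a function regular outside one place.** -/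
theorem exists_specialised (P : Place K F) {f : M} (hf0 : f ≠ 0)
    (hf : ∀ w : Place L M, w ≠ extPlace L M P → 0 ≤ w.ord f) :
    ∃ g : F, g ≠ 0 ∧ P.ord g = (extPlace L M P).ord f ∧
      ∀ v : Place K F, v ≠ P → 0 ≤ v.ord g := by
  classical
  obtain ⟨x, hxP, hx⟩ := exists_ord_neg_unique (K := K) P
  set s₀ : Set M := Set.range (algebraMap L M) ∪ {algebraMap F M x} with hs₀
  -- `f` is integral over `L[x]`
  have hint : IsIntegral (Subring.closure s₀) f := by
    have : f ∈ (integralClosure (Subring.closure s₀) M).toSubring := by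
      rw [← iInf_valuationSubring_superset, Subring.mem_iInf]
      rintro ⟨V, hV⟩
      show f ∈ V
      by_cases htop : V = ⊤
      · rw [htop]; exact ValuationSubring.mem_top f
      have hL : ∀ l : L, algebraMap L M l ∈ V := fun l => hV (Or.inl ⟨l, rfl⟩)
      set w : Place L M := ⟨V, hL, htop, isPrincipalIdealRing_valuationSubring_of_ne_top V hL⟩
        with hw
      have hxw : 0 ≤ w.ord (algebraMap F M x) := ord_nonneg_of_mem w (hV (Or.inr rfl))
      have hne : w ≠ extPlace L M P := fun h => by rw [h, ord_extPlace] at hxw; omega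
      exact (mem_toValuationSubring_iff_ord w hf0).mpr (hf w hne)
    exact this
  obtain ⟨p, hp, hpf⟩ := hint
  obtain ⟨a, ha, b, hb, hfab⟩ := exists_div_span (F := F) (L := L) f
  have ha0 : a ≠ 0 := fun h => hf0 (by rw [hfab, h, zero_div])
  have hb0 : b ≠ 0 := fun h => hf0 (by rw [hfab, h, div_zero])
  obtain ⟨sa, la, hla, hA⟩ := exists_lift_leading P ha ha0
  obtain ⟨sb, lb, hlb, hB⟩ := exists_lift_leading P hb hb0
  let T : Subring F :=
    { carrier := {g | ∀ v : Place K F, v ≠ P → g ∈ ordGE v 0}
      zero_mem' := fun v _ => zero_mem _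
      one_mem' := fun v _ => one_mem_ordGE_zero v
      add_mem' := fun hg hg' v hv => add_mem (hg v hv) (hg' v hv)
      neg_mem' := fun hg v hv => neg_mem (hg v hv)
      mul_mem' := fun hg hg' v hv => by simpa using mul_mem_ordGE v (hg v hv) (hg' v hv) }
  have hcoef : ∀ i, Liftable (K := K) (L := L) (T : Set F) ((p.coeff i : M)) := fun i =>
    liftable_closure (x := x) (T := T)
      (fun (c : K) (v : Place K F) _ => algebraMap_mem_ordGE_zero v c)
      (fun (v : Place K F) hv => mem_ordGE_of_le_ord v (hx v hv)) (p.coeff i).2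
  choose sc hC using hcoef
  set n := p.natDegree
  set s : Finset L := {la, lb} ∪ sa ∪ sb ∪ (Finset.range n).biUnion sc with hs
  let R : Subalgebra K L := Algebra.adjoin K (s : Set L)
  have : Algebra.FiniteType K R := (Subalgebra.fg_iff_finiteType R).mp ⟨s, rfl⟩
  have hsR : (s : Set L) ⊆ R := Algebra.subset_adjoin
  obtain ⟨za, hlaR, hza, hχa⟩ := hA R fun i hi => hsR (by simp [hs, Finset.mem_coe.mp hi])
  obtain ⟨zb, hlbR, hzb, hχb⟩ := hB R fun i hi => hsR (by simp [hs, Finset.mem_coe.mp hi])
  have hzc : ∀ i : Fin n, ∃ z : R ⊗[K] F, constLift (M := M) R.val z = (p.coeff i : M) ∧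
      ∀ χ, specMap R χ z ∈ T := fun i =>
    hC i R fun l hl => hsR (by
      simp only [hs, Finset.coe_union, Set.mem_union, Finset.coe_biUnion, Set.mem_iUnion]
      exact Or.inr ⟨i, Finset.mem_coe.mpr (Finset.mem_range.mpr i.2), hl⟩)
  choose zc hzc hzT using hzc
  obtain ⟨χ, hχ⟩ := exists_algHom_ne_zero (K := K) (R := R) (c := ⟨la, hlaR⟩ * ⟨lb, hlbR⟩)
    (mul_ne_zero (fun h => hla (congrArg Subtype.val h)) fun h => hlb (congrArg Subtype.val h))
  rw [map_mul] at hχ
  obtain ⟨hga0, hga⟩ := hχa χ (left_ne_zero_of_mul hχ)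
  obtain ⟨hgb0, hgb⟩ := hχb χ (right_ne_zero_of_mul hχ)
  set ga := specMap R χ za
  set gb := specMap R χ zb
  refine ⟨ga / gb, div_ne_zero hga0 hgb0, ?_, fun v hv => ?_⟩
  · rw [FF.ord_div P hga0 hgb0, hga, hgb, hfab, FF.ord_div _ ha0 hb0]
  -- the equation specialises
  have hkey : za ^ n + ∑ i : Fin n, zc i * za ^ (i : ℕ) * zb ^ (n - i) = 0 := by
    refine constLift_injective (M := M) R.val Subtype.val_injective ?_
    rw [map_add, map_sum, map_zero, map_pow, hza]
    simp only [map_mul, map_pow, hza, hzb, hzc]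
    have h1 := hpf
    rw [hp.as_sum, eval₂_add, eval₂_finsetSum, eval₂_pow, eval₂_X] at h1
    simp only [eval₂_mul, eval₂_C, eval₂_pow, eval₂_X] at h1
    rw [← Fin.sum_univ_eq_sum_range (fun i =>
        algebraMap (Subring.closure s₀) M (p.coeff i) * f ^ i)]
      at h1
    have h2 := congrArg (· * b ^ n) h1
    simp only [zero_mul, add_mul, Finset.sum_mul] at h2
    rw [← mul_pow, hfab, div_mul_cancel₀ a hb0] at h2
    refine Eq.trans ?_ h2
    refine congrArg _ (Finset.sum_congr rfl fun i _ => ?_)
    rw [show (b : M) ^ n = b ^ (i : ℕ) * b ^ (n - i) by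
      rw [← pow_add, Nat.add_sub_cancel' i.2.le], div_pow]
    field_simp
    rfl
  have h3 := congrArg (specMap R χ) hkey
  rw [map_add, map_sum, map_zero] at h3
  simp only [map_mul, map_pow] at h3
  set g := ga / gb with hg
  have h4 : g ^ n + ∑ i : Fin n, specMap R χ (zc i) * g ^ (i : ℕ) = 0 := by
    have := congrArg (· / gb ^ n) h3
    simp only [zero_div, add_div, Finset.sum_div] at this
    refine Eq.trans ?_ this
    rw [hg, div_pow]
    refine congrArg _ (Finset.sum_congr rfl fun i _ => ?_)
    rw [show gb ^ n = gb ^ (i : ℕ) * gb ^ (n - i) by rw [← pow_add, Nat.add_sub_cancel' i.2.le],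
      div_pow]
    field_simp
    rfl
  by_contra hneg
  push Not at hneg
  have hg0 : g ≠ 0 := div_ne_zero hga0 hgb0
  have hsum : ∑ i : Fin n, specMap R χ (zc i) * g ^ (i : ℕ) ∈
      ordGE v (v.ord (g ^ n) + 1) := by
    refine Submodule.sum_mem _ fun i _ => ordGE_antitone v ?_
      (mul_mem_ordGE v (hzT i χ v hv) (mem_ordGE_of_le_ord v (le_refl (v.ord (g ^ (i : ℕ))))))
    rw [FF.ord_pow, FF.ord_pow]
    have : ((i : ℕ) : ℤ) + 1 ≤ n := by exact_mod_cast i.2
    nlinarith
  rw [eq_neg_of_add_eq_zero_right h4, neg_mem_iff, mem_ordGE_of_ne_zero v (pow_ne_zero _ hg0)]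
    at hsum
  omega

/-! ### Riemann-Roch spaces -/

include hext in
theorem algebraMap_mem_riemannRochSpace {D : Divisor K F} {f : F} (hf : f ∈ riemannRochSpace D) :
    algebraMap F M f ∈ riemannRochSpace (extDiv (K := L) (F := M) D) := by
  rw [mem_riemannRochSpace] at hf ⊢
  intro w
  by_cases h : ∃ v : Place K F, extPlace L M v = w
  · obtain ⟨v, rfl⟩ := h
    rw [extDiv_apply]
    exact mem_ordGE_extPlace.mpr (hf v)
  · push Not at h
    rw [extDiv_apply_of_notMem D h, neg_zero]
    refine mem_ordGE_of_le_ord w (le_of_eq ?_)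
    by_contra hne
    obtain ⟨v, hv⟩ := exists_extPlace_of_ord_ne (K₀ := K) (Ne.symm hne)
    exact h v hv

include hext in
theorem linearIndependent_rrBasis (D : Divisor K F) :
    LinearIndependent L fun i => (⟨_, algebraMap_mem_riemannRochSpace (L := L) (M := M)
      (Module.finBasis K (riemannRochSpace D) i).2⟩ :
        riemannRochSpace (extDiv (K := L) (F := M) D)) := by
  refine LinearIndependent.of_comp (riemannRochSpace _).subtype ?_
  exact linearIndependent_algebraMap (K := L) (F := M)
    ((Module.finBasis K (riemannRochSpace D)).linearIndependent.map'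
      (riemannRochSpace D).subtype (Submodule.ker_subtype _))

include hext in
theorem ell_le_ell_extDiv (D : Divisor K F) : ell D ≤ ell (extDiv (K := L) (F := M) D) := by
  simpa [ell] using (linearIndependent_rrBasis (L := L) (M := M) D).fintype_card_le_finrank

include hext in
theorem riemannGenus_constExt_le : riemannGenus L M ≤ riemannGenus K F := by
  obtain ⟨N, hN⟩ := exists_ell_eq_of_degree_ge L M
  obtain ⟨P⟩ := (instNonemptyPlace : Nonempty (Place K F))
  set D : Divisor K F := Finsupp.single P N with hD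
  have hdeg : Divisor.degree D = N := by
    rw [hD, Divisor.degree_single, deg_eq_one, Nat.cast_one, mul_one]
  have h1 := riemann_inequality D
  have h2 := ell_le_ell_extDiv (L := L) (M := M) D
  have h3 := hN (extDiv D) (by rw [degree_extDiv, hdeg])
  rw [degree_extDiv] at h3
  omega

include hext in
theorem ell_single_extPlace_le (P : Place K F) (k : ℕ) :
    ell (Finsupp.single (extPlace L M P) (k : ℤ)) ≤ ell (Finsupp.single P (k : ℤ)) := by
  induction k with
  | zero => simp [ell_zero_eq_one]
  | succ k ih =>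
    set w := extPlace L M P
    have hk : (((k + 1 : ℕ) : ℤ)) = (k : ℤ) + 1 := by push_cast; ring
    rw [hk, Finsupp.single_add, Finsupp.single_add]
    have hup : ell (Finsupp.single w (k : ℤ) + Finsupp.single w 1) ≤
        ell (Finsupp.single w (k : ℤ)) + 1 := by
      have := (riemannRochSpace_step (Finsupp.single w (k : ℤ)) w).2
      rwa [deg_eq_one] at this
    by_cases hM : riemannRochSpace (Finsupp.single w (k : ℤ) + Finsupp.single w 1) ≤
        riemannRochSpace (Finsupp.single w (k : ℤ))
    · exact (Submodule.finrank_mono hM).trans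
        (ih.trans (ell_mono (le_add_of_nonneg_right (by simp))))
    obtain ⟨f, hf, hfn⟩ := SetLike.not_le_iff_exists.mp hM
    have hf0 : f ≠ 0 := fun h => hfn (h ▸ zero_mem _)
    rw [← Finsupp.single_add, mem_riemannRochSpace] at hf
    have hreg : ∀ u : Place L M, u ≠ w → 0 ≤ u.ord f := fun u hu => by
      simpa [Finsupp.single_eq_of_ne hu, mem_ordGE_of_ne_zero u hf0] using hf u
    have hord : w.ord f = -((k : ℤ) + 1) := by
      have h1 := hf w
      rw [Finsupp.single_eq_same, mem_ordGE_of_ne_zero w hf0] at h1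
      by_contra hne
      refine hfn (mem_riemannRochSpace.mpr fun u => ?_)
      rcases eq_or_ne u w with rfl | hu
      · rw [Finsupp.single_eq_same]; exact mem_ordGE_of_le_ord _ (by omega)
      · rw [Finsupp.single_eq_of_ne hu, neg_zero]; exact mem_ordGE_of_le_ord _ (hreg u hu)
    obtain ⟨g, hg0, hgP, hg⟩ := exists_specialised P hf0 hreg
    rw [hord] at hgP
    have hlt : riemannRochSpace (Finsupp.single P (k : ℤ)) <
        riemannRochSpace (Finsupp.single P (k : ℤ) + Finsupp.single P 1) := by
      refine lt_of_le_of_ne (riemannRochSpace_mono (le_add_of_nonneg_right (by simp))) fun h => ?_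
      have hmem : g ∈ riemannRochSpace (Finsupp.single P (k : ℤ) + Finsupp.single P 1) := by
        rw [← Finsupp.single_add, mem_riemannRochSpace]
        intro v
        rcases eq_or_ne v P with rfl | hv
        · rw [Finsupp.single_eq_same]; exact mem_ordGE_of_le_ord _ (by omega)
        · rw [Finsupp.single_eq_of_ne hv, neg_zero]; exact mem_ordGE_of_le_ord _ (hg v hv)
      rw [← h, mem_riemannRochSpace] at hmem
      have := hmem P
      rw [Finsupp.single_eq_same, mem_ordGE_of_ne_zero P hg0] at this
      omega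
    have := Submodule.finrank_lt_finrank_of_lt hlt
    change ell (Finsupp.single P (k : ℤ)) < ell (Finsupp.single P (k : ℤ) + Finsupp.single P 1)
      at this
    omega

include hext in
/-- **The genus does not change in a constant extension.** -/
theorem riemannGenus_constExt : riemannGenus L M = riemannGenus K F := by
  refine le_antisymm riemannGenus_constExt_le ?_
  obtain ⟨N, hN⟩ := exists_ell_eq_of_degree_ge L M
  obtain ⟨N', hN'⟩ := exists_ell_eq_of_degree_ge K F
  obtain ⟨P⟩ := (instNonemptyPlace : Nonempty (Place K F))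
  set k : ℕ := (max N N').toNat
  have h1 := hN (Finsupp.single (extPlace L M P) (k : ℤ))
  have h2 := hN' (Finsupp.single P (k : ℤ))
  simp only [Divisor.degree_single, deg_eq_one, Nat.cast_one, mul_one] at h1 h2
  have h3 := ell_single_extPlace_le (L := L) (M := M) P k
  have h4 := h1 (by omega)
  have h5 := h2 (by omega)
  omega

include hext in
/-- **In large degree the Riemann-Roch spaces extend.** -/
theorem exists_span_riemannRochSpace :
    ∃ N : ℤ, ∀ D : Divisor K F, N ≤ Divisor.degree D →
      Submodule.span L (algebraMap F M '' (riemannRochSpace D : Set F)) =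
        riemannRochSpace (extDiv (K := L) (F := M) D) := by
  obtain ⟨N, hN⟩ := exists_ell_eq_of_degree_ge L M
  obtain ⟨N', hN'⟩ := exists_ell_eq_of_degree_ge K F
  refine ⟨max N N', fun D hD => ?_⟩
  have hle : Submodule.span L (algebraMap F M '' (riemannRochSpace D : Set F)) ≤
      riemannRochSpace (extDiv (K := L) (F := M) D) :=
    Submodule.span_le.mpr fun _ ⟨_, hf, e⟩ => e ▸ algebraMap_mem_riemannRochSpace hf
  have h1 := hN (extDiv D) (by rw [degree_extDiv]; omega)
  have h2 := hN' D (by omega)
  rw [degree_extDiv, riemannGenus_constExt (K := K) (F := F)] at h1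
  have heq : ell (extDiv (K := L) (F := M) D) = ell D := by omega
  have hli := linearIndependent_rrBasis (L := L) (M := M) D
  have htop := hli.span_eq_top_of_card_eq_finrank' (by
    rw [Fintype.card_fin]; exact heq.symm)
  refine le_antisymm hle fun f hf => ?_
  have : (⟨f, hf⟩ : riemannRochSpace (extDiv (K := L) (F := M) D)) ∈ Submodule.span L
      (Set.range fun i => (⟨_, algebraMap_mem_riemannRochSpace (L := L) (M := M)
        (Module.finBasis K (riemannRochSpace D) i).2⟩ :
          riemannRochSpace (extDiv (K := L) (F := M) D))) := htop ▸ Submodule.mem_top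
  have h3 := Submodule.apply_mem_span_image_of_mem_span (riemannRochSpace _).subtype this
  refine Submodule.span_mono ?_ h3
  rintro _ ⟨_, ⟨i, rfl⟩, rfl⟩
  exact ⟨_, (Module.finBasis K (riemannRochSpace D) i).2, rfl⟩

/-! ### Divisors and functions with prescribed properties -/

omit hext [IsFunctionField L M] [IsAlgClosed L] in
/-- There are infinitely many places. -/
theorem exists_place_notMem (T : Finset (Place K F)) : ∃ P : Place K F, P ∉ T := by
  obtain ⟨x, hx, -⟩ := IsFunctionField.exists_transcendental_finite (K := K) (F := F)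
  have htr : ∀ a : K, Transcendental K (x - algebraMap K F a) := fun a h =>
    hx (by simpa using h.add (isAlgebraic_algebraMap a))
  choose w hw using fun a : K => exists_place_ord_pos (htr a)
  obtain ⟨a, ha⟩ : ∃ a : K, w a ∉ T := by
    by_contra h
    push Not at h
    have hinj : Function.Injective fun a : K => (⟨w a, h a⟩ : T) := fun a b hab => by
      by_contra hne
      have e : w a = w b := congrArg Subtype.val hab
      have h1 := mem_ordGE_of_le_ord (w a) (show (1 : ℤ) ≤ (w a).ord _ from hw a)
      have h2 : x - algebraMap K F b ∈ ordGE (w a) 1 := by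
        rw [e]; exact mem_ordGE_of_le_ord _ (show (1 : ℤ) ≤ (w b).ord _ from hw b)
      have h3 := sub_mem h2 h1
      rw [sub_sub_sub_cancel_left, ← map_sub, const_mem_ordGE_one_iff, sub_eq_zero] at h3
      exact hne h3
    exact not_finite_iff_infinite.mpr inferInstance (Finite.of_injective _ hinj)
  exact ⟨w a, ha⟩

omit [IsAlgClosed L] hext [IsFunctionField L M] [IsAlgClosed K] in
theorem one_le_ell_of_riemannGenus_le {D : Divisor K F}
    (h : riemannGenus K F ≤ Divisor.degree D) : 1 ≤ ell D := by
  have := riemann_inequality D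
  omega

omit [IsAlgClosed L] hext [IsFunctionField L M] in
/-- **An effective divisor of degree `g` with `l = 1`.** -/
theorem exists_genus_divisor :
    ∃ E : Divisor K F, 0 ≤ E ∧ Divisor.degree E = riemannGenus K F ∧ ell E = 1 := by
  classical
  obtain ⟨N, hN⟩ := exists_ell_eq_of_degree_ge K F
  obtain ⟨P⟩ := (instNonemptyPlace : Nonempty (Place K F))
  set D₀ : Divisor K F := Finsupp.single P (max N (riemannGenus K F)) with hD₀
  have hdeg₀ : Divisor.degree D₀ = max N (riemannGenus K F) := by
    rw [hD₀, Divisor.degree_single, deg_eq_one, Nat.cast_one, mul_one]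
  have key : ∀ j : ℕ, ∀ D : Divisor K F, ell D = j + 1 →
      (ell D : ℤ) = Divisor.degree D + 1 - riemannGenus K F →
      ∃ D' : Divisor K F, ell D' = 1 ∧ Divisor.degree D' = riemannGenus K F := by
    intro j
    induction j with
    | zero => exact fun D h1 h2 => ⟨D, h1, by rw [h1] at h2; omega⟩
    | succ j ih =>
      intro D h1 h2
      obtain ⟨f, hf, hf0⟩ := Submodule.exists_mem_ne_zero_of_ne_bot
        (p := riemannRochSpace D) fun h => by rw [ell, h, finrank_bot] at h1; omega
      obtain ⟨Q, hQ⟩ := exists_place_notMem (D.support ∪ (divOf K f).support)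
      simp only [Finset.mem_union, Finsupp.mem_support_iff, not_or, not_not, divOf_apply] at hQ
      have hlt : riemannRochSpace (D - Finsupp.single Q 1) < riemannRochSpace D := by
        refine lt_of_le_of_ne (riemannRochSpace_mono (sub_le_self _ (by simp))) fun h => ?_
        have := mem_riemannRochSpace.mp (h.symm ▸ hf) Q
        rw [Finsupp.sub_apply, hQ.1, Finsupp.single_eq_same, mem_ordGE_of_ne_zero Q hf0, hQ.2]
          at this
        omega
      have hdown : ell (D - Finsupp.single Q 1) < ell D := Submodule.finrank_lt_finrank_of_lt hlt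
      have hup := (riemannRochSpace_step (D - Finsupp.single Q 1) Q).2
      rw [sub_add_cancel, deg_eq_one] at hup
      change ell D ≤ ell (D - Finsupp.single Q 1) + 1 at hup
      refine ih (D - Finsupp.single Q 1) (by omega) ?_
      rw [map_sub, Divisor.degree_single, deg_eq_one, Nat.cast_one, mul_one]
      omega
  have h₀ := hN D₀ (by omega)
  obtain ⟨D, hD1, hD2⟩ := key (ell D₀ - 1) D₀ (by omega) h₀
  obtain ⟨f, hf, hf0⟩ := Submodule.exists_mem_ne_zero_of_ne_bot
    (p := riemannRochSpace D) fun h => by rw [ell, h, finrank_bot] at hD1; omega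
  refine ⟨D + divOf K f, fun v => ?_, by rw [map_add, degree_divOf, add_zero, hD2], ?_⟩
  · have := mem_riemannRochSpace.mp hf v
    rw [mem_ordGE_of_ne_zero v hf0] at this
    simp only [Finsupp.coe_zero, Pi.zero_apply, Finsupp.add_apply, divOf_apply]
    omega
  · have := ell_sub_divOf hf0 (D + divOf K f)
    rwa [add_sub_cancel_right, hD1, eq_comm] at this

omit [IsAlgClosed L] hext [IsFunctionField L M] in
/-- **A function with a simple zero at `q`, one pole, and no zero on a finite set.** -/
theorem exists_one_zero_function_of_pole (q : Place K F) (T : Finset (Place K F)) (hq : q ∉ T)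
    (P : Place K F) (hP : P ∉ T) (hPq : P ≠ q) :
    ∃ N₀ : ℕ, ∀ N : ℕ, N₀ ≤ N → ∃ x : F, x ∈ riemannRochSpace (Finsupp.single P (N : ℤ)) ∧
      Transcendental K x ∧ q.ord x = 1 ∧ P.ord x = -(N : ℤ) ∧
      (∀ v : Place K F, v ≠ P → 0 ≤ v.ord x) ∧ (∀ v ∈ T, v.ord x = 0) ∧
      poleDiv K x = Finsupp.single P (N : ℤ) ∧ Module.finrank K⟮x⟯ F = N := by
  classical
  obtain ⟨N', hN'⟩ := exists_ell_eq_of_degree_ge K F
  refine ⟨(N' + 2).toNat + 1, fun N hN => ?_⟩
  set W : Divisor K F := Finsupp.single P (N : ℤ) - Finsupp.single q 1 with hW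
  let ι := ↥(insert P (insert q T))
  let p : ι → Submodule K (riemannRochSpace W) := fun i =>
    (riemannRochSpace (W - Finsupp.single (i : Place K F) 1)).comap (riemannRochSpace W).subtype
  have hdegW : Divisor.degree W = N - 1 := by
    rw [hW, map_sub, Divisor.degree_single, Divisor.degree_single, deg_eq_one, deg_eq_one]
    push_cast; ring
  have hp : ∀ i, p i ≠ ⊤ := fun i h => by
    have hle : riemannRochSpace W ≤ riemannRochSpace (W - Finsupp.single (i : Place K F) 1) :=
      fun y hy => (h ▸ Submodule.mem_top : (⟨y, hy⟩ : riemannRochSpace W) ∈ p i)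
    have h1 : ell W ≤ ell (W - Finsupp.single (i : Place K F) 1) := Submodule.finrank_mono hle
    have h2 := hN' W (by omega)
    have hdeg' : Divisor.degree (W - Finsupp.single (i : Place K F) 1) = (N : ℤ) - 2 := by
      rw [map_sub, hdegW, Divisor.degree_single, deg_eq_one]; push_cast; ring
    have h3 := hN' (W - Finsupp.single (i : Place K F) 1) (by omega)
    omega
  obtain ⟨⟨x, hxW⟩, hx⟩ := Submodule.exists_forall_notMem_of_forall_ne_top p hp
  have hx' : ∀ i ∈ insert P (insert q T), x ∉ riemannRochSpace (W - Finsupp.single i 1) :=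
    fun i hi => hx ⟨i, hi⟩
  have hx0 : x ≠ 0 := fun h => hx' P (by simp) (h ▸ zero_mem _)
  have hxW' := mem_riemannRochSpace.mp hxW
  have exact_ord : ∀ i ∈ insert P (insert q T), i.ord x = -W i := fun i hi => by
    have h1 := hxW' i
    rw [mem_ordGE_of_ne_zero i hx0] at h1
    by_contra hne
    refine hx' i hi (mem_riemannRochSpace.mpr fun v => ?_)
    rcases eq_or_ne v i with rfl | hv
    · rw [Finsupp.sub_apply, Finsupp.single_eq_same]
      exact mem_ordGE_of_le_ord _ (by omega)
    · rw [Finsupp.sub_apply, Finsupp.single_eq_of_ne hv, sub_zero]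
      exact hxW' v
  have hxP : P.ord x = -(N : ℤ) := by
    rw [exact_ord P (by simp), hW]
    simp [Finsupp.single_eq_of_ne hPq]
  have hxq : q.ord x = 1 := by
    rw [exact_ord q (by simp), hW]
    simp [Finsupp.single_eq_of_ne hPq.symm]
  have hreg : ∀ v : Place K F, v ≠ P → 0 ≤ v.ord x := fun v hv => by
    have h1 := hxW' v
    rw [mem_ordGE_of_ne_zero v hx0, hW, Finsupp.sub_apply, Finsupp.single_eq_of_ne hv] at h1
    rcases eq_or_ne v q with rfl | hvq
    · omega
    · rw [Finsupp.single_eq_of_ne hvq] at h1; omega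
  have htr : Transcendental K x := transcendental_of_ord_ne_zero q (by omega)
  have hpole : poleDiv K x = Finsupp.single P (N : ℤ) := Finsupp.ext fun v => by
    rw [poleDiv_apply]
    rcases eq_or_ne v P with rfl | hv
    · rw [Finsupp.single_eq_same, hxP]; omega
    · rw [Finsupp.single_eq_of_ne hv]
      have := hreg v hv
      omega
  refine ⟨x, riemannRochSpace_mono (sub_le_self _ (by simp)) hxW, htr, hxq, hxP, hreg,
    fun v hv => ?_, hpole, ?_⟩
  · rw [exact_ord v (by simp [hv]), hW]
    simp [Finsupp.single_eq_of_ne (show v ≠ P from fun h => hP (h ▸ hv)),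
      Finsupp.single_eq_of_ne (show v ≠ q from fun h => hq (h ▸ hv))]
  · have h1 := degree_poleDiv htr
    rw [hpole, Divisor.degree_single, deg_eq_one, Nat.cast_one, mul_one] at h1
    exact_mod_cast h1.symm

end Fermat.Agent.AbVar
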