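import Fermat.Agent.AbVar.Generic
import Fermat.Agent.AbVar.ConstExtension

/-!
# Generic points over a field, and places on constant extensions

A generic point over any field reduces to any prescribed point at some place extending a given
one (`exists_generic_point`), and places extend to constant extensions of curves
(`exists_place_constExt`).
-/

set_option autoImplicit false

noncomputable section

open CategoryTheory AlgebraicGeometry TensorProduct
open Fermat.Agent.FF
open Fermat.Agent.CurveTorsion (IsConstExt)

namespace Fermat.Agent.AbVar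

universe u

variable {K : Type u} [Field K]

section Tensor

variable [IsAlgClosed K] (A B : Type u) [Field A] [Algebra K A] [Field B] [Algebra K B]

/-- Two fields over `K` embed in a field with the tensor product. -/
theorem exists_field_tensor : ∃ (E : Type u) (_ : Field E) (_ : Algebra K E)
    (ι : A ⊗[K] B →ₐ[K] E), Function.Injective ι := by
  have := isDomain_tensor (K := K) (L := A) (F := B)
  exact ⟨FractionRing (A ⊗[K] B), inferInstance, inferInstance, IsScalarTower.toAlgHom K _ _,
    IsFractionRing.injective _ _⟩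

end Tensor

/-- A homomorphism on an embedded algebra extends to a place. -/
theorem exists_place_of_injective {k Ω : Type u} [Field k] [Algebra K k] [Field Ω] [Algebra K Ω]
    [IsAlgClosed Ω] {T : Type u} [CommRing T] [Algebra K T] (ι : T →ₐ[K] k)
    (hι : Function.Injective ι) (φ : T →ₐ[K] Ω) :
    ∃ π : KPlace K k Ω, ∀ t, ∃ h : ι t ∈ π.toKVal.toVal, π.res ⟨ι t, h⟩ = φ t := by
  obtain ⟨π, hπ⟩ := exists_place_extending ι.range
    (φ.comp (AlgEquiv.ofInjective ι hι).symm.toAlgHom)
  refine ⟨π, fun t => ?_⟩
  obtain ⟨h, h'⟩ := hπ (AlgEquiv.ofInjective ι hι t)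
  refine ⟨h, h'.trans ?_⟩
  simp

namespace AData

variable (X : AData K)

variable [IsAlgClosed K]

/-- A local ring in the function field. -/
def stalkToFF (x : X.A) : X.A.presheaf.stalk x →ₐ[K] X.FF :=
  { algebraMap (X.A.presheaf.stalk x) X.FF with
    commutes' := fun c => by
      have h : X.stalkConst x ≫ X.A.presheaf.stalkSpecializes
          ((genericPoint_spec X.A).specializes trivial) = X.stalkConst (genericPoint X.A) := by
        rw [stalkConst, stalkConst, Category.assoc, Category.assoc]
        erw [TopCat.Presheaf.germ_stalkSpecializes]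
      exact DFunLike.congr_fun (congrArg CommRingCat.Hom.hom h) c }

theorem stalkToFF_injective (x : X.A) : Function.Injective (X.stalkToFF x) :=
  IsFractionRing.injective (X.A.presheaf.stalk x) X.A.functionField

theorem ofStalkHom_stalkToFF (x : X.A) : X.ofStalkHom (X.stalkToFF x) = X.genPt := by
  apply Pt.ext
  show Spec.map (X.A.presheaf.stalkSpecializes
    ((genericPoint_spec X.A).specializes trivial : genericPoint X.A ⤳ x)) ≫ X.A.fromSpecStalk x = _
  rw [Scheme.SpecMap_stalkSpecializes_fromSpecStalk]
  show _ = Spec.map (CommRingCat.ofHom (RingHom.id _)) ≫ X.A.fromSpecStalk _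
  rw [CommRingCat.ofHom_id, Spec.map_id]
  exact (Category.id_comp _).symm

theorem ofStalkHom_comp_stalkToFF {R : Type u} [CommRing R] [Algebra K R] (x : X.A)
    (p : X.FF →ₐ[K] R) : X.ptMap p X.genPt = X.ofStalkHom (p.comp (X.stalkToFF x)) := by
  rw [← X.ofStalkHom_stalkToFF x, ptMap_ofStalkHom]

end AData

variable [IsAlgClosed K]

/-- One generic point over a field `k₀`: every place of `k₀` extends to one with any value at
the point. -/
theorem exists_generic_point (X : AData K) (k₀ : Type u) [Field k₀] [Algebra K k₀] :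
    ∃ (k : Type u) (_ : Field k) (_ : Algebra K k) (_ : IsAlgClosed k) (i₀ : k₀ →ₐ[K] k)
      (a : X.Pt k), ∀ (Ω : Type u) [Field Ω] [Algebra K Ω] [IsAlgClosed Ω] (ρ : KPlace K k₀ Ω)
      (a₁ : X.Pt Ω), ∃ π : KPlace K k Ω, X.red π a = a₁ ∧
        ∀ x : ρ.toKVal.toVal, ∃ h : i₀ x ∈ π.toKVal.toVal, π.res ⟨i₀ x, h⟩ = ρ.res x := by
  obtain ⟨E, _, _, e, he⟩ := exists_field_tensor (K := K) k₀ X.FF
  let c : E →ₐ[K] AlgebraicClosure E := IsScalarTower.toAlgHom K E _
  have hc : Function.Injective c := c.toRingHom.injective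
  let p : X.FF →ₐ[K] AlgebraicClosure E := c.comp (e.comp Algebra.TensorProduct.includeRight)
  refine ⟨AlgebraicClosure E, inferInstance, inferInstance, inferInstance,
    c.comp (e.comp Algebra.TensorProduct.includeLeft), X.ptMap p X.genPt,
    fun Ω _ _ _ ρ a₁ => ?_⟩
  set x := X.ptAt a₁
  let ι : ρ.toKVal.toVal ⊗[K] X.A.presheaf.stalk x →ₐ[K] AlgebraicClosure E :=
    c.comp (e.comp (Algebra.TensorProduct.map ρ.toKVal.incl (X.stalkToFF x)))
  have hι : Function.Injective ι := by
    refine hc.comp (he.comp ?_)
    have h1 := Module.Flat.rTensor_preserves_injective_linearMap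
      (M := X.A.presheaf.stalk x) ρ.toKVal.incl.toLinearMap Subtype.val_injective
    have h2 := Module.Flat.lTensor_preserves_injective_linearMap (M := k₀)
      (X.stalkToFF x).toLinearMap (X.stalkToFF_injective x)
    have heq : (Algebra.TensorProduct.map ρ.toKVal.incl (X.stalkToFF x)).toLinearMap =
        (LinearMap.lTensor k₀ (X.stalkToFF x).toLinearMap).comp
          (LinearMap.rTensor (X.A.presheaf.stalk x) ρ.toKVal.incl.toLinearMap) :=
      TensorProduct.ext' fun _ _ => rfl
    show Function.Injective (Algebra.TensorProduct.map ρ.toKVal.incl (X.stalkToFF x)).toLinearMap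
    rw [heq]
    exact h2.comp h1
  obtain ⟨π, hπ⟩ := exists_place_of_injective ι hι
    (Algebra.TensorProduct.lift ρ.resAlg (X.evalAt a₁) fun _ _ => Commute.all _ _)
  refine ⟨π, ?_, fun l => ?_⟩
  · rw [X.ofStalkHom_comp_stalkToFF x p, ← AlgHom.comp_id (p.comp (X.stalkToFF x)),
      ← X.ptMap_ofStalkHom, X.red_ptMap π (p.comp (X.stalkToFF x)) (X.evalAt a₁) (fun r => by
        simpa [ι, p] using hπ ((1 : ρ.toKVal.toVal) ⊗ₜ r)),
      X.ptMap_ofStalkHom, AlgHom.comp_id, X.ofStalkHom_evalAt]
  · have h := hπ (l ⊗ₜ 1)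
    simp only [ι, AlgHom.comp_apply, Algebra.TensorProduct.map_tmul,
      Algebra.TensorProduct.lift_tmul, map_one, mul_one] at h
    exact h

/-- A place of the constants and an embedding of `F` extend to a place of the extension. -/
theorem exists_place_constExt {F : Type u} [Field F] [Algebra K F] [IsFunctionField K F]
    {L : Type u} [Field L] [IsAlgClosed L] [Algebra K L] {M : Type u} [Field M] [Algebra L M]
    [Algebra F M] [Algebra K M] [IsScalarTower K L M] [IsScalarTower K F M] [IsConstExt F L M]
    {Ω : Type u} [Field Ω] [IsAlgClosed Ω] [Algebra K Ω] (π : KPlace K L Ω) (ψ : F →ₐ[K] Ω) :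
    ∃ P : KPlace K M Ω, P.Extends (IsScalarTower.toAlgHom K F M) ψ ∧
      ∀ a : π.toKVal.toVal, ∃ h : algebraMap L M a ∈ P.toKVal.toVal,
        P.res ⟨algebraMap L M a, h⟩ = π.res a := by
  have : IsFunctionField L M := CurveTorsion.isFunctionField_ext K F
  obtain ⟨P, hP⟩ := exists_place_of_injective (constLift (F := F) (M := M) π.toKVal.incl)
    (constLift_injective _ Subtype.val_injective)
    (Algebra.TensorProduct.lift π.resAlg ψ fun _ _ => Commute.all _ _)
  refine ⟨P, fun f => ?_, fun a => ?_⟩
  · simpa [constLift_tmul] using hP (1 ⊗ₜ f)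
  · have h := hP (a ⊗ₜ 1)
    simp only [constLift_tmul, Algebra.TensorProduct.lift_tmul, map_one, mul_one] at h
    exact h

end Fermat.Agent.AbVar
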