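import Fermat.Agent.AbVar.Generic
import Fermat.Agent.FF.FunctionField

/-!
# Sums of curves through the origin

`SumOfCurves X L z`: the point `z` over `L` is a sum of generic points of curves through the origin.
-/

set_option autoImplicit false

noncomputable section

open scoped TensorProduct

namespace Fermat.Agent.AbVar

universe u

variable {K : Type u} [Field K] (X : AData K)

/-- `z` is the sum of the generic points of finitely many curves through the origin, over the
function field `L` of their product. -/
inductive SumOfCurves : ∀ (L : Type u) [Field L] [Algebra K L], X.Pt L → Prop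
  | base : SumOfCurves K 0
  | step (L₀ : Type u) [Field L₀] [Algebra K L₀] (z₀ : X.Pt L₀) (F : Type u) [Field F]
      [Algebra K F] [FF.IsFunctionField K F] (x₀ : KPlace K F K) (c : X.Pt F)
      (hc : X.red x₀ c = 0) (L : Type u) [Field L] [Algebra K L] (φ : L₀ →ₐ[K] L) (ψ : F →ₐ[K] L)
      (hinj : Function.Injective (Algebra.TensorProduct.lift φ ψ fun _ _ => .all _ _))
      (hgen : IntermediateField.adjoin K (Set.range φ ∪ Set.range ψ) = ⊤)
      (h : SumOfCurves L₀ z₀) : SumOfCurves L (X.ptMap φ z₀ + X.ptMap ψ c)

end Fermat.Agent.AbVar
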