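import Fermat.Agent.AbVar.CubeFibre
import Fermat.Agent.AbVar.GenericPair
import Fermat.Agent.AbVar.Sum

/-!
# The theorem of the cube for sums of curves

The third difference of a class is principal when one argument is a sum of points of curves
through the origin (`isPrinc_cubeDelta`), so the class of multiples of such a point grows
quadratically (`isPrinc_cls_nsmul_sub`).
-/

set_option autoImplicit false

noncomputable section

open AlgebraicCurve
open Fermat.Agent.FF
open Fermat.Agent.CurveTorsion (IsConstExt)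

namespace Fermat.Agent.AbVar

universe u

variable {K : Type u} [Field K] [IsAlgClosed K] {X : AData K}

section Fibre

variable {F : Type u} [Field F] [Algebra K F] [IsFunctionField K F]
  {k : Type u} [Field k] [IsAlgClosed k] [Algebra K k]
  {M : Type u} [Field M] [Algebra k M] [Algebra F M] [Algebra K M] [IsScalarTower K k M]
  [IsScalarTower K F M] [IsConstExt F k M] [IsFunctionField k M]

omit [IsFunctionField k M] [IsAlgClosed K] [IsAlgClosed k] in
/-- A constant point and a point of `F` are points of every local ring of the model. -/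
theorem mem_range_ptMap_localRing {Λ : Type u} [Field Λ] [IsAlgClosed Λ] [Algebra K Λ]
    {N : Type u} [Field N] [Algebra Λ N] [Algebra F N] [Algebra K N] [IsScalarTower K Λ N]
    [IsScalarTower K F N] [IsConstExt F Λ N] {π : KPlace K k Λ} (Γ : Gauss (F := F) M N π)
    (q : Place Λ N) :
    (∀ p : X.Pt k, X.ptMap (IsScalarTower.toAlgHom K k M) p ∈
      (X.ptMap (Γ.localRing q).val).range) ∧
    ∀ c : X.Pt F, X.ptMap (IsScalarTower.toAlgHom K F M) c ∈
      (X.ptMap (Γ.localRing q).val).range := by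
  constructor
  · intro p
    obtain ⟨p', rfl⟩ := (AData.valEquiv (X := X) π.toKVal).surjective p
    refine ⟨X.ptMap (((IsScalarTower.toAlgHom K k M).comp π.toKVal.incl).codRestrict
      (Γ.localRing q) fun a => Γ.algebraMap_mem_localRing q a) p', ?_⟩
    rw [show AData.valEquiv π.toKVal p' = X.ptMap π.toKVal.incl p' from rfl, AData.ptMap_comp,
      AData.ptMap_comp]
    rfl
  · intro c
    let V : KVal K F := (placeKVal (K := K) q).comap (IsScalarTower.toAlgHom K F N)
    obtain ⟨c', rfl⟩ := (AData.valEquiv (X := X) V).surjective c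
    refine ⟨X.ptMap (((IsScalarTower.toAlgHom K F M).comp V.incl).codRestrict
      (Γ.localRing q) fun y => Γ.algebraMap_mem_localRing_of_mem q (KVal.mem_comap.1 y.2)) c', ?_⟩
    rw [show AData.valEquiv V c' = X.ptMap V.incl c' from rfl, AData.ptMap_comp, AData.ptMap_comp]
    rfl

/-- The third difference on a constant extension of a curve is principal. -/
theorem isPrinc_cubeDelta_fibre (D : ClassData X) (x₀ : KPlace K F K) (c : X.Pt F)
    (hc : X.red x₀ c = 0) (a b w : X.Pt k)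
    (hne : ∃ π : KPlace K k K, X.red π a = 0 ∨ X.red π b = 0)
    (htest : ∀ α : k, (∀ π : KPlace K k K, X.red π a = 0 ∨ X.red π b = 0 → α ∈ π.toKVal.toVal) →
      α ∈ Set.range (algebraMap K k))
    (h0 : IsPrinc (cubeDelta D a b w)) :
    IsPrinc (cubeDelta D (X.ptMap (IsScalarTower.toAlgHom K k M) a)
      (X.ptMap (IsScalarTower.toAlgHom K k M) b)
      (X.ptMap (IsScalarTower.toAlgHom K k M) w +
        X.ptMap (IsScalarTower.toAlgHom K F M) c)) := by
  set i := IsScalarTower.toAlgHom K k M with hi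
  set j := IsScalarTower.toAlgHom K F M with hj
  set β := cubeDelta D (X.ptMap i a) (X.ptMap i b) (X.ptMap i w + X.ptMap j c) with hβ
  have hfin : β ∈ finConst K M := cubeDelta_mem ⊤ _ (fun P _ => by
    obtain ⟨S, hS⟩ := D.cls_finite P
    exact ⟨1, S, fun V hV => (hS V fun x hx => hV hx).trans (map_zero V.cls).symm⟩)
    (AddSubgroup.mem_top _) (AddSubgroup.mem_top _) (AddSubgroup.mem_top _)
  have hloc : ∀ {Λ : Type u} [Field Λ] [IsAlgClosed Λ] [Algebra K Λ] {N : Type u} [Field N]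
      [Algebra Λ N] [Algebra F N] [Algebra K N] [IsScalarTower K Λ N] [IsScalarTower K F N]
      [IsConstExt F Λ N] (π : KPlace K k Λ), Function.Surjective π.res →
      ∀ (Γ : Gauss (F := F) M N π) (q : Place Λ N),
        β ∈ constOn K M {V | ∀ x ∈ Γ.localRing q, x ∈ V.toVal} := by
    intro Λ _ _ _ N _ _ _ _ _ _ _ π hπ Γ q
    have : IsLocalRing (Γ.localRing q) := Γ.isLocalRing_localRing q
    obtain ⟨hk, hF⟩ := mem_range_ptMap_localRing (X := X) Γ q
    refine cubeDelta_mem (X.ptMap (Γ.localRing q).val).range _ ?_ (hk a) (hk b)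
      (add_mem (hk w) (hF c))
    rintro _ ⟨P, rfl⟩
    exact D.cls_const_of_local (Γ.localRing q) P
  obtain ⟨φ, hφ⟩ := exists_ord_eq_zero_of_rigid (F := F) (k := k) hfin
    (fun π => X.red π a = 0 ∨ X.red π b = 0) hne htest (fun π hπ => hloc π hπ) (by
      intro _ π hπ Γ
      refine ⟨_, specTo_cubeDelta Γ.G _ _ _, ?_⟩
      have hred : ∀ p : X.Pt k, X.red Γ.G (X.ptMap i p) =
          X.ptMap (IsScalarTower.toAlgHom K K F) (X.red π p) :=
        AData.red_of_compat π Γ.G i _ Γ.extends_π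
      rw [hred, hred]
      rcases hπ with h | h
      · rw [h, map_zero, cubeDelta_zero_left]
        exact isPrinc_cls_zero D
      · rw [h, map_zero, cubeDelta_zero_mid]
        exact isPrinc_cls_zero D)
  obtain ⟨ρ, hρk, hρF⟩ := exists_section_place (k := k) (M := M) x₀
  have hredk : ∀ p : X.Pt k, X.red ρ (X.ptMap i p) = p := fun p =>
    (AData.red_ptMap ρ i (AlgHom.id K k) hρk p).trans (AData.ptMap_id p)
  have hredc : X.red ρ (X.ptMap j c) = 0 := by
    rw [AData.red_of_compat x₀ ρ j (Algebra.ofId K k) hρF, hc, map_zero]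
  have hspec : SpecTo ρ (β + princ K M (Additive.ofMul φ)) (cubeDelta D a b w + 0) := by
    refine SpecTo.add ?_ (SpecTo.of_princ ρ _)
    have h := specTo_cubeDelta (D := D) ρ (X.ptMap i a) (X.ptMap i b)
      (X.ptMap i w + X.ptMap j c)
    rwa [map_add, hredk, hredk, hredk, hredc, add_zero] at h
  have h0' : IsPrinc (cubeDelta D a b w + 0) := AddSubgroup.add_mem _ h0 (AddSubgroup.zero_mem _)
  have hγ := isPrinc_of_trivial_at_places (F := F) (k := k)
    (γ := β + princ K M (Additive.ofMul φ)) (fun Q => hφ Q)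
    (fun π hπ Γ q => AddSubgroup.add_mem _ (hloc π hπ Γ q) (princ_mem_constOn _ _))
    ρ hρk hspec h0'
  exact (AddSubgroup.add_mem_cancel_right _
    (show princ K M (Additive.ofMul φ) ∈ (princ K M).range from ⟨_, rfl⟩)).mp hγ

end Fibre

/-- The induction step. -/
theorem isPrinc_cubeDelta_step (D : ClassData X) {L₀ : Type u} [Field L₀] [Algebra K L₀]
    (z₀ : X.Pt L₀)
    (ih : ∀ {Ω : Type u} [Field Ω] [Algebra K Ω] [IsAlgClosed Ω] (i : L₀ →ₐ[K] Ω)
      (a b : X.Pt Ω), IsPrinc (cubeDelta D a b (X.ptMap i z₀)))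
    {F : Type u} [Field F] [Algebra K F] [IsFunctionField K F] (x₀ : KPlace K F K) (c : X.Pt F)
    (hc : X.red x₀ c = 0) {Ω : Type u} [Field Ω] [Algebra K Ω] [IsAlgClosed Ω]
    (j : L₀ →ₐ[K] Ω) (ψ : F →ₐ[K] Ω) (a₁ b₁ : X.Pt Ω) :
    IsPrinc (cubeDelta D a₁ b₁ (X.ptMap j z₀ + X.ptMap ψ c)) := by
  obtain ⟨k₁, _, _, _, i₁, b, hb⟩ := exists_generic_point X L₀
  obtain ⟨k, _, _, _, i₂, a, ha⟩ := exists_generic_point X k₁
  obtain ⟨M, _, _, _, _, _, _, _⟩ := exists_constExt (K := K) (F := F) (L := k)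
  have : IsFunctionField k M := CurveTorsion.isFunctionField_ext K F
  obtain ⟨τ₀, -⟩ := exists_place_extending (L := L₀) (Λ := K) ⊥
    (Algebra.botEquiv K L₀).toAlgHom
  obtain ⟨π₁, hπ₁, -⟩ := hb K τ₀ 0
  have hne : ∃ π : KPlace K k K, X.red π a = 0 ∨ X.red π (X.ptMap i₂ b) = 0 := by
    obtain ⟨π, hπ, -⟩ := ha K π₁ 0
    exact ⟨π, Or.inl hπ⟩
  have htest : ∀ α : k, (∀ π : KPlace K k K, X.red π a = 0 ∨ X.red π (X.ptMap i₂ b) = 0 →
      α ∈ π.toKVal.toVal) → α ∈ Set.range (algebraMap K k) := by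
    intro α hα
    obtain ⟨α₁, rfl⟩ : α ∈ Set.range i₂ := by
      by_contra hn
      obtain ⟨V, hV, hαV⟩ := exists_kVal_notMem i₂ hn
      obtain ⟨π, hle, hπ⟩ := exists_refinement V i₂ hV π₁
      exact hαV (hle _ (hα π (Or.inr ((AData.red_of_ext π₁ π i₂ hπ b).trans hπ₁))))
    obtain ⟨α₀, rfl⟩ : α₁ ∈ Set.range (Algebra.ofId K k₁) := by
      by_contra hn
      obtain ⟨V, hV, hαV⟩ := exists_kVal_notMem (Algebra.ofId K k₁) hn
      obtain ⟨τ, hle, -⟩ := exists_refinement V (Algebra.ofId K k₁) hV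
        (KPlace.ofHom K K (AlgHom.id K K))
      obtain ⟨π, hπa, hπ⟩ := ha K τ 0
      exact hαV (hle _ (KPlace.mem_of_map_mem τ π i₂ hπ (hα π (Or.inl hπa))))
    exact ⟨α₀, (i₂.commutes α₀).symm⟩
  have key := isPrinc_cubeDelta_fibre (F := F) (M := M) D x₀ c hc a (X.ptMap i₂ b)
    (X.ptMap (i₂.comp i₁) z₀) hne htest (ih (i₂.comp i₁) a (X.ptMap i₂ b))
  obtain ⟨ρ₁, hρ₁b, hρ₁⟩ := hb Ω (KPlace.ofHom K L₀ j) b₁
  obtain ⟨ρ, hρa, hρ⟩ := ha Ω ρ₁ a₁
  obtain ⟨P, hPF, hPk⟩ := exists_place_constExt (F := F) (M := M) ρ ψ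
  have hred : ∀ p : X.Pt k, X.red P (X.ptMap (IsScalarTower.toAlgHom K k M) p) = X.red ρ p :=
    AData.red_of_ext ρ P (IsScalarTower.toAlgHom K k M) hPk
  have hredc : X.red P (X.ptMap (IsScalarTower.toAlgHom K F M) c) = X.ptMap ψ c :=
    AData.red_ptMap P (IsScalarTower.toAlgHom K F M) ψ hPF c
  have hres := (specTo_cubeDelta (D := D) P _ _ _).isPrinc key
  rw [map_add, hred, hred, hred, hredc, hρa, AData.red_of_ext ρ₁ ρ i₂ hρ, hρ₁b,
    ← AData.ptMap_comp, AData.red_of_ext ρ₁ ρ i₂ hρ,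
    AData.red_of_ext (KPlace.ofHom K L₀ j) ρ₁ i₁ hρ₁, AData.red_ofHom] at hres
  exact hres

/-- **The theorem of the cube** for sums of curves. -/
theorem isPrinc_cubeDelta (D : ClassData X) {L : Type u} [Field L] [Algebra K L] {z : X.Pt L}
    (hz : SumOfCurves X L z) : ∀ {Ω : Type u} [Field Ω] [Algebra K Ω] [IsAlgClosed Ω]
      (i : L →ₐ[K] Ω) (a b : X.Pt Ω), IsPrinc (cubeDelta D a b (X.ptMap i z)) := by
  induction hz with
  | base =>
    intro Ω _ _ _ i a b
    rw [map_zero, cubeDelta_zero_right]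
    exact isPrinc_cls_zero D
  | step L₀ z₀ F x₀ c hc L φ ψ hinj hgen h ih =>
    intro Ω _ _ _ i a b
    rw [map_add, AData.ptMap_comp, AData.ptMap_comp]
    exact isPrinc_cubeDelta_step D z₀ ih x₀ c hc (i.comp φ) (i.comp ψ) a b

/-- **Quadratic growth**: the class of `m • z` is `m ^ 2` times that of `z`, up to a principal
class. -/
theorem isPrinc_cls_nsmul_sub (D : ClassData X)
    (hsymm : ∀ {L : Type u} [Field L] [Algebra K L] (P : X.Pt L), D.cls (-P) = D.cls P)
    {L : Type u} [Field L] [Algebra K L] {z : X.Pt L} (hz : SumOfCurves X L z)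
    {Ω : Type u} [Field Ω] [Algebra K Ω] [IsAlgClosed Ω] (i : L →ₐ[K] Ω) (m : ℕ) :
    IsPrinc (D.cls (m • X.ptMap i z) - (m ^ 2) • D.cls (X.ptMap i z)) :=
  isPrinc_cls_nsmul_of_cubeDelta hsymm _ (fun a b => isPrinc_cubeDelta D hz i a b) m

end Fermat.Agent.AbVar
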