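import Fermat.Agent.AbVar.Classes

/-!
# The third difference of classes, reductions and refinements of places

General facts about families of classes, reductions of points and places, and the deduction of
quadratic growth from principal third differences (`isPrinc_cls_nsmul_of_cubeDelta`).
-/

set_option autoImplicit false

noncomputable section

namespace Fermat.Agent.AbVar

universe u

variable {K : Type u} [Field K] {L : Type u} [Field L] [Algebra K L]
  {Λ : Type u} [Field Λ] [Algebra K Λ]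

/-! ### Principal and locally constant families -/

theorem KVal.cls_eq_zero_iff (V : KVal K L) {x : Lˣ} :
    V.cls (Additive.ofMul x) = 0 ↔ x ∈ V.units :=
  (QuotientGroup.eq_one_iff x : QuotientGroup.mk' V.units x = 1 ↔ _)

theorem isPrinc_of_eq (β : ClGroup K L) (x : Lˣ)
    (h : ∀ V : KVal K L, β V = V.cls (Additive.ofMul x)) : IsPrinc β :=
  ⟨Additive.ofMul x, funext fun V => (h V).symm⟩

theorem IsPrinc.exists_eq {β : ClGroup K L} (h : IsPrinc β) :
    ∃ x : Lˣ, ∀ V : KVal K L, β V = V.cls (Additive.ofMul x) := by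
  obtain ⟨x, rfl⟩ := h
  exact ⟨x.toMul, fun V => rfl⟩

variable (K L) in
/-- Families given by one equation on `Γ`. -/
def constOn (Γ : Set (KVal K L)) : AddSubgroup (ClGroup K L) where
  carrier := {β | ∃ h : Lˣ, ∀ V ∈ Γ, β V = V.cls (Additive.ofMul h)}
  zero_mem' := ⟨1, fun V _ => (map_zero V.cls).symm⟩
  add_mem' := fun ⟨h, hh⟩ ⟨h', hh'⟩ => ⟨h * h', fun V hV => by
    rw [Pi.add_apply, hh V hV, hh' V hV, ofMul_mul, map_add]⟩
  neg_mem' := fun ⟨h, hh⟩ => ⟨h⁻¹, fun V hV => by
    rw [Pi.neg_apply, hh V hV, ofMul_inv, map_neg]⟩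

theorem princ_mem_constOn (x : Additive Lˣ) (Γ : Set (KVal K L)) : princ K L x ∈ constOn K L Γ :=
  ⟨x.toMul, fun _ _ => rfl⟩

variable (K L) in
/-- Families given by one equation outside finitely many poles. -/
def finConst : AddSubgroup (ClGroup K L) where
  carrier := {β | ∃ (h : Lˣ) (s : Finset L), ∀ V : KVal K L, (↑s : Set L) ⊆ V.toVal →
    β V = V.cls (Additive.ofMul h)}
  zero_mem' := ⟨1, ∅, fun V _ => (map_zero V.cls).symm⟩
  add_mem' := fun ⟨h, s, hh⟩ ⟨h', s', hh'⟩ => by
    classical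
    exact ⟨h * h', s ∪ s', fun V hV => by
      rw [Finset.coe_union, Set.union_subset_iff] at hV
      rw [Pi.add_apply, hh V hV.1, hh' V hV.2, ofMul_mul, map_add]⟩
  neg_mem' := fun ⟨h, s, hh⟩ => ⟨h⁻¹, s, fun V hV => by
    rw [Pi.neg_apply, hh V hV, ofMul_inv, map_neg]⟩

/-! ### Specialisation -/

theorem SpecTo.of_princ (π : KPlace K L Λ) (z : Additive Lˣ) :
    SpecTo π (princ K L z) (0 : ClGroup K Λ) :=
  ⟨z.toMul, fun W => ⟨1, one_mem _, 1, by simp, map_one π.res,
    by rw [mul_one]; rfl, by rw [ofMul_one, map_zero]; rfl⟩⟩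

/-! ### Reduction of points -/

variable {X : AData K} {M : Type u} [Field M] [Algebra K M] {N : Type u} [Field N] [Algebra K N]

theorem AData.red_of_compat (π : KPlace K L Λ) (G : KPlace K M N) (φ : L →ₐ[K] M)
    (φ' : Λ →ₐ[K] N) (h : ∀ a : π.toKVal.toVal, ∃ hm : φ a ∈ G.toKVal.toVal,
      G.res ⟨φ a, hm⟩ = φ' (π.res a)) (P : X.Pt L) :
    X.red G (X.ptMap φ P) = X.ptMap φ' (X.red π P) := by
  obtain ⟨P', rfl⟩ := (AData.valEquiv (X := X) π.toKVal).surjective P
  have h1 : X.red π (AData.valEquiv π.toKVal P') = X.ptMap π.resAlg P' :=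
    congrArg (X.ptMap π.resAlg) ((AData.valEquiv π.toKVal).symm_apply_apply P')
  rw [h1, AData.ptMap_comp, show AData.valEquiv π.toKVal P' = X.ptMap π.toKVal.incl P' from rfl,
    AData.ptMap_comp]
  exact AData.red_ptMap G _ _ h P'

theorem AData.red_of_ext (ρ : KPlace K L Λ) (π : KPlace K M Λ) (φ : L →ₐ[K] M)
    (h : ∀ a : ρ.toKVal.toVal, ∃ hm : φ a ∈ π.toKVal.toVal, π.res ⟨φ a, hm⟩ = ρ.res a)
    (P : X.Pt L) : X.red π (X.ptMap φ P) = X.red ρ P :=
  (AData.red_of_compat ρ π φ (AlgHom.id K Λ) h P).trans (AData.ptMap_id _)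

/-- A place compatible with `φ` sees the valuation ring of the place it extends. -/
theorem KPlace.mem_of_map_mem (ρ : KPlace K L Λ) (π : KPlace K M Λ) (φ : L →ₐ[K] M)
    (h : ∀ a : ρ.toKVal.toVal, ∃ hm : φ a ∈ π.toKVal.toVal, π.res ⟨φ a, hm⟩ = ρ.res a) {x : L}
    (hx : φ x ∈ π.toKVal.toVal) : x ∈ ρ.toKVal.toVal := by
  by_contra hn
  have hi : x⁻¹ ∈ ρ.toKVal.toVal := (ρ.toKVal.toVal.mem_or_inv_mem x).resolve_left hn
  have hx0 : x ≠ 0 := fun e => hn (e ▸ zero_mem _)
  obtain ⟨hm, hres⟩ := h ⟨x⁻¹, hi⟩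
  rw [ρ.res_eq_zero_of_inv_notMem (x := ⟨x⁻¹, hi⟩) (by simpa using hn)] at hres
  have hone : π.res (⟨φ x⁻¹, hm⟩ * ⟨φ x, hx⟩) = 1 := by
    rw [← map_one π.res]
    refine congrArg π.res (Subtype.ext ?_)
    show φ x⁻¹ * φ x = 1
    rw [← map_mul, inv_mul_cancel₀ hx0, map_one]
  rw [map_mul, hres, zero_mul] at hone
  exact zero_ne_one hone

/-! ### Refinement of valuation rings -/

/-- The residue place. -/
def KVal.residue (V : KVal K L) : KPlace K L (IsLocalRing.ResidueField V.toVal) where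
  toKVal := V
  res := IsLocalRing.residue V.toVal
  res_algebraMap _ := rfl
  isUnit_of_res_ne_zero x hx := (IsLocalRing.residue_ne_zero_iff_isUnit x).1 hx

theorem KVal.residue_surjective (V : KVal K L) : Function.Surjective V.residue.res :=
  IsLocalRing.residue_surjective

instance KVal.isAlgClosed_residue [IsAlgClosed L] (V : KVal K L) :
    IsAlgClosed (IsLocalRing.ResidueField V.toVal) := by
  refine IsAlgClosed.of_exists_root _ fun p hp hirr => ?_
  obtain ⟨P, hP, hdeg, hPm⟩ := Polynomial.lifts_and_degree_eq_and_monic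
    (Polynomial.map_surjective _ IsLocalRing.residue_surjective p) hp
  have hd : 0 < P.degree := by
    rw [hdeg]
    exact hirr.degree_pos
  obtain ⟨x, hx⟩ := IsAlgClosed.exists_root (P.map V.toVal.subtype)
    (by rw [Polynomial.degree_map_eq_of_injective Subtype.val_injective]; exact hd.ne')
  have hint : IsIntegral V.toVal x :=
    ⟨P, hPm, (Polynomial.eval₂_eq_eval_map _).trans hx⟩
  obtain ⟨x', rfl⟩ := IsIntegrallyClosed.isIntegral_iff.mp hint
  refine ⟨IsLocalRing.residue _ x', ?_⟩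
  rw [← hP, Polynomial.eval_map, Polynomial.eval₂_at_apply]
  have h0 : P.eval x' = 0 := Subtype.val_injective (by
    have h1 := hx
    rw [Polynomial.IsRoot, Polynomial.eval_map] at h1
    rw [ZeroMemClass.coe_zero, ← h1]
    exact (Polynomial.eval₂_at_apply V.toVal.subtype x').symm)
  rw [h0, map_zero]

/-- A place refining a valuation ring, and extending a place of a field inside it. -/
theorem exists_refinement {k₀ : Type u} [Field k₀] [Algebra K k₀] [IsAlgClosed Λ] (V : KVal K L)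
    (i : k₀ →ₐ[K] L) (hi : ∀ x, i x ∈ V.toVal) (τ : KPlace K k₀ Λ) :
    ∃ π : KPlace K L Λ, (∀ y ∈ π.toKVal.toVal, y ∈ V.toVal) ∧
      ∀ x : τ.toKVal.toVal, ∃ h : i x ∈ π.toKVal.toVal, π.res ⟨i x, h⟩ = τ.res x := by
  let i' : k₀ →ₐ[K] IsLocalRing.ResidueField V.toVal :=
    { (IsLocalRing.residue V.toVal).comp (i.toRingHom.codRestrict V.toVal.toSubring hi) with
      commutes' := fun a => congrArg (IsLocalRing.residue V.toVal)
        (Subtype.ext (i.commutes a) :
          (⟨i (algebraMap K k₀ a), hi _⟩ : V.toVal) = algebraMap K V.toVal a) }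
  let f : τ.toKVal.toVal →ₐ[K] IsLocalRing.ResidueField V.toVal := i'.comp τ.toKVal.incl
  have hf : Function.Injective f := fun x y hxy =>
    Subtype.ext (i'.toRingHom.injective hxy)
  obtain ⟨ρ, hρ⟩ := exists_place_extending f.range
    (τ.resAlg.comp (AlgEquiv.ofInjective f hf).symm.toAlgHom)
  refine ⟨V.residue.comp ρ, fun y hy => (KPlace.mem_pull.1 hy).1, fun x => ?_⟩
  obtain ⟨h, hres⟩ := hρ ⟨f x, x, rfl⟩
  have hm : i x ∈ (V.residue.comp ρ).toKVal.toVal := KPlace.mem_pull.2 ⟨hi _, h⟩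
  refine ⟨hm, ?_⟩
  refine Eq.trans (b := ρ.res ⟨f x, h⟩) rfl (hres.trans ?_)
  exact congrArg τ.res ((AlgEquiv.ofInjective f hf).symm_apply_apply x)

/-- A field element outside an algebraically closed subfield has a pole over it. -/
theorem exists_kVal_notMem {k₀ : Type u} [Field k₀] [Algebra K k₀] [IsAlgClosed k₀]
    (i : k₀ →ₐ[K] L) {α : L} (hα : α ∉ Set.range i) :
    ∃ V : KVal K L, (∀ x, i x ∈ V.toVal) ∧ α ∉ V.toVal := by
  let : Algebra k₀ L := i.toRingHom.toAlgebra
  set R : Subring L := (⊥ : Subalgebra k₀ L).toSubring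
  have hR : ∀ x : L, x ∈ R ↔ x ∈ Set.range i := fun x => Algebra.mem_bot
  have : IsIntegrallyClosedIn R L := by
    rw [Subring.isIntegrallyClosedIn_iff]
    intro x hx
    have hint : IsIntegral k₀ x := by
      have : Algebra.IsIntegral k₀ (⊥ : Subalgebra k₀ L) :=
        ⟨fun r => by
          obtain ⟨r₀, hr⟩ := Algebra.mem_bot.mp r.2
          rw [show r = algebraMap k₀ _ r₀ from Subtype.ext hr.symm]
          exact isIntegral_algebraMap⟩
      exact isIntegral_trans (A := (⊥ : Subalgebra k₀ L)) x hx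
    rw [hR]
    exact minpoly.mem_range_of_degree_eq_one k₀ x
      (IsAlgClosed.degree_eq_one_of_irreducible k₀ (minpoly.irreducible hint))
  obtain ⟨V, hle, hV⟩ := R.exists_le_valuationSubring_of_isIntegrallyClosedIn
    (fun h => hα ((hR α).1 h))
  exact ⟨⟨V, fun c => hle ((hR _).2 ⟨algebraMap K k₀ c, i.commutes c⟩)⟩,
    fun x => hle ((hR _).2 ⟨x, rfl⟩), hV⟩

/-! ### The third difference -/

/-- The third difference of the classes. -/
def cubeDelta (D : ClassData X) (a b c : X.Pt L) : ClGroup K L :=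
  D.cls (a + b + c) - D.cls (a + b) - D.cls (b + c) - D.cls (a + c) + D.cls a + D.cls b + D.cls c

variable {D : ClassData X}

theorem cubeDelta_zero_left (b c : X.Pt L) : cubeDelta D 0 b c = D.cls 0 := by
  simp only [cubeDelta, zero_add]; abel

theorem cubeDelta_zero_mid (a c : X.Pt L) : cubeDelta D a 0 c = D.cls 0 := by
  simp only [cubeDelta, zero_add, add_zero]; abel

theorem cubeDelta_zero_right (a b : X.Pt L) : cubeDelta D a b 0 = D.cls 0 := by
  simp only [cubeDelta, add_zero]; abel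

theorem cubeDelta_mem (G : AddSubgroup (X.Pt L)) (H : AddSubgroup (ClGroup K L))
    (hGH : ∀ P ∈ G, D.cls P ∈ H) {a b c : X.Pt L} (ha : a ∈ G) (hb : b ∈ G) (hc : c ∈ G) :
    cubeDelta D a b c ∈ H :=
  add_mem (add_mem (add_mem (sub_mem (sub_mem (sub_mem (hGH _ (add_mem (add_mem ha hb) hc))
    (hGH _ (add_mem ha hb))) (hGH _ (add_mem hb hc))) (hGH _ (add_mem ha hc))) (hGH _ ha))
    (hGH _ hb)) (hGH _ hc)

theorem specTo_cubeDelta (π : KPlace K L Λ) (a b c : X.Pt L) :
    SpecTo π (cubeDelta D a b c) (cubeDelta D (X.red π a) (X.red π b) (X.red π c)) := by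
  have h := ((((((D.cls_red π (a + b + c)).sub (D.cls_red π (a + b))).sub
    (D.cls_red π (b + c))).sub (D.cls_red π (a + c))).add (D.cls_red π a)).add
    (D.cls_red π b)).add (D.cls_red π c)
  simpa only [cubeDelta, map_add] using h

theorem isPrinc_cls_zero (D : ClassData X) : IsPrinc (D.cls (0 : X.Pt L)) := by
  have hK : IsPrinc (D.cls (0 : X.Pt K)) := by
    obtain ⟨x, hx⟩ := (KVal.triv K K).cls_surjective (D.cls 0 (KVal.triv K K))
    refine ⟨x, funext fun V => ?_⟩
    obtain rfl : V = KVal.triv K K := KVal.ext (SetLike.ext fun y =>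
      ⟨fun _ => ValuationSubring.mem_top y, fun _ => V.algebraMap_mem' y⟩)
    exact hx
  have h := hK.map (Algebra.ofId K L)
  rwa [← D.cls_map, map_zero] at h

theorem sub_nsmul_mem_of_second_difference {G : Type*} [AddCommGroup G] (H : AddSubgroup G)
    (f : ℕ → G) (h0 : f 0 ∈ H)
    (h : ∀ m, f (m + 1) + f (m + 1) - f m - f 0 - f (m + 1 + 1) + f 1 + f 1 ∈ H) (m : ℕ) :
    f m - (m ^ 2) • f 1 ∈ H := by
  suffices hs : ∀ m : ℕ, f m - (m ^ 2) • f 1 ∈ H ∧ f (m + 1) - ((m + 1) ^ 2) • f 1 ∈ H from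
    (hs m).1
  intro m
  induction m with
  | zero => exact ⟨by simpa using h0, by simp⟩
  | succ m ih =>
    refine ⟨ih.2, ?_⟩
    have hsum := sub_mem (sub_mem (sub_mem (nsmul_mem ih.2 2) ih.1) h0) (h m)
    refine Eq.mp (congrArg (· ∈ H) ?_) hsum
    module

/-- Classes with trivial third differences are quadratic. -/
theorem isPrinc_cls_nsmul_of_cubeDelta
    (hsymm : ∀ {L : Type u} [Field L] [Algebra K L] (P : X.Pt L), D.cls (-P) = D.cls P)
    (z : X.Pt L) (h : ∀ a b : X.Pt L, IsPrinc (cubeDelta D a b z)) (m : ℕ) :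
    IsPrinc (D.cls (m • z) - (m ^ 2) • D.cls z) := by
  have h1 := sub_nsmul_mem_of_second_difference (princ K L).range (fun m => D.cls (m • z))
    (by
      show D.cls (0 • z) ∈ _
      rw [zero_nsmul]
      exact isPrinc_cls_zero D)
    (fun m => by
      refine Eq.mp (congrArg IsPrinc ?_) (h ((m + 1) • z) (-z))
      have e1 : (m + 1) • z + -z = m • z := by rw [succ_nsmul]; abel
      have e2 : (m + 1) • z + -z + z = (m + 1) • z := by rw [neg_add_cancel_right]
      simp only [cubeDelta]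
      rw [e2, e1, neg_add_cancel, hsymm z, ← succ_nsmul, zero_nsmul, one_nsmul]
      abel) m
  simp only [one_nsmul] at h1
  exact h1

end Fermat.Agent.AbVar
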