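import Fermat.Agent.AbVar.GaussLocal

/-!
# A constant extension of a curve over a valued field of constants

The interface to the Gauss extension of a place of the constants: existence (`nonempty_gauss`),
specialisation of places and divisors, local rings of the model and seesaw
(`Gauss.seesaw_unit`).
-/

set_option autoImplicit false

noncomputable section

open AlgebraicCurve
open Fermat.Agent.FF
open Fermat.Agent.CurveTorsion (IsConstExt)

namespace Fermat.Agent.AbVar

universe u

variable {K : Type u} [Field K] [IsAlgClosed K] {F : Type u} [Field F] [Algebra K F]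
  [IsFunctionField K F]
  {L : Type u} [Field L] [IsAlgClosed L] [Algebra K L]
  {Λ : Type u} [Field Λ] [IsAlgClosed Λ] [Algebra K Λ]
  (M : Type u) [Field M] [Algebra L M] [Algebra F M] [Algebra K M] [IsScalarTower K L M]
  [IsScalarTower K F M] [IsConstExt F L M]
  (N : Type u) [Field N] [Algebra Λ N] [Algebra F N] [Algebra K N] [IsScalarTower K Λ N]
  [IsScalarTower K F N] [IsConstExt F Λ N]

variable (π : KPlace K L Λ)

variable (hπ : Function.Surjective π.res)

/-- A place of the constants extends to the constant extension, fixing `F`. -/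
theorem nonempty_gauss : Nonempty (Gauss (F := F) M N π) := nonempty_gauss' M N π

variable {M N π} (Γ : Gauss (F := F) M N π)

omit [IsAlgClosed L] in
theorem Gauss.exists_smul_unit {f : M} (hf : f ≠ 0) :
    ∃ c : L, ∃ h : algebraMap L M c * f ∈ Γ.G.toKVal.toVal, Γ.G.res ⟨_, h⟩ ≠ 0 := by
  obtain ⟨l, z, -, hz, hs⟩ := Γ.compat.exists_unit hf
  exact ⟨l, hs.mem, fun h => hz ((hs.res_eq _).symm.trans h)⟩

/-- A place as a valuation ring over `K`. -/
def placeKVal (Q : Place L M) : KVal K M :=
  ⟨Q.toValuationSubring, fun c => by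
    rw [IsScalarTower.algebraMap_apply K L M]; exact Q.algebraMap_mem' _⟩

variable (M N π) in
/-- The place of the residue curve under a place of the curve. -/
def sp : Place L M → Place Λ N :=
  haveI : IsFunctionField Λ N := CurveTorsion.isFunctionField_ext K F
  spF K F N M π

theorem sp_notMem {Q : Place L M} {y : F}
    (h : algebraMap F M y ∉ Q.toValuationSubring ∨ ∃ a : L, a ∉ π.toKVal.toVal ∧
      algebraMap F M y - algebraMap L M a ∈ ordGE Q 1) :
    algebraMap F N y ∉ (sp (F := F) M N π Q).toValuationSubring := by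
  have : IsFunctionField L M := CurveTorsion.isFunctionField_ext K F
  have : IsFunctionField Λ N := CurveTorsion.isFunctionField_ext K F
  intro hm
  obtain ⟨a, b, h1, h2, -⟩ := exists_sends_of_mem_spF ((mem_toValuationSubring_iff _).1 hm)
  rcases h with h | ⟨a', ha', h'⟩
  · exact h h1.mem
  · have h3 := (sends_evalPlace_zero_iff.2 h').add (sends_evalPlace_const (K := K) Q a')
    rw [sub_add_cancel, zero_add] at h3
    exact ha' (h3.unique h1 ▸ h2.mem)

theorem sp_extPlace [IsFunctionField L M] [IsFunctionField Λ N] (v : Place K F) :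
    sp (F := F) M N π (CurveTorsion.extPlace L M v) = CurveTorsion.extPlace Λ N v :=
  spF_extPlace v

include hπ in
/-- Divisors of `Γ`-units specialise to the divisor of the residue. -/
theorem Gauss.mapDomain_sp_divOf [IsFunctionField L M] [IsFunctionField Λ N]
    (f : Γ.G.toKVal.toVal) (hf : Γ.G.res f ≠ 0) :
    Finsupp.mapDomain (sp (F := F) M N π) (divOf L (f : M)) = divOf Λ (Γ.G.res f) :=
  Γ.mapDomain_divOf hπ (Γ.G.sends_res f) hf

/-- The local ring of the model at a point `q` of the residue curve. -/
def Gauss.localRing (Γ : Gauss (F := F) M N π) (q : Place Λ N) : Subalgebra K M :=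
  haveI : IsFunctionField Λ N := CurveTorsion.isFunctionField_ext K F
  locRing Γ q

omit [IsAlgClosed K] [IsAlgClosed L] in
theorem Gauss.isLocalRing_localRing (q : Place Λ N) : IsLocalRing (Γ.localRing q) :=
  haveI : IsFunctionField Λ N := CurveTorsion.isFunctionField_ext K F
  isLocalRing_locRing Γ q

omit [IsAlgClosed K] [IsAlgClosed L] in
theorem Gauss.algebraMap_mem_localRing (q : Place Λ N) (a : π.toKVal.toVal) :
    algebraMap L M (a : L) ∈ Γ.localRing q :=
  haveI : IsFunctionField Λ N := CurveTorsion.isFunctionField_ext K F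
  regRing_le_locRing Γ q (Algebra.subset_adjoin (Or.inl ⟨a, rfl⟩))

omit [IsAlgClosed K] [IsAlgClosed L] in
theorem Gauss.algebraMap_mem_localRing_of_mem (q : Place Λ N) {y : F}
    (hy : algebraMap F N y ∈ q.toValuationSubring) : algebraMap F M y ∈ Γ.localRing q :=
  haveI : IsFunctionField Λ N := CurveTorsion.isFunctionField_ext K F
  regRing_le_locRing Γ q (Algebra.subset_adjoin (Or.inr ⟨y, hy, rfl⟩))

omit [IsAlgClosed K] [IsAlgClosed L] in
theorem Gauss.localRing_le_pull (q : Place Λ N) {W : KVal K N}
    (hW : W.toVal = q.toValuationSubring) {x : M} (hx : x ∈ Γ.localRing q) :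
    x ∈ (Γ.G.pull W).toVal :=
  haveI : IsFunctionField Λ N := CurveTorsion.isFunctionField_ext K F
  locRing_le_pull Γ q hW hx

theorem Gauss.localRing_le_place (Q : Place L M) {x : M}
    (hx : x ∈ Γ.localRing (sp (F := F) M N π Q)) : x ∈ Q.toValuationSubring :=
  haveI : IsFunctionField L M := CurveTorsion.isFunctionField_ext K F
  haveI : IsFunctionField Λ N := CurveTorsion.isFunctionField_ext K F
  locRing_le_place Γ Q hx

include hπ in
omit [IsAlgClosed L] in
/-- Every valuation over `π` but the Gauss valuation has a centre on the residue curve. -/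
theorem Gauss.exists_centre (W : KVal K M) (hW : ∀ a : L, algebraMap L M a ∈ W.toVal ↔
    a ∈ π.toKVal.toVal) (hne : W ≠ Γ.G.toKVal) :
    ∃ q : Place Λ N, ∀ x ∈ Γ.localRing q, x ∈ W.toVal :=
  haveI : IsFunctionField Λ N := CurveTorsion.isFunctionField_ext K F
  exists_centre_locRing Γ hπ W hW hne

include hπ in
/-- Seesaw: a `Γ`-unit without zeros or poles in the disc of `q` is a unit at all valuations
centred at `q`. -/
theorem Gauss.seesaw_unit (q : Place Λ N) (u : Γ.G.toKVal.toVal) (hu : Γ.G.res u ≠ 0)
    (hdiv : ∀ Q : Place L M, sp (F := F) M N π Q = q → Q.ord (u : M) = 0) (W : KVal K M)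
    (hq : ∀ x ∈ Γ.localRing q, x ∈ W.toVal) :
    (u : M) ∈ W.toVal ∧ (u : M)⁻¹ ∈ W.toVal := by
  have : IsFunctionField L M := CurveTorsion.isFunctionField_ext K F
  have : IsFunctionField Λ N := CurveTorsion.isFunctionField_ext K F
  refine ⟨hq _ (mem_locRing_of_div Γ hπ q (Γ.G.sends_res u) hu hdiv),
    hq _ (mem_locRing_of_div Γ hπ q ((Γ.G.sends_res u).inv hu) (inv_ne_zero hu) fun Q hQ => ?_)⟩
  rw [Place.ord_inv, hdiv Q hQ, neg_zero]

end Fermat.Agent.AbVar
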