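import Fermat.Agent.AbVar.CubeBasic
import Fermat.Agent.AbVar.Gauss
import Fermat.Agent.AbVar.ConstExtension

/-!
# Families on a constant extension of a curve: degree, rigidity and seesaw

A family of classes on a constant extension of a curve which specialises to principal families at
enough places of the constants has a principal divisor (`exists_ord_eq_zero_of_rigid`), and one
which is trivial at all places of the curve and principal on a section is principal
(`isPrinc_of_trivial_at_places`).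
-/

set_option autoImplicit false

noncomputable section

open AlgebraicCurve
open Fermat.Agent.FF
open Fermat.Agent.CurveTorsion (IsConstExt extPlace extDiv)
open scoped TensorProduct

namespace Fermat.Agent.AbVar

universe u

/-! ### Divisors -/

theorem mapDomain_apply_eq_sum {ι κ : Type*} [DecidableEq κ] (f : ι → κ) (D : ι →₀ ℤ) (b : κ) :
    Finsupp.mapDomain f D b = ∑ a ∈ D.support, if f a = b then D a else 0 := by
  simp [Finsupp.mapDomain, Finsupp.sum, Finsupp.single_apply]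

theorem mapDomain_eq_zero_of_fibre {ι κ : Type*} (f : ι → κ) (D : ι →₀ ℤ) (b : κ)
    (h : ∀ a, f a = b → D a = 0) : Finsupp.mapDomain f D b = 0 := by
  classical
  rw [mapDomain_apply_eq_sum]
  exact Finset.sum_eq_zero fun a _ => by split_ifs with ha; exacts [h a ha, rfl]

theorem le_mapDomain {ι κ : Type*} (f : ι → κ) {D : ι →₀ ℤ} (hD : 0 ≤ D) (a : ι) :
    D a ≤ Finsupp.mapDomain f D (f a) := by
  classical
  rw [mapDomain_apply_eq_sum]
  by_cases ha : a ∈ D.support
  · refine le_trans (le_of_eq ?_)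
      (Finset.single_le_sum (fun i _ => by split_ifs; exacts [hD i, le_rfl]) ha)
    rw [if_pos rfl]
  · rw [Finsupp.notMem_support_iff.mp ha]
    exact Finset.sum_nonneg fun i _ => by split_ifs; exacts [hD i, le_rfl]

theorem mapDomain_nonneg' {ι κ : Type*} (f : ι → κ) {D : ι →₀ ℤ} (hD : 0 ≤ D) :
    0 ≤ Finsupp.mapDomain f D := fun b => by
  classical
  rw [mapDomain_apply_eq_sum]
  exact Finset.sum_nonneg fun i _ => by split_ifs; exacts [hD i, le_rfl]

section Curve

variable {K : Type*} [Field K] {F : Type*} [Field F] [Algebra K F] [IsFunctionField K F]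

theorem divOf_mul' {f g : F} (hf : f ≠ 0) (hg : g ≠ 0) :
    divOf K (f * g) = divOf K f + divOf K g :=
  Finsupp.ext fun v => by rw [Finsupp.add_apply, divOf_apply, divOf_apply, divOf_apply,
    v.ord_mul hf hg]

theorem eq_of_nonneg_add_divOf [IsAlgClosed K] {E : Divisor K F} (hE : 0 ≤ E) (hE1 : ell E = 1)
    {f : F} (h : 0 ≤ E + divOf K f) : E + divOf K f = E := by
  have hmem : f ∈ riemannRochSpace E := mem_riemannRochSpace.mpr fun v => by
    refine mem_ordGE_of_le_ord v ?_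
    have h1 : 0 ≤ E v + v.ord f := by simpa using h v
    omega
  have hone : (1 : F) ∈ riemannRochSpace E := mem_riemannRochSpace.mpr fun v =>
    mem_ordGE_of_le_ord v (by
      have h1 : 0 ≤ E v := hE v
      rw [v.ord_one]
      omega)
  obtain ⟨c, hc⟩ := (finrank_eq_one_iff_of_nonzero' (⟨1, hone⟩ : riemannRochSpace E)
    (fun h0 => one_ne_zero (congrArg Subtype.val h0))).mp hE1 ⟨f, hmem⟩
  have hc' : c • (1 : F) = f := congrArg Subtype.val hc
  rw [Algebra.smul_def, mul_one] at hc'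
  ext v
  simp [← hc', ord_algebraMap]

end Curve

theorem degree_mapDomain_sp {K : Type*} [Field K] [IsAlgClosed K] {F : Type*} [Field F]
    [Algebra K F] [IsFunctionField K F] {L : Type*} [Field L] [IsAlgClosed L] {M : Type*}
    [Field M] [Algebra L M] [IsFunctionField L M] (f : Place L M → Place K F)
    (D : Divisor L M) : Divisor.degree (Finsupp.mapDomain f D) = Divisor.degree D := by
  induction D using Finsupp.induction with
  | zero => simp
  | single_add v n D _ _ ih =>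
    rw [Finsupp.mapDomain_add, map_add, map_add, ih, Finsupp.mapDomain_single,
      Divisor.degree_single, Divisor.degree_single, deg_eq_one, deg_eq_one]

/-! ### The constant extension -/

variable {K : Type u} [Field K] [IsAlgClosed K] {F : Type u} [Field F] [Algebra K F]
  [IsFunctionField K F] {k : Type u} [Field k] [IsAlgClosed k] [Algebra K k]
  {M : Type u} [Field M] [Algebra k M] [Algebra F M] [Algebra K M] [IsScalarTower K k M]
  [IsScalarTower K F M] [IsConstExt F k M] [IsFunctionField k M]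

omit [IsAlgClosed K] in
theorem isConstExt_self : IsConstExt F K F where
  gen := eq_top_iff.mpr fun x _ => IntermediateField.subset_adjoin K _ ⟨x, rfl⟩
  exists_transcendental := by
    obtain ⟨x, hx, -⟩ := IsFunctionField.exists_transcendental_finite (K := K) (F := F)
    exact ⟨x, hx⟩

theorem extPlace_self [IsConstExt F K F] (v : Place K F) : extPlace K F v = v :=
  (CurveTorsion.liesOver_iff.mp (fun _ => Iff.rfl : CurveTorsion.LiesOver v v)).symm

omit [IsAlgClosed K] [IsAlgClosed k] [Algebra F M] [IsScalarTower K F M] [IsConstExt F k M]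
  [IsFunctionField K F] [IsFunctionField k M] in
theorem mem_units_placeKVal_iff (Q : Place k M) (x : Mˣ) :
    x ∈ (placeKVal (K := K) Q).units ↔ Q.ord (x : M) = 0 := by
  rw [KVal.mem_units_iff]
  show (x : M) ∈ Q.toValuationSubring ∧ (x : M)⁻¹ ∈ Q.toValuationSubring ↔ _
  rw [mem_toValuationSubring_iff_ord Q x.ne_zero,
    mem_toValuationSubring_iff_ord Q (inv_ne_zero x.ne_zero), Q.ord_inv]
  omega

omit [IsAlgClosed K] [IsAlgClosed k] [Algebra F M] [IsScalarTower K F M] [IsConstExt F k M]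
  [IsFunctionField K F] [IsFunctionField k M] in
theorem ord_eq_of_cls_eq (Q : Place k M) {x y : Mˣ}
    (h : (placeKVal (K := K) Q).cls (Additive.ofMul x) =
      (placeKVal (K := K) Q).cls (Additive.ofMul y)) : Q.ord (x : M) = Q.ord (y : M) := by
  have h1 : x⁻¹ * y ∈ (placeKVal (K := K) Q).units := QuotientGroup.eq.mp h
  rw [mem_units_placeKVal_iff, Units.val_mul, Units.val_inv_eq_inv_val,
    Q.ord_mul (inv_ne_zero x.ne_zero) y.ne_zero, Q.ord_inv] at h1
  omega

omit [IsAlgClosed K] [IsAlgClosed k] [Algebra F M] [IsScalarTower K F M] [IsConstExt F k M]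
  [IsFunctionField K F] in
/-- The divisor of a family on the curve. -/
theorem exists_clDiv {β : ClGroup K M} (hβ : β ∈ finConst K M) :
    ∃ D : Divisor k M, ∀ (Q : Place k M) (x : Mˣ),
      β (placeKVal Q) = (placeKVal Q).cls (Additive.ofMul x) → D Q = Q.ord (x : M) := by
  classical
  obtain ⟨h, s, hh⟩ := hβ
  choose r hr using fun Q : Place k M =>
    (placeKVal (K := K) Q).cls_surjective (β (placeKVal Q))
  have hD : ∀ (Q : Place k M) (x : Mˣ),
      β (placeKVal Q) = (placeKVal Q).cls (Additive.ofMul x) →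
        Q.ord ((r Q).toMul : M) = Q.ord (x : M) := fun Q x hx =>
    ord_eq_of_cls_eq Q ((hr Q).trans hx)
  refine ⟨Finsupp.ofSupportFinite (fun Q => Q.ord ((r Q).toMul : M)) ?_, hD⟩
  refine Set.Finite.subset (Set.Finite.biUnion (insert (h : M) s).finite_toSet
    fun y _ => (finite_setOf_ord_pos (K := k) y).union (finite_setOf_ord_neg y)) fun Q hQ => ?_
  by_contra hn
  simp only [Set.mem_iUnion, Set.mem_union, Set.mem_ofPred_eq, not_exists, not_or, not_lt] at hn
  have h0 : ∀ y ∈ insert (h : M) s, Q.ord y = 0 := fun y hy =>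
    le_antisymm (hn y hy).1 (hn y hy).2
  refine hQ ((hD Q h (hh _ fun y hy => ?_)).trans (h0 _ (Finset.mem_insert_self _ _)))
  exact (mem_toValuationSubring_iff Q).mpr
    (mem_ordGE_of_le_ord Q (h0 y (Finset.mem_insert_of_mem hy)).ge)

omit [IsAlgClosed K] [IsAlgClosed k] [Algebra F M] [IsScalarTower K F M] [IsConstExt F k M]
  [IsFunctionField K F] [IsFunctionField k M] [Algebra k M] [IsScalarTower K k M] in
/-- Units of a composite valuation ring have unit residues. -/
theorem KPlace.cls_res {Λ : Type u} [Field Λ] [Algebra K Λ] (π : KPlace K M Λ) (W : KVal K Λ)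
    {z z' : Mˣ} (hz : (z : M) ∈ π.toKVal.toVal) (hz' : (z' : M) ∈ π.toKVal.toVal) {y y' : Λˣ}
    (hy : π.res ⟨z, hz⟩ = y) (hy' : π.res ⟨z', hz'⟩ = y')
    (h : (π.pull W).cls (Additive.ofMul z) = (π.pull W).cls (Additive.ofMul z')) :
    W.cls (Additive.ofMul y) = W.cls (Additive.ofMul y') := by
  rw [KVal.cls_eq_iff] at h ⊢
  obtain ⟨h1, h2⟩ := h
  obtain ⟨m1, r1⟩ := KPlace.mem_pull.1 h1
  obtain ⟨m2, r2⟩ := KPlace.mem_pull.1 h2
  have key : ∀ (a b : Mˣ) (ha : (a : M) ∈ π.toKVal.toVal) (hb : (b : M) ∈ π.toKVal.toVal)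
      (c d : Λˣ), π.res ⟨a, ha⟩ = c → π.res ⟨b, hb⟩ = d →
        ∀ (m : (a : M)⁻¹ * (b : M) ∈ π.toKVal.toVal), π.res ⟨_, m⟩ = (c : Λ)⁻¹ * (d : Λ) := by
    intro a b ha hb c d hc hd m
    rw [eq_inv_mul_iff_mul_eq₀ c.ne_zero, ← hc, ← hd, ← map_mul]
    exact congrArg π.res (Subtype.ext (mul_inv_cancel_left₀ a.ne_zero _))
  exact ⟨key z z' hz hz' y y' hy hy' m1 ▸ r1, key z' z hz' hz y' y hy' hy m2 ▸ r2⟩

/-- The specialised divisor of a family with principal specialisation is principal. -/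
theorem exists_mapDomain_sp_eq_divOf {Λ : Type u} [Field Λ] [IsAlgClosed Λ] [Algebra K Λ]
    {N : Type u} [Field N] [Algebra Λ N] [Algebra F N] [Algebra K N] [IsScalarTower K Λ N]
    [IsScalarTower K F N] [IsConstExt F Λ N] [IsFunctionField Λ N] {π : KPlace K k Λ}
    (hπ : Function.Surjective π.res) (Γ : Gauss (F := F) M N π) {β : ClGroup K M}
    {β' : ClGroup K N} (D : Divisor k M)
    (hD : ∀ (Q : Place k M) (x : Mˣ),
      β (placeKVal Q) = (placeKVal Q).cls (Additive.ofMul x) → D Q = Q.ord (x : M))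
    (hloc : ∀ q : Place Λ N, β ∈ constOn K M {V | ∀ x ∈ Γ.localRing q, x ∈ V.toVal})
    (hspec : SpecTo Γ.G β β') (hβ' : IsPrinc β') :
    ∃ f : N, f ≠ 0 ∧ Finsupp.mapDomain (sp (F := F) M N π) D = divOf Λ f := by
  obtain ⟨c, hc⟩ := hspec
  obtain ⟨y₀, hy₀⟩ := hβ'.exists_eq
  obtain ⟨a, ham, ha0⟩ := Γ.exists_smul_unit (f := (c : M)) c.ne_zero
  have hane : a ≠ 0 := fun e => ha0 (by
    refine Eq.trans ?_ (map_zero Γ.G.res)
    exact congrArg Γ.G.res (Subtype.ext (by simp [e])))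
  refine ⟨(y₀ : N) * Γ.G.res ⟨_, ham⟩, mul_ne_zero y₀.ne_zero ha0, ?_⟩
  have hc' : Finsupp.mapDomain (sp (F := F) M N π) (divOf k (c : M)) =
      divOf Λ (Γ.G.res ⟨_, ham⟩) := by
    rw [← Γ.mapDomain_sp_divOf hπ ⟨_, ham⟩ ha0]
    congr 1
    ext Q
    simp [Q.ord_mul ((map_ne_zero (algebraMap k M)).mpr hane) c.ne_zero, ord_algebraMap]
  refine Finsupp.ext fun q => ?_
  obtain ⟨h, hh⟩ := hloc q
  obtain ⟨x, hx, y, hxi, hres, h1, h2⟩ := hc (placeKVal q)
  have hmem : ∀ z ∈ Γ.localRing q, z ∈ (Γ.G.pull (placeKVal q)).toVal := fun z hz =>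
    Γ.localRing_le_pull q rfl hz
  have hu : (c * x)⁻¹ * h ∈ (Γ.G.pull (placeKVal q)).units :=
    QuotientGroup.eq.mp (h1.symm.trans (hh _ hmem))
  obtain ⟨hr, hri⟩ := (KVal.mem_units_iff _).mp hu
  obtain ⟨hrG, hrW⟩ := KPlace.mem_pull.1 hr
  obtain ⟨hriG, hriW⟩ := KPlace.mem_pull.1 hri
  set w : N := Γ.G.res ⟨_, hrG⟩ with hw
  set w' : N := Γ.G.res ⟨_, hriG⟩
  have hww : w * w' = 1 := by
    rw [hw, ← map_mul, ← map_one Γ.G.res]
    exact congrArg Γ.G.res (Subtype.ext (mul_inv_cancel₀ (Units.ne_zero ((c * x)⁻¹ * h))))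
  have hw0 : w ≠ 0 := left_ne_zero_of_mul_eq_one hww
  have hwq : q.ord w = 0 := by
    have e1 := ord_nonneg_of_mem q hrW
    have e2 := ord_nonneg_of_mem q hriW
    have e3 : q.ord w + q.ord w' = 0 := by
      rw [← q.ord_mul hw0 (right_ne_zero_of_mul_eq_one hww), hww, q.ord_one]
    change 0 ≤ q.ord w at e1
    change 0 ≤ q.ord w' at e2
    omega
  have hum : (x : M) * (((c * x)⁻¹ * h : Mˣ) : M) ∈ Γ.G.toKVal.toVal := mul_mem hx hrG
  have hures : Γ.G.res ⟨_, hum⟩ = (y : N) * w := by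
    rw [hw, ← hres, ← map_mul]
    rfl
  have huval : (x : M) * (((c * x)⁻¹ * h : Mˣ) : M) = (h : M) / (c : M) := by
    simp only [Units.val_mul, Units.val_inv_eq_inv_val]
    field_simp
  have hyq : q.ord (y : N) = q.ord (y₀ : N) := ord_eq_of_cls_eq q (h2.symm.trans (hy₀ _))
  have hu0 : Γ.G.res ⟨_, hum⟩ ≠ 0 := by
    rw [hures]
    exact mul_ne_zero y.ne_zero hw0
  have hdu := Γ.mapDomain_sp_divOf hπ ⟨_, hum⟩ hu0
  have hzero : Finsupp.mapDomain (sp (F := F) M N π)
      (D - divOf k ((x : M) * (((c * x)⁻¹ * h : Mˣ) : M)) - divOf k (c : M)) q = 0 := by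
    refine mapDomain_eq_zero_of_fibre _ _ _ fun Q hQ => ?_
    have hQh := hD Q h (hh _ fun z hz => Γ.localRing_le_place Q (by rwa [hQ]))
    rw [Finsupp.sub_apply, Finsupp.sub_apply, divOf_apply, divOf_apply, hQh, huval,
      ord_div Q h.ne_zero c.ne_zero]
    ring
  rw [Finsupp.mapDomain_sub, Finsupp.mapDomain_sub, hc', hdu, hures, Finsupp.sub_apply,
    Finsupp.sub_apply, divOf_apply, divOf_apply, q.ord_mul y.ne_zero hw0, hwq, hyq] at hzero
  rw [divOf_apply, q.ord_mul y₀.ne_zero ha0]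
  omega

/-- **Rigidity.** The divisor of a family trivial at enough specialisations of the constants is
principal. -/
theorem exists_ord_eq_zero_of_rigid {β : ClGroup K M} (hfin : β ∈ finConst K M)
    (T : KPlace K k K → Prop) (hne : ∃ π, T π)
    (htest : ∀ α : k, (∀ π, T π → α ∈ π.toKVal.toVal) → α ∈ Set.range (algebraMap K k))
    (hloc : ∀ [IsConstExt F K F] (π : KPlace K k K), Function.Surjective π.res →
      ∀ (Γ : Gauss (F := F) M F π) (q : Place K F),
        β ∈ constOn K M {V | ∀ x ∈ Γ.localRing q, x ∈ V.toVal})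
    (hsp : ∀ [IsConstExt F K F] (π : KPlace K k K), T π → ∀ Γ : Gauss (F := F) M F π,
      ∃ β' : ClGroup K F, SpecTo Γ.G β β' ∧ IsPrinc β') :
    ∃ φ : Mˣ, ∀ Q : Place k M,
      β (placeKVal Q) + (placeKVal Q).cls (Additive.ofMul φ) = 0 := by
  classical
  have := isConstExt_self (K := K) (F := F)
  obtain ⟨D, hD⟩ := exists_clDiv (k := k) hfin
  have hsurj : ∀ π : KPlace K k K, Function.Surjective π.res :=
    fun π a => ⟨_, π.res_algebraMap a⟩
  have hspD : ∀ π, T π → ∃ f : F, f ≠ 0 ∧ Finsupp.mapDomain (sp (F := F) M F π) D = divOf K f := by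
    intro π hπ
    obtain ⟨Γ⟩ := nonempty_gauss (F := F) M F π
    obtain ⟨β', h1, h2⟩ := hsp π hπ Γ
    exact exists_mapDomain_sp_eq_divOf (hsurj π) Γ D hD (hloc π (hsurj π) Γ) h1 h2
  obtain ⟨π₀, hπ₀⟩ := hne
  obtain ⟨f₀, hf₀, hDf₀⟩ := hspD π₀ hπ₀
  have hdegD : Divisor.degree D = 0 := by
    rw [← degree_mapDomain_sp (sp (F := F) M F π₀) D, hDf₀, degree_divOf]
  obtain ⟨E, hE0, hEdeg, hE1⟩ := exists_genus_divisor (K := K) (F := F)
  set E' : Divisor k M := extDiv (K := k) (F := M) E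
  have hspE : ∀ π : KPlace K k K, Finsupp.mapDomain (sp (F := F) M F π) E' = E := fun π => by
    show Finsupp.mapDomain (sp (F := F) M F π) (Finsupp.mapDomain (extPlace k M) E) = E
    rw [← Finsupp.mapDomain_comp]
    convert Finsupp.mapDomain_id
    funext v
    exact (sp_extPlace (N := F) (π := π) v).trans (extPlace_self v)
  have hdeg : Divisor.degree (D + E') = riemannGenus K F := by
    rw [map_add, hdegD, zero_add, CurveTorsion.degree_extDiv, hEdeg]
  have h1 : 1 ≤ ell (D + E') := one_le_ell_of_riemannGenus_le (by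
    rw [hdeg, riemannGenus_constExt (K := K) (F := F)])
  obtain ⟨φ, hφm, hφ0⟩ := Submodule.exists_mem_ne_zero_of_ne_bot
    (p := riemannRochSpace (D + E')) fun h => by rw [ell, h, finrank_bot] at h1; omega
  set Fd : Divisor k M := D + E' + divOf k φ with hFd
  have hFd0 : 0 ≤ Fd := fun Q => by
    have h2 := mem_riemannRochSpace.mp hφm Q
    rw [mem_ordGE_of_ne_zero Q hφ0] at h2
    simp only [hFd, Finsupp.coe_zero, Pi.zero_apply, Finsupp.add_apply, divOf_apply] at h2 ⊢
    omega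
  have hspFd : ∀ π, T π → Finsupp.mapDomain (sp (F := F) M F π) Fd = E := by
    intro π hπ
    obtain ⟨f, hf, hDf⟩ := hspD π hπ
    obtain ⟨Γ⟩ := nonempty_gauss (F := F) M F π
    obtain ⟨a, ham, ha0⟩ := Γ.exists_smul_unit hφ0
    have hane : a ≠ 0 := fun e => ha0 (by
      refine Eq.trans ?_ (map_zero Γ.G.res)
      exact congrArg Γ.G.res (Subtype.ext (by simp [e])))
    have hdivφ : Finsupp.mapDomain (sp (F := F) M F π) (divOf k φ) =
        divOf K (Γ.G.res ⟨_, ham⟩) := by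
      rw [← Γ.mapDomain_sp_divOf (hsurj π) ⟨_, ham⟩ ha0]
      congr 1
      ext Q
      simp [Q.ord_mul ((map_ne_zero (algebraMap k M)).mpr hane) hφ0, ord_algebraMap]
    have hnn := mapDomain_nonneg' (sp (F := F) M F π) hFd0
    have heq : Finsupp.mapDomain (sp (F := F) M F π) Fd = E + divOf K (f * Γ.G.res ⟨_, ham⟩) := by
      rw [hFd, Finsupp.mapDomain_add, Finsupp.mapDomain_add, hDf, hspE, hdivφ,
        divOf_mul' hf ha0]
      abel
    rw [heq] at hnn ⊢
    exact eq_of_nonneg_add_divOf hE0 hE1 hnn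
  have hsupp : ∀ P : Place k M, Fd P ≠ 0 → ∃ v ∈ E.support, extPlace k M v = P := by
    intro P hP
    have hmem : ∀ π, T π → sp (F := F) M F π P ∈ E.support := fun π hπ => by
      rw [Finsupp.mem_support_iff]
      have h2 := le_mapDomain (sp (F := F) M F π) hFd0 P
      rw [hspFd π hπ] at h2
      have h3 : 0 ≤ Fd P := hFd0 P
      omega
    have hconst : ∀ y : F, (∀ v ∈ E.support, 0 ≤ v.ord y) →
        algebraMap F M y ∈ P.toValuationSubring ∧ ∃ α : K,
          algebraMap F M (y - algebraMap K F α) ∈ ordGE P 1 := by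
      intro y hy
      have hreg : ∀ π, T π → algebraMap F F y ∈
          (sp (F := F) M F π P).toValuationSubring := fun π hπ =>
        (mem_toValuationSubring_iff _).mpr (mem_ordGE_of_le_ord _ (hy _ (hmem π hπ)))
      have hmP : algebraMap F M y ∈ P.toValuationSubring :=
        of_not_not fun h => sp_notMem (π := π₀) (Or.inl h) (hreg π₀ hπ₀)
      have hsub := CurveTorsion.sub_ev_mem P ((mem_toValuationSubring_iff P).mp hmP)
      obtain ⟨α, hα⟩ := htest (CurveTorsion.ev P (algebraMap F M y)) fun π hπ =>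
        of_not_not fun h => sp_notMem (π := π) (Or.inr ⟨_, h, hsub⟩) (hreg π hπ)
      refine ⟨hmP, α, ?_⟩
      rwa [map_sub, ← IsScalarTower.algebraMap_apply K F M,
        IsScalarTower.algebraMap_apply K k M, hα]
    obtain ⟨v₁, hv₁⟩ := exists_place_notMem E.support
    obtain ⟨y, hy1, hy2⟩ := exists_ord_neg_unique (K := K) v₁
    obtain ⟨-, α, hα⟩ := hconst y fun v hv => hy2 v fun e => hv₁ (e ▸ hv)
    have hne : y - algebraMap K F α ≠ 0 := fun e => by
      rw [sub_eq_zero.mp e, ord_algebraMap] at hy1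
      exact lt_irrefl _ hy1
    rw [mem_ordGE_of_ne_zero P ((map_ne_zero _).mpr hne)] at hα
    obtain ⟨v, hv⟩ := CurveTorsion.exists_extPlace_of_ord_ne (K₀ := K) (w := P)
      (f := y - algebraMap K F α) (by omega)
    refine ⟨v, of_not_not fun hvE => ?_, hv⟩
    obtain ⟨z, hz1, hz2⟩ := exists_ord_neg_unique (K := K) v
    have hzP := ord_nonneg_of_mem P (hconst z fun v' hv' => hz2 v' fun e => hvE (e ▸ hv')).1
    rw [← hv, CurveTorsion.ord_extPlace] at hzP
    omega
  have hFdE : Fd = E' := by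
    refine Finsupp.ext fun Q => ?_
    by_cases hQ : ∃ v : Place K F, extPlace k M v = Q
    · obtain ⟨v, rfl⟩ := hQ
      rw [CurveTorsion.extDiv_apply, ← hspFd π₀ hπ₀]
      have hzero : Finsupp.mapDomain (sp (F := F) M F π₀)
          (Fd - Finsupp.single (extPlace k M v) (Fd (extPlace k M v))) v = 0 := by
        refine mapDomain_eq_zero_of_fibre _ _ _ fun Q hQv => ?_
        rcases eq_or_ne Q (extPlace k M v) with rfl | hne
        · simp
        rw [Finsupp.sub_apply, Finsupp.single_eq_of_ne hne, sub_zero]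
        by_contra h0
        obtain ⟨w, -, rfl⟩ := hsupp Q h0
        rw [sp_extPlace (M := M) (N := F) (π := π₀), extPlace_self] at hQv
        exact hne (by rw [hQv])
      rw [Finsupp.mapDomain_sub, Finsupp.sub_apply, Finsupp.mapDomain_single,
        sp_extPlace (M := M) (N := F) (π := π₀), extPlace_self, Finsupp.single_eq_same] at hzero
      omega
    · push Not at hQ
      rw [CurveTorsion.extDiv_apply_of_notMem E hQ]
      by_contra h0
      obtain ⟨v, -, hv⟩ := hsupp Q h0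
      exact hQ v hv
  refine ⟨Units.mk0 φ hφ0, fun Q => ?_⟩
  obtain ⟨x, hx⟩ := (placeKVal (K := K) Q).cls_surjective (β (placeKVal Q))
  have hDQ : D Q = Q.ord (x.toMul : M) := hD Q x.toMul hx.symm
  have hsum : D Q + Q.ord φ = 0 := by
    have h2 : Fd Q = E' Q := by rw [hFdE]
    simp only [hFd, Finsupp.add_apply, divOf_apply] at h2
    omega
  have hmul : (placeKVal (K := K) Q).cls (Additive.ofMul (x.toMul * Units.mk0 φ hφ0)) = 0 := by
    rw [KVal.cls_eq_zero_iff, mem_units_placeKVal_iff, Units.val_mul, Units.val_mk0,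
      Q.ord_mul (Units.ne_zero _) hφ0]
    omega
  rw [← hx]
  rwa [ofMul_mul, map_add, ofMul_toMul] at hmul

/-- The place over a rational place of `F`, with values in the constants. -/
theorem exists_section_place (x₀ : KPlace K F K) :
    ∃ ρ : KPlace K M k, (∀ a : k, ∃ h : algebraMap k M a ∈ ρ.toKVal.toVal,
        ρ.res ⟨_, h⟩ = a) ∧
      ∀ y : x₀.toKVal.toVal, ∃ h : algebraMap F M y ∈ ρ.toKVal.toVal,
        ρ.res ⟨_, h⟩ = algebraMap K k (x₀.res y) := by
  let R := x₀.toKVal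
  let ι : k ⊗[K] R.toVal →ₐ[K] M :=
    (constLift (F := F) (M := M) (AlgHom.id K k)).comp
      (Algebra.TensorProduct.map (AlgHom.id K k) R.incl)
  have hι : Function.Injective ι := (tensorLift_injective (K := K) (F := F) (M := M)).comp
    (Module.Flat.lTensor_preserves_injective_linearMap (M := k) R.incl.toLinearMap
      Subtype.val_injective)
  let φ : k ⊗[K] R.toVal →ₐ[K] k := Algebra.TensorProduct.lift (AlgHom.id K k)
    ((Algebra.ofId K k).comp x₀.resAlg) fun _ _ => Commute.all _ _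
  obtain ⟨ρ, hρ⟩ := exists_place_extending ι.range
    (φ.comp (AlgEquiv.ofInjective ι hι).symm.toAlgHom)
  have key : ∀ t : k ⊗[K] R.toVal, ∃ h : ι t ∈ ρ.toKVal.toVal, ρ.res ⟨_, h⟩ = φ t := fun t => by
    obtain ⟨h, hh⟩ := hρ ⟨ι t, t, rfl⟩
    exact ⟨h, hh.trans (congrArg φ ((AlgEquiv.ofInjective ι hι).symm_apply_apply t))⟩
  refine ⟨ρ, fun a => ?_, fun y => ?_⟩
  · obtain ⟨h, hh⟩ := key (a ⊗ₜ 1)
    have e : ι (a ⊗ₜ 1) = algebraMap k M a := by simp [ι, constLift]
    refine ⟨e ▸ h, (congrArg ρ.res (Subtype.ext e)).symm.trans (hh.trans ?_)⟩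
    simp [φ]
  · obtain ⟨h, hh⟩ := key (1 ⊗ₜ y)
    have e : ι (1 ⊗ₜ y) = algebraMap F M y := by simp [ι, constLift]; rfl
    refine ⟨e ▸ h, (congrArg ρ.res (Subtype.ext e)).symm.trans (hh.trans ?_)⟩
    simp [φ, KPlace.resAlg]

/-- **Seesaw.** A family trivial at all places of the curve and principal on a section is
principal. -/
theorem isPrinc_of_trivial_at_places {γ : ClGroup K M}
    (hγ : ∀ Q : Place k M, γ (placeKVal Q) = 0)
    (hloc : ∀ {Λ : Type u} [Field Λ] [IsAlgClosed Λ] [Algebra K Λ] {N : Type u} [Field N]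
      [Algebra Λ N] [Algebra F N] [Algebra K N] [IsScalarTower K Λ N] [IsScalarTower K F N]
      [IsConstExt F Λ N] (π : KPlace K k Λ), Function.Surjective π.res →
      ∀ (Γ : Gauss (F := F) M N π) (q : Place Λ N),
        γ ∈ constOn K M {V | ∀ x ∈ Γ.localRing q, x ∈ V.toVal})
    (ρ : KPlace K M k) (hρ : ∀ a : k, ∃ h : algebraMap k M a ∈ ρ.toKVal.toVal,
      ρ.res ⟨_, h⟩ = a)
    {γ' : ClGroup K k} (hspec : SpecTo ρ γ γ') (hγ' : IsPrinc γ') : IsPrinc γ := by
  have hρinj : ρ.toKVal.toVal ≠ ⊤ := by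
    intro htop
    obtain ⟨t, ht, -⟩ := IsFunctionField.exists_transcendental_finite (K := k) (F := M)
    have hall : ∀ z : M, z ∈ ρ.toKVal.toVal := fun z => htop ▸ ValuationSubring.mem_top z
    let σ : M →+* k := ρ.res.comp ((RingHom.id M).codRestrict ρ.toKVal.toVal.toSubring hall)
    refine ht ?_
    have hσ : σ t = σ (algebraMap k M (σ t)) := by
      obtain ⟨h, hh⟩ := hρ (σ t)
      exact hh.symm
    rw [σ.injective hσ]
    exact isAlgebraic_algebraMap _
  let Q₀ : Place k M := ⟨ρ.toKVal.toVal, fun a => (hρ a).1, hρinj,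
    isPrincipalIdealRing_valuationSubring_of_ne_top ρ.toKVal.toVal fun a => (hρ a).1⟩
  have hpull : ρ.pull (KVal.triv K k) = placeKVal Q₀ := KVal.ext (SetLike.ext fun z =>
    ⟨fun h => (KPlace.mem_pull.1 h).1,
      fun h => KPlace.mem_pull.2 ⟨h, ValuationSubring.mem_top _⟩⟩)
  obtain ⟨c, hc⟩ := hspec
  obtain ⟨e, he⟩ := hγ'.exists_eq
  obtain ⟨r, hcρ, hr⟩ : ∃ (r : kˣ) (hc : (c : M) ∈ ρ.toKVal.toVal),
      ρ.res ⟨(c : M), hc⟩ = r := by
    obtain ⟨x, hx, y, hxi, hres, h1, -⟩ := hc (KVal.triv K k)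
    have hu : c * x ∈ (placeKVal (K := K) Q₀).units := by
      have h3 : ∀ V' : KVal K M, V' = placeKVal Q₀ →
          γ V' = V'.cls (Additive.ofMul (c * x)) → c * x ∈ V'.units := by
        rintro V' rfl h'
        rw [hγ] at h'
        exact (KVal.cls_eq_zero_iff _).mp h'.symm
      exact hpull ▸ h3 _ hpull h1
    obtain ⟨hm, hmi⟩ := (KVal.mem_units_iff _).mp hu
    have hc1 : (c : M) ∈ ρ.toKVal.toVal := by
      have e1 : (c : M) = ((c * x : Mˣ) : M) * (x : M)⁻¹ := by
        rw [Units.val_mul, mul_inv_cancel_right₀ x.ne_zero]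
      rw [e1]
      exact mul_mem hm hxi
    have hc2 : (c : M)⁻¹ ∈ ρ.toKVal.toVal := by
      have e1 : (c : M)⁻¹ = ((c * x : Mˣ) : M)⁻¹ * (x : M) := by
        rw [Units.val_mul, mul_inv, inv_mul_cancel_right₀ x.ne_zero]
      rw [e1]
      exact mul_mem hmi hx
    have hne : ρ.res ⟨_, hc1⟩ ≠ 0 := fun h0 => one_ne_zero (α := k) (by
      have e2 : ρ.res (⟨_, hc1⟩ * ⟨_, hc2⟩) = ρ.res 1 :=
        congrArg ρ.res (Subtype.ext (mul_inv_cancel₀ c.ne_zero))
      rw [map_mul, h0, zero_mul, map_one] at e2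
      exact e2.symm)
    exact ⟨Units.mk0 _ hne, hc1, rfl⟩
  refine isPrinc_of_eq γ (Units.map (algebraMap k M : k →* M) (r * e)) fun W => ?_
  set V : KVal K k := W.comap (IsScalarTower.toAlgHom K k M)
  obtain ⟨N, _, _, _, _, _, _, _⟩ := exists_constExt (K := K) (F := F)
    (L := IsLocalRing.ResidueField V.toVal)
  have hπ : Function.Surjective V.residue.res := V.residue_surjective
  obtain ⟨Γ⟩ := nonempty_gauss (F := F) M N V.residue
  obtain ⟨g, hg⟩ := Γ.G.toKVal.cls_surjective (γ Γ.G.toKVal)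
  obtain ⟨d, hdm, hd0⟩ := Γ.exists_smul_unit (f := (g.toMul : M)) (Units.ne_zero _)
  have hd : d ≠ 0 := fun e0 => hd0 (by
    refine Eq.trans ?_ (map_zero Γ.G.res)
    exact congrArg Γ.G.res (Subtype.ext (by simp [e0])))
  set a : kˣ := (Units.mk0 d hd)⁻¹ with ha
  set aM : Mˣ := Units.map (algebraMap k M : k →* M) a with haM
  have haMval : (aM : M) = algebraMap k M d⁻¹ := by simp [haM, ha]
  have hG : γ Γ.G.toKVal = Γ.G.toKVal.cls (Additive.ofMul aM) := by
    rw [← hg, ← ofMul_toMul g, KVal.cls_eq_iff]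
    have hinv := Γ.G.inv_mem_of_res_ne_zero (x := ⟨_, hdm⟩) hd0
    constructor
    · rw [haMval, map_inv₀, ← mul_inv, mul_comm]
      exact hinv
    · rw [haMval, map_inv₀, inv_inv]
      exact hdm
  have key : ∀ W' : KVal K M, (∀ t : k, algebraMap k M t ∈ W'.toVal ↔ t ∈ V.toVal) →
      γ W' = W'.cls (Additive.ofMul aM) := by
    intro W' hW'
    by_cases hWG : W' = Γ.G.toKVal
    · subst hWG; exact hG
    obtain ⟨q, hq⟩ := Γ.exists_centre hπ W' hW' hWG
    obtain ⟨h, hh⟩ := hloc V.residue hπ Γ q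
    have hleG : ∀ z ∈ Γ.localRing q, z ∈ Γ.G.toKVal.toVal := fun z hz =>
      (KPlace.mem_pull.1 (Γ.localRing_le_pull q (W := placeKVal q) rfl hz)).1
    have hu : aM⁻¹ * h ∈ Γ.G.toKVal.units :=
      QuotientGroup.eq.mp (hG.symm.trans (hh _ hleG))
    obtain ⟨hm, hmi⟩ := (KVal.mem_units_iff _).mp hu
    have hu0 : Γ.G.res ⟨_, hm⟩ ≠ 0 := (Γ.G.res_ne_zero_iff _).mpr
      (IsUnit.of_mul_eq_one ⟨_, hmi⟩ (Subtype.ext (mul_inv_cancel₀ (Units.ne_zero (aM⁻¹ * h)))))
    have hdiv : ∀ Q : Place k M, sp M N V.residue Q = q →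
        Q.ord (((aM⁻¹ * h : Mˣ) : M)) = 0 := fun Q hQ => by
      have h1 : (placeKVal (K := K) Q).cls (Additive.ofMul h) = 0 := by
        rw [← hh _ fun z hz => Γ.localRing_le_place Q (by rwa [hQ]), hγ]
      rw [KVal.cls_eq_zero_iff, mem_units_placeKVal_iff] at h1
      rw [Units.val_mul, Units.val_inv_eq_inv_val, Q.ord_mul (inv_ne_zero (Units.ne_zero _))
        h.ne_zero, Q.ord_inv, h1, haMval, ord_algebraMap]
      rfl
    obtain ⟨h1, h2⟩ := Γ.seesaw_unit hπ q ⟨_, hm⟩ hu0 hdiv W' hq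
    rw [hh _ hq]
    exact (QuotientGroup.eq.mpr ((W'.mem_units_iff).mpr ⟨h1, h2⟩)).symm
  rw [key W fun _ => Iff.rfl]
  have hW0 : ∀ t : k, algebraMap k M t ∈ (ρ.pull V).toVal ↔ t ∈ V.toVal := fun t => by
    obtain ⟨h, ht⟩ := hρ t
    rw [KPlace.mem_pull]
    exact ⟨fun ⟨h', hm⟩ => ht ▸ hm, fun hm => ⟨h, ht.symm ▸ hm⟩⟩
  obtain ⟨x, hx, y, hxi, hres, h1, h2⟩ := hc V
  obtain ⟨haρ, hares⟩ := hρ (a : k)
  have hcx : ((c * x : Mˣ) : M) ∈ ρ.toKVal.toVal := mul_mem hcρ hx
  have hcxres : ρ.res ⟨_, hcx⟩ = ((r * y : kˣ) : k) := by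
    have h3 : ρ.res ⟨_, hcρ⟩ * ρ.res ⟨_, hx⟩ = ((r * y : kˣ) : k) := by
      rw [hr, hres, Units.val_mul]
    exact (map_mul ρ.res ⟨_, hcρ⟩ ⟨_, hx⟩).trans h3
  have hV : V.cls (Additive.ofMul a) = V.cls (Additive.ofMul (r * y)) :=
    ρ.cls_res V (z := aM) (z' := c * x) haρ hcx hares hcxres
      ((key _ hW0).symm.trans h1)
  have hV' : V.cls (Additive.ofMul a) = V.cls (Additive.ofMul (r * e)) := by
    rw [hV, ofMul_mul, map_add, h2.symm.trans (he V), ← map_add, ← ofMul_mul]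
  exact congrArg (W.clsMap (IsScalarTower.toAlgHom K k M)) hV'

end Fermat.Agent.AbVar
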