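import Fermat.Agent.AbVar.CurvesAxis

/-!
# Local subalgebras of a power series ring containing the variables

If their generators are constants modulo the variables, their maximal ideal is generated by the
variables and polynomials in elements congruent to the variables are dense in them
(`maximalIdeal_locSub`, `exists_poly_locSub`).
-/

set_option autoImplicit false

noncomputable section

namespace Fermat.Agent.AbVar

open IsLocalRing MvPolynomial

universe u

variable {K : Type u} [Field K] {g : ℕ}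

section LocSub

variable {P : Type u} [CommRing P] [Algebra K P]

/-- The elements which are fractions of elements of `T` with denominator a unit of `P`. -/
def locSub (T : Subalgebra K P) : Subalgebra K P where
  carrier := {x | ∃ b ∈ T, IsUnit b ∧ x * b ∈ T}
  mul_mem' := by
    rintro x y ⟨b, hb, hb', hx⟩ ⟨c, hc, hc', hy⟩
    exact ⟨b * c, mul_mem hb hc, hb'.mul hc', by rw [mul_mul_mul_comm]; exact mul_mem hx hy⟩
  add_mem' := by
    rintro x y ⟨b, hb, hb', hx⟩ ⟨c, hc, hc', hy⟩
    refine ⟨b * c, mul_mem hb hc, hb'.mul hc', ?_⟩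
    rw [show (x + y) * (b * c) = x * b * c + y * c * b by ring]
    exact add_mem (mul_mem hx hc) (mul_mem hy hb)
  algebraMap_mem' c := ⟨1, one_mem _, isUnit_one, by rw [mul_one]; exact T.algebraMap_mem c⟩

theorem le_locSub (T : Subalgebra K P) : T ≤ locSub T := fun x hx =>
  ⟨1, one_mem _, isUnit_one, by rwa [mul_one]⟩

theorem isUnit_locSub_iff {T : Subalgebra K P} {x : locSub T} : IsUnit x ↔ IsUnit (x : P) := by
  refine ⟨fun h => h.map (locSub T).val, fun h => ?_⟩
  obtain ⟨b, hb, hb', hx⟩ := x.2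
  obtain ⟨w, hw⟩ := h
  have hmem : (↑w⁻¹ : P) ∈ locSub T := by
    refine ⟨(x : P) * b, hx, (hw ▸ w.isUnit).mul hb', ?_⟩
    rwa [← mul_assoc, ← hw, Units.inv_mul, one_mul]
  exact IsUnit.of_mul_eq_one ⟨↑w⁻¹, hmem⟩ (Subtype.ext (by
    show (x : P) * ↑w⁻¹ = 1
    rw [← hw, Units.mul_inv]))

instance isLocalHom_locSub (T : Subalgebra K P) : IsLocalHom (locSub T).val.toRingHom :=
  ⟨fun _ h => isUnit_locSub_iff.mpr h⟩

instance isLocalRing_locSub [IsLocalRing P] (T : Subalgebra K P) : IsLocalRing (locSub T) :=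
  RingHom.domain_isLocalRing (locSub T).val.toRingHom

theorem essFiniteType_locSub (σ : Finset P) :
    Algebra.EssFiniteType K (locSub (Algebra.adjoin K (σ : Set P))) := by
  classical
  set O := locSub (Algebra.adjoin K (σ : Set P))
  refine (Algebra.essFiniteType_iff K O).mpr ⟨σ.subtype (· ∈ O), fun x => ?_⟩
  obtain ⟨b, hb, hb', hx⟩ := x.2
  have key : ∀ y : O, (y : P) ∈ Algebra.adjoin K (σ : Set P) →
      y ∈ Algebra.adjoin K ((σ.subtype (· ∈ O) : Finset O) : Set O) := by
    intro y hy
    have h : Algebra.adjoin K (σ : Set P) ≤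
        (Algebra.adjoin K ((σ.subtype (· ∈ O) : Finset O) : Set O)).map O.val := by
      refine Algebra.adjoin_le fun z hz => ?_
      exact ⟨⟨z, le_locSub _ (Algebra.subset_adjoin hz)⟩,
        Algebra.subset_adjoin (Finset.mem_subtype.mpr hz), rfl⟩
    obtain ⟨w, hw, hwy⟩ := h hy
    exact (show w = y from Subtype.ext hwy) ▸ hw
  exact ⟨⟨b, le_locSub _ hb⟩, key _ hb, isUnit_locSub_iff.mpr hb', key _ hx⟩

end LocSub

/-- Polynomials in series congruent to the variables. -/
theorem mem_pow_of_aeval_series_mem {y : Fin g → MvPowerSeries (Fin g) K}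
    (hy : ∀ i, y i - MvPowerSeries.X i ∈ maximalIdeal (MvPowerSeries (Fin g) K) ^ 2) {n : ℕ}
    {p : MvPolynomial (Fin g) K} (hp : aeval y p ∈ maximalIdeal (MvPowerSeries (Fin g) K) ^ n) :
    p ∈ idealOfVars (Fin g) K ^ n := by
  classical
  set e : Fin g → MvPolynomial (Fin g) K := fun i =>
    MvPowerSeries.truncTotal n (y i - MvPowerSeries.X i)
  have he : ∀ i, e i ∈ idealOfVars (Fin g) K ^ 2 := fun i =>
    (mem_pow_idealOfVars_iff' 2 _).mpr fun d hd => by
      by_cases hn : d.degree < n
      · rw [MvPowerSeries.coeff_truncTotal _ hn]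
        exact (mem_maximalIdeal_pow_iff K 2 _).mp (hy i) d hd
      · exact MvPowerSeries.coeff_truncTotal_eq_zero _ (not_lt.mp hn)
  refine mem_pow_of_aeval_mem e he ((mem_pow_idealOfVars_iff' n _).mpr fun d hd => ?_)
  set I := maximalIdeal (MvPowerSeries (Fin g) K) ^ n
  have hq : (Ideal.Quotient.mkₐ K I).comp (aeval y) = ((Ideal.Quotient.mkₐ K I).comp
      (Algebra.algHom K (MvPolynomial (Fin g) K) (MvPowerSeries (Fin g) K))).comp
        (aeval fun i => X i + e i) := by
    refine MvPolynomial.algHom_ext fun i => ?_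
    simp only [AlgHom.comp_apply, aeval_X]
    refine Ideal.Quotient.eq.mpr ((mem_maximalIdeal_pow_iff K n _).mpr fun d hd => ?_)
    show MvPowerSeries.coeff d
      (y i - ((X i + e i : MvPolynomial (Fin g) K) : MvPowerSeries (Fin g) K)) = 0
    rw [coe_add, coe_X, map_sub, map_add, coeff_coe, MvPowerSeries.coeff_truncTotal _ hd, map_sub]
    abel
  have h := DFunLike.congr_fun hq p
  simp only [AlgHom.comp_apply] at h
  have h2 := Ideal.Quotient.eq.mp h
  have h3 := (mem_maximalIdeal_pow_iff K n _).mp (sub_mem hp h2) d hd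
  rw [sub_sub_cancel] at h3
  exact ((coeff_coe _ d).symm.trans h3 : _)

section Coords

variable {O : Type u} [CommRing O] [IsLocalRing O] [Algebra K O] (c : Coords K O g)
include c

theorem Coords.exists_const (o : O) : ∃ a : K, o - algebraMap K O a ∈ maximalIdeal O := by
  refine ⟨MvPowerSeries.constantCoeff (c.φ o), ?_⟩
  rw [← pow_one (maximalIdeal O), ← c.comap_pow 1, Ideal.mem_comap, pow_one,
    mem_maximalIdeal_iff_constantCoeff, map_sub, map_sub, AlgHom.commutes,
    MvPowerSeries.algebraMap_apply, MvPowerSeries.constantCoeff_C, Algebra.algebraMap_self,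
    RingHom.id_apply, sub_self]

theorem Coords.exists_poly (n : ℕ) (o : O) :
    ∃ p : MvPolynomial (Fin g) K, o - aeval c.x p ∈ maximalIdeal O ^ n := by
  have h := exists_approx (K := K) (x := c.x)
    (fun a => by rw [← c.span_x]; exact c.exists_const a) n o
  rwa [← c.span_x] at h

/-- The value at the point. -/
def Coords.ε : O →ₐ[K] K :=
  { (MvPowerSeries.constantCoeff).comp c.φ.toRingHom with
    commutes' := fun a => by
      show MvPowerSeries.constantCoeff (c.φ (algebraMap K O a)) = _
      rw [AlgHom.commutes, MvPowerSeries.algebraMap_apply, MvPowerSeries.constantCoeff_C] }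

theorem Coords.algHom_eq_ε (σ : O →ₐ[K] K) : σ = c.ε := by
  have hker : ∀ τ : O →ₐ[K] K, ∀ o ∈ maximalIdeal O, τ o = 0 := fun τ o ho => by
    have hs : Function.Surjective τ := fun a => ⟨algebraMap K O a, τ.commutes a⟩
    have := IsLocalHom.of_surjective τ.toRingHom hs
    by_contra h
    exact ho ((isUnit_map_iff τ.toRingHom o).mp (isUnit_iff_ne_zero.mpr h))
  ext o
  obtain ⟨a, ha⟩ := c.exists_const o
  have h1 := hker σ _ ha
  have h2 := hker c.ε _ ha
  rw [map_sub, AlgHom.commutes, sub_eq_zero] at h1 h2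
  rw [h1, h2]

/-- A map which agrees with the coordinates to first order is injective. -/
theorem Coords.injective_of_congr [IsNoetherianRing O] (θ : O →ₐ[K] MvPowerSeries (Fin g) K)
    (hθ : ∀ i, θ (c.x i) - MvPowerSeries.X i ∈ maximalIdeal (MvPowerSeries (Fin g) K) ^ 2) :
    Function.Injective θ := by
  refine (injective_iff_map_eq_zero θ).mpr fun o ho => ?_
  have hm : (maximalIdeal O).map θ ≤ maximalIdeal (MvPowerSeries (Fin g) K) := by
    rw [c.span_x, Ideal.map_span, Ideal.span_le]
    rintro _ ⟨_, ⟨i, rfl⟩, rfl⟩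
    have hX : (MvPowerSeries.X i : MvPowerSeries (Fin g) K) ∈ maximalIdeal _ :=
      (mem_maximalIdeal_iff_constantCoeff _).mpr (MvPowerSeries.constantCoeff_X i)
    have := add_mem (Ideal.pow_le_self two_ne_zero (hθ i)) hX
    rwa [sub_add_cancel] at this
  have h : o ∈ ⨅ n : ℕ, maximalIdeal O ^ n := Submodule.mem_iInf _ |>.mpr fun n => by
    obtain ⟨p, hp⟩ := c.exists_poly n o
    have h1 := Ideal.pow_right_mono hm n
      (Ideal.map_pow θ (maximalIdeal O) n ▸ Ideal.mem_map_of_mem θ hp)
    rw [map_sub, ho, zero_sub, neg_mem_iff, ← AlgHom.comp_apply, comp_aeval] at h1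
    have h2 := Ideal.mem_map_of_mem (aeval c.x) (mem_pow_of_aeval_series_mem hθ h1)
    rw [map_idealOfVars_pow, ← c.span_x] at h2
    have := add_mem hp h2
    rwa [sub_add_cancel] at this
  rwa [Ideal.iInf_pow_eq_bot_of_isLocalRing _ (maximalIdeal.isMaximal O).ne_top] at h

end Coords

/-! ### Local subalgebras -/

/-- The local subalgebra generated by `σ`. -/
abbrev seriesLoc (σ : Finset (MvPowerSeries (Fin g) K)) :
    Subalgebra K (MvPowerSeries (Fin g) K) :=
  locSub (Algebra.adjoin K (σ : Set (MvPowerSeries (Fin g) K)))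

section Local

variable {σ : Finset (MvPowerSeries (Fin g) K)}

variable (z : Fin g → (seriesLoc σ)) (hz : ∀ i, (z i : MvPowerSeries (Fin g) K) = MvPowerSeries.X i)

include hz

theorem exists_sub_const_mem_span
    (hσ : ∀ x : (seriesLoc σ), (x : MvPowerSeries (Fin g) K) ∈ σ →
      ∃ a : K, x - algebraMap K (seriesLoc σ) a ∈ Ideal.span (Set.range z)) (x : (seriesLoc σ)) :
    ∃ a : K, x - algebraMap K (seriesLoc σ) a ∈ Ideal.span (Set.range z) := by
  set J := Ideal.span (Set.range z)
  have hJ : ∀ w ∈ J, MvPowerSeries.constantCoeff (w : MvPowerSeries (Fin g) K) = 0 := by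
    intro w hw
    induction hw using Submodule.span_induction with
    | mem w hw =>
      obtain ⟨i, rfl⟩ := hw
      rw [hz, MvPowerSeries.constantCoeff_X]
    | zero => exact map_zero _
    | add a b _ _ ha hb => rw [Subalgebra.coe_add, map_add, ha, hb, add_zero]
    | smul a b _ hb => rw [smul_eq_mul, Subalgebra.coe_mul, map_mul, hb, mul_zero]
  have key' : ∀ y ∈ Algebra.adjoin K (σ : Set (MvPowerSeries (Fin g) K)),
      ∀ hy' : y ∈ seriesLoc σ, ∃ a : K,
        (⟨y, hy'⟩ : seriesLoc σ) - algebraMap K (seriesLoc σ) a ∈ J := by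
    intro y hy
    induction hy using Algebra.adjoin_induction with
    | mem w hw => exact fun hw' => hσ ⟨w, hw'⟩ hw
    | algebraMap a =>
      intro _
      refine ⟨a, ?_⟩
      rw [show (⟨algebraMap K _ a, _⟩ : (seriesLoc σ)) = algebraMap K (seriesLoc σ) a from rfl,
        sub_self]
      exact zero_mem _
    | add v w hv hw ihv ihw =>
      intro _
      obtain ⟨a, ha⟩ := ihv (le_locSub _ hv)
      obtain ⟨b, hb⟩ := ihw (le_locSub _ hw)
      refine ⟨a + b, ?_⟩
      have := add_mem ha hb
      rwa [← add_sub_add_comm, ← map_add] at this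
    | mul v w hv hw ihv ihw =>
      intro _
      obtain ⟨a, ha⟩ := ihv (le_locSub _ hv)
      obtain ⟨b, hb⟩ := ihw (le_locSub _ hw)
      refine ⟨a * b, ?_⟩
      have := add_mem (Ideal.mul_mem_left J ⟨v, le_locSub _ hv⟩ hb)
        (Ideal.mul_mem_left J (algebraMap K (seriesLoc σ) b) ha)
      convert this using 1
      rw [map_mul, show (⟨v * w, _⟩ : (seriesLoc σ)) =
          (⟨v, le_locSub _ hv⟩ : (seriesLoc σ)) * ⟨w, le_locSub _ hw⟩ from rfl]
      ring
  have key : ∀ y : seriesLoc σ, (y : MvPowerSeries (Fin g) K) ∈ Algebra.adjoin K (σ : Set _) →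
      ∃ a : K, y - algebraMap K (seriesLoc σ) a ∈ J := fun y hy => key' y.1 hy y.2
  obtain ⟨b, hb, hb', hx⟩ := x.2
  obtain ⟨a, ha⟩ := key (x * ⟨b, le_locSub _ hb⟩) hx
  obtain ⟨c, hc⟩ := key ⟨b, le_locSub _ hb⟩ hb
  have hc0 : c ≠ 0 := by
    rintro rfl
    have := hJ _ hc
    rw [map_zero, sub_zero] at this
    exact (mem_maximalIdeal _).mp ((mem_maximalIdeal_iff_constantCoeff _).mpr this) hb'
  refine ⟨a * c⁻¹, ?_⟩
  have := Ideal.mul_mem_left J (algebraMap K (seriesLoc σ) c⁻¹)
    (sub_mem ha (Ideal.mul_mem_left J x hc))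
  convert this using 1
  have h1 : algebraMap K (seriesLoc σ) c⁻¹ * algebraMap K (seriesLoc σ) c = 1 := by
    rw [← map_mul, inv_mul_cancel₀ hc0, map_one]
  rw [map_mul]
  linear_combination (-x) * h1

/-- The maximal ideal is generated by the variables if the generators are constants modulo them.
-/
theorem maximalIdeal_locSub
    (hσ : ∀ x : (seriesLoc σ), (x : MvPowerSeries (Fin g) K) ∈ σ →
      ∃ a : K, x - algebraMap K (seriesLoc σ) a ∈ Ideal.span (Set.range z)) :
    maximalIdeal (seriesLoc σ) = Ideal.span (Set.range z) := by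
  have hle : Ideal.span (Set.range z) ≤ maximalIdeal (seriesLoc σ) := by
    rw [Ideal.span_le]
    rintro _ ⟨i, rfl⟩
    rw [SetLike.mem_coe, mem_maximalIdeal, mem_nonunits_iff, isUnit_locSub_iff, hz,
      MvPowerSeries.isUnit_iff_constantCoeff, MvPowerSeries.constantCoeff_X]
    exact not_isUnit_zero
  refine le_antisymm (fun x hx => ?_) hle
  obtain ⟨a, ha⟩ := exists_sub_const_mem_span z hz hσ x
  have h : algebraMap K (seriesLoc σ) a ∈ maximalIdeal (seriesLoc σ) := by
    have := sub_mem hx (hle ha)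
    rwa [sub_sub_cancel] at this
  obtain rfl : a = 0 := by
    by_contra h0
    exact h ((isUnit_iff_ne_zero.mpr h0).map _)
  rwa [map_zero, sub_zero] at ha

theorem mem_pow_locSub_iff
    (hσ : ∀ x : (seriesLoc σ), (x : MvPowerSeries (Fin g) K) ∈ σ →
      ∃ a : K, x - algebraMap K (seriesLoc σ) a ∈ Ideal.span (Set.range z))
    (n : ℕ) (x : (seriesLoc σ)) :
    x ∈ maximalIdeal (seriesLoc σ) ^ n ↔
      (x : MvPowerSeries (Fin g) K) ∈ maximalIdeal (MvPowerSeries (Fin g) K) ^ n := by
  have hle : maximalIdeal (seriesLoc σ) ^ n ≤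
      (maximalIdeal (MvPowerSeries (Fin g) K) ^ n).comap (locSub _).val := by
    refine le_trans (Ideal.pow_right_mono ?_ n) (Ideal.le_comap_pow _ n)
    intro w hw
    rw [Ideal.mem_comap, mem_maximalIdeal, mem_nonunits_iff]
    exact fun h => hw (isUnit_locSub_iff.mpr h)
  refine ⟨fun h => hle h, fun h => ?_⟩
  have hm := maximalIdeal_locSub z hz hσ
  obtain ⟨p, hp⟩ := exists_approx (K := K) (x := z) (exists_sub_const_mem_span z hz hσ) n x
  rw [← hm] at hp
  have h1 := sub_mem h (hle hp)
  have h2 : (aeval z p : (seriesLoc σ)).1 =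
      aeval (fun i => (MvPowerSeries.X i : MvPowerSeries (Fin g) K)) p := by
    rw [← funext hz]
    exact comp_aeval_apply z (seriesLoc σ).val p
  rw [map_sub] at h1
  change (x : MvPowerSeries (Fin g) K) -
      ((x : MvPowerSeries (Fin g) K) - (aeval z p : seriesLoc σ).1) ∈ _ at h1
  rw [sub_sub_cancel, h2] at h1
  have h3 := Ideal.mem_map_of_mem (aeval z) (mem_pow_of_aeval_series_mem
    (y := fun i => MvPowerSeries.X i) (fun i => by rw [sub_self]; exact zero_mem _) h1)
  rw [map_idealOfVars_pow, ← hm] at h3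
  have := add_mem hp h3
  rwa [sub_add_cancel] at this

/-- **Elements congruent to the variables are dense.** -/
theorem exists_poly_locSub
    (hσ : ∀ x : (seriesLoc σ), (x : MvPowerSeries (Fin g) K) ∈ σ →
      ∃ a : K, x - algebraMap K (seriesLoc σ) a ∈ Ideal.span (Set.range z))
    (y : Fin g → (seriesLoc σ)) (hy : ∀ i, (y i : MvPowerSeries (Fin g) K) - MvPowerSeries.X i ∈
      maximalIdeal (MvPowerSeries (Fin g) K) ^ 2) (n : ℕ) (x : (seriesLoc σ)) :
    ∃ p : MvPolynomial (Fin g) K, x - aeval y p ∈ maximalIdeal (seriesLoc σ) ^ n := by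
  have := essFiniteType_locSub (K := K) σ
  have : IsNoetherianRing (seriesLoc σ) := Algebra.EssFiniteType.isNoetherianRing K (seriesLoc σ)
  have hm := maximalIdeal_locSub z hz hσ
  have hy2 : ∀ i, y i - z i ∈ maximalIdeal (seriesLoc σ) ^ 2 := fun i => by
    rw [mem_pow_locSub_iff z hz hσ]
    show (y i : MvPowerSeries (Fin g) K) - (z i : MvPowerSeries (Fin g) K) ∈ _
    rw [hz]
    exact hy i
  have hspan : maximalIdeal (seriesLoc σ) = Ideal.span (Set.range y) := by
    refine le_antisymm ?_ ?_
    · refine Submodule.le_of_le_smul_of_le_jacobson_bot (I := maximalIdeal (seriesLoc σ))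
        (IsNoetherian.noetherian _) (maximalIdeal_le_jacobson _) ?_
      rw [smul_eq_mul, ← pow_two]
      calc maximalIdeal (seriesLoc σ) = Ideal.span (Set.range z) := hm
        _ ≤ _ := by
          rw [Ideal.span_le]
          rintro _ ⟨i, rfl⟩
          rw [show z i = y i + -(y i - z i) by ring]
          exact add_mem (Submodule.mem_sup_left (Ideal.subset_span ⟨i, rfl⟩))
            (Submodule.mem_sup_right (neg_mem (hy2 i)))
    · rw [Ideal.span_le]
      rintro _ ⟨i, rfl⟩
      have := add_mem (Ideal.pow_le_self two_ne_zero (hy2 i))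
        (hm ▸ Ideal.subset_span ⟨i, rfl⟩ : z i ∈ maximalIdeal (seriesLoc σ))
      rwa [sub_add_cancel] at this
  have hres : ∀ x : (seriesLoc σ), ∃ a : K,
      x - algebraMap K (seriesLoc σ) a ∈ Ideal.span (Set.range y) := fun x => by
    rw [← hspan, hm]
    exact exists_sub_const_mem_span z hz hσ x
  obtain ⟨p, hp⟩ := exists_approx hres n x
  exact ⟨p, by rwa [← hspan] at hp⟩

end Local

end Fermat.Agent.AbVar
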