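import Mathlib.RingTheory.Unramified.Field
import Mathlib.RingTheory.Kaehler.Basic
import Mathlib.RingTheory.Filtration
import Mathlib.RingTheory.EssentialFiniteness
import Mathlib.FieldTheory.IntermediateField.Basic

/-!
# A subfield which is dense for the adic topology of a local ring

If every element of a noetherian local domain `O`, essentially of finite type over `K`, is congruent
modulo every power of the maximal ideal to an element of a subfield `E` of the fraction field `F`,
then `F` is finite separable over `E`.
-/

set_option autoImplicit false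

noncomputable section

universe u

namespace Fermat.Agent.AbVar

open IsLocalRing

variable {K : Type u} [Field K] {O : Type u} [CommRing O] [IsDomain O] [IsLocalRing O]
  [IsNoetherianRing O] [Algebra K O] [Algebra.EssFiniteType K O] {F : Type u} [Field F]
  [Algebra O F] [IsFractionRing O F] [Algebra K F] [IsScalarTower K O F]
  (E : IntermediateField K F)

omit [IsDomain O] in
theorem subsingleton_kaehler_of_truncation
    (h : ∀ (n : ℕ) (o : O), ∃ s : O, algebraMap O F s ∈ E ∧ o - s ∈ maximalIdeal O ^ n) :
    Subsingleton (Ω[F⁄E]) := by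
  set D := KaehlerDifferential.D E F
  have : SMulCommClass E O F := ⟨fun e o x => by
    rw [Algebra.smul_def o, Algebra.smul_def o, mul_smul_comm]⟩
  have hE : ∀ {x : F}, x ∈ E → D x = 0 := fun {x} hx => D.map_algebraMap ⟨x, hx⟩
  let d : Derivation K O (Ω[F⁄E]) := (D.restrictScalars K).compAlgebraMap O
  have hd : ∀ o, d o = D (algebraMap O F o) := fun o => rfl
  let P : Submodule O (Ω[F⁄E]) := LinearMap.range d.liftKaehlerDifferential
  have : Module.Finite O P := Module.Finite.range _
  have hmem : ∀ o, d o ∈ P := fun o =>
    ⟨KaehlerDifferential.D K O o, d.liftKaehlerDifferential_comp_D o⟩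
  have hpow : ∀ (n : ℕ) (x : O), x ∈ maximalIdeal O ^ (n + 1) →
      (⟨d x, hmem x⟩ : P) ∈ maximalIdeal O ^ n • (⊤ : Submodule O P) := by
    intro n
    induction n with
    | zero => intro x _; simp
    | succ n ih =>
      intro x hx
      rw [pow_succ] at hx
      induction hx using Submodule.mul_induction_on' with
      | mem_mul_mem a ha b hb =>
        have he : (⟨d (a * b), hmem _⟩ : P) = a • ⟨d b, hmem b⟩ + b • ⟨d a, hmem a⟩ :=
          Subtype.ext (d.leibniz a b)
        rw [he]
        refine add_mem (Submodule.smul_mem_smul ha trivial) ?_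
        rw [pow_succ', Submodule.mul_smul]
        exact Submodule.smul_mem_smul hb (ih a ha)
      | add a _ b _ ha hb =>
        have he : (⟨d (a + b), hmem _⟩ : P) = ⟨d a, hmem a⟩ + ⟨d b, hmem b⟩ :=
          Subtype.ext (map_add d a b)
        rw [he]
        exact add_mem ha hb
  have hd0 : ∀ o, D (algebraMap O F o) = 0 := fun o => by
    have hbot : (⟨d o, hmem o⟩ : P) ∈ ⨅ n : ℕ, maximalIdeal O ^ n • (⊤ : Submodule O P) := by
      refine Submodule.mem_iInf _ |>.mpr fun n => ?_
      obtain ⟨s, hs, hos⟩ := h (n + 1) o
      have he : (⟨d o, hmem o⟩ : P) = ⟨d (o - s), hmem _⟩ := Subtype.ext (by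
        show d o = d (o - s)
        rw [map_sub, hd s, hE hs, sub_zero])
      rw [he]
      exact hpow n _ hos
    rw [Ideal.iInf_pow_smul_eq_bot_of_isLocalRing _ (maximalIdeal.isMaximal O).ne_top] at hbot
    exact congrArg Subtype.val ((Submodule.mem_bot O).mp hbot)
  have hD : ∀ x : F, D x = 0 := fun x => by
    obtain ⟨a, b, hb, rfl⟩ := IsFractionRing.div_surjective (A := O) x
    rw [Derivation.leibniz_div, hd0, hd0, smul_zero, smul_zero, sub_zero, smul_zero]
  refine subsingleton_of_forall_eq 0 fun w => ?_
  have hw : w ∈ Submodule.span F (Set.range D) := by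
    rw [KaehlerDifferential.span_range_derivation]; trivial
  induction hw using Submodule.span_induction with
  | mem w hw => obtain ⟨x, rfl⟩ := hw; exact hD x
  | zero => rfl
  | add a b _ _ ha hb => rw [ha, hb, add_zero]
  | smul c a _ ha => rw [ha, smul_zero]

omit [IsDomain O] in
/-- **A dense subfield gives a finite separable extension.** -/
theorem finite_separable_of_truncation
    (h : ∀ (n : ℕ) (o : O), ∃ s : O, algebraMap O F s ∈ E ∧ o - s ∈ maximalIdeal O ^ n) :
    FiniteDimensional E F ∧ Algebra.IsSeparable E F := by
  have : Subsingleton (Ω[F⁄E]) := subsingleton_kaehler_of_truncation E h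
  have : Algebra.FormallyUnramified E F := ⟨inferInstance⟩
  have : Algebra.EssFiniteType O F := Algebra.EssFiniteType.of_isLocalization F (nonZeroDivisors O)
  have : Algebra.EssFiniteType K F := Algebra.EssFiniteType.comp K O F
  have : Algebra.EssFiniteType E F := Algebra.EssFiniteType.of_comp K E F
  exact ⟨Algebra.FormallyUnramified.finite_of_free E F,
    Algebra.FormallyUnramified.isSeparable E F⟩

end Fermat.Agent.AbVar
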