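import Fermat.Agent.AbVar.KVal
import Fermat.Agent.AbVar.Unramified
import Fermat.Agent.AbVar.CurvesLocal

/-!
# The curves cut out by the axes of coordinates

Restricting a system of coordinates to the `j`-th axis gives a function field in one variable
(`Coords.isFunctionField`) with a rational place over the origin (`Coords.axisPlace`).
-/

set_option autoImplicit false

noncomputable section

namespace Fermat.Agent.AbVar

open IsLocalRing MvPolynomial

universe u

variable {K : Type u} [Field K]

variable (K) in
/-- The field of fractions of the series in one variable. -/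
abbrev SeriesField₁ : Type u := FractionRing (PowerSeries K)

variable (K) in
/-- The field of fractions of the series in `g` variables. -/
abbrev SeriesField (g : ℕ) : Type u := FractionRing (MvPowerSeries (Fin g) K)

variable (K) in
/-- The series inside their field of fractions. -/
def seriesRangeEquiv :
    PowerSeries K ≃ₐ[K] (IsScalarTower.toAlgHom K (PowerSeries K) (SeriesField₁ K)).range :=
  AlgEquiv.ofInjective _ (IsFractionRing.injective (PowerSeries K) (SeriesField₁ K))

variable (K) in
/-- The place of the series field at the origin. -/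
def seriesPlace : KPlace K (SeriesField₁ K) K where
  toKVal :=
    { toVal :=
        { (IsScalarTower.toAlgHom K (PowerSeries K) (SeriesField₁ K)).range.toSubring with
          mem_or_inv_mem' := fun x => by
            rcases ValuationRing.isInteger_or_isInteger (PowerSeries K) x with ⟨a, ha⟩ | ⟨a, ha⟩
            · exact Or.inl ⟨a, ha⟩
            · exact Or.inr ⟨a, ha⟩ }
      algebraMap_mem' := fun c => ⟨algebraMap K (PowerSeries K) c,
        (IsScalarTower.toAlgHom K (PowerSeries K) (SeriesField₁ K)).commutes c⟩ }
  res := (PowerSeries.constantCoeff).comp (seriesRangeEquiv K).symm.toRingEquiv.toRingHom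
  res_algebraMap c :=
    (congrArg PowerSeries.constantCoeff ((seriesRangeEquiv K).symm.commutes c)).trans
      (PowerSeries.constantCoeff_C c)
  isUnit_of_res_ne_zero x hx := by
    have hu := (PowerSeries.isUnit_iff_constantCoeff.mpr (isUnit_iff_ne_zero.mpr hx)).map
      (seriesRangeEquiv K)
    have he : seriesRangeEquiv K ((seriesRangeEquiv K).symm x) = x :=
      (seriesRangeEquiv K).apply_symm_apply x
    exact he ▸ hu

theorem seriesPlace_res (a : PowerSeries K) :
    ∃ h : algebraMap (PowerSeries K) (SeriesField₁ K) a ∈ (seriesPlace K).toKVal.toVal,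
      (seriesPlace K).res ⟨_, h⟩ = PowerSeries.constantCoeff a :=
  ⟨⟨a, rfl⟩, congrArg PowerSeries.constantCoeff ((seriesRangeEquiv K).symm_apply_apply a)⟩

variable {g : ℕ}

/-- The embedding of the `j`-th series field. -/
def axisFieldInc (j : Fin g) : SeriesField₁ K →ₐ[K] SeriesField K g :=
  IsFractionRing.liftAlgHom (A := PowerSeries K)
    (g := (IsScalarTower.toAlgHom K (MvPowerSeries (Fin g) K) (SeriesField K g)).comp (axisInc j))
    (fun _ _ h => (Function.LeftInverse.injective (axis_axisInc j))
      (IsFractionRing.injective (MvPowerSeries (Fin g) K) (SeriesField K g) h))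

theorem axisFieldInc_algebraMap (j : Fin g) (a : PowerSeries K) :
    axisFieldInc j (algebraMap (PowerSeries K) (SeriesField₁ K) a) =
      algebraMap (MvPowerSeries (Fin g) K) (SeriesField K g) (axisInc j a) :=
  IsFractionRing.lift_algebraMap (A := PowerSeries K) (fun _ _ h =>
    (Function.LeftInverse.injective (axis_axisInc j))
      (IsFractionRing.injective (MvPowerSeries (Fin g) K) (SeriesField K g) h)) a

theorem exists_axisFieldInc_mul (j : Fin g) (x : SeriesField₁ K) :
    ∃ b β : PowerSeries K, β ≠ 0 ∧
      axisFieldInc j x * algebraMap _ (SeriesField K g) (axisInc j β) =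
        algebraMap _ (SeriesField K g) (axisInc j b) := by
  obtain ⟨b, β, hβ, rfl⟩ := IsFractionRing.div_surjective (A := PowerSeries K) x
  refine ⟨b, β, nonZeroDivisors.ne_zero hβ, ?_⟩
  rw [← axisFieldInc_algebraMap, ← axisFieldInc_algebraMap, ← map_mul, div_mul_cancel₀]
  exact IsFractionRing.to_map_ne_zero_of_mem_nonZeroDivisors hβ

section Branch

variable {O : Type u} [CommRing O] [IsLocalRing O] [Algebra K O] (c : Coords K O g) (j : Fin g)

/-- Restriction of functions to the `j`-th axis. -/
def Coords.axisHom : O →ₐ[K] PowerSeries K := (axis j).comp c.φ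

theorem Coords.axisHom_x (i : Fin g) :
    c.axisHom j (c.x i) = if i = j then PowerSeries.X else 0 := by
  show axis j (c.φ (c.x i)) = _
  rw [c.map_x]
  split_ifs with h
  · subst h
    rw [← axisInc_X, axis_axisInc]
  · rw [← axisInc_X, axis_axisInc_of_ne (Ne.symm h), PowerSeries.constantCoeff_X, map_zero]

theorem Coords.constantCoeff_axisHom (o : O) :
    PowerSeries.constantCoeff (c.axisHom j o) = c.ε o :=
  constantCoeff_axis j (c.φ o)

/-- The image in the series field. -/
def Coords.axisHomK : O →ₐ[K] SeriesField₁ K :=
  (IsScalarTower.toAlgHom K (PowerSeries K) (SeriesField₁ K)).comp (c.axisHom j)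

/-- The function field of the `j`-th curve. -/
def Coords.axisField : IntermediateField K (SeriesField₁ K) :=
  IntermediateField.adjoin K (Set.range (c.axisHomK j))

/-- The generic point of the `j`-th curve. -/
def Coords.axisGen : O →ₐ[K] c.axisField j :=
  (c.axisHomK j).codRestrict (c.axisField j).toSubalgebra fun o =>
    IntermediateField.subset_adjoin K _ ⟨o, rfl⟩

/-- The place at the origin. -/
def Coords.axisPlace : KPlace K (c.axisField j) K := (seriesPlace K).comap (c.axisField j).val

/-- The place at the origin evaluates functions there. -/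
theorem Coords.axisPlace_res (o : O) :
    ∃ h : c.axisGen j o ∈ (c.axisPlace j).toKVal.toVal,
      (c.axisPlace j).res ⟨_, h⟩ = c.ε o := by
  obtain ⟨h, h'⟩ := seriesPlace_res (c.axisHom j o)
  exact ⟨h, h'.trans (c.constantCoeff_axisHom j o)⟩

/-- The `j`-th axis is a curve: its field is a function field in one variable. -/
theorem Coords.isFunctionField [IsNoetherianRing O] [Algebra.EssFiniteType K O] :
    FF.IsFunctionField K (c.axisField j) := by
  let R : Subalgebra K (PowerSeries K) := (c.axisHom j).range
  let q : O →ₐ[K] R := (c.axisHom j).rangeRestrict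
  have hq : Function.Surjective q := (c.axisHom j).rangeRestrict_surjective
  have : IsLocalRing R := IsLocalRing.of_surjective' q.toRingHom hq
  have : IsNoetherianRing R := isNoetherianRing_of_surjective O R q.toRingHom hq
  have : Algebra.EssFiniteType K R := by
    let := q.toRingHom.toAlgebra
    have : IsScalarTower K O R := IsScalarTower.of_algebraMap_eq fun a => (q.commutes a).symm
    have : Algebra.FiniteType O R := ⟨⟨∅, by
      rw [Finset.coe_empty, Algebra.adjoin_empty, eq_top_iff]
      intro r _
      obtain ⟨o, rfl⟩ := hq r
      exact ⟨o, rfl⟩⟩⟩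
    exact Algebra.EssFiniteType.comp K O R
  let i : R →ₐ[K] c.axisField j :=
    ((IsScalarTower.toAlgHom K (PowerSeries K) (SeriesField₁ K)).comp R.val).codRestrict
      (c.axisField j).toSubalgebra (by
        rintro ⟨_, o, rfl⟩
        exact IntermediateField.subset_adjoin K _ ⟨o, rfl⟩)
  have hi : Function.Injective i := fun a b h => Subtype.ext
    (IsFractionRing.injective (PowerSeries K) (SeriesField₁ K) (congrArg Subtype.val h))
  let := i.toRingHom.toAlgebra
  have : IsScalarTower K R (c.axisField j) :=
    IsScalarTower.of_algebraMap_eq fun a => (i.commutes a).symm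
  have : FaithfulSMul R (c.axisField j) := (faithfulSMul_iff_algebraMap_injective _ _).mpr hi
  have : IsFractionRing R (c.axisField j) := by
    refine IsFractionRing.of_field R (c.axisField j) fun z => ?_
    have hadj : Algebra.adjoin K (Set.range (c.axisHomK j)) ≤ i.range.map (c.axisField j).val :=
      Algebra.adjoin_le fun _ ⟨o, ho⟩ => ⟨c.axisGen j o, ⟨q o, rfl⟩, ho⟩
    obtain ⟨r, hr, s, hs, hz⟩ := IntermediateField.mem_adjoin_iff_div.mp z.2
    obtain ⟨_, ⟨r', rfl⟩, rfl⟩ := hadj hr
    obtain ⟨_, ⟨s', rfl⟩, rfl⟩ := hadj hs
    exact ⟨r', s', Subtype.ext hz⟩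
  set T : c.axisField j := c.axisGen j (c.x j)
  have hT : Transcendental K T := by
    rw [transcendental_iff]
    intro p hp
    have h := congrArg (c.axisField j).val hp
    rw [map_zero, ← Polynomial.aeval_algHom_apply] at h
    change Polynomial.aeval
      (algebraMap (PowerSeries K) (SeriesField₁ K) (c.axisHom j (c.x j))) p = 0 at h
    rw [Polynomial.aeval_algebraMap_apply, c.axisHom_x, if_pos rfl,
      map_eq_zero_iff _ (IsFractionRing.injective (PowerSeries K) (SeriesField₁ K))] at h
    have key : ∀ p : Polynomial K,
        Polynomial.aeval (PowerSeries.X : PowerSeries K) p = (p : PowerSeries K) := fun p => by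
      induction p using Polynomial.induction_on' with
      | add a b ha hb => rw [map_add, ha, hb, Polynomial.coe_add]
      | monomial n a =>
        rw [Polynomial.aeval_monomial, Polynomial.coe_monomial, PowerSeries.monomial_eq_C_mul_X_pow]
        rfl
    have hcoe := key p
    rw [hcoe] at h
    exact Polynomial.coe_eq_zero_iff.mp h
  refine ⟨⟨T, hT, ?_⟩⟩
  refine (finite_separable_of_truncation (O := R) (IntermediateField.adjoin K {T}) fun n r => ?_).1
  obtain ⟨o, rfl⟩ := hq r
  obtain ⟨p, hp⟩ := c.exists_poly n o
  refine ⟨q (aeval c.x p), ?_, ?_⟩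
  · have hmem : ∀ i, c.axisGen j (c.x i) ∈ IntermediateField.adjoin K {T} := fun i => by
      by_cases h : i = j
      · subst h
        exact IntermediateField.mem_adjoin_simple_self K T
      · have h0 : c.axisGen j (c.x i) = 0 := Subtype.ext (by
          show algebraMap (PowerSeries K) (SeriesField₁ K) (c.axisHom j (c.x i)) = 0
          rw [c.axisHom_x, if_neg h, map_zero])
        rw [h0]
        exact zero_mem _
    show c.axisGen j (aeval c.x p) ∈ _
    rw [comp_aeval_apply]
    have key : ∀ q : MvPolynomial (Fin g) K,
        aeval (fun i => c.axisGen j (c.x i)) q ∈ IntermediateField.adjoin K {T} := fun q => by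
      induction q using MvPolynomial.induction_on with
      | C a => rw [aeval_C]; exact IntermediateField.algebraMap_mem _ a
      | add a b ha hb => rw [map_add]; exact add_mem ha hb
      | mul_X a i ha => rw [map_mul, aeval_X]; exact mul_mem ha (hmem i)
    exact key p
  · have := Ideal.mem_map_of_mem q.toRingHom hp
    rw [Ideal.map_pow, IsLocalRing.map_maximalIdeal_of_surjective q.toRingHom hq] at this
    rwa [← map_sub]

end Branch

end Fermat.Agent.AbVar
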