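import Fermat.Agent.AbVar.Generic

/-!
# Points through one local ring

The points factoring through the local ring at `x` are the images of its tautological point
`stalkPt x`.
-/

set_option autoImplicit false

noncomputable section

open CategoryTheory AlgebraicGeometry

namespace Fermat.Agent.AbVar

universe u

variable {K : Type u} [Field K]

namespace AData

variable (X : AData K) {R : Type u} [CommRing R] [Algebra K R]

/-- The tautological point of a local ring. -/
def stalkPt (x : X.A) : X.Pt (X.A.presheaf.stalk x) :=
  X.ofStalkHom (AlgHom.id K (X.A.presheaf.stalk x))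

theorem ofStalkHom_eq_ptMap {x : X.A} (σ : X.A.presheaf.stalk x →ₐ[K] R) :
    X.ofStalkHom σ = X.ptMap σ (X.stalkPt x) := by
  rw [stalkPt, ptMap_ofStalkHom, AlgHom.comp_id]

/-- Points through one local ring agree only if the homomorphisms do. -/
theorem ptMap_stalkPt_injective (x : X.A) :
    Function.Injective fun σ : X.A.presheaf.stalk x →ₐ[K] R => X.ptMap σ (X.stalkPt x) := by
  intro σ τ h
  simp only [← X.ofStalkHom_eq_ptMap] at h
  have h1 := Spec.map_injective ((cancel_mono (X.A.fromSpecStalk x)).mp (congrArg Subtype.val h))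
  ext o
  exact DFunLike.congr_fun (congrArg CommRingCat.Hom.hom h1) o

theorem exists_ptMap_stalkPt_eq [IsLocalRing R] {x : X.A} (P : X.Pt R) (h : X.ptAt P = x) :
    ∃ σ : X.A.presheaf.stalk x →ₐ[K] R, X.ptMap σ (X.stalkPt x) = P := by
  subst h
  exact ⟨X.evalAt P, (X.ofStalkHom_eq_ptMap _).symm.trans (ofStalkHom_evalAt P)⟩

variable [IsAlgClosed K]

/-- The generic point factors through every local ring. -/
theorem ptMap_stalkPt_genPt (x : X.A) :
    X.ptMap (IsScalarTower.toAlgHom K (X.A.presheaf.stalk x) X.FF) (X.stalkPt x) = X.genPt := by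
  rw [← ofStalkHom_eq_ptMap]
  apply Pt.ext
  show Spec.map (X.A.presheaf.stalkSpecializes ((genericPoint_spec X.A).specializes trivial)) ≫
    X.A.fromSpecStalk x = Spec.map (CommRingCat.ofHom (RingHom.id _)) ≫ X.A.fromSpecStalk _
  rw [Scheme.SpecMap_stalkSpecializes_fromSpecStalk, CommRingCat.ofHom_id, Spec.map_id]
  exact (Category.id_comp _).symm

end AData

end Fermat.Agent.AbVar
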