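import Fermat.Agent.AbVar.Sum
import Fermat.Agent.AbVar.CurvesBranch
import Fermat.Agent.AbVar.CurvesPoints

/-!
# The abelian variety is dominated by a product of curves

In coordinates at the origin, the sum of the curves cut out by the axes has a finite separable
map of function fields (`exists_sum_curves`).
-/

set_option autoImplicit false

noncomputable section

open IsLocalRing (maximalIdeal)

namespace Fermat.Agent.AbVar

universe u

variable {K : Type u} [Field K] {g : ℕ}

variable (K g) in
/-- The series inside their field of fractions. -/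
abbrev seriesInc : MvPowerSeries (Fin g) K →ₐ[K] SeriesField K g :=
  IsScalarTower.toAlgHom K (MvPowerSeries (Fin g) K) (SeriesField K g)

theorem seriesInc_injective : Function.Injective (seriesInc K g) :=
  IsFractionRing.injective (MvPowerSeries (Fin g) K) (SeriesField K g)

section

variable {O : Type u} [CommRing O] [IsLocalRing O] [Algebra K O]

/-- The `j`-th axis inside the series field. -/
def Coords.axisEmb (c : Coords K O g) (j : Fin g) : O →ₐ[K] SeriesField K g :=
  (seriesInc K g).comp ((axisInc j).comp (c.axisHom j))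

theorem Coords.axisFieldInc_comp (c : Coords K O g) (j : Fin g) :
    ((axisFieldInc j).comp (c.axisField j).val).comp (c.axisGen j) = c.axisEmb j :=
  AlgHom.ext fun o => axisFieldInc_algebraMap j (c.axisHom j o)

/-- The field of finitely many axes. -/
def Coords.axesField (c : Coords K O g) (S : Finset (Fin g)) :
    IntermediateField K (SeriesField K g) :=
  IntermediateField.adjoin K (⋃ j ∈ S, Set.range (c.axisEmb j))

theorem exists_lift_fractions {A : Type u} [CommRing A] [Algebra K A] {F L : Type u} [Field F]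
    [Algebra K F] [Field L] [Algebra K L] [Algebra A F] [IsFractionRing A F] (f : A →ₐ[K] F)
    (hf : ∀ a, f a = algebraMap A F a) (q : A →ₐ[K] L) (hq : Function.Injective q) :
    ∃ s : F →ₐ[K] L, s.comp f = q := by
  have : IsScalarTower K A F := IsScalarTower.of_algebraMap_eq fun k => by
    rw [← hf, f.commutes]
  refine ⟨IsFractionRing.liftAlgHom hq, AlgHom.ext fun a => ?_⟩
  rw [AlgHom.comp_apply, hf]
  exact IsFractionRing.lift_algebraMap hq a

theorem Coords.fieldRange_axisFieldInc (c : Coords K O g) (j : Fin g) :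
    ((axisFieldInc j).comp (c.axisField j).val).fieldRange =
      IntermediateField.adjoin K (Set.range (c.axisEmb j)) := by
  rw [← AlgHom.map_fieldRange, IntermediateField.fieldRange_val, Coords.axisField,
    IntermediateField.adjoin_map, ← Set.range_comp]
  exact congrArg (fun f => IntermediateField.adjoin K (Set.range f))
    (funext fun o => axisFieldInc_algebraMap j (c.axisHom j o))

theorem Coords.exists_mul_eq_of_mem_axesField (c : Coords K O g) (S : Finset (Fin g))
    {x : SeriesField K g} (hx : x ∈ c.axesField S) :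
    ∃ a α, a ∈ supportedIn K (S : Set (Fin g)) ∧ α ∈ supportedIn K (S : Set (Fin g)) ∧ α ≠ 0 ∧
      x * seriesInc K g α = seriesInc K g a := by
  obtain ⟨r, hr, s, hs, rfl⟩ := IntermediateField.mem_adjoin_iff_div.mp hx
  have hle : Algebra.adjoin K (⋃ j ∈ S, Set.range (c.axisEmb j)) ≤
      (supportedIn K (S : Set (Fin g))).map (seriesInc K g) := by
    refine Algebra.adjoin_le fun z hz => ?_
    simp only [Set.mem_iUnion] at hz
    obtain ⟨j, hj, o, rfl⟩ := hz
    exact ⟨_, axisInc_mem_supportedIn (Finset.mem_coe.mpr hj) (c.axisHom j o), rfl⟩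
  obtain ⟨a, ha, rfl⟩ := hle hr
  obtain ⟨α, hα, rfl⟩ := hle hs
  by_cases h0 : α = 0
  · exact ⟨0, 1, zero_mem _, one_mem _, one_ne_zero, by simp [h0]⟩
  · exact ⟨a, α, ha, hα, h0, div_mul_cancel₀ _ ((map_ne_zero_iff _ seriesInc_injective).mpr h0)⟩

end

variable [IsAlgClosed K] (X : AData K)

section Loc

omit [IsAlgClosed K]

variable {O : Type u} [CommRing O] [IsLocalRing O] [Algebra K O] (c : Coords K O g)
  [Algebra.EssFiniteType K O]

open Classical in
/-- Generators of the local ring of the product of the axes. -/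
def Coords.axesGens : Finset (MvPowerSeries (Fin g) K) :=
  Finset.univ.biUnion fun j => insert (MvPowerSeries.X j)
    ((Algebra.EssFiniteType.finset K O).image ((axisInc j).comp (c.axisHom j)))

theorem Coords.axisInc_axisHom_mem (j : Fin g) (o : O) :
    (axisInc j).comp (c.axisHom j) o ∈ seriesLoc c.axesGens := by
  classical
  obtain ⟨⟨⟨u, hu⟩, ⟨⟨t, ht⟩, ht'⟩⟩, h⟩ :=
    IsLocalization.surj (Algebra.EssFiniteType.submonoid K O) o
  have hsub : (Algebra.EssFiniteType.subalgebra K O).map ((axisInc j).comp (c.axisHom j)) ≤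
      Algebra.adjoin K (c.axesGens : Set (MvPowerSeries (Fin g) K)) := by
    rw [Algebra.EssFiniteType.subalgebra, AlgHom.map_adjoin]
    refine Algebra.adjoin_mono ?_
    rintro _ ⟨w, hw, rfl⟩
    exact Finset.mem_biUnion.mpr ⟨j, Finset.mem_univ j,
      Finset.mem_insert_of_mem (Finset.mem_image_of_mem _ hw)⟩
  refine ⟨_, hsub ⟨t, ht, rfl⟩, (ht' : IsUnit t).map ((axisInc j).comp (c.axisHom j)), ?_⟩
  rw [← AlgHom.toRingHom_eq_coe, ← RingHom.coe_coe]
  exact (congrArg ((axisInc j).comp (c.axisHom j)) h).symm.trans (map_mul _ _ _) ▸ hsub ⟨u, hu, rfl⟩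

/-- The `j`-th axis in the local ring of the product. -/
def Coords.axisLoc (j : Fin g) : O →ₐ[K] seriesLoc c.axesGens :=
  ((axisInc j).comp (c.axisHom j)).codRestrict _ (c.axisInc_axisHom_mem j)

/-- The variables. -/
def Coords.locVar (i : Fin g) : seriesLoc c.axesGens := c.axisLoc i (c.x i)

theorem Coords.coe_locVar (i : Fin g) :
    (c.locVar i : MvPowerSeries (Fin g) K) = MvPowerSeries.X i := by
  show axisInc i (c.axisHom i (c.x i)) = _
  rw [c.axisHom_x, if_pos rfl, axisInc_X]

theorem Coords.axesGens_const (x : seriesLoc c.axesGens)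
    (hx : (x : MvPowerSeries (Fin g) K) ∈ c.axesGens) :
    ∃ a : K, x - algebraMap K (seriesLoc c.axesGens) a ∈ Ideal.span (Set.range c.locVar) := by
  classical
  obtain ⟨j, -, hx⟩ := Finset.mem_biUnion.mp hx
  rcases Finset.mem_insert.mp hx with hx | hx
  · refine ⟨0, ?_⟩
    rw [map_zero, sub_zero, show x = c.locVar j from Subtype.ext (hx.trans (c.coe_locVar j).symm)]
    exact Ideal.subset_span ⟨j, rfl⟩
  · obtain ⟨o, -, ho⟩ := Finset.mem_image.mp hx
    obtain ⟨a, ha⟩ := c.exists_const o
    refine ⟨a, ?_⟩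
    have h2 : (maximalIdeal O).map (c.axisLoc j) ≤ Ideal.span (Set.range c.locVar) := by
      rw [c.span_x, Ideal.map_span, Ideal.span_le]
      rintro _ ⟨_, ⟨i, rfl⟩, rfl⟩
      by_cases hij : i = j
      · subst hij
        exact Ideal.subset_span ⟨i, rfl⟩
      · rw [SetLike.mem_coe, show c.axisLoc j (c.x i) = 0 from Subtype.ext (by
          show axisInc j (c.axisHom j (c.x i)) = 0
          rw [c.axisHom_x, if_neg hij, map_zero])]
        exact zero_mem _
    have h3 := h2 (Ideal.mem_map_of_mem (c.axisLoc j) ha)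
    rw [map_sub, AlgHom.commutes] at h3
    rwa [show x = c.axisLoc j o from Subtype.ext ho.symm]

/-- The value at the origin. -/
def seriesLocEval (σ : Finset (MvPowerSeries (Fin g) K)) : seriesLoc σ →ₐ[K] K :=
  { (MvPowerSeries.constantCoeff).comp (seriesLoc σ).val.toRingHom with
    commutes' := fun a => by
      show MvPowerSeries.constantCoeff (algebraMap K (MvPowerSeries (Fin g) K) a) = a
      rw [MvPowerSeries.algebraMap_apply, Algebra.algebraMap_self, RingHom.id_apply,
        MvPowerSeries.constantCoeff_C] }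

instance isLocalHom_seriesLocEval (σ : Finset (MvPowerSeries (Fin g) K)) :
    IsLocalHom (seriesLocEval (K := K) σ).toRingHom :=
  ⟨fun _ ha => isUnit_locSub_iff.mpr (MvPowerSeries.isUnit_iff_constantCoeff.mpr ha)⟩

theorem Coords.seriesLocEval_axisLoc (j : Fin g) :
    (seriesLocEval c.axesGens).comp (c.axisLoc j) = c.ε := AlgHom.ext fun o => by
  show MvPowerSeries.constantCoeff (axisInc j (c.axisHom j o)) = _
  rw [constantCoeff_axisInc, c.constantCoeff_axisHom]

theorem Coords.seriesInc_mem_axesField (w : seriesLoc c.axesGens) :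
    seriesInc K g w ∈ c.axesField Finset.univ := by
  classical
  have h2 : ∀ y ∈ Algebra.adjoin K (c.axesGens : Set (MvPowerSeries (Fin g) K)),
      seriesInc K g y ∈ c.axesField Finset.univ := fun y hy => by
    induction hy using Algebra.adjoin_induction with
    | mem y hy =>
      obtain ⟨j, -, hy⟩ := Finset.mem_biUnion.mp hy
      refine IntermediateField.subset_adjoin K _ (Set.mem_iUnion₂.mpr ⟨j, Finset.mem_univ j, ?_⟩)
      rcases Finset.mem_insert.mp hy with rfl | hy
      · exact ⟨c.x j, congrArg (seriesInc K g) (c.coe_locVar j)⟩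
      · obtain ⟨o, -, rfl⟩ := Finset.mem_image.mp hy
        exact ⟨o, rfl⟩
    | algebraMap a => rw [AlgHom.commutes]; exact IntermediateField.algebraMap_mem _ a
    | add a b _ _ ha hb => rw [map_add]; exact add_mem ha hb
    | mul a b _ _ ha hb => rw [map_mul]; exact mul_mem ha hb
  obtain ⟨b, hb, hb', hw⟩ := w.2
  rw [show seriesInc K g w = seriesInc K g ((w : MvPowerSeries (Fin g) K) * b) / seriesInc K g b by
    rw [map_mul, mul_div_cancel_right₀]
    exact (hb'.map (seriesInc K g)).ne_zero]
  exact div_mem (h2 _ hw) (h2 _ hb)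

theorem Coords.exists_locHom {L : Type u} [Field L] [Algebra K L] (φ : L →ₐ[K] SeriesField K g)
    (hrange : φ.fieldRange = c.axesField Finset.univ) :
    ∃ i : seriesLoc c.axesGens →ₐ[K] L, Function.Injective i ∧
      φ.comp i = (seriesInc K g).comp (seriesLoc c.axesGens).val ∧
      ∀ w : L, ∃ a b, w = i a / i b := by
  have hloc : ∀ w : seriesLoc c.axesGens, seriesInc K g w ∈ φ.range := fun w =>
    (hrange ▸ c.seriesInc_mem_axesField w : seriesInc K g w ∈ φ.fieldRange)
  let i : seriesLoc c.axesGens →ₐ[K] L := (AlgEquiv.ofInjectiveField φ).symm.toAlgHom.comp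
    (((seriesInc K g).comp (seriesLoc c.axesGens).val).codRestrict φ.range hloc)
  have hi : φ.comp i = (seriesInc K g).comp (seriesLoc c.axesGens).val := AlgHom.ext fun w =>
    congrArg Subtype.val ((AlgEquiv.ofInjectiveField φ).apply_symm_apply
      (((seriesInc K g).comp (seriesLoc c.axesGens).val).codRestrict φ.range hloc w))
  refine ⟨i, fun a b h => Subtype.ext (seriesInc_injective ?_), hi, fun w => ?_⟩
  · have h2 := congrArg φ h
    rwa [← AlgHom.comp_apply, ← AlgHom.comp_apply, hi] at h2
  have hw : φ w ∈ c.axesField Finset.univ := hrange ▸ ⟨w, rfl⟩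
  obtain ⟨r, hr, t, ht, he⟩ := IntermediateField.mem_adjoin_iff_div.mp hw
  have hle : Algebra.adjoin K (⋃ j ∈ (Finset.univ : Finset (Fin g)), Set.range (c.axisEmb j)) ≤
      (φ.comp i).range := by
    refine Algebra.adjoin_le fun y hy => ?_
    obtain ⟨j, -, o, rfl⟩ := Set.mem_iUnion₂.mp hy
    exact ⟨c.axisLoc j o, DFunLike.congr_fun hi (c.axisLoc j o)⟩
  obtain ⟨r', rfl⟩ := hle hr
  obtain ⟨t', rfl⟩ := hle ht
  exact ⟨r', t', φ.injective (he.trans (map_div₀ φ (i r') (i t')).symm)⟩

end Loc

omit [IsAlgClosed K] in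
/-- The sum of the generic points of finitely many axes, over the field of these axes. -/
theorem exists_sum_axes {x₀ : X.A} (c : Coords K (X.A.presheaf.stalk x₀) X.g)
    (hε : X.ptMap c.ε (X.stalkPt x₀) = 0) (S : Finset (Fin X.g)) :
    ∃ (L : Type u) (_ : Field L) (_ : Algebra K L) (φ : L →ₐ[K] SeriesField K X.g) (z : X.Pt L),
      SumOfCurves X L z ∧ φ.fieldRange = c.axesField S ∧
      X.ptMap φ z = ∑ j ∈ S, X.ptMap (c.axisEmb j) (X.stalkPt x₀) := by
  classical
  have := X.essFiniteType_stalk x₀
  have : IsNoetherianRing (X.A.presheaf.stalk x₀) := Algebra.EssFiniteType.isNoetherianRing K _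
  induction S using Finset.induction with
  | empty =>
    refine ⟨K, inferInstance, Algebra.id K, Algebra.ofId K _, 0, .base, ?_, by simp⟩
    rw [Coords.axesField]
    simp only [Finset.notMem_empty, Set.iUnion_of_empty, Set.iUnion_empty,
      IntermediateField.adjoin_empty]
    refine le_antisymm ?_ bot_le
    rintro _ ⟨a, rfl⟩
    exact IntermediateField.algebraMap_mem _ a
  | insert j S hj ih =>
    obtain ⟨L₀, _, _, φ₀, z₀, hz₀, hrange, hval⟩ := ih
    have := c.isFunctionField j
    set Λ := c.axesField (insert j S) with hΛ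
    have hΛeq : IntermediateField.adjoin K
        (⋃ i ∈ insert j S, Set.range (c.axisEmb i)) =
        c.axesField S ⊔ IntermediateField.adjoin K (Set.range (c.axisEmb j)) := by
      rw [Coords.axesField, ← IntermediateField.adjoin_union, Finset.set_biUnion_insert,
        Set.union_comm]
    have h₁ : ∀ y, φ₀ y ∈ Λ := fun y => by
      have hy : φ₀ y ∈ c.axesField S := hrange ▸ ⟨y, rfl⟩
      rw [hΛ, Coords.axesField, hΛeq]
      exact (le_sup_left : c.axesField S ≤ _) hy
    set ψ₀ := (axisFieldInc j).comp (c.axisField j).val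
    have h₂ : ∀ y, ψ₀ y ∈ Λ := fun y => by
      have hy : ψ₀ y ∈ IntermediateField.adjoin K (Set.range (c.axisEmb j)) :=
        c.fieldRange_axisFieldInc j ▸ ⟨y, rfl⟩
      rw [hΛ, Coords.axesField, hΛeq]
      exact (le_sup_right : IntermediateField.adjoin K (Set.range (c.axisEmb j)) ≤ _) hy
    let φ : L₀ →ₐ[K] Λ := φ₀.codRestrict Λ.toSubalgebra h₁
    let ψ : c.axisField j →ₐ[K] Λ := ψ₀.codRestrict Λ.toSubalgebra h₂
    let P₁ : X.Pt (c.axisField j) := X.ptMap (c.axisGen j) (X.stalkPt x₀)
    have hc : X.red (c.axisPlace j) P₁ = 0 := by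
      rw [AData.red_ptMap (c.axisPlace j) (c.axisGen j) c.ε (c.axisPlace_res j), hε]
    have hinj : Function.Injective
        (Algebra.TensorProduct.lift φ ψ fun _ _ => .all _ _) := by
      have h := tensorLift_injective_of_axis (seriesInc K X.g) seriesInc_injective
        (S := (S : Set (Fin X.g))) (Finset.mem_coe.not.mpr hj) φ₀ ψ₀
        (fun y => c.exists_mul_eq_of_mem_axesField S (hrange ▸ ⟨y, rfl⟩))
        (fun y => exists_axisFieldInc_mul j _)
      have he : Λ.val.comp (Algebra.TensorProduct.lift φ ψ fun _ _ => .all _ _) =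
          Algebra.TensorProduct.lift φ₀ ψ₀ fun _ _ => .all _ _ :=
        Algebra.TensorProduct.ext' fun a b => by simp [φ, ψ]; rfl
      rw [← he, AlgHom.coe_comp] at h
      exact h.of_comp
    have hgen : IntermediateField.adjoin K (Set.range φ ∪ Set.range ψ) = ⊤ := by
      refine IntermediateField.map_injective Λ.val ?_
      rw [IntermediateField.adjoin_map, ← AlgHom.fieldRange_eq_map,
        IntermediateField.fieldRange_val, Set.image_union, ← Set.range_comp, ← Set.range_comp]
      show IntermediateField.adjoin K (Set.range φ₀ ∪ Set.range ψ₀) = Λ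
      rw [IntermediateField.adjoin_union, hΛ, Coords.axesField, hΛeq, ← c.fieldRange_axisFieldInc j,
        ← hrange]
      congr 1 <;> exact le_antisymm (IntermediateField.adjoin_le_iff.mpr fun _ h => h)
        fun _ h => IntermediateField.subset_adjoin K _ h
    refine ⟨Λ, inferInstance, inferInstance, Λ.val, X.ptMap φ z₀ + X.ptMap ψ P₁,
      .step L₀ z₀ (c.axisField j) (c.axisPlace j) P₁ hc Λ φ ψ hinj hgen hz₀,
      IntermediateField.fieldRange_val Λ, ?_⟩
    have h0 : X.ptMap Λ.val (X.ptMap φ z₀) = X.ptMap φ₀ z₀ := by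
      rw [AData.ptMap_comp]
      rfl
    have h1 : X.ptMap Λ.val (X.ptMap ψ P₁) = X.ptMap (c.axisEmb j) (X.stalkPt x₀) := by
      rw [AData.ptMap_comp, AData.ptMap_comp, ← c.axisFieldInc_comp j]
      rfl
    rw [map_add, h0, h1, Finset.sum_insert hj, ← hval, add_comm]

omit [IsAlgClosed K] in
/-- The sum of all axes factors through coordinates congruent to the variables. -/
theorem exists_stalk_axes {x₀ : X.A} (hx₀ : X.ptAt (0 : X.Pt K) = x₀)
    (c : Coords K (X.A.presheaf.stalk x₀) X.g) [Algebra.EssFiniteType K (X.A.presheaf.stalk x₀)]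
    (hε : X.ptMap c.ε (X.stalkPt x₀) = 0) :
    ∃ τ : X.A.presheaf.stalk x₀ →ₐ[K] seriesLoc c.axesGens,
      X.ptMap τ (X.stalkPt x₀) = ∑ j, X.ptMap (c.axisLoc j) (X.stalkPt x₀) ∧
      ∀ i, (τ (c.x i) : MvPowerSeries (Fin X.g) K) - MvPowerSeries.X i ∈
        maximalIdeal (MvPowerSeries (Fin X.g) K) ^ 2 := by
  set P₀ := X.stalkPt x₀
  set Z : X.Pt (seriesLoc c.axesGens) := ∑ j, X.ptMap (c.axisLoc j) P₀ with hZ
  have hZε : X.ptMap (seriesLocEval c.axesGens) Z = 0 := by
    rw [hZ, map_sum]
    exact Finset.sum_eq_zero fun j _ => by rw [AData.ptMap_comp, c.seriesLocEval_axisLoc, hε]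
  have hZpt : X.ptAt Z = x₀ := by
    rw [← AData.ptAt_ptMap (seriesLocEval c.axesGens)
      ⟨fun r hr => (isLocalHom_seriesLocEval c.axesGens).map_nonunit r hr⟩ Z, hZε, hx₀]
  obtain ⟨τ, hτ⟩ := X.exists_ptMap_stalkPt_eq Z hZpt
  refine ⟨τ, hτ, fun i => ?_⟩
  have haxis : ∀ i, (axis i).comp ((seriesLoc c.axesGens).val.comp τ) = c.axisHom i := fun i => by
    refine X.ptMap_stalkPt_injective x₀ ?_
    show X.ptMap _ P₀ = X.ptMap _ P₀
    rw [← AlgHom.comp_assoc,
      ← AData.ptMap_comp, hτ, hZ, map_sum, Finset.sum_eq_single i]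
    · rw [AData.ptMap_comp]
      refine congrArg (X.ptMap · P₀) ?_
      exact AlgHom.ext fun o => axis_axisInc i (c.axisHom i o)
    · intro j _ hji
      have h2 : ((axis i).comp (seriesLoc c.axesGens).val).comp (c.axisLoc j) =
          (Algebra.ofId K (PowerSeries K)).comp c.ε := AlgHom.ext fun o => by
        show axis i (axisInc j (c.axisHom j o)) = _
        rw [axis_axisInc_of_ne hji.symm, c.constantCoeff_axisHom]
        rfl
      rw [AData.ptMap_comp, h2, ← AData.ptMap_comp, hε, map_zero]
    · exact fun h => absurd (Finset.mem_univ i) h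
  have h : ∀ j, axis j ((τ (c.x i) : MvPowerSeries (Fin X.g) K) - MvPowerSeries.X i) = 0 :=
    fun j => by
    rw [map_sub, ← c.map_x, sub_eq_zero]
    exact DFunLike.congr_fun (haxis j) (c.x i)
  refine mem_sq_of_axis ?_ fun j => by rw [h, map_zero]
  rw [← constantCoeff_axis i, h, map_zero]

/-- **The abelian variety is dominated, finite separably, by a product of curves.** -/
theorem exists_sum_curves :
    ∃ (L : Type u) (_ : Field L) (_ : Algebra K L) (s : X.FF →ₐ[K] L),
      Module.Finite s.fieldRange L ∧ Algebra.IsSeparable s.fieldRange L ∧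
      SumOfCurves X L (X.ptMap s X.genPt) := by
  obtain ⟨x₀, hx₀⟩ : ∃ x₀, X.ptAt (0 : X.Pt K) = x₀ := ⟨_, rfl⟩
  obtain ⟨c⟩ : Nonempty (Coords K (X.A.presheaf.stalk x₀) X.g) :=
    hx₀ ▸ X.exists_coords (0 : X.Pt K)
  have := X.essFiniteType_stalk x₀
  have : IsNoetherianRing (X.A.presheaf.stalk x₀) := Algebra.EssFiniteType.isNoetherianRing K _
  have hε : X.ptMap c.ε (X.stalkPt x₀) = 0 := by
    subst hx₀
    rw [← X.ofStalkHom_eq_ptMap, ← c.algHom_eq_ε (X.evalAt (0 : X.Pt K))]
    exact AData.ofStalkHom_evalAt _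
  obtain ⟨τ, hτ, hτx⟩ := exists_stalk_axes X hx₀ c hε
  obtain ⟨L, _, _, φ, z, hz, hrange, hval⟩ := exists_sum_axes X c hε Finset.univ
  obtain ⟨i, hiinj, hi, hfrac⟩ := c.exists_locHom φ hrange
  have hθinj := c.injective_of_congr ((seriesLoc c.axesGens).val.comp τ) hτx
  have hginj : Function.Injective (i.comp τ) := fun a b h =>
    hθinj (congrArg Subtype.val (hiinj h))
  obtain ⟨s, hs⟩ := exists_lift_fractions
    (IsScalarTower.toAlgHom K (X.A.presheaf.stalk x₀) X.FF) (fun _ => rfl) (i.comp τ) hginj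
  refine ⟨L, inferInstance, inferInstance, s, ?_⟩
  have hsum : X.ptMap s X.genPt = z := by
    refine AData.ptMap_injective_of_field φ ?_
    rw [← X.ptMap_stalkPt_genPt x₀, AData.ptMap_comp (IsScalarTower.toAlgHom K _ X.FF) s, hs,
      ← AData.ptMap_comp τ i,
      hτ, AData.ptMap_comp, hi, hval, map_sum]
    refine Finset.sum_congr rfl fun j _ => ?_
    rw [AData.ptMap_comp]
    rfl
  let := i.toRingHom.toAlgebra
  have : IsScalarTower K (seriesLoc c.axesGens) L :=
    IsScalarTower.of_algebraMap_eq fun a => (i.commutes a).symm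
  have : FaithfulSMul (seriesLoc c.axesGens) L :=
    (faithfulSMul_iff_algebraMap_injective _ _).mpr hiinj
  have := essFiniteType_locSub (K := K) c.axesGens
  have : IsNoetherianRing (seriesLoc c.axesGens) := Algebra.EssFiniteType.isNoetherianRing K _
  have : IsFractionRing (seriesLoc c.axesGens) L :=
    IsFractionRing.of_field (seriesLoc c.axesGens) L hfrac
  have hfin := finite_separable_of_truncation (O := seriesLoc c.axesGens) s.fieldRange fun n o => by
    obtain ⟨p, hp⟩ := exists_poly_locSub c.locVar c.coe_locVar c.axesGens_const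
      (fun k => τ (c.x k)) hτx n o
    refine ⟨_, ?_, hp⟩
    show i _ ∈ s.fieldRange
    rw [← MvPolynomial.comp_aeval_apply, ← AlgHom.comp_apply, ← hs]
    exact ⟨_, rfl⟩
  exact ⟨hfin.1, hfin.2, hsum ▸ hz⟩

end Fermat.Agent.AbVar
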