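import Fermat.Agent.AbVar.LocalAlgebra
import Fermat.Agent.AbVar.PowerSeries
import Fermat.Agent.FF.FunctionField
import Mathlib.RingTheory.MvPowerSeries.Rename
import Mathlib.RingTheory.PowerSeries.Inverse

/-!
# Axes of a power series ring

Restriction to and inclusion of the axes, and linear disjointness of series in disjoint sets of
variables (`tensorLift_injective_of_axis`).
-/

set_option autoImplicit false

noncomputable section

open scoped TensorProduct

namespace Fermat.Agent.AbVar

open IsLocalRing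

universe u

variable {K : Type u} [Field K] {g : ℕ}

/-! ### Axes -/

/-- The `j`-th variable. -/
def axisEmbedding (j : Fin g) : Unit ↪ Fin g := ⟨fun _ => j, fun _ _ _ => rfl⟩

/-- Restriction to the `j`-th axis. -/
def axis (j : Fin g) : MvPowerSeries (Fin g) K →ₐ[K] PowerSeries K :=
  MvPowerSeries.killCompl (axisEmbedding j)

/-- Series in the `j`-th variable. -/
def axisInc (j : Fin g) : PowerSeries K →ₐ[K] MvPowerSeries (Fin g) K :=
  MvPowerSeries.rename (axisEmbedding j)

theorem coeff_axis (j : Fin g) (f : MvPowerSeries (Fin g) K) (n : ℕ) :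
    PowerSeries.coeff n (axis j f) = MvPowerSeries.coeff (Finsupp.single j n) f := by
  refine (MvPowerSeries.coeff_killCompl (e := axisEmbedding j) f _).trans ?_
  rw [Finsupp.embDomain_single]
  rfl

theorem coeff_axisInc_single (j : Fin g) (p : PowerSeries K) (n : ℕ) :
    MvPowerSeries.coeff (Finsupp.single j n) (axisInc j p) = PowerSeries.coeff n p := by
  have h := MvPowerSeries.coeff_embDomain_rename (axisEmbedding j) p (Finsupp.single () n)
  rw [Finsupp.embDomain_single] at h
  exact h

theorem coeff_axisInc_eq_zero (j : Fin g) (p : PowerSeries K) {d : Fin g →₀ ℕ}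
    (h : ∀ n, d ≠ Finsupp.single j n) : MvPowerSeries.coeff d (axisInc j p) = 0 := by
  refine MvPowerSeries.coeff_rename_eq_zero _ p ?_
  rintro ⟨x, hx⟩
  refine h (x ()) (hx.symm.trans ?_)
  conv_lhs => rw [Finsupp.unique_single x]
  rw [Finsupp.mapDomain_single]
  rfl

theorem axisInc_X (j : Fin g) : axisInc (K := K) j PowerSeries.X = MvPowerSeries.X j :=
  MvPowerSeries.rename_X _ ()

theorem constantCoeff_axis (j : Fin g) (f : MvPowerSeries (Fin g) K) :
    PowerSeries.constantCoeff (axis j f) = MvPowerSeries.constantCoeff f := by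
  rw [← PowerSeries.coeff_zero_eq_constantCoeff_apply, coeff_axis, Finsupp.single_zero,
    MvPowerSeries.coeff_zero_eq_constantCoeff_apply]

theorem constantCoeff_axisInc (j : Fin g) (p : PowerSeries K) :
    MvPowerSeries.constantCoeff (axisInc j p) = PowerSeries.constantCoeff p :=
  MvPowerSeries.constantCoeff_rename _ p

theorem axis_axisInc (j : Fin g) (p : PowerSeries K) : axis j (axisInc j p) = p :=
  MvPowerSeries.killCompl_rename_app p

theorem axis_axisInc_of_ne {j k : Fin g} (h : j ≠ k) (p : PowerSeries K) :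
    axis j (axisInc k p) = algebraMap K (PowerSeries K) (PowerSeries.constantCoeff p) := by
  ext n
  rw [coeff_axis, show algebraMap K (PowerSeries K) (PowerSeries.constantCoeff p) =
    PowerSeries.C (PowerSeries.constantCoeff p) from rfl, PowerSeries.coeff_C]
  rcases Nat.eq_zero_or_pos n with rfl | hn
  · rw [if_pos rfl, Finsupp.single_zero, MvPowerSeries.coeff_zero_eq_constantCoeff_apply,
      constantCoeff_axisInc]
  · rw [if_neg hn.ne', coeff_axisInc_eq_zero]
    intro m hm
    have := congrArg (fun v : Fin g →₀ ℕ => v j) hm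
    simp [h.symm, hn.ne'] at this

/-- Degree at most one is seen on the axes. -/
theorem mem_sq_of_axis {f : MvPowerSeries (Fin g) K}
    (h0 : MvPowerSeries.constantCoeff f = 0) (h1 : ∀ j, PowerSeries.coeff 1 (axis j f) = 0) :
    f ∈ maximalIdeal (MvPowerSeries (Fin g) K) ^ 2 := by
  refine (mem_maximalIdeal_pow_iff K 2 f).mpr fun d hd => ?_
  rcases Nat.lt_succ_iff_lt_or_eq.mp hd with h | h
  · obtain rfl : d = 0 := (Finsupp.degree_eq_zero_iff d).mp (Nat.lt_one_iff.mp h)
    rwa [MvPowerSeries.coeff_zero_eq_constantCoeff_apply]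
  · obtain ⟨i, hi⟩ : ∃ i, 1 ≤ d i := by
      by_contra! hne
      have : d = 0 := by ext i; simpa using hne i
      simp [this] at h
    obtain ⟨e, rfl⟩ : ∃ e, d = Finsupp.single i 1 + e :=
      exists_add_of_le (Finsupp.single_le_iff.mpr hi)
    rw [map_add, Finsupp.degree_single] at h
    obtain rfl : e = 0 := (Finsupp.degree_eq_zero_iff e).mp (by omega)
    rw [add_zero, ← coeff_axis]
    exact h1 i

variable (K) in
/-- Series in the variables of `S`. -/
def supportedIn (S : Set (Fin g)) : Subalgebra K (MvPowerSeries (Fin g) K) where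
  carrier := {f | ∀ d : Fin g →₀ ℕ, (∃ i, i ∉ S ∧ d i ≠ 0) → MvPowerSeries.coeff d f = 0}
  mul_mem' {a b} ha hb d := by
    classical
    rintro ⟨i, hi, hd⟩
    rw [MvPowerSeries.coeff_mul]
    refine Finset.sum_eq_zero fun uv huv => ?_
    rw [Finset.HasAntidiagonal.mem_antidiagonal] at huv
    rcases eq_or_ne (uv.1 i) 0 with h1 | h1
    · have h2 : uv.2 i ≠ 0 := fun h2 => hd (by rw [← huv, Finsupp.add_apply, h1, h2])
      rw [hb _ ⟨i, hi, h2⟩, mul_zero]
    · rw [ha _ ⟨i, hi, h1⟩, zero_mul]
  add_mem' {a b} ha hb d hd := by rw [map_add, ha d hd, hb d hd, add_zero]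
  algebraMap_mem' c d hd := by
    classical
    rw [MvPowerSeries.algebraMap_apply, MvPowerSeries.coeff_C]
    refine if_neg ?_
    rintro rfl
    obtain ⟨i, -, hi⟩ := hd
    exact hi rfl

theorem axisInc_mem_supportedIn {S : Set (Fin g)} {j : Fin g} (hj : j ∈ S) (p : PowerSeries K) :
    axisInc j p ∈ supportedIn K S := by
  rintro d ⟨i, hi, hd⟩
  refine coeff_axisInc_eq_zero j p fun n hn => hd ?_
  rw [hn, Finsupp.single_eq_of_ne]
  rintro rfl
  exact hi hj

/-- Series in disjoint sets of variables are linearly disjoint. -/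
theorem eq_zero_of_sum_mul_axisInc {S : Set (Fin g)} {j : Fin g} (hj : j ∉ S) {ι : Type*}
    {s : Finset ι} {a : ι → MvPowerSeries (Fin g) K} (ha : ∀ k ∈ s, a k ∈ supportedIn K S)
    {b : ι → PowerSeries K} (hb : ∀ c : ι → K, ∑ k ∈ s, c k • b k = 0 → ∀ k ∈ s, c k = 0)
    (h : ∑ k ∈ s, a k * axisInc j (b k) = 0) : ∀ k ∈ s, a k = 0 := by
  classical
  intro k hk
  ext d
  rw [map_zero]
  by_cases hd : ∃ i, i ∉ S ∧ d i ≠ 0
  · exact ha k hk d hd
  refine hb (fun k => MvPowerSeries.coeff d (a k)) ?_ k hk
  ext n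
  rw [map_sum, map_zero]
  have hn := congrArg (MvPowerSeries.coeff (d + Finsupp.single j n)) h
  rw [map_sum, map_zero] at hn
  refine Eq.trans (Finset.sum_congr rfl fun i hi => ?_) hn
  rw [map_smul, smul_eq_mul, MvPowerSeries.coeff_mul,
    Finset.sum_eq_single (d, Finsupp.single j n)]
  · rw [coeff_axisInc_single]
  · rintro ⟨u, v⟩ huv hne
    rw [Finset.HasAntidiagonal.mem_antidiagonal] at huv
    rcases eq_or_ne (u j) 0 with hu | hu
    · by_cases hv : ∃ m, v = Finsupp.single j m
      · obtain ⟨m, rfl⟩ := hv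
        refine absurd ?_ hne
        have hm := congrArg (fun w : Fin g →₀ ℕ => w j) huv
        have hdj : d j = 0 := by
          by_contra hdj
          exact hd ⟨j, hj, hdj⟩
        simp only [Finsupp.add_apply, hu, Finsupp.single_eq_same, hdj, zero_add] at hm
        subst hm
        exact Prod.ext (add_right_cancel huv) rfl
      · rw [coeff_axisInc_eq_zero j _ (not_exists.mp hv), mul_zero]
    · rw [ha i hi u ⟨j, hj, hu⟩, zero_mul]
  · intro hmem
    refine absurd ?_ hmem
    rw [Finset.HasAntidiagonal.mem_antidiagonal]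

/-- Fields of fractions of series in disjoint sets of variables are linearly disjoint. -/
theorem tensorLift_injective_of_axis {M : Type u} [Field M] [Algebra K M]
    (ι : MvPowerSeries (Fin g) K →ₐ[K] M) (hι : Function.Injective ι) {S : Set (Fin g)}
    {j : Fin g} (hj : j ∉ S) {L₀ F : Type u} [Field L₀] [Algebra K L₀] [Field F] [Algebra K F]
    (φ : L₀ →ₐ[K] M) (ψ : F →ₐ[K] M)
    (hφ : ∀ x, ∃ a α, a ∈ supportedIn K S ∧ α ∈ supportedIn K S ∧ α ≠ 0 ∧ φ x * ι α = ι a)
    (hψ : ∀ x, ∃ b β, β ≠ 0 ∧ ψ x * ι (axisInc j β) = ι (axisInc j b)) :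
    Function.Injective (Algebra.TensorProduct.lift φ ψ fun _ _ => .all _ _) := by
  classical
  refine (injective_iff_map_eq_zero _).mpr fun t ht => ?_
  let e := Module.Free.chooseBasis K F
  obtain ⟨c, rfl⟩ := TensorProduct.eq_repr_basis_right e t
  rw [Finsupp.sum] at ht ⊢
  rw [map_sum] at ht
  simp only [Algebra.TensorProduct.lift_tmul] at ht
  refine Finset.sum_eq_zero fun k hk => ?_
  choose a α ha hα hα0 hφ using fun i => hφ (c i)
  choose b β hβ0 hψ using fun i => hψ (e i)
  let A : _ → MvPowerSeries (Fin g) K := fun i => a i * ∏ l ∈ c.support.erase i, α l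
  let B : _ → PowerSeries K := fun i => b i * ∏ l ∈ c.support.erase i, β l
  have hA : ∀ i ∈ c.support, φ (c i) * ι (∏ l ∈ c.support, α l) = ι (A i) := fun i hi => by
    rw [← Finset.mul_prod_erase _ _ hi, map_mul, ← mul_assoc, hφ, ← map_mul]
  have hB : ∀ i ∈ c.support,
      ψ (e i) * ι (axisInc j (∏ l ∈ c.support, β l)) = ι (axisInc j (B i)) := fun i hi => by
    rw [← Finset.mul_prod_erase _ _ hi, map_mul, map_mul, ← mul_assoc, hψ, ← map_mul, ← map_mul]
  have hzero : ∀ i ∈ c.support, A i = 0 := by
    refine eq_zero_of_sum_mul_axisInc hj (fun i _ => mul_mem (ha i) (prod_mem fun l _ => hα l))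
      (b := B) (fun d hd => ?_) (hι ?_)
    · have h2 : ψ (∑ i ∈ c.support, d i • e i) * ι (axisInc j (∏ l ∈ c.support, β l)) = 0 := by
        rw [map_sum, Finset.sum_mul]
        calc ∑ i ∈ c.support, ψ (d i • e i) * ι (axisInc j (∏ l ∈ c.support, β l))
            = ∑ i ∈ c.support, ι (axisInc j (d i • B i)) := Finset.sum_congr rfl fun i hi => by
              rw [map_smul, smul_mul_assoc, hB i hi, map_smul, map_smul]
          _ = ι (axisInc j (∑ i ∈ c.support, d i • B i)) := by rw [map_sum, map_sum]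
          _ = 0 := by rw [hd, map_zero, map_zero]
      rw [mul_eq_zero] at h2
      rcases h2 with h2 | h2
      · rw [← map_zero ψ] at h2
        exact linearIndependent_iff'.mp e.linearIndependent _ d (ψ.injective h2)
      · rw [← map_zero ι, hι.eq_iff, ← map_zero (axisInc (K := K) j),
          (Function.LeftInverse.injective (axis_axisInc j)).eq_iff, Finset.prod_eq_zero_iff] at h2
        obtain ⟨i, -, hi⟩ := h2
        exact absurd hi (hβ0 i)
    · rw [map_zero, map_sum]
      calc ∑ i ∈ c.support, ι (A i * axisInc j (B i))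
          = ∑ i ∈ c.support, φ (c i) * ψ (e i) *
              (ι (∏ l ∈ c.support, α l) * ι (axisInc j (∏ l ∈ c.support, β l))) :=
            Finset.sum_congr rfl fun i hi => by
              rw [map_mul, ← hA i hi, ← hB i hi, mul_mul_mul_comm]
        _ = 0 := by rw [← Finset.sum_mul, ht, zero_mul]
  have h := hA k hk
  rw [hzero k hk, map_zero, mul_eq_zero] at h
  rcases h with h | h
  · rw [map_eq_zero] at h
    rw [h, TensorProduct.zero_tmul]
  · rw [← map_zero ι, hι.eq_iff, Finset.prod_eq_zero_iff] at h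
    obtain ⟨i, -, hi⟩ := h
    exact absurd hi (hα0 i)

end Fermat.Agent.AbVar
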