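import Fermat.Agent.AbVar.GaussSends

/-!
# The Gauss extension: integral combinations of functions

Combinations of functions of `F` with integral coefficients, their residues, and the existence of
a place of the constant extension extending a place of the constants and fixing `F`
(`nonempty_gauss'`).
-/

set_option autoImplicit false

noncomputable section

open AlgebraicCurve
open Fermat.Agent.FF
open Fermat.Agent.CurveTorsion (ev IsConstExt extPlace)

namespace Fermat.Agent.AbVar

universe u

variable {K : Type u} [Field K] [IsAlgClosed K] {F : Type u} [Field F] [Algebra K F]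
  [IsFunctionField K F]
  {L : Type u} [Field L] [IsAlgClosed L] [Algebra K L]
  {Λ : Type u} [Field Λ] [IsAlgClosed Λ] [Algebra K Λ]

/-- A place of `M` extending `π`, the identity on `F`. -/
structure Gauss (M : Type u) [Field M] [Algebra L M] [Algebra F M] [Algebra K M]
    [IsScalarTower K L M] [IsScalarTower K F M] [IsConstExt F L M]
    (N : Type u) [Field N] [Algebra Λ N] [Algebra F N] [Algebra K N] [IsScalarTower K Λ N]
    [IsScalarTower K F N] [IsConstExt F Λ N] (π : KPlace K L Λ) : Type u where
  /-- the place -/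
  G : KPlace K M N
  extends_π : ∀ a : π.toKVal.toVal, ∃ h : algebraMap L M a ∈ G.toKVal.toVal,
    G.res ⟨algebraMap L M a, h⟩ = algebraMap Λ N (π.res a)
  fix : ∀ y : F, ∃ h : algebraMap F M y ∈ G.toKVal.toVal,
    G.res ⟨algebraMap F M y, h⟩ = algebraMap F N y

/-! ### Coefficients -/

/-- All coefficients are integral at `π`. -/
def IntC {ι : Type*} (π : KPlace K L Λ) (c : ι →₀ L) : Prop := ∀ i, c i ∈ π.toKVal.toVal

/-- The residue, extended by zero outside the valuation ring. -/
def resTot (π : KPlace K L Λ) (x : L) : Λ :=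
  open scoped Classical in
  if h : x ∈ π.toKVal.toVal then π.res ⟨x, h⟩ else 0

omit [IsAlgClosed K] [IsAlgClosed L] [IsAlgClosed Λ] in
theorem resTot_zero (π : KPlace K L Λ) : resTot π 0 = 0 := by
  rw [resTot, dif_pos (zero_mem π.toKVal.toVal)]
  exact map_zero π.res

omit [IsAlgClosed K] [IsAlgClosed L] [IsAlgClosed Λ] in
theorem sends_resTot {π : KPlace K L Λ} {x : L} (h : x ∈ π.toKVal.toVal) :
    π.Sends x (resTot π x) := by
  rw [resTot, dif_pos h]; exact π.sends_of_mem h

/-- The residues of the coefficients. -/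
def resC {ι : Type*} (π : KPlace K L Λ) (c : ι →₀ L) : ι →₀ Λ :=
  c.mapRange (resTot π) (resTot_zero π)

omit [IsAlgClosed K] [IsAlgClosed L] [IsAlgClosed Λ] in
theorem resC_apply {ι : Type*} (π : KPlace K L Λ) (c : ι →₀ L) (i : ι) :
    resC π c i = resTot π (c i) := Finsupp.mapRange_apply ..

omit [IsAlgClosed K] [IsAlgClosed L] [IsAlgClosed Λ] in
/-- Division by a largest coefficient. -/
theorem exists_normal {ι : Type*} (π : KPlace K L Λ) {c : ι →₀ L} (hc : c ≠ 0) :
    ∃ (l : L) (c' : ι →₀ L) (i₀ : ι),
      l ≠ 0 ∧ IntC π c' ∧ c' i₀ = 1 ∧ resC π c' i₀ = 1 ∧ c = l • c' := by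
  obtain ⟨i₀, hi₀, hmax⟩ := c.support.exists_max_image (fun i => π.toKVal.toVal.valuation (c i))
    (Finsupp.support_nonempty_iff.2 hc)
  have hne : c i₀ ≠ 0 := Finsupp.mem_support_iff.1 hi₀
  have h1 : ((c i₀)⁻¹ • c) i₀ = 1 := by
    rw [Finsupp.smul_apply, smul_eq_mul, inv_mul_cancel₀ hne]
  refine ⟨c i₀, (c i₀)⁻¹ • c, i₀, hne, fun i => ?_, h1, ?_, by
    rw [smul_smul, mul_inv_cancel₀ hne, one_smul]⟩
  · rw [Finsupp.smul_apply, smul_eq_mul]
    rcases eq_or_ne (c i) 0 with h0 | h0
    · rw [h0, mul_zero]; exact zero_mem _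
    rw [← ValuationSubring.valuation_le_one_iff, map_mul, map_inv₀, inv_mul_le_iff₀
      (zero_lt_iff.2 ((Valuation.ne_zero_iff _).2 hne)), mul_one]
    exact hmax i (Finsupp.mem_support_iff.2 h0)
  · rw [resC_apply, h1]
    exact (sends_resTot (one_mem _)).unique π.sends_one

/-! ### Combinations of the basis of `F` -/

variable {M : Type u} [Field M] [Algebra L M] [Algebra F M] [Algebra K M] [IsScalarTower K L M]
  [IsScalarTower K F M] [IsConstExt F L M]
  {N : Type u} [Field N] [Algebra Λ N] [Algebra F N] [Algebra K N] [IsScalarTower K Λ N]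
  [IsScalarTower K F N] [IsConstExt F Λ N]

variable (K F) in
/-- The indices of a basis of `F` over `K`. -/
abbrev FIdx : Type u := Module.Free.ChooseBasisIndex K F

variable (K F) in
/-- A basis of `F` over `K`. -/
abbrev fBasis : Module.Basis (FIdx K F) K F := Module.Free.chooseBasis K F

variable (K F M) in
/-- Combinations of the basis of `F` with coefficients in `L`. -/
def comb : (FIdx K F →₀ L) →ₗ[L] M :=
  Finsupp.linearCombination L fun i => algebraMap F M (fBasis K F i)

theorem comb_injective : Function.Injective (comb K F (L := L) M) := by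
  have := CurveTorsion.isFunctionField_ext K F (K := L) (F := M)
  refine linearIndependent_iff_finset_linearIndependent.2 fun s => ?_
  exact CurveTorsion.linearIndependent_algebraMap (K₀ := K) (K := L) (F := M)
    ((fBasis K F).linearIndependent.comp _ Subtype.val_injective)

omit [IsAlgClosed K] [IsFunctionField K F] [IsAlgClosed L] [IsConstExt F L M] in
theorem comb_repr (y : F) :
    comb K F M (((fBasis K F).repr y).mapRange (algebraMap K L) (map_zero _)) =
      algebraMap F M y := by
  conv_rhs => rw [← (fBasis K F).linearCombination_repr y]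
  rw [comb, Finsupp.linearCombination_apply, Finsupp.linearCombination_apply,
    Finsupp.sum_mapRange_index]
  swap
  · intro i; exact zero_smul L _
  simp only [Finsupp.sum, map_sum]
  refine Finset.sum_congr rfl fun i _ => ?_
  rw [algebraMap_smul L, Algebra.smul_def, Algebra.smul_def, map_mul,
    ← IsScalarTower.algebraMap_apply]

omit [IsAlgClosed K] [IsFunctionField K F] [IsAlgClosed L] [IsConstExt F L M] in
theorem range_comb :
    LinearMap.range (comb K F (L := L) M) = Submodule.span L (Set.range (algebraMap F M)) := by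
  refine le_antisymm ?_ (Submodule.span_le.2 ?_)
  · rw [comb, Finsupp.range_linearCombination]
    refine Submodule.span_mono ?_
    rintro _ ⟨i, rfl⟩
    exact ⟨_, rfl⟩
  · rintro _ ⟨y, rfl⟩
    exact ⟨_, comb_repr y⟩

variable {π : KPlace K L Λ} {Ω : Type u} [Field Ω] [Algebra K Ω] {G : KPlace K M Ω} {j : N →+* Ω}

/-- The place extends `π` and the identity of `F`, read in `Ω` through `j`. -/
structure Compat (π : KPlace K L Λ) (G : KPlace K M Ω) (j : N →+* Ω) : Prop where
  const : ∀ a b, π.Sends a b → G.Sends (algebraMap L M a) (j (algebraMap Λ N b))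
  func : ∀ y : F, G.Sends (algebraMap F M y) (j (algebraMap F N y))

omit [IsAlgClosed K] [IsFunctionField K F] [IsAlgClosed L] [IsAlgClosed Λ] [IsConstExt F L M]
  [IsConstExt F Λ N] [IsScalarTower K L M] [IsScalarTower K F M] [Algebra K N]
  [IsScalarTower K Λ N] [IsScalarTower K F N] in
theorem Compat.sends_comb (hG : Compat (F := F) π G j) {c : FIdx K F →₀ L} (hc : IntC π c) :
    G.Sends (comb K F M c) (j (comb K F N (resC π c))) := by
  rw [comb, comb, Finsupp.linearCombination_apply, Finsupp.linearCombination_apply, resC,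
    Finsupp.sum_mapRange_index]
  swap
  · intro i; exact zero_smul Λ _
  rw [Finsupp.sum, Finsupp.sum, map_sum]
  refine KPlace.Sends.sum _ fun i _ => ?_
  rw [Algebra.smul_def, Algebra.smul_def, map_mul]
  exact (hG.const _ _ (sends_resTot (hc i))).mul (hG.func _)

variable (K F π) in
/-- `a` is an integral combination of functions, with residue `b`. -/
def IsLift (a : M) (b : N) : Prop :=
  ∃ c : FIdx K F →₀ L, IntC π c ∧ comb K F M c = a ∧ comb K F N (resC π c) = b

omit [IsAlgClosed K] [IsFunctionField K F] [IsAlgClosed L] [IsAlgClosed Λ] [IsConstExt F L M]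
  [IsConstExt F Λ N] [IsScalarTower K L M] [IsScalarTower K F M] [Algebra K N]
  [IsScalarTower K Λ N] [IsScalarTower K F N] in
theorem Compat.sends_lift (hG : Compat (F := F) π G j) {a : M} {b : N}
    (h : IsLift K F π a b) : G.Sends a (j b) := by
  obtain ⟨c, hc, rfl, rfl⟩ := h
  exact hG.sends_comb hc

omit [IsAlgClosed K] [IsFunctionField K F] [IsAlgClosed L] [IsAlgClosed Λ] [IsConstExt F L M]
  [IsConstExt F Λ N] [Algebra K M] [IsScalarTower K L M] [IsScalarTower K F M] [Algebra K N]
  [IsScalarTower K Λ N] [IsScalarTower K F N] in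
theorem isLift_zero : IsLift K F π (0 : M) (0 : N) := by
  refine ⟨0, fun i => zero_mem _, map_zero _, ?_⟩
  rw [show resC π (0 : FIdx K F →₀ L) = 0 from Finsupp.mapRange_zero, map_zero]

omit [IsAlgClosed K] [IsFunctionField K F] [IsAlgClosed L] [IsAlgClosed Λ] [IsConstExt F L M]
  [IsConstExt F Λ N] [Algebra K M] [IsScalarTower K L M] [IsScalarTower K F M] [Algebra K N]
  [IsScalarTower K Λ N] [IsScalarTower K F N] in
theorem IsLift.add {a a' : M} {b b' : N} (h : IsLift K F π a b) (h' : IsLift K F π a' b') :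
    IsLift K F π (a + a') (b + b') := by
  obtain ⟨c, hc, rfl, rfl⟩ := h
  obtain ⟨d, hd, rfl, rfl⟩ := h'
  refine ⟨c + d, fun i => by rw [Finsupp.add_apply]; exact add_mem (hc i) (hd i), map_add _ _ _, ?_⟩
  rw [← map_add]
  congr 1
  ext i
  rw [Finsupp.add_apply, resC_apply, resC_apply, resC_apply, Finsupp.add_apply]
  exact (sends_resTot (add_mem (hc i) (hd i))).unique
    ((sends_resTot (hc i)).add (sends_resTot (hd i)))

omit [IsAlgClosed K] [IsFunctionField K F] [IsAlgClosed L] [IsAlgClosed Λ] [IsConstExt F L M]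
  [IsConstExt F Λ N] in
theorem isLift_smul_algebraMap {a : L} {b : Λ} (h : π.Sends a b) (y : F) :
    IsLift K F π (a • algebraMap F M y) (b • algebraMap F N y) := by
  set r := (fBasis K F).repr y
  refine ⟨a • r.mapRange (algebraMap K L) (map_zero _), fun i => ?_,
    by rw [map_smul, comb_repr], ?_⟩
  · rw [Finsupp.smul_apply, Finsupp.mapRange_apply, smul_eq_mul]
    exact (h.mul (π.sends_algebraMap _)).mem
  · rw [← comb_repr (K := K) (L := Λ) (M := N), ← map_smul]
    congr 1
    ext i
    rw [resC_apply, Finsupp.smul_apply, Finsupp.smul_apply, Finsupp.mapRange_apply,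
      Finsupp.mapRange_apply, smul_eq_mul, smul_eq_mul]
    exact (sends_resTot (h.mul (π.sends_algebraMap _)).mem).unique (h.mul (π.sends_algebraMap _))

omit [IsAlgClosed K] [IsFunctionField K F] [IsAlgClosed L] [IsAlgClosed Λ] [IsConstExt F L M]
  [IsConstExt F Λ N] in
/-- Residue combinations lift. -/
theorem exists_lift_of_mem_span (hπ : Function.Surjective π.res) {S : Set F} {b : N}
    (hb : b ∈ Submodule.span Λ (algebraMap F N '' S)) :
    ∃ a : M, a ∈ Submodule.span L (algebraMap F M '' S) ∧ IsLift K F π a b := by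
  suffices key : ∀ x : Λ, ∃ a : M, a ∈ Submodule.span L (algebraMap F M '' S) ∧
      IsLift K F π a (x • b) by simpa using key 1
  induction hb using Submodule.span_induction with
  | mem w hw =>
    obtain ⟨y, hy, rfl⟩ := hw
    intro x
    obtain ⟨l, rfl⟩ := hπ x
    exact ⟨_, Submodule.smul_mem _ (l : L) (Submodule.subset_span ⟨y, hy, rfl⟩),
      isLift_smul_algebraMap (π.sends_res l) y⟩
  | zero => exact fun x => ⟨0, zero_mem _, by rw [smul_zero]; exact isLift_zero⟩
  | add w w' _ _ hw hw' =>
    intro x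
    obtain ⟨a, ha, hla⟩ := hw x
    obtain ⟨a', ha', hla'⟩ := hw' x
    exact ⟨a + a', add_mem ha ha', by rw [smul_add]; exact hla.add hla'⟩
  | smul c w _ hw =>
    intro x
    obtain ⟨a, ha, hla⟩ := hw (x * c)
    exact ⟨a, ha, by rwa [smul_smul]⟩

variable (N π) in
omit [IsAlgClosed L] [IsConstExt F L M] in
/-- A nonzero combination is a constant times an integral one with nonzero residue. -/
theorem exists_normal_lift {a : M} (ha : a ∈ Submodule.span L (Set.range (algebraMap F M)))
    (ha0 : a ≠ 0) :
    ∃ (l : L) (a₀ : M) (b : N), l ≠ 0 ∧ IsLift K F π a₀ b ∧ b ≠ 0 ∧ a = l • a₀ := by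
  rw [← range_comb (K := K)] at ha
  obtain ⟨c, rfl⟩ := ha
  obtain ⟨l, c', i₀, hl, hint, -, hi₀, rfl⟩ := exists_normal π (c := c)
    (fun h => ha0 (by rw [h, map_zero]))
  refine ⟨l, _, _, hl, ⟨c', hint, rfl, rfl⟩, fun h => ?_, map_smul _ _ _⟩
  have h2 := comb_injective (K := K) (F := F) (L := Λ) (M := N) (h.trans (map_zero _).symm)
  rw [h2] at hi₀
  exact zero_ne_one hi₀

variable (N π) in
omit [IsAlgClosed L] in
/-- A nonzero element is a constant times a quotient of such combinations. -/
theorem exists_decomp {f : M} (hf : f ≠ 0) :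
    ∃ (l : L) (a b : M) (a' b' : N), l ≠ 0 ∧ IsLift K F π a a' ∧ IsLift K F π b b' ∧
      a' ≠ 0 ∧ b' ≠ 0 ∧ f = algebraMap L M l * (a / b) := by
  have := CurveTorsion.isFunctionField_ext K F (K := L) (F := M)
  obtain ⟨x, hx, y, hy, rfl⟩ := exists_div_span (F := F) (L := L) f
  obtain ⟨l₁, a, a', hl₁, ha, ha', rfl⟩ := exists_normal_lift (K := K) (F := F) N π hx
    (fun h => hf (by rw [h, zero_div]))
  obtain ⟨l₂, b, b', hl₂, hb, hb', rfl⟩ := exists_normal_lift (K := K) (F := F) N π hy
    (fun h => hf (by rw [h, div_zero]))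
  refine ⟨l₁ / l₂, a, b, a', b', div_ne_zero hl₁ hl₂, ha, hb, ha', hb', ?_⟩
  rw [Algebra.smul_def, Algebra.smul_def, map_div₀]
  field_simp

omit [IsAlgClosed L] in
/-- Every nonzero element is scaled to a unit with residue in `N`. -/
theorem Compat.exists_unit (hG : Compat (F := F) π G j) {f : M} (hf : f ≠ 0) :
    ∃ (l : L) (z : N), l ≠ 0 ∧ z ≠ 0 ∧ G.Sends (algebraMap L M l * f) (j z) := by
  obtain ⟨l, a, b, a', b', hl, ha, hb, ha', hb', rfl⟩ := exists_decomp (K := K) (F := F) N π hf
  refine ⟨l⁻¹, a' / b', inv_ne_zero hl, div_ne_zero ha' hb', ?_⟩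
  rw [← mul_assoc, ← map_mul, inv_mul_cancel₀ hl, map_one, one_mul, map_div₀]
  exact (hG.sends_lift ha).div (hG.sends_lift hb) (by simpa using hb')

omit [IsAlgClosed L] in
/-- Residues lie in `N`. -/
theorem Compat.exists_residue (hG : Compat (F := F) π G j) {f : M}
    (hf : f ∈ G.toKVal.toVal) : ∃ z : N, G.Sends f (j z) := by
  rcases eq_or_ne f 0 with rfl | hf0
  · exact ⟨0, by rw [map_zero]; exact G.sends_zero⟩
  obtain ⟨l, z, hl, hz, hlz⟩ := hG.exists_unit hf0
  by_cases hli : l⁻¹ ∈ π.toKVal.toVal
  · refine ⟨algebraMap Λ N (resTot π l⁻¹) * z, ?_⟩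
    have := (hG.const _ _ (sends_resTot hli)).mul hlz
    rwa [← mul_assoc, ← map_mul, inv_mul_cancel₀ hl, map_one, one_mul, ← map_mul] at this
  · exfalso
    have h0 := (hG.const _ _ (KPlace.sends_zero_of_inv_notMem hli)).mul (G.sends_of_mem hf)
    rw [map_zero, map_zero, zero_mul] at h0
    exact hz (j.injective ((hlz.unique h0).trans (map_zero j).symm))

omit [IsAlgClosed L] [IsConstExt F L M] in
/-- An element of the span in the valuation ring is an integral combination. -/
theorem Compat.isLift_of_mem (hG : Compat (F := F) π G j) {a : M} {z : N}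
    (ha : a ∈ Submodule.span L (Set.range (algebraMap F M))) (hz : G.Sends a (j z)) :
    IsLift K F π a z := by
  rcases eq_or_ne a 0 with rfl | ha0
  · rw [show z = 0 from j.injective ((hz.unique G.sends_zero).trans (map_zero j).symm)]
    exact isLift_zero
  obtain ⟨l, a₀, b, hl, hlift, hb, rfl⟩ := exists_normal_lift (K := K) (F := F) N π ha ha0
  by_cases hlm : l ∈ π.toKVal.toVal
  · obtain ⟨c, hc, rfl, rfl⟩ := hlift
    have hint : IntC π (l • c) := fun i => by
      rw [Finsupp.smul_apply, smul_eq_mul]; exact mul_mem hlm (hc i)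
    have h2 := hG.sends_comb hint
    rw [map_smul] at h2
    exact ⟨l • c, hint, map_smul _ _ _, j.injective (h2.unique hz)⟩
  · exfalso
    have h0 := (hG.const _ _ (KPlace.sends_zero_of_inv_notMem (x := l⁻¹) (by rwa [inv_inv]))).mul hz
    rw [Algebra.smul_def, ← mul_assoc, ← map_mul, inv_mul_cancel₀ hl, map_one, one_mul, map_zero,
      map_zero, zero_mul] at h0
    exact hb (j.injective (((hG.sends_lift hlift).unique h0).trans (map_zero j).symm))

/-! ### Dimension of residues -/

omit [IsAlgClosed K] [IsAlgClosed L] [IsAlgClosed Λ] in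
theorem exists_indep_resC {ι : Type u} (π : KPlace K L Λ) (n : ℕ) :
    ∀ (W : Submodule L (ι →₀ L)) [Module.Finite L W], n ≤ Module.finrank L W →
      ∃ c : Fin n → ι →₀ L, (∀ k, c k ∈ W ∧ IntC π (c k)) ∧
        LinearIndependent Λ fun k => resC π (c k) := by
  induction n with
  | zero => exact fun W _ _ => ⟨Fin.elim0, fun k => k.elim0, linearIndependent_empty_type⟩
  | succ n ih =>
    intro W _ hW
    obtain ⟨w, hw, hw0⟩ := Submodule.exists_mem_ne_zero_of_ne_bot (p := W) fun h => by
      rw [h, finrank_bot] at hW; omega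
    obtain ⟨l, c₀, i₀, hl, hint, -, hi₀, rfl⟩ := exists_normal π hw0
    have hc₀ : c₀ ∈ W := (Submodule.smul_mem_iff _ hl).1 hw
    have : IsNoetherian L W := isNoetherian_of_isNoetherianRing_of_finite L W
    set f : W →ₗ[L] L := (Finsupp.lapply i₀).comp W.subtype
    set W' : Submodule L (ι →₀ L) := (LinearMap.ker f).map W.subtype
    have : Module.Finite L W' := Module.Finite.map _ _
    have h1 := LinearMap.finrank_range_add_finrank_ker (V := W) f
    have h2 : Module.finrank L (LinearMap.range f) ≤ 1 :=
      (Submodule.finrank_le _).trans (Module.finrank_self L).le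
    have h3 : Module.finrank L W' = Module.finrank L (LinearMap.ker f) :=
      Submodule.finrank_map_subtype_eq _ _
    obtain ⟨c, hc, hli⟩ := ih W' (by omega)
    refine ⟨Fin.cons c₀ c, ?_, ?_⟩
    · refine Fin.cases ⟨hc₀, hint⟩ fun k => ?_
      simp only [Fin.cons_succ]
      exact ⟨Submodule.map_subtype_le _ _ (hc k).1, (hc k).2⟩
    · have hz : ∀ k, resC π (c k) i₀ = 0 := fun k => by
        obtain ⟨⟨v, hv⟩, hk, hk'⟩ := Submodule.mem_map.1 (hc k).1
        rw [resC_apply, ← hk']
        show resTot π (v i₀) = 0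
        rw [show v i₀ = 0 from hk, resTot_zero]
      have hcons : (fun k => resC π ((Fin.cons c₀ c : Fin (n + 1) → ι →₀ L) k)) =
          Fin.cons (resC π c₀) fun k => resC π (c k) :=
        funext fun k => by cases k using Fin.cases <;> simp
      rw [hcons, linearIndependent_finCons]
      refine ⟨hli, fun hmem => ?_⟩
      have hle : Submodule.span Λ (Set.range fun k => resC π (c k)) ≤
          LinearMap.ker (Finsupp.lapply i₀ : (ι →₀ Λ) →ₗ[Λ] Λ) := by
        rw [Submodule.span_le]; rintro _ ⟨k, rfl⟩; exact hz k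
      exact one_ne_zero (hi₀.symm.trans (hle hmem))

/-- A finite dimensional space of combinations has as many independent residues. -/
theorem exists_indep_lifts (W : Submodule L M) [Module.Finite L W]
    (hW : W ≤ Submodule.span L (Set.range (algebraMap F M))) :
    ∃ (a : Fin (Module.finrank L W) → M) (b : Fin (Module.finrank L W) → N),
      (∀ k, a k ∈ W ∧ IsLift K F π (a k) (b k)) ∧ LinearIndependent Λ b := by
  set Wc : Submodule L (FIdx K F →₀ L) := W.comap (comb K F M)
  have hinj := comb_injective (K := K) (F := F) (L := L) (M := M)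
  have hmap : Wc.map (comb K F M) = W := by
    rw [Submodule.map_comap_eq, inf_eq_right, range_comb]
    exact hW
  let e : Wc ≃ₗ[L] W := (Submodule.equivMapOfInjective _ hinj Wc).trans (LinearEquiv.ofEq _ _ hmap)
  have : Module.Finite L Wc := Module.Finite.equiv e.symm
  obtain ⟨c, hc, hli⟩ := exists_indep_resC π _ Wc e.finrank_eq.ge
  refine ⟨fun k => comb K F M (c k), fun k => comb K F N (resC π (c k)),
    fun k => ⟨(hc k).1, c k, (hc k).2, rfl, rfl⟩, ?_⟩
  exact hli.map' _ (LinearMap.ker_eq_bot.2 (comb_injective (K := K) (F := F) (L := Λ) (M := N)))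

omit [IsAlgClosed K] [IsFunctionField K F] [IsAlgClosed L] [IsAlgClosed Λ] [IsConstExt F L M]
  [IsConstExt F Λ N] [Algebra K F] [IsScalarTower K L M] [IsScalarTower K F M] [Algebra K N]
  [IsScalarTower K Λ N] [IsScalarTower K F N] in
/-- Elements with independent residues are independent. -/
theorem Compat.linearIndependent (hG : Compat (F := F) π G j) {ι : Type*} {a : ι → M} {b : ι → N}
    (h : ∀ i, G.Sends (a i) (j (b i))) (hb : LinearIndependent Λ b) : LinearIndependent L a := by
  rw [linearIndependent_iff]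
  intro c hc
  by_contra hne
  obtain ⟨l, c', i₀, hl, hint, -, hi₀, rfl⟩ := exists_normal π hne
  rw [map_smul, smul_eq_zero, Finsupp.linearCombination_apply] at hc
  have hc' := hc.resolve_left hl
  have hs : G.Sends (c'.sum fun i x => x • a i)
      (j (Finsupp.linearCombination Λ b (resC π c'))) := by
    rw [Finsupp.linearCombination_apply, resC,
      Finsupp.sum_mapRange_index]
    swap
    · intro i; exact zero_smul Λ _
    rw [Finsupp.sum, Finsupp.sum, map_sum]
    refine KPlace.Sends.sum _ fun i _ => ?_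
    rw [Algebra.smul_def, Algebra.smul_def, map_mul]
    exact (hG.const _ _ (sends_resTot (hint i))).mul (h i)
  rw [hc'] at hs
  have h2 := linearIndependent_iff.1 hb _
    (j.injective ((hs.unique G.sends_zero).trans (map_zero j).symm))
  rw [h2] at hi₀
  exact zero_ne_one hi₀

/-! ### The Gauss place -/

omit [IsAlgClosed K] [IsFunctionField K F] [IsAlgClosed L] [IsAlgClosed Λ] in
theorem Gauss.compat (Γ : Gauss (F := F) M N π) : Compat (F := F) π Γ.G (RingHom.id N) where
  const := fun a b h => by
    obtain ⟨h1, h2⟩ := Γ.extends_π ⟨a, h.1⟩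
    exact ⟨h1, h2.trans (by rw [h.2]; rfl)⟩
  func := fun y => Γ.fix y

variable (M N π) in
/-- **The Gauss extension exists.** -/
theorem nonempty_gauss' : Nonempty (Gauss (F := F) M N π) := by
  let jN : N →ₐ[K] AlgebraicClosure N := IsScalarTower.toAlgHom K N (AlgebraicClosure N)
  obtain ⟨p, hpL, hpF⟩ := exists_place_of_pair M (IsScalarTower.toAlgHom K π.toKVal.toVal L)
    Subtype.val_injective
    ((jN.comp (IsScalarTower.toAlgHom K Λ N)).comp π.resAlg)
    (jN.comp (IsScalarTower.toAlgHom K F N))
  have hp : Compat (F := F) π p jN.toRingHom :=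
    ⟨fun a b h => h.2 ▸ hpL ⟨a, h.1⟩, hpF⟩
  choose r hr using fun x : p.toKVal.toVal => hp.exists_residue x.2
  have hr' : ∀ x, jN.toRingHom (r x) = p.res x := fun x => (hr x).unique (p.sends_res x)
  let G : KPlace K M N :=
    { toKVal := p.toKVal
      res :=
        { toFun := r
          map_one' := jN.toRingHom.injective (by rw [hr', map_one, map_one])
          map_zero' := jN.toRingHom.injective (by rw [hr', map_zero, map_zero])
          map_add' := fun x y => jN.toRingHom.injective (by rw [map_add, hr', hr', hr', map_add])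
          map_mul' := fun x y => jN.toRingHom.injective (by rw [map_mul, hr', hr', hr', map_mul]) }
      res_algebraMap := fun c => jN.toRingHom.injective (by
        show jN.toRingHom (r _) = _
        rw [hr', p.res_algebraMap]
        exact (jN.commutes c).symm)
      isUnit_of_res_ne_zero := fun x hx => p.isUnit_of_res_ne_zero x fun h0 =>
        hx (jN.toRingHom.injective (by
          show jN.toRingHom (r x) = _
          rw [hr', h0, map_zero])) }
  refine ⟨⟨G, fun a => ?_, fun y => ?_⟩⟩
  · obtain ⟨h, he⟩ := hpL a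
    exact ⟨h, jN.toRingHom.injective ((hr' ⟨_, h⟩).trans he)⟩
  · obtain ⟨h, he⟩ := hpF y
    exact ⟨h, jN.toRingHom.injective ((hr' ⟨_, h⟩).trans he)⟩

end Fermat.Agent.AbVar
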