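import Fermat.Agent.AbVar.ConstExtension

/-!
# Riemann–Roch spaces: products and sums

In large degree the sum of two Riemann–Roch spaces is the space of the maximum of the divisors
(`exists_le_sup_riemannRochSpace`).
-/

set_option autoImplicit false

noncomputable section

open AlgebraicCurve
open Fermat.Agent.FF

namespace Fermat.Agent.AbVar

universe u

variable {K F : Type u} [Field K] [Field F] [Algebra K F] [IsFunctionField K F]

omit [IsFunctionField K F] in
theorem mul_mem_riemannRochSpace {D E : Divisor K F} {f g : F} (hf : f ∈ riemannRochSpace D)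
    (hg : g ∈ riemannRochSpace E) : f * g ∈ riemannRochSpace (D + E) :=
  mem_riemannRochSpace.2 fun v => by
    have := mul_mem_ordGE v (mem_riemannRochSpace.1 hf v) (mem_riemannRochSpace.1 hg v)
    rwa [Finsupp.add_apply, neg_add]

omit [IsFunctionField K F] in
theorem one_mem_riemannRochSpace_zero : (1 : F) ∈ riemannRochSpace (0 : Divisor K F) :=
  mem_riemannRochSpace.2 fun v => by simpa using one_mem_ordGE_zero v

omit [IsFunctionField K F] in
theorem prod_mem_riemannRochSpace {ι : Type*} (s : Finset ι) {f : ι → F} {D : ι → Divisor K F}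
    (h : ∀ i ∈ s, f i ∈ riemannRochSpace (D i)) :
    ∏ i ∈ s, f i ∈ riemannRochSpace (∑ i ∈ s, D i) := by
  classical
  induction s using Finset.induction_on with
  | empty => simpa using one_mem_riemannRochSpace_zero
  | insert a s ha ih =>
    rw [Finset.prod_insert ha, Finset.sum_insert ha]
    exact mul_mem_riemannRochSpace (h a (Finset.mem_insert_self a s))
      (ih fun i hi => h i (Finset.mem_insert_of_mem hi))

omit [IsFunctionField K F] in
theorem pow_mem_riemannRochSpace {D : Divisor K F} {f : F} (h : f ∈ riemannRochSpace D) (n : ℕ) :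
    f ^ n ∈ riemannRochSpace (n • D) := by
  simpa using prod_mem_riemannRochSpace (Finset.range n) (f := fun _ => f) (D := fun _ => D)
    fun _ _ => h

omit [IsFunctionField K F] in
theorem prod_mem_ordGE {ι : Type*} (s : Finset ι) (v : Place K F) {f : ι → F}
    (h : ∀ i ∈ s, f i ∈ ordGE v 0) : ∏ i ∈ s, f i ∈ ordGE v 0 := by
  classical
  induction s using Finset.induction_on with
  | empty => simpa using one_mem_ordGE_zero v
  | insert a s ha ih =>
    rw [Finset.prod_insert ha]
    simpa using mul_mem_ordGE v (h a (Finset.mem_insert_self a s))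
      (ih fun i hi => h i (Finset.mem_insert_of_mem hi))

theorem map_mulLeft_riemannRochSpace {x : F} (hx : x ≠ 0) (D : Divisor K F) :
    (riemannRochSpace D).map (LinearMap.mulLeft K x) = riemannRochSpace (D - divOf K x) := by
  have hiff : ∀ g, g ∈ riemannRochSpace (D - divOf K x) ↔
      x⁻¹ * g ∈ riemannRochSpace D := fun g => by
    simp only [mem_riemannRochSpace]
    refine forall_congr' fun v => ?_
    rw [← mul_mem_ordGE_iff v (inv_ne_zero hx) (n := -(D - divOf K x) v), v.ord_inv,
      Finsupp.sub_apply, divOf_apply]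
    ring_nf
  ext g
  rw [Submodule.mem_map, hiff]
  constructor
  · rintro ⟨y, hy, rfl⟩
    rwa [LinearMap.mulLeft_apply, inv_mul_cancel_left₀ hx]
  · exact fun h => ⟨_, h, by rw [LinearMap.mulLeft_apply, mul_inv_cancel_left₀ hx]⟩

theorem divOf_mul {f g : F} (hf : f ≠ 0) (hg : g ≠ 0) :
    divOf K (f * g) = divOf K f + divOf K g := by
  ext v
  rw [Finsupp.add_apply, divOf_apply, divOf_apply, divOf_apply, v.ord_mul hf hg]

theorem divOf_inv (f : F) : divOf K f⁻¹ = -divOf K f := by
  ext v
  rw [Finsupp.neg_apply, divOf_apply, divOf_apply, v.ord_inv]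

theorem divOf_algebraMap (c : K) : divOf K (algebraMap K F c) = 0 := by
  ext v
  rw [Finsupp.zero_apply, divOf_apply, ord_algebraMap]

variable [IsAlgClosed K]

theorem degree_mapDomain {L M : Type u} [Field L] [IsAlgClosed L] [Field M] [Algebra L M]
    [IsFunctionField L M] (φ : Place K F → Place L M) (D : Divisor K F) :
    Divisor.degree (Finsupp.mapDomain φ D) = Divisor.degree D := by
  induction D using Finsupp.induction with
  | zero => simp
  | single_add v n D _ _ ih =>
    rw [Finsupp.mapDomain_add, Finsupp.mapDomain_single, map_add, map_add, ih,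
      Divisor.degree_single, Divisor.degree_single, deg_eq_one, deg_eq_one]

/-- A divisor of degree zero which is nowhere positive is zero. -/
theorem eq_zero_of_nonpos {D : Divisor K F} (h : ∀ v, D v ≤ 0) (hdeg : Divisor.degree D = 0) :
    D = 0 := by
  ext v
  rw [degree_eq_sum] at hdeg
  simp only [deg_eq_one, Nat.cast_one, mul_one] at hdeg
  by_cases hv : v ∈ D.support
  · exact (Finset.sum_eq_zero_iff_of_nonpos fun w _ => h w).1 hdeg v hv
  · exact Finsupp.notMem_support_iff.1 hv

omit [IsAlgClosed K] in
/-- In large degree, `L(E₁) + L(E₂) = L(max E₁ E₂)`. -/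
theorem exists_le_sup_riemannRochSpace :
    ∃ N : ℤ, ∀ E₁ E₂ E₃ : Divisor K F, (∀ v, max (E₁ v) (E₂ v) = E₃ v) →
      N ≤ Divisor.degree E₁ → N ≤ Divisor.degree E₂ → N ≤ Divisor.degree E₃ →
      N ≤ Divisor.degree E₁ + Divisor.degree E₂ - Divisor.degree E₃ →
      riemannRochSpace E₃ ≤ riemannRochSpace E₁ ⊔ riemannRochSpace E₂ := by
  obtain ⟨N, hN⟩ := exists_ell_eq_of_degree_ge K F
  refine ⟨N, fun E₁ E₂ E₃ hmax h1 h2 h3 h4 => ?_⟩
  set X := riemannRochSpace E₁
  set Y := riemannRochSpace E₂
  have hX : X ≤ riemannRochSpace E₃ :=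
    riemannRochSpace_mono fun v => (le_max_left _ _).trans (hmax v).le
  have hY : Y ≤ riemannRochSpace E₃ :=
    riemannRochSpace_mono fun v => (le_max_right _ _).trans (hmax v).le
  have hinf : X ⊓ Y = riemannRochSpace (E₁ + E₂ - E₃) := by
    ext g
    simp only [X, Y, Submodule.mem_inf, mem_riemannRochSpace, Finsupp.sub_apply, Finsupp.add_apply]
    refine ⟨fun h v => ?_, fun h => ⟨fun v => ?_, fun v => ?_⟩⟩
    · rcases le_total (E₁ v) (E₂ v) with hle | hle
      · have := hmax v; rw [max_eq_right hle] at this
        exact ordGE_antitone v (by omega) (h.1 v)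
      · have := hmax v; rw [max_eq_left hle] at this
        exact ordGE_antitone v (by omega) (h.2 v)
    · have h5 := (le_max_right (E₁ v) (E₂ v)).trans (hmax v).le
      exact ordGE_antitone v (by omega) (h v)
    · have h5 := (le_max_left (E₁ v) (E₂ v)).trans (hmax v).le
      exact ordGE_antitone v (by omega) (h v)
  have hsum := Submodule.finrank_sup_add_finrank_inf_eq X Y
  rw [hinf] at hsum
  change Module.finrank K (X ⊔ Y : Submodule K F) + ell (E₁ + E₂ - E₃) = ell E₁ + ell E₂ at hsum
  have e1 := hN E₁ h1
  have e2 := hN E₂ h2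
  have e3 := hN E₃ h3
  have e4 := hN (E₁ + E₂ - E₃) (by rw [map_sub, map_add]; exact h4)
  rw [map_sub, map_add] at e4
  have : Module.finrank K (riemannRochSpace E₃) ≤ Module.finrank K (X ⊔ Y : Submodule K F) := by
    change ell E₃ ≤ _
    omega
  exact (Submodule.eq_of_le_of_finrank_le (sup_le hX hY) this).ge

end Fermat.Agent.AbVar
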