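import Fermat.Agent.AbVar.GaussSends

/-!
# Places of a constant extension are places of the curve with values in the constants

`placeOf` is the place with given values on `F`; composing with a place of the constants gives
the specialisation map `spF` of places of constant extensions.
-/

set_option autoImplicit false

noncomputable section

open AlgebraicCurve
open Fermat.Agent.FF
open Fermat.Agent.CurveTorsion (ev IsConstExt extPlace extDiv)

namespace Fermat.Agent.AbVar

universe u

variable {K F Λ N : Type u} [Field K] [IsAlgClosed K] [Field F] [Algebra K F] [IsFunctionField K F]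
  [Field Λ] [IsAlgClosed Λ] [Algebra K Λ] [Field N] [Algebra Λ N] [Algebra F N] [Algebra K N]
  [IsScalarTower K Λ N] [IsScalarTower K F N] [IsConstExt F Λ N] [IsFunctionField Λ N]

/-- The place `q` gives to the functions of `F` the values of `θ`. -/
def Lies (θ : KPlace K F Λ) (q : Place Λ N) : Prop :=
  ∀ y z, θ.Sends y z → (evalPlace K q).Sends (algebraMap F N y) z

/-- The values at a place on the functions of `F`. -/
def restrF (q : Place Λ N) : KPlace K F Λ := (evalPlace K q).comap (IsScalarTower.toAlgHom K F N)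

omit [IsAlgClosed K] [IsFunctionField K F] [IsConstExt F Λ N] in
theorem sends_restrF {q : Place Λ N} {y : F} {z : Λ} :
    (restrF (K := K) (F := F) q).Sends y z ↔ (evalPlace K q).Sends (algebraMap F N y) z :=
  KPlace.sends_comap

variable {θ : KPlace K F Λ}

omit [IsAlgClosed K] [IsFunctionField K F] [IsConstExt F Λ N] [IsScalarTower K F N] in
theorem Lies.mem_iff {q : Place Λ N} (h : Lies θ q) (y : F) :
    algebraMap F N y ∈ ordGE q 0 ↔ y ∈ θ.toKVal.toVal := by
  refine ⟨fun hm => by_contra fun hy => ?_,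
    fun hy => (sends_evalPlace.1 (h _ _ (θ.sends_of_mem hy))).1⟩
  have hy0 : y ≠ 0 := fun e => hy (e ▸ zero_mem _)
  have h1 := h y⁻¹ 0 (KPlace.sends_zero_of_inv_notMem (by rwa [inv_inv]))
  refine KPlace.Sends.inv_notMem h1 (by simpa using hy0) ?_
  rw [map_inv₀, inv_inv]
  exact (mem_toValuationSubring_iff q).2 hm

omit [IsAlgClosed Λ] in
/-- The value at a place of `F` of a place over `K` with that valuation ring. -/
theorem sends_toPlace_ev (θ : KPlace K F Λ) (h : θ.toKVal.toVal ≠ ⊤) {y : F} {z : Λ}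
    (hy : θ.Sends y z) :
    y ∈ ordGE (θ.toKVal.toPlace h) 0 ∧ z = algebraMap K Λ (ev (θ.toKVal.toPlace h) y) := by
  obtain ⟨c, hc, hs⟩ := sends_evalPlace_of_toVal_eq θ (algebraMap K Λ) (θ.sends_algebraMap)
    (θ.toKVal.toPlace h) rfl hy
  exact ⟨(sends_evalPlace.1 hs).1, by rw [hc, (sends_evalPlace.1 hs).2]⟩

theorem lies_extPlace (θ : KPlace K F Λ) (h : θ.toKVal.toVal ≠ ⊤) :
    Lies θ (extPlace Λ N (θ.toKVal.toPlace h)) := by
  intro y z hy
  obtain ⟨hm, rfl⟩ := sends_toPlace_ev θ h hy
  refine sends_evalPlace.2 ⟨CurveTorsion.mem_ordGE_extPlace.2 hm, ?_⟩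
  exact (CurveTorsion.liesOver_extPlace (K := Λ) (F := N) _).ev_eq hm

/-- Some place of the constant extension has the values of `θ` on `F`. -/
theorem exists_lies (θ : KPlace K F Λ) : ∃ q : Place Λ N, Lies θ q := by
  by_cases h : θ.toKVal.toVal = ⊤
  swap
  · exact ⟨_, lies_extPlace θ h⟩
  have hall : ∀ y : F, y ∈ θ.toKVal.toVal := fun y => h ▸ ValuationSubring.mem_top y
  let b : F →ₐ[K] Λ :=
    { toFun := fun y => θ.res ⟨y, hall y⟩
      map_one' := map_one θ.res
      map_mul' := fun x y => map_mul θ.res ⟨x, hall x⟩ ⟨y, hall y⟩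
      map_zero' := map_zero θ.res
      map_add' := fun x y => map_add θ.res ⟨x, hall x⟩ ⟨y, hall y⟩
      commutes' := θ.res_algebraMap }
  obtain ⟨π, hπΛ, hπF⟩ := exists_place_of_pair N (AlgHom.id K Λ) Function.injective_id
    (AlgHom.id K Λ) b
  obtain ⟨x, hx⟩ := IsConstExt.exists_transcendental (F₀ := F) (K := Λ) (F := N)
  have hne : π.toKVal.toVal ≠ ⊤ := fun htop => by
    have h1 : π.Sends (algebraMap F N x - algebraMap Λ N (b x)) 0 := by
      simpa using (hπF x).sub (hπΛ (b x))
    refine h1.inv_notMem (sub_ne_zero.2 fun e => hx ?_) (htop ▸ ValuationSubring.mem_top _)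
    rw [e]; exact isAlgebraic_algebraMap _
  have hΛ : ∀ c : Λ, algebraMap Λ N c ∈ π.toKVal.toVal := fun c => (hπΛ c).1
  refine ⟨⟨π.toKVal.toVal, hΛ, hne, isPrincipalIdealRing_valuationSubring_of_ne_top _ hΛ⟩,
    fun y z hy => ?_⟩
  have hz : z = b y := hy.unique (θ.sends_of_mem (hall y))
  obtain ⟨c, hc, hs⟩ := sends_evalPlace_of_toVal_eq π (RingHom.id Λ) hπΛ
    ⟨π.toKVal.toVal, hΛ, hne, isPrincipalIdealRing_valuationSubring_of_ne_top _ hΛ⟩ rfl
    (hπF y)
  rwa [show c = z from (hz.trans hc).symm] at hs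

omit [IsAlgClosed K] [IsFunctionField K F] [IsConstExt F Λ N] [IsScalarTower K F N] in
theorem Lies.span_agree {q q' : Place Λ N} (hq : Lies θ q) (hq' : Lies θ q')
    (hall : ∀ y : F, y ∈ θ.toKVal.toVal) {f : N}
    (hf : f ∈ Submodule.span Λ (Set.range (algebraMap F N))) :
    f ∈ ordGE q' 0 ∧ f ∈ ordGE q 0 ∧ ev q' f = ev q f := by
  induction hf using Submodule.span_induction with
  | mem a ha =>
    obtain ⟨y, rfl⟩ := ha
    obtain ⟨h1, h1'⟩ := sends_evalPlace.1 (hq' _ _ (θ.sends_of_mem (hall y)))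
    obtain ⟨h2, h2'⟩ := sends_evalPlace.1 (hq _ _ (θ.sends_of_mem (hall y)))
    exact ⟨h1, h2, h1'.trans h2'.symm⟩
  | zero => exact ⟨zero_mem _, zero_mem _, by rw [CurveTorsion.ev_zero, CurveTorsion.ev_zero]⟩
  | add a b _ _ ha hb =>
    exact ⟨add_mem ha.1 hb.1, add_mem ha.2.1 hb.2.1,
      by rw [CurveTorsion.ev_add q' ha.1 hb.1, CurveTorsion.ev_add q ha.2.1 hb.2.1, ha.2.2, hb.2.2]⟩
  | smul c a _ ha =>
    exact ⟨Submodule.smul_mem _ c ha.1, Submodule.smul_mem _ c ha.2.1,
      by rw [CurveTorsion.ev_smul q' c ha.1, CurveTorsion.ev_smul q c ha.2.1, ha.2.2]⟩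

theorem Lies.unique {q q' : Place Λ N} (hq : Lies θ q) (hq' : Lies θ q') : q = q' := by
  by_cases h : θ.toKVal.toVal = ⊤
  swap
  · have key : ∀ r : Place Λ N, Lies θ r → r = extPlace Λ N (θ.toKVal.toPlace h) := fun r hr =>
      CurveTorsion.liesOver_iff.1 fun f =>
        (hr.mem_iff f).trans (mem_toValuationSubring_iff (θ.toKVal.toPlace h))
    rw [key q hq, key q' hq']
  by_contra hne
  have hall : ∀ y : F, y ∈ θ.toKVal.toVal := fun y => h ▸ ValuationSubring.mem_top y
  have hext : ∀ r : Place Λ N, Lies θ r → ∀ v : Place K F, extPlace Λ N v ≠ r := by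
    intro r hr v hv
    obtain ⟨f, hf, -⟩ := exists_ord_neg_unique (K := K) v
    have h1 := (hr.mem_iff f).2 (hall f)
    rw [← hv, CurveTorsion.mem_ordGE_extPlace,
      mem_ordGE_of_ne_zero v (fun e => by rw [e] at hf; simp at hf)] at h1
    omega
  obtain ⟨N₁, hN₁⟩ := exists_span_riemannRochSpace (K := K) (F := F) (L := Λ) (M := N)
  obtain ⟨N₂, hN₂⟩ := exists_ell_eq_of_degree_ge Λ N
  obtain ⟨P⟩ := (instNonemptyPlace : Nonempty (Place K F))
  set n : ℤ := max N₁ (N₂ + 2) with hn
  set D : Divisor K F := Finsupp.single P n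
  have hdeg : Divisor.degree (extDiv (K := Λ) (F := N) D) = n := by
    rw [CurveTorsion.degree_extDiv, Divisor.degree_single, deg_eq_one, Nat.cast_one, mul_one]
  set D1 : Divisor Λ N := extDiv D - Finsupp.single q 1
  set D2 : Divisor Λ N := D1 - Finsupp.single q' 1
  have hd1 : Divisor.degree D1 = n - 1 := by
    rw [map_sub, hdeg, Divisor.degree_single, deg_eq_one]; simp
  have hd2 : Divisor.degree D2 = n - 2 := by
    rw [map_sub, hd1, Divisor.degree_single, deg_eq_one]; push_cast; ring
  have e1 := hN₂ D1 (by omega)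
  have e2 := hN₂ D2 (by omega)
  obtain ⟨f, hf1, hf2⟩ := SetLike.not_le_iff_exists.1
    (fun hle : riemannRochSpace D1 ≤ riemannRochSpace D2 => by
      have h3 : ell D1 ≤ ell D2 := Submodule.finrank_mono hle
      omega)
  have hfD : f ∈ riemannRochSpace (extDiv (K := Λ) (F := N) D) :=
    riemannRochSpace_mono (sub_le_self _ (by simp)) hf1
  rw [← hN₁ D (by rw [Divisor.degree_single, deg_eq_one, Nat.cast_one, mul_one]; omega)] at hfD
  obtain ⟨hq'm, hqm, he⟩ := hq.span_agree hq' hall
    (Submodule.span_mono (Set.image_subset_range _ _) hfD)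
  have hz : ∀ r : Place Λ N, Lies θ r → (extDiv (K := Λ) (F := N) D) r = 0 := fun r hr =>
    CurveTorsion.extDiv_apply_of_notMem D (hext r hr)
  have h1 := mem_riemannRochSpace.1 hf1 q
  rw [Finsupp.sub_apply, hz q hq, Finsupp.single_eq_same, zero_sub, neg_neg] at h1
  have h2 : ev q' f = 0 := by rw [he]; exact (CurveTorsion.ev_eq_zero_iff q hqm).2 h1
  refine hf2 (mem_riemannRochSpace.2 fun r => ?_)
  rcases eq_or_ne r q' with rfl | hr
  · rw [Finsupp.sub_apply, Finsupp.sub_apply, hz r hq', Finsupp.single_eq_same,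
      Finsupp.single_eq_of_ne (Ne.symm hne)]
    simpa using (CurveTorsion.ev_eq_zero_iff r hq'm).1 h2
  · rw [Finsupp.sub_apply, Finsupp.single_eq_of_ne hr, sub_zero]
    exact mem_riemannRochSpace.1 hf1 r

variable (N) in
/-- The place of the constant extension with the values of `θ`. -/
def placeOf (θ : KPlace K F Λ) : Place Λ N := (exists_lies θ).choose

theorem lies_placeOf (θ : KPlace K F Λ) : Lies θ (placeOf N θ) := (exists_lies θ).choose_spec

section Sp

variable {L M : Type u} [Field L] [IsAlgClosed L] [Algebra K L] [Field M] [Algebra L M]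
  [Algebra F M] [Algebra K M] [IsScalarTower K L M] [IsScalarTower K F M] [IsConstExt F L M]

variable (K F M N) in
/-- The place of the residue curve under a place of the curve. -/
def spF (π : KPlace K L Λ) (Q : Place L M) : Place Λ N :=
  haveI : IsFunctionField L M := CurveTorsion.isFunctionField_ext K F
  placeOf N ((restrF (F := F) Q).comp π)

variable [IsFunctionField L M] {π : KPlace K L Λ}

theorem lies_spF (Q : Place L M) :
    Lies ((restrF (F := F) Q).comp π) (spF K F N M π Q) := lies_placeOf _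

theorem sends_spF {Q : Place L M} {y : F} {a : L} {b : Λ}
    (h : (evalPlace K Q).Sends (algebraMap F M y) a) (hab : π.Sends a b) :
    (evalPlace K (spF K F N M π Q)).Sends (algebraMap F N y) b :=
  lies_spF Q y b (KPlace.sends_comp.2 ⟨a, sends_restrF.2 h, hab⟩)

theorem exists_sends_of_mem_spF {Q : Place L M} {y : F}
    (h : algebraMap F N y ∈ ordGE (spF K F N M π Q) 0) :
    ∃ a b, (evalPlace K Q).Sends (algebraMap F M y) a ∧ π.Sends a b ∧
      (evalPlace K (spF K F N M π Q)).Sends (algebraMap F N y) b := by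
  have hm := ((lies_spF Q).mem_iff y).1 h
  obtain ⟨a, ha, hab⟩ := KPlace.sends_comp.1 (((restrF (F := F) Q).comp π).sends_of_mem hm)
  exact ⟨a, _, sends_restrF.1 ha, hab, sends_spF (sends_restrF.1 ha) hab⟩

/-- The specialisation of the extended place is the extended place. -/
theorem spF_extPlace (v : Place K F) :
    spF K F N M π (extPlace L M v) = extPlace Λ N v := by
  refine Lies.unique (lies_spF _) fun y z hy => ?_
  obtain ⟨a, ha, hab⟩ := KPlace.sends_comp.1 hy
  obtain ⟨hm, hev⟩ := sends_evalPlace.1 (sends_restrF.1 ha)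
  have hv := CurveTorsion.mem_ordGE_extPlace.1 hm
  rw [(CurveTorsion.liesOver_extPlace (K := L) (F := M) v).ev_eq hv] at hev
  rw [← hev] at hab
  rw [hab.unique (π.sends_algebraMap _)]
  exact sends_evalPlace.2 ⟨CurveTorsion.mem_ordGE_extPlace.2 hv,
    (CurveTorsion.liesOver_extPlace (K := Λ) (F := N) v).ev_eq hv⟩

end Sp

end Fermat.Agent.AbVar
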