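import Fermat.Agent.AbVar.GaussBasic
import Fermat.Agent.AbVar.GaussSp
import Fermat.Agent.AbVar.GaussRR

/-!
# The disc formula

The zeros of a Gauss unit in the disc of `q` are at most the order of its residue at `q`
(semicontinuity of Riemann–Roch spaces); equality follows as both divisors have degree zero.
-/

set_option autoImplicit false

noncomputable section

open AlgebraicCurve
open Fermat.Agent.FF
open Fermat.Agent.CurveTorsion (ev IsConstExt extPlace extDiv)

namespace Fermat.Agent.AbVar

universe u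

variable {K : Type u} [Field K] [IsAlgClosed K] {F : Type u} [Field F] [Algebra K F]
  [IsFunctionField K F]
  {L : Type u} [Field L] [IsAlgClosed L] [Algebra K L]
  {Λ : Type u} [Field Λ] [IsAlgClosed Λ] [Algebra K Λ]
  {M : Type u} [Field M] [Algebra L M] [Algebra F M] [Algebra K M] [IsScalarTower K L M]
  [IsScalarTower K F M] [IsConstExt F L M] [IsFunctionField L M]
  {N : Type u} [Field N] [Algebra Λ N] [Algebra F N] [Algebra K N] [IsScalarTower K Λ N]
  [IsScalarTower K F N] [IsConstExt F Λ N] [IsFunctionField Λ N]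
  {π : KPlace K L Λ}

omit [IsFunctionField L M] [IsFunctionField Λ N] in
/-- Integral combinations can be taken inside a subspace of functions. -/
theorem Gauss.exists_repr (Γ : Gauss (F := F) M N π) {S : Submodule K F} {a : M} {b : N}
    (ha : a ∈ Submodule.span L (algebraMap F M '' (S : Set F))) (hab : Γ.G.Sends a b) :
    ∃ (s : Finset (FIdx K F)) (c : FIdx K F → L) (d : FIdx K F → Λ) (y : FIdx K F → F),
      (∀ i, y i ∈ S) ∧ (∀ i ∈ s, π.Sends (c i) (d i)) ∧
      a = ∑ i ∈ s, c i • algebraMap F M (y i) ∧ b = ∑ i ∈ s, d i • algebraMap F N (y i) := by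
  obtain ⟨C, hC, hCa, hCb⟩ := Γ.compat.isLift_of_mem
    (Submodule.span_mono (Set.image_subset_range _ _) ha)
    (show Γ.G.Sends a (RingHom.id N b) from hab)
  obtain ⟨S', hS'⟩ := Submodule.exists_isCompl S
  let p : F → F := fun f => (S.projectionOnto S' hS' f : F)
  let proj : (FIdx K F →₀ L) →ₗ[L] M :=
    Finsupp.linearCombination L fun i => algebraMap F M (p (fBasis K F i))
  have hproj : ∀ f : F, proj (((fBasis K F).repr f).mapRange (algebraMap K L) (map_zero _)) =
      algebraMap F M (p f) := fun f => by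
    have hp : p f = ((S.subtype.comp (S.projectionOnto S' hS')) f) := rfl
    conv_rhs => rw [hp, ← (fBasis K F).linearCombination_repr f]
    rw [Finsupp.linearCombination_apply, Finsupp.linearCombination_apply,
      Finsupp.sum_mapRange_index]
    swap
    · intro i; exact zero_smul L _
    simp only [Finsupp.sum, map_sum, map_smul]
    refine Finset.sum_congr rfl fun i _ => ?_
    rw [algebraMap_smul L, Algebra.smul_def, Algebra.smul_def, map_mul,
      ← IsScalarTower.algebraMap_apply]
    rfl
  have hfix : proj C = a := by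
    have key : ∀ a' ∈ Submodule.span L (algebraMap F M '' (S : Set F)),
        ∀ C', comb K F M C' = a' → proj C' = a' := by
      intro a' ha'
      induction ha' using Submodule.span_induction with
      | mem x hx =>
        obtain ⟨f, hf, rfl⟩ := hx
        intro C' hC'
        rw [comb_injective (K := K) (F := F) (hC'.trans (comb_repr f).symm), hproj]
        congr 1
        show ((S.projectionOnto S' hS' f : S) : F) = f
        rw [show f = ((⟨f, hf⟩ : S) : F) from rfl, Submodule.projectionOnto_apply_left]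
      | zero =>
        intro C' hC'
        rw [comb_injective (K := K) (F := F) (hC'.trans (map_zero _).symm), map_zero]
      | add x x' hx hx' ih ih' =>
        intro C' hC'
        have hr : ∀ z ∈ Submodule.span L (algebraMap F M '' (S : Set F)), ∃ D, comb K F M D = z :=
          fun z hz => LinearMap.mem_range.1 (by
            rw [range_comb (K := K) (F := F) (L := L) (M := M)]; exact Submodule.span_mono
              (Set.image_subset_range _ _) hz)
        obtain ⟨D, hD⟩ := hr x hx
        obtain ⟨D', hD'⟩ := hr x' hx'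
        rw [comb_injective (K := K) (F := F) (hC'.trans (by rw [map_add, hD, hD'] :
          x + x' = comb K F M (D + D'))), map_add, ih D hD, ih' D' hD']
      | smul l x hx ih =>
        intro C' hC'
        obtain ⟨D, hD⟩ : ∃ D, comb K F M D = x := LinearMap.mem_range.1 (by
          rw [range_comb (K := K) (F := F) (L := L) (M := M)]; exact Submodule.span_mono
            (Set.image_subset_range _ _) hx)
        rw [comb_injective (K := K) (F := F) (hC'.trans (by rw [map_smul, hD] :
          l • x = comb K F M (l • D))), map_smul, ih D hD]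
    exact key a ha C hCa
  have hsum : a = ∑ i ∈ C.support, C i • algebraMap F M (p (fBasis K F i)) := by
    rw [← hfix]; rfl
  refine ⟨C.support, fun i => C i, fun i => resC π C i, fun i => p (fBasis K F i),
    fun i => (S.projectionOnto S' hS' _).2, fun i _ => ?_, hsum, ?_⟩
  · show π.Sends (C i) (resC π C i)
    rw [resC_apply]; exact sends_resTot (hC i)
  · refine KPlace.Sends.unique hab ?_
    rw [hsum]
    refine KPlace.Sends.sum _ fun i _ => ?_
    show Γ.G.Sends (C i • _) (resC π C i • _)
    rw [Algebra.smul_def, Algebra.smul_def, resC_apply]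
    exact (Γ.compat.const _ _ (sends_resTot (hC i))).mul (Γ.compat.func _)

/-- Values in the disc specialise to the values of the residue. -/
theorem Gauss.sends_at (Γ : Gauss (F := F) M N π) {Q : Place L M} {S : Submodule K F}
    (hS : ∀ y ∈ S, algebraMap F N y ∈ ordGE (spF K F N M π Q) 0) {a : M} {b : N}
    (ha : a ∈ Submodule.span L (algebraMap F M '' (S : Set F))) (hab : Γ.G.Sends a b) :
    ∃ l m, (evalPlace K Q).Sends a l ∧ π.Sends l m ∧ (evalPlace K (spF K F N M π Q)).Sends b m := by
  obtain ⟨s, c, d, y, hy, hcd, rfl, rfl⟩ := Γ.exists_repr ha hab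
  choose e z he hez hz using fun i => exists_sends_of_mem_spF (hS _ (hy i))
  refine ⟨∑ i ∈ s, c i * e i, ∑ i ∈ s, d i * z i, KPlace.Sends.sum _ fun i _ => ?_,
    KPlace.Sends.sum _ fun i hi => (hcd i hi).mul (hez i), KPlace.Sends.sum _ fun i _ => ?_⟩
  · rw [Algebra.smul_def]; exact (sends_evalPlace_const Q _).mul (he i)
  · rw [Algebra.smul_def]; exact (sends_evalPlace_const _ _).mul (hz i)

variable (L M) in
omit [IsAlgClosed Λ] in
theorem span_le_riemannRochSpace (D : Divisor K F) :
    Submodule.span L (algebraMap F M '' (riemannRochSpace D : Set F)) ≤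
      riemannRochSpace (extDiv (K := L) (F := M) D) := by
  rw [Submodule.span_le]
  rintro _ ⟨y, hy, rfl⟩
  exact algebraMap_mem_riemannRochSpace hy

omit [IsAlgClosed Λ] in
theorem extDiv_single (P : Place K F) (n : ℤ) :
    extDiv (K := L) (F := M) (Finsupp.single P n) = Finsupp.single (extPlace L M P) n :=
  Finsupp.mapDomain_single

/-- **Semicontinuity**: a function integral for `Γ` with poles only at `P` has at most as many
zeros in the disc of `q` as its residue has at `q`. -/
theorem Gauss.mapDomain_le_ord (Γ : Gauss (F := F) M N π) (hπ : Function.Surjective π.res)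
    (P : Place K F) (q : Place Λ N) (hqP : q ≠ extPlace Λ N P) {m : ℤ} {f : M} {fb : N}
    (hf : f ∈ Submodule.span L (algebraMap F M '' (riemannRochSpace (Finsupp.single P m) : Set F)))
    (hs : Γ.G.Sends f fb) (hfb : fb ≠ 0) :
    Finsupp.mapDomain (spF K F N M π) (divOf L f) q ≤ q.ord fb := by
  classical
  set Pb : Place Λ N := extPlace Λ N P with hPb
  set Pm : Place L M := extPlace L M P with hPm
  have hfM : f ∈ riemannRochSpace (Finsupp.single Pm m : Divisor L M) := by
    rw [hPm, ← extDiv_single]; exact span_le_riemannRochSpace L M _ hf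
  have hfbN : fb ∈ riemannRochSpace (Finsupp.single Pb m : Divisor Λ N) := by
    obtain ⟨s, c, d, y, hy, -, -, rfl⟩ := Γ.exists_repr hf hs
    rw [hPb, ← extDiv_single]
    exact Submodule.sum_mem _ fun i _ =>
      Submodule.smul_mem _ _ (algebraMap_mem_riemannRochSpace (hy i))
  have hf0 : f ≠ 0 := hs.ne_zero hfb
  have hfnn : ∀ Q : Place L M, Q ≠ Pm → 0 ≤ Q.ord f := fun Q hQ => by
    have := mem_riemannRochSpace.1 hfM Q
    rwa [Finsupp.single_eq_of_ne hQ, neg_zero, mem_ordGE_of_ne_zero Q hf0] at this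
  have hfbnn : ∀ r : Place Λ N, r ≠ Pb → 0 ≤ r.ord fb := fun r hr => by
    have := mem_riemannRochSpace.1 hfbN r
    rwa [Finsupp.single_eq_of_ne hr, neg_zero, mem_ordGE_of_ne_zero r hfb] at this
  have hfbP : -m ≤ Pb.ord fb := by
    have := mem_riemannRochSpace.1 hfbN Pb
    rwa [Finsupp.single_eq_same, mem_ordGE_of_ne_zero Pb hfb] at this
  set Zs := (divOf L f).support.filter fun Q => spF K F N M π Q = q with hZs
  have hmemZ : ∀ Q ∈ Zs, Q ≠ Pm ∧ spF K F N M π Q = q := fun Q hQ => by
    refine ⟨fun e => hqP ?_, (Finset.mem_filter.1 hQ).2⟩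
    rw [← (Finset.mem_filter.1 hQ).2, e, hPm, spF_extPlace]
  have hk : Finsupp.mapDomain (spF K F N M π) (divOf L f) q = ∑ Q ∈ Zs, Q.ord f := by
    simp only [Finsupp.mapDomain, Finsupp.sum, Finsupp.finsetSum_apply, Finsupp.single_apply, hZs,
      Finset.sum_filter, divOf_apply]
  rw [hk]
  set k : ℕ := ∑ Q ∈ Zs, (Q.ord f).toNat with hkdef
  have hkZ : ∑ Q ∈ Zs, Q.ord f = (k : ℤ) := by
    rw [hkdef, Nat.cast_sum]
    exact Finset.sum_congr rfl fun Q hQ => (Int.toNat_of_nonneg (hfnn Q (hmemZ Q hQ).1)).symm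
  rw [hkZ]
  by_contra hlt
  push Not at hlt
  have he0 : 0 ≤ q.ord fb := hfbnn q hqP
  -- the separating function on the residue curve
  set T : Finset (Place Λ N) := ((divOf Λ fb).support.erase q).erase Pb with hT
  obtain ⟨Nu₀, hNu₀⟩ := exists_one_zero_function_of_pole q T
    (by simp [hT]) Pb (by simp [hT]) hqP.symm
  obtain ⟨Ns, hNs⟩ := exists_span_riemannRochSpace (K := K) (F := F) (L := Λ) (M := N)
  obtain ⟨Nr, hNr⟩ := exists_ell_eq_of_degree_ge L M
  obtain ⟨Nr', hNr'⟩ := exists_ell_eq_of_degree_ge Λ N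
  obtain ⟨Nv, hNv⟩ := exists_le_sup_riemannRochSpace (K := Λ) (F := N)
  set Nu : ℕ := max Nu₀ Ns.toNat with hNu
  obtain ⟨ub, hub, -, hubq, hubP, hubnn, hubT, -, -⟩ := hNu₀ Nu (le_max_left _ _)
  have hub0 : ub ≠ 0 := fun e => by rw [e] at hubq; simp at hubq
  have hspan : ∀ n : ℤ, Ns ≤ n → riemannRochSpace (Finsupp.single Pb n : Divisor Λ N) =
      Submodule.span Λ (algebraMap F N '' (riemannRochSpace (Finsupp.single P n) : Set F)) := by
    intro n hn
    rw [hNs _ (by rwa [Divisor.degree_single, deg_eq_one, Nat.cast_one, mul_one]), hPb,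
      extDiv_single]
  rw [hspan _ (by omega)] at hub
  obtain ⟨u, hu, hlu⟩ := exists_lift_of_mem_span (M := M) hπ hub
  have hsu : Γ.G.Sends u ub := Γ.compat.sends_lift hlu
  have hval : ∀ Q ∈ Zs, ∃ c : L, (evalPlace K Q).Sends u c ∧ π.Sends c 0 := by
    intro Q hQ
    obtain ⟨c, mq, h1, h2, h3⟩ := Γ.sends_at (S := (riemannRochSpace (Finsupp.single P (Nu : ℤ))))
      (fun y hy => by
        rw [(hmemZ Q hQ).2]
        have := mem_riemannRochSpace.1 (algebraMap_mem_riemannRochSpace (L := Λ) (M := N) hy) q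
        rwa [extDiv_single, Finsupp.single_eq_of_ne hqP, neg_zero] at this) hu hsu
    rw [(hmemZ Q hQ).2] at h3
    obtain rfl : mq = 0 := h3.unique
      (sends_evalPlace_zero_iff.2 (mem_ordGE_of_le_ord q hubq.ge))
    exact ⟨c, h1, h2⟩
  choose! cQ hcQ hcQ0 using hval
  set g : M := ∏ Q ∈ Zs, (u - algebraMap L M (cQ Q)) ^ (Q.ord f).toNat with hg
  have hsg : Γ.G.Sends g (ub ^ k) := by
    rw [hkdef, ← Finset.prod_pow_eq_pow_sum, hg]
    refine KPlace.Sends.prod _ fun Q hQ => KPlace.Sends.pow ?_ _
    have := hsu.sub (Γ.compat.const _ _ (hcQ0 Q hQ))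
    simpa using this
  have huM : u ∈ riemannRochSpace (Finsupp.single Pm (Nu : ℤ) : Divisor L M) := by
    rw [hPm, ← extDiv_single]; exact span_le_riemannRochSpace L M _ hu
  have huc : ∀ c : L, u - algebraMap L M c ∈
      riemannRochSpace (Finsupp.single Pm (Nu : ℤ) : Divisor L M) := fun c => by
    refine Submodule.sub_mem _ huM (mem_riemannRochSpace.2 fun v =>
      ordGE_antitone v ?_ (algebraMap_mem_ordGE_zero v c))
    rw [Finsupp.single_apply]; split <;> omega
  have hgM : g ∈ riemannRochSpace (Finsupp.single Pm ((k * Nu : ℕ) : ℤ) : Divisor L M) := by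
    have hp := prod_mem_riemannRochSpace Zs
      (f := fun Q => (u - algebraMap L M (cQ Q)) ^ (Q.ord f).toNat)
      fun Q _ => pow_mem_riemannRochSpace (huc (cQ Q)) (Q.ord f).toNat
    rwa [← Finset.sum_smul, ← hkdef, Finsupp.smul_single, nsmul_eq_mul, ← Nat.cast_mul] at hp
  have hgord : ∀ Q ∈ Zs, g ∈ ordGE Q (Q.ord f) := fun Q hQ => by
    rw [hg, ← Finset.mul_prod_erase _ _ hQ]
    suffices h : (u - algebraMap L M (cQ Q)) ^ (Q.ord f).toNat ∈ ordGE Q (Q.ord f) by
      simpa using mul_mem_ordGE Q h (prod_mem_ordGE (Zs.erase Q) Q fun R _ => by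
        simpa using pow_mem_ordGE Q (sub_mem (sends_evalPlace.1 (hcQ Q hQ)).1
          (algebraMap_mem_ordGE_zero Q (cQ R)) : u - algebraMap L M (cQ R) ∈ ordGE Q 0)
          (R.ord f).toNat)
    obtain ⟨h1, h2⟩ := sends_evalPlace.1 (hcQ Q hQ)
    have := pow_mem_ordGE Q (h2 ▸ CurveTorsion.sub_ev_mem Q h1 :
      u - algebraMap L M (cQ Q) ∈ ordGE Q 1) (Q.ord f).toNat
    rwa [mul_one, Int.toNat_of_nonneg (hfnn Q (hmemZ Q hQ).1)] at this
  -- degrees
  set n : ℤ := ((k * Nu : ℕ) : ℤ) + |m| + |Pb.ord fb| + |Ns| + |Nr| + |Nr'| + |Nv| + (k : ℤ) +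
    (k : ℤ) + |m| + |Pb.ord fb| + 1 with hn
  have h0a := le_abs_self m
  have h0b := neg_abs_le m
  have h0c := le_abs_self (Pb.ord fb)
  have h0d := neg_abs_le (Pb.ord fb)
  have h0e := le_abs_self Ns
  have h0f := le_abs_self Nr
  have h0g := le_abs_self Nr'
  have h0h := le_abs_self Nv
  have h0i := abs_nonneg Ns
  have h0j := abs_nonneg Nr
  have h0k := abs_nonneg Nr'
  have h0l := abs_nonneg Nv
  set Z : Divisor L M := ∑ Q ∈ Zs, Finsupp.single Q (Q.ord f) with hZ
  have hZapply : ∀ Q, Z Q = if Q ∈ Zs then Q.ord f else 0 := fun Q => by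
    rw [hZ, Finsupp.finsetSum_apply]
    simp [Finsupp.single_apply]
  set E : Submodule L M := riemannRochSpace (Finsupp.single Pm n - Z) with hE
  have hdegE : Divisor.degree (Finsupp.single Pm n - Z) = n - k := by
    rw [map_sub, hZ, map_sum, Divisor.degree_single, deg_eq_one, Nat.cast_one, mul_one, ← hkZ]
    simp [Divisor.degree_single, deg_eq_one]
  have hmemE : ∀ h : M, h ∈ riemannRochSpace (Finsupp.single Pm n : Divisor L M) →
      (∀ Q ∈ Zs, h ∈ ordGE Q (Q.ord f)) → h ∈ E := fun h h1 h2 =>
    mem_riemannRochSpace.2 fun Q => by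
      rw [Finsupp.sub_apply, hZapply]
      split_ifs with hQ
      · rw [Finsupp.single_eq_of_ne (hmemZ Q hQ).1, zero_sub, neg_neg]; exact h2 Q hQ
      · rw [sub_zero]; exact mem_riemannRochSpace.1 h1 Q
  -- residues of `E`
  let R : Submodule Λ N :=
    { carrier := {t | ∃ h ∈ E, Γ.G.Sends h t}
      zero_mem' := ⟨0, zero_mem _, Γ.G.sends_zero⟩
      add_mem' := fun ⟨h, hh, hs⟩ ⟨h', hh', hs'⟩ => ⟨h + h', add_mem hh hh', hs.add hs'⟩
      smul_mem' := fun c t ⟨h, hh, hs⟩ => by
        obtain ⟨l, rfl⟩ := hπ c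
        refine ⟨(l : L) • h, Submodule.smul_mem _ _ hh, ?_⟩
        rw [Algebra.smul_def, Algebra.smul_def]
        exact (Γ.compat.const _ _ (π.sends_res l)).mul hs }
  set a : ℤ := n - ((k * Nu : ℕ) : ℤ) with ha
  set b : ℤ := n - m with hb
  have hX : riemannRochSpace (Finsupp.single Pb a - divOf Λ (ub ^ k)) ≤ R := by
    rw [← map_mulLeft_riemannRochSpace (pow_ne_zero k hub0)]
    rintro _ ⟨xb, hxb, rfl⟩
    rw [SetLike.mem_coe, hspan a (by omega)] at hxb
    obtain ⟨x, hx, hlx⟩ := exists_lift_of_mem_span (M := M) hπ hxb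
    have hxM : x ∈ riemannRochSpace (Finsupp.single Pm a : Divisor L M) := by
      rw [hPm, ← extDiv_single]; exact span_le_riemannRochSpace L M _ hx
    refine ⟨g * x, hmemE _ ?_ (fun Q hQ => ?_), hsg.mul (Γ.compat.sends_lift hlx)⟩
    · have := mul_mem_riemannRochSpace hgM hxM
      rwa [← Finsupp.single_add, ha, add_sub_cancel] at this
    · have h1 := mem_riemannRochSpace.1 hxM Q
      rw [Finsupp.single_eq_of_ne (hmemZ Q hQ).1, neg_zero] at h1
      simpa using mul_mem_ordGE Q (hgord Q hQ) h1
  have hY : riemannRochSpace (Finsupp.single Pb b - divOf Λ fb) ≤ R := by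
    rw [← map_mulLeft_riemannRochSpace hfb]
    rintro _ ⟨xb, hxb, rfl⟩
    rw [SetLike.mem_coe, hspan b (by omega)] at hxb
    obtain ⟨x, hx, hlx⟩ := exists_lift_of_mem_span (M := M) hπ hxb
    have hxM : x ∈ riemannRochSpace (Finsupp.single Pm b : Divisor L M) := by
      rw [hPm, ← extDiv_single]; exact span_le_riemannRochSpace L M _ hx
    refine ⟨f * x, hmemE _ ?_ (fun Q hQ => ?_), hs.mul (Γ.compat.sends_lift hlx)⟩
    · have := mul_mem_riemannRochSpace hfM hxM
      rwa [← Finsupp.single_add, hb, add_sub_cancel] at this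
    · have h1 := mem_riemannRochSpace.1 hxM Q
      rw [Finsupp.single_eq_of_ne (hmemZ Q hQ).1, neg_zero] at h1
      simpa using mul_mem_ordGE Q (mem_ordGE_of_le_ord Q (le_refl (Q.ord f))) h1
  set E₃ : Divisor Λ N := Finsupp.single Pb n - Finsupp.single q (q.ord fb) with hE₃
  have hdeg3 : Divisor.degree E₃ = n - q.ord fb := by
    rw [hE₃, map_sub, Divisor.degree_single, Divisor.degree_single, deg_eq_one, deg_eq_one]
    simp
  have hd1 : Divisor.degree (Finsupp.single Pb a - divOf Λ (ub ^ k)) = a := by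
    rw [map_sub, degree_divOf, Divisor.degree_single, deg_eq_one]; simp
  have hd2 : Divisor.degree (Finsupp.single Pb b - divOf Λ fb) = b := by
    rw [map_sub, degree_divOf, Divisor.degree_single, deg_eq_one]; simp
  have hle3 : riemannRochSpace E₃ ≤ R := by
    refine (hNv _ _ E₃ (fun r => ?_) ?_ ?_ ?_ ?_).trans (sup_le hX hY)
    · simp only [hE₃, Finsupp.sub_apply, divOf_apply, FF.ord_pow]
      rcases eq_or_ne r Pb with rfl | hr
      · rw [Finsupp.single_eq_same, Finsupp.single_eq_same, Finsupp.single_eq_same,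
          Finsupp.single_eq_of_ne hqP.symm, hubP, max_eq_left]
        · push_cast [ha]; ring
        · push_cast [ha, hb]; linarith
      rw [Finsupp.single_eq_of_ne hr, Finsupp.single_eq_of_ne hr, Finsupp.single_eq_of_ne hr]
      have h1 : 0 ≤ r.ord ub := hubnn r hr
      have h2 : 0 ≤ r.ord fb := hfbnn r hr
      rcases eq_or_ne r q with rfl | hrq
      · rw [Finsupp.single_eq_same, hubq, mul_one, max_eq_right]
        omega
      rw [Finsupp.single_eq_of_ne hrq]
      by_cases hrT : r ∈ T
      · rw [hubT r hrT, mul_zero, sub_zero, max_eq_left]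
        omega
      · have h4 := mul_nonneg (Int.natCast_nonneg k) h1
        have h3 : r.ord fb = 0 := by
          simpa [hT, hr, hrq] using hrT
        rw [h3, sub_zero, max_eq_right]
        linarith
    all_goals simp only [hd1, hd2, hdeg3]; omega
  have hlow : ell E₃ ≤ Module.finrank L E := by
    let bb := Module.finBasis Λ (riemannRochSpace E₃)
    choose h hhE hh using fun i => hle3 (bb i).2
    have hind : LinearIndependent L h :=
      Γ.compat.linearIndependent (j := RingHom.id N) (b := fun i => (bb i : N)) hh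
        (bb.linearIndependent.map' (riemannRochSpace E₃).subtype (Submodule.ker_subtype _))
    have hind' : LinearIndependent L fun i => (⟨h i, hhE i⟩ : E) :=
      LinearIndependent.of_comp E.subtype hind
    simpa [ell] using hind'.fintype_card_le_finrank
  have e1 := hNr (Finsupp.single Pm n - Z) (by omega)
  have e2 := hNr' E₃ (by omega)
  rw [riemannGenus_constExt (K := K) (F := F)] at e1 e2
  change ell E₃ ≤ ell (Finsupp.single Pm n - Z) at hlow
  omega

end Fermat.Agent.AbVar
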