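import Fermat.Agent.AbVar.GaussDisc

/-!
# Divisors of Gauss units specialise to divisors of residues

The disc formula (`Gauss.mapDomain_divOf`), and residues keep the dimension of a space of
functions (`Gauss.exists_indep_residues`).
-/

set_option autoImplicit false

noncomputable section

open AlgebraicCurve
open Fermat.Agent.FF
open Fermat.Agent.CurveTorsion (ev IsConstExt extPlace extDiv)

namespace Fermat.Agent.AbVar

universe u

variable {K : Type u} [Field K] [IsAlgClosed K] {F : Type u} [Field F] [Algebra K F]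
  [IsFunctionField K F]
  {L : Type u} [Field L] [IsAlgClosed L] [Algebra K L]
  {Λ : Type u} [Field Λ] [IsAlgClosed Λ] [Algebra K Λ]
  {M : Type u} [Field M] [Algebra L M] [Algebra F M] [Algebra K M] [IsScalarTower K L M]
  [IsScalarTower K F M] [IsConstExt F L M] [IsFunctionField L M]
  {N : Type u} [Field N] [Algebra Λ N] [Algebra F N] [Algebra K N] [IsScalarTower K Λ N]
  [IsScalarTower K F N] [IsConstExt F Λ N] [IsFunctionField Λ N]
  {π : KPlace K L Λ}

omit [IsFunctionField L M] [IsFunctionField Λ N] in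
theorem exists_place_ne (P : Place K F) : ∃ P' : Place K F, P' ≠ P := by
  obtain ⟨P', hP'⟩ := exists_place_notMem ({P} : Finset (Place K F))
  exact ⟨P', by simpa using hP'⟩

omit [IsAlgClosed Λ] in
theorem divOf_algebraMap_func (g : F) :
    divOf L (algebraMap F M g) = extDiv (K := L) (F := M) (divOf K g) := by
  ext w
  rw [divOf_apply, CurveTorsion.ord_algebraMap_eq_extDiv (fun v => divOf_apply g v)]

theorem mapDomain_spF_extDiv (D : Divisor K F) :
    Finsupp.mapDomain (spF K F N M π) (extDiv (K := L) (F := M) D) =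
      extDiv (K := Λ) (F := N) D := by
  show Finsupp.mapDomain _ (Finsupp.mapDomain _ D) = Finsupp.mapDomain _ D
  rw [← Finsupp.mapDomain_comp]
  congr 1
  exact funext fun v => spF_extPlace v

omit [IsFunctionField L M] [IsFunctionField Λ N] in
/-- A function of `F` moving all poles of a finite family to one place. -/
theorem exists_shift {ι : Type*} (s : Finset ι) (y : ι → F) (P : Place K F) :
    ∃ (g : F) (m : ℤ), g ≠ 0 ∧ ∀ i ∈ s, y i * g ∈ riemannRochSpace (Finsupp.single P m) := by
  set D : Divisor K F := ∑ i ∈ s, poleDiv K (y i) with hD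
  set m : ℤ := Divisor.degree D + riemannGenus K F with hm
  obtain ⟨g, hg, hg0⟩ : ∃ g ∈ riemannRochSpace (Finsupp.single P m - D), g ≠ 0 :=
    Submodule.exists_mem_ne_zero_of_ne_bot fun h => by
      have := riemann_inequality (Finsupp.single P m - D)
      rw [map_sub, Divisor.degree_single, deg_eq_one, ell, h, finrank_bot] at this
      push_cast at this
      omega
  refine ⟨g, m, hg0, fun i hi => mem_riemannRochSpace.2 fun v => ?_⟩
  have hle : poleDiv K (y i) v ≤ D v := by
    rw [hD, Finsupp.finsetSum_apply]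
    exact Finset.single_le_sum (f := fun j => poleDiv K (y j) v)
      (fun j _ => poleDiv_nonneg (y j) v) hi
  rw [poleDiv_apply] at hle
  have h1 := mem_riemannRochSpace.1 hg v
  rw [Finsupp.sub_apply] at h1
  refine ordGE_antitone v ?_ (mul_mem_ordGE v (mem_ordGE_of_le_ord v (le_refl (v.ord (y i)))) h1)
  have := le_max_left (-v.ord (y i)) 0
  omega

/-- The formula for integral combinations. -/
theorem Gauss.mapDomain_lift (Γ : Gauss (F := F) M N π) (hπ : Function.Surjective π.res) {a : M}
    {b : N} (hab : IsLift K F π a b) (hb : b ≠ 0) :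
    Finsupp.mapDomain (spF K F N M π) (divOf L a) = divOf Λ b := by
  obtain ⟨C, hC, rfl, rfl⟩ := hab
  set a := comb K F M C with ha
  set b := comb K F N (resC π C)
  have hs : Γ.G.Sends a b := Γ.compat.sends_comb hC
  set D := Finsupp.mapDomain (spF K F N M π) (divOf L a) - divOf Λ b with hD
  have key : ∀ (P : Place K F) (q : Place Λ N), q ≠ extPlace Λ N P → D q ≤ 0 := by
    intro P q hq
    obtain ⟨g, m, hg0, hg⟩ := exists_shift C.support (fun i => fBasis K F i) P
    have hgM : algebraMap F M g ≠ 0 := by simpa using hg0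
    have hgN : algebraMap F N g ≠ 0 := by simpa using hg0
    have hmem : a * algebraMap F M g ∈ Submodule.span L
        (algebraMap F M '' (riemannRochSpace (Finsupp.single P m) : Set F)) := by
      rw [ha, comb, Finsupp.linearCombination_apply, Finsupp.sum, Finset.sum_mul]
      refine Submodule.sum_mem _ fun i hi => ?_
      rw [smul_mul_assoc, ← map_mul]
      exact Submodule.smul_mem _ _ (Submodule.subset_span ⟨_, hg i hi, rfl⟩)
    have h := Γ.mapDomain_le_ord hπ P q hq hmem (hs.mul (Γ.compat.func g)) (mul_ne_zero hb hgN)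
    rw [divOf_mul (hs.ne_zero hb) hgM, Finsupp.mapDomain_add, Finsupp.add_apply,
      divOf_algebraMap_func (K := K) (L := L) (M := M) g, mapDomain_spF_extDiv] at h
    have e := DFunLike.congr_fun (divOf_algebraMap_func (L := Λ) (M := N) (K := K) g) q
    rw [divOf_apply] at e
    have h2 : q.ord (b * RingHom.id N (algebraMap F N g)) = q.ord b + q.ord (algebraMap F N g) :=
      q.ord_mul hb hgN
    rw [hD, Finsupp.sub_apply, divOf_apply]
    omega
  have h0 : D = 0 := by
    refine eq_zero_of_nonpos (fun q => ?_) ?_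
    · obtain ⟨P⟩ := (instNonemptyPlace : Nonempty (Place K F))
      by_cases hq : q = extPlace Λ N P
      · obtain ⟨P', hP'⟩ := exists_place_ne P
        exact key P' q fun e => hP' (CurveTorsion.extPlace_injective (e.symm.trans hq))
      · exact key P q hq
    · rw [hD, map_sub, degree_mapDomain, degree_divOf, degree_divOf, sub_zero]
  rwa [hD, sub_eq_zero] at h0

/-- **The disc formula.** -/
theorem Gauss.mapDomain_divOf (Γ : Gauss (F := F) M N π) (hπ : Function.Surjective π.res) {f : M}
    {z : N} (hs : Γ.G.Sends f z) (hz : z ≠ 0) :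
    Finsupp.mapDomain (spF K F N M π) (divOf L f) = divOf Λ z := by
  obtain ⟨l, a, b, a', b', hl, ha, hb, ha', hb', rfl⟩ := exists_decomp (K := K) (F := F) N π
    (hs.ne_zero hz)
  have hsa := Γ.compat.sends_lift ha
  have hsb := Γ.compat.sends_lift hb
  have ha0 : a ≠ 0 := hsa.ne_zero ha'
  have hb0 : b ≠ 0 := hsb.ne_zero hb'
  have hl' := hs.div (hsa.div hsb hb') (div_ne_zero ha' hb')
  rw [mul_div_cancel_right₀ _ (div_ne_zero ha0 hb0)] at hl'
  obtain ⟨c, hc⟩ : ∃ c : Λ, z / (a' / b') = algebraMap Λ N c := by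
    by_cases hlm : l ∈ π.toKVal.toVal
    · exact ⟨_, hl'.unique (Γ.compat.const _ _ (π.sends_of_mem hlm))⟩
    · exfalso
      have h0 := (Γ.compat.const _ _ (KPlace.sends_zero_of_inv_notMem (x := l⁻¹)
        (by rwa [inv_inv]))).mul hl'
      rw [← map_mul, inv_mul_cancel₀ hl, map_one, map_zero, map_zero, zero_mul] at h0
      exact one_ne_zero (Γ.G.sends_one.unique h0)
  rw [div_eq_iff (div_ne_zero ha' hb')] at hc
  subst hc
  have hc0 : algebraMap Λ N c ≠ 0 := left_ne_zero_of_mul hz
  rw [divOf_mul (by simpa using hl) (div_ne_zero ha0 hb0), divOf_algebraMap, zero_add,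
    div_eq_mul_inv a, divOf_mul ha0 (inv_ne_zero hb0), divOf_inv, Finsupp.mapDomain_add,
    Γ.mapDomain_lift hπ ha ha']
  rw [divOf_mul hc0 (div_ne_zero ha' hb'), divOf_algebraMap, zero_add, div_eq_mul_inv a',
    divOf_mul ha' (inv_ne_zero hb'), divOf_inv, ← Γ.mapDomain_lift hπ hb hb']
  exact congrArg _ (map_neg (Finsupp.mapDomain.addMonoidHom (spF K F N M π)) _)

theorem Gauss.divOf_residue_add_nonneg (Γ : Gauss (F := F) M N π) (hπ : Function.Surjective π.res)
    {D : Divisor L M} {f : M} {z : N} (hf : f ∈ riemannRochSpace D) (hs : Γ.G.Sends f z) :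
    z ∈ riemannRochSpace (Finsupp.mapDomain (spF K F N M π) D) := by
  rcases eq_or_ne z 0 with rfl | hz
  · exact zero_mem _
  have hf0 := hs.ne_zero hz
  refine mem_riemannRochSpace.2 fun q => mem_ordGE_of_le_ord q ?_
  have hnn : (0 : Divisor L M) ≤ divOf L f + D := fun Q => by
    have := mem_riemannRochSpace.1 hf Q
    rw [mem_ordGE_of_ne_zero Q hf0] at this
    simp only [Finsupp.coe_zero, Pi.zero_apply, Finsupp.add_apply, divOf_apply]
    omega
  have h1 : 0 ≤ Finsupp.mapDomain (spF K F N M π) (divOf L f + D) q := by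
    classical
    rw [Finsupp.mapDomain, Finsupp.sum, Finsupp.finsetSum_apply]
    refine Finset.sum_nonneg fun Q _ => ?_
    rw [Finsupp.single_apply]
    split
    · exact hnn Q
    · exact le_rfl
  rw [Finsupp.mapDomain_add, Finsupp.add_apply, Γ.mapDomain_divOf hπ hs hz, divOf_apply] at h1
  omega

omit [IsFunctionField L M] [IsFunctionField Λ N] in
/-- Residues do not lose dimension: as many independent residues as `dim L(D)`. -/
theorem Gauss.exists_indep_residues (Γ : Gauss (F := F) M N π) (W : Submodule L M)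
    [Module.Finite L W] :
    ∃ (a : Fin (Module.finrank L W) → M) (b : Fin (Module.finrank L W) → N),
      (∀ k, a k ∈ W ∧ Γ.G.Sends (a k) (b k)) ∧ LinearIndependent Λ b := by
  classical
  obtain ⟨d, hd0, hd⟩ : ∃ d : M, d ≠ 0 ∧ ∀ w ∈ W,
      d * w ∈ Submodule.span L (Set.range (algebraMap F M)) := by
    obtain ⟨s, hs⟩ : ∃ s : Finset M, Submodule.span L (s : Set M) = W :=
      Module.Finite.iff_fg.1 ‹_›
    choose x hx y hy hxy using fun w : M => exists_div_span (F := F) (L := L) w
    have hmul : ∀ a ∈ Submodule.span L (Set.range (algebraMap F M)),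
        ∀ b ∈ Submodule.span L (Set.range (algebraMap F M)),
        a * b ∈ Submodule.span L (Set.range (algebraMap F M)) := fun a ha b hb => by
      have := Submodule.mul_mem_mul ha hb
      rw [Submodule.span_mul_span] at this
      refine Submodule.span_mono ?_ this
      rintro _ ⟨_, ⟨p, rfl⟩, _, ⟨r, rfl⟩, rfl⟩
      exact ⟨p * r, map_mul _ _ _⟩
    have h1 : (1 : M) ∈ Submodule.span L (Set.range (algebraMap F M)) :=
      Submodule.subset_span ⟨1, map_one _⟩
    set t := s.filter fun w => y w ≠ 0
    have hprod : ∀ t' : Finset M, ∏ w ∈ t', y w ∈ Submodule.span L (Set.range (algebraMap F M)) :=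
      fun t' => Finset.prod_induction y (· ∈ Submodule.span L (Set.range (algebraMap F M)))
        (fun a b ha hb => hmul a ha b hb) h1 fun w _ => hy w
    refine ⟨∏ w ∈ t, y w, Finset.prod_ne_zero_iff.2 fun w hw => (Finset.mem_filter.1 hw).2,
      fun w hw => ?_⟩
    rw [← hs] at hw
    induction hw using Submodule.span_induction with
    | mem w hw =>
      by_cases hyw : y w = 0
      · rw [hxy w, hyw, div_zero, mul_zero]; exact zero_mem _
      · have hwt : w ∈ t := Finset.mem_filter.2 ⟨hw, hyw⟩
        rw [← Finset.mul_prod_erase _ _ hwt, mul_comm (y w), mul_assoc]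
        rw [show y w * w = x w by linear_combination (eq_div_iff hyw).1 (hxy w)]
        exact hmul _ (hprod _) _ (hx w)
    | zero => rw [mul_zero]; exact zero_mem _
    | add a b _ _ ha hb => rw [mul_add]; exact add_mem ha hb
    | smul c a _ ha => rw [mul_smul_comm]; exact Submodule.smul_mem _ c ha
  obtain ⟨l, z, hl, hz, hlz⟩ := Γ.compat.exists_unit hd0
  set d₁ := algebraMap L M l * d
  have hd₁ : d₁ ≠ 0 := mul_ne_zero (by simpa using hl) hd0
  let φ : M →ₗ[L] M := LinearMap.mulLeft L d₁
  have hφ : Function.Injective φ := mul_right_injective₀ hd₁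
  have hfr : Module.finrank L (W.map φ) = Module.finrank L W :=
    (Submodule.equivMapOfInjective φ hφ W).finrank_eq.symm
  have : Module.Finite L (W.map φ) := Module.Finite.map _ _
  obtain ⟨a, b, hab, hli⟩ := exists_indep_lifts (K := K) (F := F) (N := N) (π := π) (W.map φ) (by
    rintro _ ⟨w, hw, rfl⟩
    show d₁ * w ∈ _
    rw [mul_assoc, ← Algebra.smul_def]
    exact Submodule.smul_mem _ _ (hd w hw))
  refine ⟨fun k => d₁⁻¹ * a (Fin.cast hfr.symm k), fun k => z⁻¹ * b (Fin.cast hfr.symm k),
    fun k => ⟨?_, ?_⟩, ?_⟩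
  · obtain ⟨w, hw, hwa⟩ := Submodule.mem_map.1 (hab (Fin.cast hfr.symm k)).1
    show d₁⁻¹ * a (Fin.cast hfr.symm k) ∈ W
    rw [← hwa, LinearMap.mulLeft_apply, inv_mul_cancel_left₀ hd₁]
    exact hw
  · exact (hlz.inv hz).mul (Γ.compat.sends_lift (hab _).2)
  · exact ((hli.comp _ (Fin.cast_injective _)).map' (LinearMap.mulLeft Λ z⁻¹)
      (LinearMap.ker_eq_bot.2 (mul_right_injective₀ (inv_ne_zero hz))))

end Fermat.Agent.AbVar
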