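import Fermat.Agent.AbVar.GaussFormula

/-!
# Local rings of the constant model, centres of valuations, seesaw

The local ring of the model at a point of the residue curve, the centre of a valuation other than
the Gauss valuation (`exists_centre_locRing`), and seesaw (`mem_locRing_of_div`).
-/

set_option autoImplicit false

noncomputable section

open AlgebraicCurve
open Fermat.Agent.FF
open Fermat.Agent.CurveTorsion (ev IsConstExt extPlace extDiv)

namespace Fermat.Agent.AbVar

universe u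

variable {K : Type u} [Field K] [IsAlgClosed K] {F : Type u} [Field F] [Algebra K F]
  [IsFunctionField K F]
  {L : Type u} [Field L] [IsAlgClosed L] [Algebra K L]
  {Λ : Type u} [Field Λ] [IsAlgClosed Λ] [Algebra K Λ]
  {M : Type u} [Field M] [Algebra L M] [Algebra F M] [Algebra K M] [IsScalarTower K L M]
  [IsScalarTower K F M] [IsConstExt F L M]
  {N : Type u} [Field N] [Algebra Λ N] [Algebra F N] [Algebra K N] [IsScalarTower K Λ N]
  [IsScalarTower K F N] [IsConstExt F Λ N]
  {π : KPlace K L Λ}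

/-- The homomorphism of a place whose valuation ring is everything. -/
def KPlace.homOfTop {E Ω : Type u} [Field E] [Algebra K E] [Field Ω] [Algebra K Ω]
    (θ : KPlace K E Ω) (hall : ∀ y, y ∈ θ.toKVal.toVal) : E →ₐ[K] Ω where
  toFun y := θ.res ⟨y, hall y⟩
  map_one' := map_one θ.res
  map_mul' x y := map_mul θ.res ⟨x, hall x⟩ ⟨y, hall y⟩
  map_zero' := map_zero θ.res
  map_add' x y := map_add θ.res ⟨x, hall x⟩ ⟨y, hall y⟩
  commutes' := θ.res_algebraMap

variable (F M π) in
/-- Combinations with integral coefficients of the functions of `F` regular at `q`. -/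
def regRing (q : Place Λ N) : Subalgebra K M :=
  Algebra.adjoin K ((Set.range fun a : π.toKVal.toVal => algebraMap L M (a : L)) ∪
    algebraMap F M '' {y : F | algebraMap F N y ∈ q.toValuationSubring})

variable [IsFunctionField Λ N]

omit [IsAlgClosed K] [IsFunctionField K F] [IsAlgClosed L] in
/-- An element of `regRing` has the same value at every place compatible with `π` and `q`. -/
theorem exists_value_of_mem_regRing (Γ : Gauss (F := F) M N π) {q : Place Λ N} {Ω : Type u}
    [Field Ω] [Algebra K Ω] (ρ : KPlace K M Ω) (ψ : Λ →+* Ω)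
    (hL : ∀ a b, π.Sends a b → ρ.Sends (algebraMap L M a) (ψ b))
    (hψ : ∀ k : K, ψ (algebraMap K Λ k) = algebraMap K Ω k)
    (hF : ∀ y : F, algebraMap F N y ∈ q.toValuationSubring →
      ∃ c, (evalPlace K q).Sends (algebraMap F N y) c ∧ ρ.Sends (algebraMap F M y) (ψ c))
    {z : M} (hz : z ∈ regRing F M π q) :
    ∃ zb c, Γ.G.Sends z zb ∧ (evalPlace K q).Sends zb c ∧ ρ.Sends z (ψ c) := by
  induction hz using Algebra.adjoin_induction with
  | mem x hx =>
    rcases hx with ⟨a, rfl⟩ | ⟨y, hy, rfl⟩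
    · exact ⟨_, π.res a, Γ.compat.const _ _ (π.sends_res a), sends_evalPlace_const q _,
        hL _ _ (π.sends_res a)⟩
    · obtain ⟨c, h1, h2⟩ := hF y hy
      exact ⟨_, c, Γ.compat.func y, h1, h2⟩
  | algebraMap k =>
    refine ⟨_, algebraMap K Λ k, Γ.G.sends_algebraMap k, ?_, ?_⟩
    · rw [IsScalarTower.algebraMap_apply K Λ N]; exact sends_evalPlace_const q _
    · rw [hψ]; exact ρ.sends_algebraMap k
  | add x y _ _ hx hy =>
    obtain ⟨_, _, h1, h2, h3⟩ := hx
    obtain ⟨_, _, g1, g2, g3⟩ := hy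
    exact ⟨_, _, h1.add g1, h2.add g2, by rw [map_add]; exact h3.add g3⟩
  | mul x y _ _ hx hy =>
    obtain ⟨_, _, h1, h2, h3⟩ := hx
    obtain ⟨_, _, g1, g2, g3⟩ := hy
    exact ⟨_, _, h1.mul g1, h2.mul g2, by rw [map_mul]; exact h3.mul g3⟩

omit [IsAlgClosed K] [IsFunctionField K F] [IsAlgClosed L] in
/-- Residue and value at `q` of an element of `regRing`. -/
theorem exists_residue_of_mem_regRing (Γ : Gauss (F := F) M N π) {q : Place Λ N} {z : M}
    (hz : z ∈ regRing F M π q) : ∃ zb c, Γ.G.Sends z zb ∧ (evalPlace K q).Sends zb c := by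
  obtain ⟨zb, c, h1, h2, -⟩ := exists_value_of_mem_regRing Γ (Γ.G.comp (evalPlace K q))
    (RingHom.id Λ)
    (fun a b h => KPlace.sends_comp.2 ⟨_, Γ.compat.const _ _ h, sends_evalPlace_const q b⟩)
    (fun _ => rfl)
    (fun y hy => ⟨_, (evalPlace K q).sends_of_mem hy,
      KPlace.sends_comp.2 ⟨_, Γ.compat.func y, (evalPlace K q).sends_of_mem hy⟩⟩) hz
  exact ⟨zb, c, h1, h2⟩

/-- The element has a residue whose value at `q` is not zero. -/
def NzAt (Γ : Gauss (F := F) M N π) (q : Place Λ N) (b : M) : Prop :=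
  ∃ bb c, Γ.G.Sends b bb ∧ (evalPlace K q).Sends bb c ∧ c ≠ 0

omit [IsAlgClosed K] [IsFunctionField K F] [IsAlgClosed L] in
theorem NzAt.ne_zero {Γ : Gauss (F := F) M N π} {q : Place Λ N} {b : M} (h : NzAt Γ q b) :
    b ≠ 0 := by
  obtain ⟨bb, c, h1, h2, h3⟩ := h
  exact h1.ne_zero (h2.ne_zero h3)

omit [IsAlgClosed K] [IsFunctionField K F] [IsAlgClosed L] in
theorem nzAt_one (Γ : Gauss (F := F) M N π) (q : Place Λ N) : NzAt Γ q 1 :=
  ⟨1, 1, Γ.G.sends_one, (evalPlace K q).sends_one, one_ne_zero⟩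

omit [IsAlgClosed K] [IsFunctionField K F] [IsAlgClosed L] in
theorem NzAt.mul {Γ : Gauss (F := F) M N π} {q : Place Λ N} {b b' : M} (h : NzAt Γ q b)
    (h' : NzAt Γ q b') : NzAt Γ q (b * b') := by
  obtain ⟨_, _, h1, h2, h3⟩ := h
  obtain ⟨_, _, g1, g2, g3⟩ := h'
  exact ⟨_, _, h1.mul g1, h2.mul g2, mul_ne_zero h3 g3⟩

/-- The local ring of the model at a point `q` of the residue curve. -/
def locRing (Γ : Gauss (F := F) M N π) (q : Place Λ N) : Subalgebra K M where
  carrier := {z | ∃ a ∈ regRing F M π q, ∃ b ∈ regRing F M π q, NzAt Γ q b ∧ z = a / b}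
  mul_mem' := by
    rintro _ _ ⟨a, ha, b, hb, hnb, rfl⟩ ⟨a', ha', b', hb', hnb', rfl⟩
    exact ⟨_, mul_mem ha ha', _, mul_mem hb hb', hnb.mul hnb', div_mul_div_comm _ _ _ _⟩
  add_mem' := by
    rintro _ _ ⟨a, ha, b, hb, hnb, rfl⟩ ⟨a', ha', b', hb', hnb', rfl⟩
    exact ⟨_, add_mem (mul_mem ha hb') (mul_mem hb ha'), _, mul_mem hb hb', hnb.mul hnb',
      div_add_div _ _ hnb.ne_zero hnb'.ne_zero⟩
  algebraMap_mem' k :=
    ⟨_, Subalgebra.algebraMap_mem _ k, 1, one_mem _, nzAt_one Γ q, (div_one _).symm⟩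

omit [IsAlgClosed K] [IsFunctionField K F] [IsAlgClosed L] in
theorem regRing_le_locRing (Γ : Gauss (F := F) M N π) (q : Place Λ N) :
    regRing F M π q ≤ locRing Γ q := fun a ha =>
  ⟨a, ha, 1, one_mem _, nzAt_one Γ q, (div_one a).symm⟩

omit [IsAlgClosed K] [IsFunctionField K F] [IsAlgClosed L] in
theorem isLocalRing_locRing (Γ : Gauss (F := F) M N π) (q : Place Λ N) :
    IsLocalRing (locRing Γ q) := by
  refine IsLocalRing.of_isUnit_or_isUnit_one_sub_self fun z => ?_
  obtain ⟨a, ha, b, hb, hnb, hz⟩ := z.2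
  obtain ⟨bb, c, h1, h2, h3⟩ := id hnb
  obtain ⟨ab, d, g1, g2⟩ := exists_residue_of_mem_regRing Γ ha
  by_cases hd : d = 0
  · have hn : NzAt Γ q (b - a) := ⟨_, _, h1.sub g1, h2.sub g2, by rwa [hd, sub_zero]⟩
    refine Or.inr (IsUnit.of_mul_eq_one ⟨b / (b - a), b, hb, b - a, sub_mem hb ha, hn, rfl⟩ ?_)
    apply Subtype.ext
    show (1 - (z : M)) * (b / (b - a)) = 1
    have := hnb.ne_zero
    have := hn.ne_zero
    rw [hz]
    field_simp
  · have hn : NzAt Γ q a := ⟨_, _, g1, g2, hd⟩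
    refine Or.inl (IsUnit.of_mul_eq_one ⟨b / a, b, hb, a, ha, hn, rfl⟩ ?_)
    apply Subtype.ext
    show (z : M) * (b / a) = 1
    have := hnb.ne_zero
    have := hn.ne_zero
    rw [hz]
    field_simp

omit [IsAlgClosed K] [IsFunctionField K F] [IsAlgClosed L] in
theorem locRing_le_pull (Γ : Gauss (F := F) M N π) (q : Place Λ N) {W : KVal K N}
    (hW : W.toVal = q.toValuationSubring) {x : M} (hx : x ∈ locRing Γ q) :
    x ∈ (Γ.G.pull W).toVal := by
  obtain ⟨a, ha, b, hb, ⟨bb, c, h1, h2, h3⟩, rfl⟩ := hx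
  obtain ⟨ab, d, g1, g2⟩ := exists_residue_of_mem_regRing Γ ha
  obtain ⟨hm, he⟩ := g1.div h1 (h2.ne_zero h3)
  refine KPlace.mem_pull.2 ⟨hm, ?_⟩
  rw [he, hW]
  exact (g2.div h2 h3).mem

theorem locRing_le_place [IsFunctionField L M] (Γ : Gauss (F := F) M N π) (Q : Place L M) {x : M}
    (hx : x ∈ locRing Γ (spF K F N M π Q)) : x ∈ Q.toValuationSubring := by
  obtain ⟨a, ha, b, hb, ⟨bb, c, h1, h2, h3⟩, rfl⟩ := hx
  set ρ := (evalPlace K Q).comp π
  have key : ∀ z ∈ regRing F M π (spF K F N M π Q), ∃ zb c, Γ.G.Sends z zb ∧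
      (evalPlace K (spF K F N M π Q)).Sends zb c ∧ ρ.Sends z (RingHom.id Λ c) := fun z hz =>
    exists_value_of_mem_regRing Γ ρ (RingHom.id Λ)
      (fun a b h => KPlace.sends_comp.2 ⟨a, sends_evalPlace_const Q a, h⟩) (fun _ => rfl)
      (fun y hy => by
        obtain ⟨e, f, k1, k2, k3⟩ :=
          exists_sends_of_mem_spF ((mem_toValuationSubring_iff _).1 hy)
        exact ⟨f, k3, KPlace.sends_comp.2 ⟨e, k1, k2⟩⟩) hz
  obtain ⟨_, c', k1, k2, k3⟩ := key b hb
  obtain ⟨_, d, -, -, j3⟩ := key a ha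
  rw [h1.unique k1] at h2
  obtain rfl := h2.unique k2
  obtain ⟨e, he, -⟩ := KPlace.sends_comp.1 (j3.div k3 h3)
  exact he.mem

omit [IsAlgClosed K] [IsFunctionField K F] [IsAlgClosed L] [IsAlgClosed Λ] [IsConstExt F L M]
  [IsConstExt F Λ N] [IsFunctionField Λ N] [IsScalarTower K L M] [IsScalarTower K F M] [Algebra K N]
  [IsScalarTower K Λ N] [IsScalarTower K F N] in
/-- Two places compatible with `π` and the identity of `F` have the same ring. -/
theorem Compat.mem_iff {Ω : Type u} [Field Ω] [Algebra K Ω] {G : KPlace K M Ω} {j : N →+* Ω}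
    (hG : Compat (F := F) π G j) {l : L} {a b : M} {a' b' : N} (hl : l ≠ 0)
    (ha : IsLift K F π a a') (hb : IsLift K F π b b') (ha' : a' ≠ 0) (hb' : b' ≠ 0) :
    algebraMap L M l * (a / b) ∈ G.toKVal.toVal ↔ l ∈ π.toKVal.toVal := by
  have hu := (hG.sends_lift ha).div (hG.sends_lift hb) (by simpa using hb')
  refine ⟨fun hm => by_contra fun hlm => ?_, fun hlm => ?_⟩
  · have h0 := (hG.const _ _ (KPlace.sends_zero_of_inv_notMem (x := l⁻¹) (by rwa [inv_inv]))).mul
      (G.sends_of_mem hm)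
    rw [← mul_assoc, ← map_mul, inv_mul_cancel₀ hl, map_one, one_mul, map_zero, map_zero,
      zero_mul] at h0
    exact div_ne_zero (by simpa using ha') (by simpa using hb') (hu.unique h0)
  · exact ((hG.const _ _ (sends_resTot hlm)).mul hu).mem

omit [IsAlgClosed L] in
/-- Every valuation over `π` other than the Gauss valuation has a centre. -/
theorem exists_centre_locRing (Γ : Gauss (F := F) M N π) (hπ : Function.Surjective π.res)
    (W : KVal K M) (hW : ∀ a : L, algebraMap L M a ∈ W.toVal ↔ a ∈ π.toKVal.toVal)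
    (hne : W ≠ Γ.G.toKVal) : ∃ q : Place Λ N, ∀ x ∈ locRing Γ q, x ∈ W.toVal := by
  let Ω := AlgebraicClosure (IsLocalRing.ResidueField W.toVal)
  let res : W.toVal →+* Ω := (algebraMap (IsLocalRing.ResidueField W.toVal) Ω).comp
    (IsLocalRing.residue W.toVal)
  let : Algebra K Ω := (res.comp (algebraMap K W.toVal)).toAlgebra
  let ρ : KPlace K M Ω :=
    { toKVal := W
      res := res
      res_algebraMap := fun c => rfl
      isUnit_of_res_ne_zero := fun x hx => by
        by_contra hu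
        refine hx ?_
        show algebraMap _ Ω (IsLocalRing.residue W.toVal x) = 0
        rw [(IsLocalRing.residue_eq_zero_iff x).2 ((IsLocalRing.mem_maximalIdeal x).2 hu),
          map_zero] }
  let g : π.toKVal.toVal →+* Ω := res.comp
    (((algebraMap L M).comp π.toKVal.toVal.toSubring.subtype).codRestrict W.toVal.toSubring
      fun a => (hW a).2 a.2)
  have hker : RingHom.ker π.res ≤ RingHom.ker g := fun a ha => by
    have h0 : ρ.Sends (algebraMap L M (a : L)) 0 := by
      rcases eq_or_ne (a : L) 0 with h | h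
      · rw [h, map_zero]; exact ρ.sends_zero
      refine KPlace.sends_zero_of_inv_notMem fun hi => ?_
      rw [← map_inv₀] at hi
      exact (show π.Sends (a : L) 0 from ⟨a.2, ha⟩).inv_notMem h ((hW _).1 hi)
    exact h0.res_eq _
  let ψ : Λ →+* Ω := π.res.liftOfSurjective hπ ⟨g, hker⟩
  have hψ : ∀ a b, π.Sends a b → ρ.Sends (algebraMap L M a) (ψ b) := by
    rintro a _ ⟨h, rfl⟩
    refine ⟨(hW a).2 h, ?_⟩
    exact (RingHom.liftOfSurjective_comp_apply π.res hπ ⟨g, hker⟩ ⟨a, h⟩).symm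
  have hψK : ∀ k : K, ψ (algebraMap K Λ k) = algebraMap K Ω k := fun k =>
    ((hψ _ _ (π.sends_algebraMap k)).unique (by
      rw [← IsScalarTower.algebraMap_apply K L M]; exact ρ.sends_algebraMap k))
  suffices h : ∃ q : Place Λ N, ∀ y : F, algebraMap F N y ∈ q.toValuationSubring →
      ∃ c, (evalPlace K q).Sends (algebraMap F N y) c ∧ ρ.Sends (algebraMap F M y) (ψ c) by
    obtain ⟨q, hq⟩ := h
    refine ⟨q, ?_⟩
    rintro _ ⟨a, ha, b, hb, ⟨bb, c, h1, h2, h3⟩, rfl⟩
    obtain ⟨_, _, -, -, hA⟩ := exists_value_of_mem_regRing Γ ρ ψ hψ hψK hq ha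
    obtain ⟨_, c', k1, k2, hB⟩ := exists_value_of_mem_regRing Γ ρ ψ hψ hψK hq hb
    rw [h1.unique k1] at h2
    obtain rfl := h2.unique k2
    exact (hA.div hB (by simpa using h3)).mem
  set θ := ρ.comap (IsScalarTower.toAlgHom K F M) with hθ
  by_cases htop : θ.toKVal.toVal = ⊤
  · have hall : ∀ y : F, y ∈ θ.toKVal.toVal := fun y => htop ▸ ValuationSubring.mem_top y
    let b : F →ₐ[K] Ω := θ.homOfTop hall
    obtain ⟨p, hpΛ, hpF⟩ := exists_place_of_pair N (AlgHom.id K Λ) Function.injective_id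
      ({ ψ with commutes' := hψK } : Λ →ₐ[K] Ω) b
    have hρF : ∀ y, ρ.Sends (algebraMap F M y) (b y) := fun y =>
      KPlace.sends_comap.1 (θ.sends_of_mem (hall y))
    by_cases hp : p.toKVal.toVal = ⊤
    · exfalso
      have hN : ∀ x : N, x ∈ p.toKVal.toVal := fun x => hp ▸ ValuationSubring.mem_top x
      let j : N →+* Ω := p.res.comp ((RingHom.id N).codRestrict p.toKVal.toVal.toSubring hN)
      have hc : Compat (F := F) π ρ j := by
        refine ⟨fun a c h => ?_, fun y => ?_⟩
        · rw [show j (algebraMap Λ N c) = ψ c from (p.sends_of_mem (hN _)).unique (hpΛ c)]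
          exact hψ a c h
        · rw [show j (algebraMap F N y) = b y from (p.sends_of_mem (hN _)).unique (hpF y)]
          exact hρF y
      refine hne (KVal.ext (SetLike.ext fun f => ?_))
      rcases eq_or_ne f 0 with rfl | hf
      · simp [zero_mem]
      obtain ⟨l, a, c, a', c', hl, ha, hc', ha', hc'', rfl⟩ :=
        exists_decomp (K := K) (F := F) N π hf
      exact (hc.mem_iff hl ha hc' ha' hc'').trans (Γ.compat.mem_iff hl ha hc' ha' hc'').symm
    · have hΛ : ∀ c : Λ, algebraMap Λ N c ∈ p.toKVal.toVal := fun c => (hpΛ c).1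
      refine ⟨⟨p.toKVal.toVal, hΛ, hp, isPrincipalIdealRing_valuationSubring_of_ne_top _ hΛ⟩,
        fun y _ => ?_⟩
      obtain ⟨c, hc, hs⟩ := sends_evalPlace_of_toVal_eq p ψ hpΛ
        ⟨p.toKVal.toVal, hΛ, hp, isPrincipalIdealRing_valuationSubring_of_ne_top _ hΛ⟩ rfl (hpF y)
      exact ⟨c, hs, hc ▸ hρF y⟩
  · set v := θ.toKVal.toPlace htop
    refine ⟨extPlace Λ N v, fun y hy => ?_⟩
    have hm := CurveTorsion.mem_ordGE_extPlace.1 ((mem_toValuationSubring_iff _).1 hy)
    have hθy := θ.sends_of_mem ((mem_toValuationSubring_iff v).2 hm)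
    refine ⟨algebraMap K Λ (ev v y), sends_evalPlace.2 ⟨CurveTorsion.mem_ordGE_extPlace.2 hm,
      (CurveTorsion.liesOver_extPlace (K := Λ) (F := N) v).ev_eq hm⟩, ?_⟩
    rw [hψK, ← (sends_toPlace_ev θ htop hθy).2]
    exact KPlace.sends_comap.1 hθy

theorem mem_regRing_of_span (Γ : Gauss (F := F) M N π) {q : Place Λ N} {P : Place K F}
    (hq : q ≠ extPlace Λ N P) {n : ℤ} {a : M} {ab : N}
    (ha : a ∈ Submodule.span L (algebraMap F M '' (riemannRochSpace (Finsupp.single P n) : Set F)))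
    (hs : Γ.G.Sends a ab) : a ∈ regRing F M π q := by
  obtain ⟨s, c, d, y, hy, hcd, rfl, -⟩ := Γ.exists_repr ha hs
  refine sum_mem fun i hi => ?_
  rw [Algebra.smul_def]
  refine mul_mem (Algebra.subset_adjoin (Or.inl ⟨⟨c i, (hcd i hi).mem⟩, rfl⟩))
    (Algebra.subset_adjoin (Or.inr ⟨y i, (mem_toValuationSubring_iff q).2 ?_, rfl⟩))
  have := mem_riemannRochSpace.1 (algebraMap_mem_riemannRochSpace (L := Λ) (M := N) (hy i)) q
  rwa [extDiv_single, Finsupp.single_eq_of_ne hq, neg_zero] at this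

/-- **Seesaw**: a Gauss unit without zeros and poles in the disc of `q` is in the local ring. -/
theorem mem_locRing_of_div [IsFunctionField L M] (Γ : Gauss (F := F) M N π)
    (hπ : Function.Surjective π.res) (q : Place Λ N) {u : M} {ub : N} (hs : Γ.G.Sends u ub)
    (hub : ub ≠ 0) (hdiv : ∀ Q : Place L M, spF K F N M π Q = q → Q.ord u = 0) :
    u ∈ locRing Γ q := by
  classical
  have hu0 : u ≠ 0 := hs.ne_zero hub
  have hinj := CurveTorsion.extPlace_injective (K₀ := K) (F₀ := F) (K := Λ) (F := N)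
  set S : Finset (Place Λ N) :=
    insert q ((divOf L u).support.image (spF K F N M π))
  obtain ⟨P, hP⟩ := exists_place_notMem (S.preimage (extPlace Λ N) hinj.injOn)
  rw [Finset.mem_preimage] at hP
  simp only [S, Finset.mem_insert, Finset.mem_image, not_or, not_exists, not_and] at hP
  obtain ⟨hPq, hPs⟩ := hP
  set Pm : Place L M := extPlace L M P with hPm
  set Pb : Place Λ N := extPlace Λ N P with hPb
  set Zs := (divOf L u).support.erase Pm
  set Z : Divisor L M := ∑ Q ∈ Zs, Finsupp.single Q (max (-(Q.ord u)) 0) with hZ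
  have hZq : ∀ r : Place Λ N, (r = q ∨ r = Pb) →
      Finsupp.mapDomain (spF K F N M π) Z r = 0 := by
    intro r hr
    rw [hZ, Finsupp.mapDomain_finsetSum, Finsupp.finsetSum_apply]
    refine Finset.sum_eq_zero fun Q hQ => ?_
    rw [Finsupp.mapDomain_single, Finsupp.single_apply, if_neg]
    intro h
    have hQs := Finset.mem_of_mem_erase hQ
    rcases hr with rfl | rfl
    · exact (Finsupp.mem_support_iff.1 hQs) (by rw [divOf_apply]; exact hdiv Q h)
    · exact hPs Q hQs h
  obtain ⟨Ns, hNs⟩ := exists_span_riemannRochSpace (K := K) (F := F) (L := L) (M := M)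
  obtain ⟨Nr, hNr⟩ := exists_ell_eq_of_degree_ge L M
  obtain ⟨Nr', hNr'⟩ := exists_ell_eq_of_degree_ge Λ N
  set k : ℤ := Divisor.degree Z
  set n : ℤ := |k| + |Ns| + |Nr| + |Nr'| + 1 with hn
  set c : ℤ := max (-(Pm.ord u)) 0 with hc
  have h0a := le_abs_self k
  have h0b := le_abs_self Ns
  have h0c := le_abs_self Nr
  have h0d := le_abs_self Nr'
  have h0e := abs_nonneg k
  have h0f := abs_nonneg Ns
  have h0g := abs_nonneg Nr
  have h0h := abs_nonneg Nr'
  have h0i : 0 ≤ c := le_max_right _ _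
  set D : Divisor L M := Finsupp.single Pm n - Z with hD
  set D' : Divisor Λ N := Finsupp.mapDomain (spF K F N M π) D with hD'
  have hdegD : Divisor.degree D = n - k := by
    rw [hD, map_sub, Divisor.degree_single, deg_eq_one]; simp [k]
  have hdegD' : Divisor.degree D' = n - k := by rw [hD', degree_mapDomain, hdegD]
  have hD'q : D' q = 0 := by
    rw [hD', hD, show Finsupp.mapDomain (spF K F N M π) (Finsupp.single Pm n - Z) =
      Finsupp.mapDomain (spF K F N M π) (Finsupp.single Pm n) -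
        Finsupp.mapDomain (spF K F N M π) Z from map_sub (Finsupp.mapDomain.addMonoidHom _) _ _,
      Finsupp.sub_apply, hZq q (Or.inl rfl), sub_zero, Finsupp.mapDomain_single, hPm,
      spF_extPlace, Finsupp.single_eq_of_ne (fun e => hPq e.symm)]
  obtain ⟨a, b, hab, hli⟩ := Γ.exists_indep_residues (riemannRochSpace D)
  obtain ⟨i, hi⟩ : ∃ i, b i ∉ riemannRochSpace (D' - Finsupp.single q 1) := by
    by_contra hall
    push Not at hall
    have h1 : LinearIndependent Λ fun i =>
        (⟨b i, hall i⟩ : riemannRochSpace (D' - Finsupp.single q 1)) :=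
      LinearIndependent.of_comp (riemannRochSpace _).subtype hli
    have h2 : ell D ≤ ell (D' - Finsupp.single q 1) := by
      simpa [ell] using h1.fintype_card_le_finrank
    have hdeg : Divisor.degree (D' - Finsupp.single q 1) = n - k - 1 := by
      rw [map_sub, hdegD', Divisor.degree_single, deg_eq_one]; simp
    have e1 := hNr D (by omega)
    have e2 := hNr' (D' - Finsupp.single q 1) (by omega)
    rw [riemannGenus_constExt (K := K) (F := F)] at e1 e2
    omega
  set h := a i
  set hb := b i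
  obtain ⟨hhD, hhs⟩ := hab i
  have hbD : hb ∈ riemannRochSpace D' := Γ.divOf_residue_add_nonneg hπ hhD hhs
  have hbq : hb ∈ ordGE q 0 := by
    have := mem_riemannRochSpace.1 hbD q
    rwa [hD'q, neg_zero] at this
  have hbv : ev q hb ≠ 0 := fun h0 => hi (mem_riemannRochSpace.2 fun r => by
    rcases eq_or_ne r q with rfl | hr
    · rw [Finsupp.sub_apply, hD'q, Finsupp.single_eq_same]
      simpa using (CurveTorsion.ev_eq_zero_iff r hbq).1 h0
    · rw [Finsupp.sub_apply, Finsupp.single_eq_of_ne hr, sub_zero]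
      exact mem_riemannRochSpace.1 hbD r)
  have hnz : NzAt Γ q h := ⟨hb, _, hhs, sends_evalPlace.2 ⟨hbq, rfl⟩, hbv⟩
  have hZapply : ∀ Q, Z Q = if Q ∈ Zs then max (-(Q.ord u)) 0 else 0 := fun Q => by
    rw [hZ, Finsupp.finsetSum_apply]
    simp [Finsupp.single_apply]
  have hspan : ∀ m : ℤ, Ns ≤ m → riemannRochSpace (Finsupp.single Pm m : Divisor L M) =
      Submodule.span L (algebraMap F M '' (riemannRochSpace (Finsupp.single P m) : Set F)) := by
    intro m hm
    rw [hNs _ (by rwa [Divisor.degree_single, deg_eq_one, Nat.cast_one, mul_one]), hPm,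
      extDiv_single]
  have hhn : h ∈ riemannRochSpace (Finsupp.single Pm n : Divisor L M) :=
    riemannRochSpace_mono (fun Q => by
      rw [hD, Finsupp.sub_apply, hZapply]
      split
      · have := le_max_right (-(Q.ord u)) 0; omega
      · simp) hhD
  have hhu : h * u ∈ riemannRochSpace (Finsupp.single Pm (n + c) : Divisor L M) := by
    refine mem_riemannRochSpace.2 fun Q => ordGE_antitone Q ?_
      (mul_mem_ordGE Q (mem_riemannRochSpace.1 hhD Q) (mem_ordGE_of_le_ord Q (le_refl (Q.ord u))))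
    rw [hD, Finsupp.sub_apply, hZapply]
    rcases eq_or_ne Q Pm with rfl | hQ
    · rw [if_neg (by simp [Zs]), Finsupp.single_eq_same, Finsupp.single_eq_same]
      have := le_max_left (-(Pm.ord u)) 0
      omega
    · rw [Finsupp.single_eq_of_ne hQ, Finsupp.single_eq_of_ne hQ]
      by_cases hmem : Q ∈ Zs
      · rw [if_pos hmem]
        have := le_max_left (-(Q.ord u)) 0
        omega
      · rw [if_neg hmem]
        have : Q.ord u = 0 := by simpa [Zs, hQ] using hmem
        omega
  rw [hspan _ (by omega)] at hhn hhu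
  refine ⟨h * u, mem_regRing_of_span Γ (fun e => hPq e.symm) hhu (hhs.mul hs), h,
    mem_regRing_of_span Γ (fun e => hPq e.symm) hhn hhs, hnz, ?_⟩
  rw [mul_div_cancel_left₀ _ hnz.ne_zero]

end Fermat.Agent.AbVar
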