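import Fermat.Agent.AbVar.KVal
import Fermat.Agent.AbVar.ConstExtension

/-!
# Places: the relation "sends", evaluation at a place, places through a pair of homomorphisms

`π.Sends x y` says that `x` is integral at `π` with residue `y`.  A pair of homomorphisms on the
constants and on the functions extends to a place of the constant extension
(`exists_place_of_pair`).
-/

set_option autoImplicit false

noncomputable section

open AlgebraicCurve
open Fermat.Agent.FF
open Fermat.Agent.CurveTorsion (ev IsConstExt extPlace)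
open scoped TensorProduct

namespace Fermat.Agent.AbVar

universe u

namespace KPlace

variable {K : Type u} [Field K] {L : Type u} [Field L] [Algebra K L] {L' : Type u} [Field L']
  [Algebra K L'] {Λ : Type u} [Field Λ] [Algebra K Λ] {Λ' : Type u} [Field Λ'] [Algebra K Λ']
  {π : KPlace K L Λ}

/-- `x` is in the valuation ring and has residue `y`. -/
def Sends (π : KPlace K L Λ) (x : L) (y : Λ) : Prop :=
  ∃ h : x ∈ π.toKVal.toVal, π.res ⟨x, h⟩ = y

theorem Sends.mem {x : L} {y : Λ} (h : π.Sends x y) : x ∈ π.toKVal.toVal := h.1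

theorem Sends.res_eq {x : L} {y : Λ} (h : π.Sends x y) (hx : x ∈ π.toKVal.toVal) :
    π.res ⟨x, hx⟩ = y := h.2

variable (π) in
theorem sends_res (x : π.toKVal.toVal) : π.Sends (x : L) (π.res x) := ⟨x.2, rfl⟩

variable (π) in
theorem sends_of_mem {x : L} (hx : x ∈ π.toKVal.toVal) : π.Sends x (π.res ⟨x, hx⟩) := ⟨hx, rfl⟩

theorem Sends.unique {x : L} {y y' : Λ} (h : π.Sends x y) (h' : π.Sends x y') : y = y' :=
  h.2.symm.trans h'.2

theorem Sends.add {x x' : L} {y y' : Λ} (h : π.Sends x y) (h' : π.Sends x' y') :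
    π.Sends (x + x') (y + y') :=
  ⟨add_mem h.1 h'.1, by
    rw [show (⟨x + x', _⟩ : π.toKVal.toVal) = ⟨x, h.1⟩ + ⟨x', h'.1⟩ from rfl, map_add, h.2, h'.2]⟩

theorem Sends.mul {x x' : L} {y y' : Λ} (h : π.Sends x y) (h' : π.Sends x' y') :
    π.Sends (x * x') (y * y') :=
  ⟨mul_mem h.1 h'.1, by
    rw [show (⟨x * x', _⟩ : π.toKVal.toVal) = ⟨x, h.1⟩ * ⟨x', h'.1⟩ from rfl, map_mul, h.2, h'.2]⟩

theorem Sends.neg {x : L} {y : Λ} (h : π.Sends x y) : π.Sends (-x) (-y) :=
  ⟨neg_mem h.1, by
    rw [show (⟨-x, _⟩ : π.toKVal.toVal) = -⟨x, h.1⟩ from rfl, map_neg, h.2]⟩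

theorem Sends.sub {x x' : L} {y y' : Λ} (h : π.Sends x y) (h' : π.Sends x' y') :
    π.Sends (x - x') (y - y') := by
  rw [sub_eq_add_neg, sub_eq_add_neg]; exact h.add h'.neg

variable (π) in
theorem sends_zero : π.Sends 0 0 := ⟨zero_mem _, map_zero π.res⟩

variable (π) in
theorem sends_one : π.Sends 1 1 := ⟨one_mem _, map_one π.res⟩

variable (π) in
theorem sends_algebraMap (c : K) : π.Sends (algebraMap K L c) (algebraMap K Λ c) :=
  ⟨_, π.res_algebraMap c⟩

theorem Sends.sum {ι : Type*} (s : Finset ι) {x : ι → L} {y : ι → Λ}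
    (h : ∀ i ∈ s, π.Sends (x i) (y i)) : π.Sends (∑ i ∈ s, x i) (∑ i ∈ s, y i) := by
  classical
  induction s using Finset.induction_on with
  | empty => simpa using π.sends_zero
  | insert a s ha ih =>
    rw [Finset.sum_insert ha, Finset.sum_insert ha]
    exact (h a (Finset.mem_insert_self a s)).add (ih fun i hi => h i (Finset.mem_insert_of_mem hi))

theorem Sends.prod {ι : Type*} (s : Finset ι) {x : ι → L} {y : ι → Λ}
    (h : ∀ i ∈ s, π.Sends (x i) (y i)) : π.Sends (∏ i ∈ s, x i) (∏ i ∈ s, y i) := by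
  classical
  induction s using Finset.induction_on with
  | empty => simpa using π.sends_one
  | insert a s ha ih =>
    rw [Finset.prod_insert ha, Finset.prod_insert ha]
    exact (h a (Finset.mem_insert_self a s)).mul (ih fun i hi => h i (Finset.mem_insert_of_mem hi))

theorem Sends.pow {x : L} {y : Λ} (h : π.Sends x y) (n : ℕ) : π.Sends (x ^ n) (y ^ n) := by
  induction n with
  | zero => simpa using π.sends_one
  | succ n ih => rw [pow_succ, pow_succ]; exact ih.mul h

theorem Sends.ne_zero {x : L} {y : Λ} (h : π.Sends x y) (hy : y ≠ 0) : x ≠ 0 := by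
  rintro rfl
  exact hy (h.unique π.sends_zero)

theorem Sends.inv {x : L} {y : Λ} (h : π.Sends x y) (hy : y ≠ 0) : π.Sends x⁻¹ y⁻¹ := by
  have hm : x⁻¹ ∈ π.toKVal.toVal := π.inv_mem_of_res_ne_zero (x := ⟨x, h.1⟩) (by rw [h.2]; exact hy)
  have h1 := h.mul (π.sends_of_mem hm)
  rw [mul_inv_cancel₀ (h.ne_zero hy)] at h1
  exact ⟨hm, eq_inv_of_mul_eq_one_right (h1.unique π.sends_one)⟩

theorem Sends.div {x x' : L} {y y' : Λ} (h : π.Sends x y) (h' : π.Sends x' y') (hy : y' ≠ 0) :
    π.Sends (x / x') (y / y') := by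
  rw [div_eq_mul_inv, div_eq_mul_inv]; exact h.mul (h'.inv hy)

theorem sends_zero_of_inv_notMem {x : L} (h : x⁻¹ ∉ π.toKVal.toVal) : π.Sends x 0 := by
  have hx : x ∈ π.toKVal.toVal := (π.toKVal.toVal.mem_or_inv_mem x).resolve_right h
  exact ⟨hx, π.res_eq_zero_of_inv_notMem h⟩

theorem Sends.inv_notMem {x : L} (h : π.Sends x 0) (hx : x ≠ 0) :
    x⁻¹ ∉ π.toKVal.toVal := fun hm => by
  have h1 := h.mul (π.sends_of_mem hm)
  rw [mul_inv_cancel₀ hx, zero_mul] at h1
  exact one_ne_zero (π.sends_one.unique h1)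

theorem sends_comap {π : KPlace K L' Λ} {φ : L →ₐ[K] L'} {x : L} {y : Λ} :
    (π.comap φ).Sends x y ↔ π.Sends (φ x) y :=
  ⟨fun h => ⟨KVal.mem_comap.1 h.1, h.2⟩, fun h => ⟨KVal.mem_comap.2 h.1, h.2⟩⟩

theorem sends_comp {ρ : KPlace K Λ Λ'} {x : L} {z : Λ'} :
    (π.comp ρ).Sends x z ↔ ∃ y, π.Sends x y ∧ ρ.Sends y z := by
  constructor
  · rintro ⟨h, hz⟩
    obtain ⟨h1, h2⟩ := mem_pull.1 h
    exact ⟨_, ⟨h1, rfl⟩, h2, hz⟩
  · rintro ⟨y, ⟨h1, rfl⟩, h2, hz⟩
    exact ⟨mem_pull.2 ⟨h1, h2⟩, hz⟩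

end KPlace

/-- The place of a nontrivial valuation ring of a function field. -/
def KVal.toPlace {K F : Type u} [Field K] [Field F] [Algebra K F] [IsFunctionField K F]
    (V : KVal K F) (h : V.toVal ≠ ⊤) : Place K F :=
  ⟨V.toVal, V.algebraMap_mem', h, isPrincipalIdealRing_valuationSubring_of_ne_top V.toVal
    V.algebraMap_mem'⟩

/-! ### Evaluation at a place -/

section Eval

variable (K : Type u) [Field K] {L M : Type u} [Field L] [IsAlgClosed L] [Algebra K L] [Field M]
  [Algebra L M] [Algebra K M] [IsScalarTower K L M] [IsFunctionField L M]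

/-- Evaluation at a place of a curve over `L`, as a place over `K`. -/
def evalPlace (Q : Place L M) : KPlace K M L where
  toKVal := ⟨Q.toValuationSubring, fun c => by
    rw [IsScalarTower.algebraMap_apply K L M]; exact Q.algebraMap_mem' _⟩
  res :=
    { toFun := fun x => ev Q (x : M)
      map_one' := CurveTorsion.ev_one Q
      map_zero' := CurveTorsion.ev_zero Q
      map_add' := fun x y => CurveTorsion.ev_add Q ((mem_toValuationSubring_iff Q).1 x.2)
        ((mem_toValuationSubring_iff Q).1 y.2)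
      map_mul' := fun x y => CurveTorsion.ev_mul Q ((mem_toValuationSubring_iff Q).1 x.2)
        ((mem_toValuationSubring_iff Q).1 y.2) }
  res_algebraMap c := by
    show ev Q (algebraMap K M c) = _
    rw [IsScalarTower.algebraMap_apply K L M, CurveTorsion.ev_algebraMap]
  isUnit_of_res_ne_zero x hx := by
    obtain ⟨h0, hne⟩ := CurveTorsion.ord_eq_zero_of_ev_ne_zero Q
      ((mem_toValuationSubring_iff Q).1 x.2) hx
    refine IsUnit.of_mul_eq_one ⟨(x : M)⁻¹, ?_⟩ (Subtype.ext (mul_inv_cancel₀ hne))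
    exact (mem_toValuationSubring_iff Q).2 (CurveTorsion.inv_mem_ordGE_of_ord_eq_zero Q h0)

variable {K}

theorem sends_evalPlace {Q : Place L M} {x : M} {c : L} :
    (evalPlace K Q).Sends x c ↔ x ∈ ordGE Q 0 ∧ ev Q x = c :=
  ⟨fun h => ⟨(mem_toValuationSubring_iff Q).1 h.1, h.2⟩,
    fun h => ⟨(mem_toValuationSubring_iff Q).2 h.1, h.2⟩⟩

theorem sends_evalPlace_const (Q : Place L M) (c : L) :
    (evalPlace K Q).Sends (algebraMap L M c) c :=
  sends_evalPlace.2 ⟨algebraMap_mem_ordGE_zero Q c, CurveTorsion.ev_algebraMap Q c⟩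

theorem sends_evalPlace_zero_iff {Q : Place L M} {x : M} :
    (evalPlace K Q).Sends x 0 ↔ x ∈ ordGE Q 1 := by
  rw [sends_evalPlace]
  constructor
  · rintro ⟨h, h0⟩; exact (CurveTorsion.ev_eq_zero_iff Q h).1 h0
  · intro h
    have h0 := ordGE_antitone Q zero_le_one h
    exact ⟨h0, (CurveTorsion.ev_eq_zero_iff Q h0).2 h⟩

/-- A place over the constants with the valuation ring of `Q` is evaluation at `Q`. -/
theorem sends_evalPlace_of_toVal_eq {Ω : Type u} [Field Ω] [Algebra K Ω] (π : KPlace K M Ω)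
    (j : L →+* Ω) (hj : ∀ c, π.Sends (algebraMap L M c) (j c)) (Q : Place L M)
    (hQ : Q.toValuationSubring = π.toKVal.toVal) {x : M} {z : Ω} (hx : π.Sends x z) :
    ∃ c, z = j c ∧ (evalPlace K Q).Sends x c := by
  have hm : x ∈ ordGE Q 0 := (mem_toValuationSubring_iff Q).1 (hQ ▸ hx.1)
  refine ⟨ev Q x, ?_, sends_evalPlace.2 ⟨hm, rfl⟩⟩
  set w := x - algebraMap L M (ev Q x) with hw
  have h1 : π.Sends w (z - j (ev Q x)) := hx.sub (hj _)
  have h2 : π.Sends w 0 := by
    rcases eq_or_ne w 0 with h0 | h0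
    · rw [h0]; exact π.sends_zero
    refine KPlace.sends_zero_of_inv_notMem fun hinv => ?_
    rw [← hQ, mem_toValuationSubring_iff, mem_ordGE_of_ne_zero Q (inv_ne_zero h0),
      Q.ord_inv] at hinv
    have := (mem_ordGE_of_ne_zero Q h0).1 (CurveTorsion.sub_ev_mem Q hm)
    omega
  exact sub_eq_zero.1 (h1.unique h2)

end Eval

/-! ### Places through a pair of homomorphisms -/

section Pair

variable {K F L M : Type u} [Field K] [Field F] [Field L] [Field M] [Algebra K F] [Algebra K L]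
  [Algebra L M] [Algebra F M] [Algebra K M] [IsScalarTower K L M] [IsScalarTower K F M]
  [IsAlgClosed K] [IsAlgClosed L] [IsFunctionField K F] [IsConstExt F L M]

variable (M) in
/-- A pair of homomorphisms on constants and functions extends to a place. -/
theorem exists_place_of_pair {R : Type u} [CommRing R] [Algebra K R] (j : R →ₐ[K] L)
    (hj : Function.Injective j) {Ω : Type u} [Field Ω] [Algebra K Ω] [IsAlgClosed Ω]
    (a : R →ₐ[K] Ω) (b : F →ₐ[K] Ω) :
    ∃ π : KPlace K M Ω, (∀ r, π.Sends (algebraMap L M (j r)) (a r)) ∧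
      ∀ f, π.Sends (algebraMap F M f) (b f) := by
  have : IsFunctionField L M := CurveTorsion.isFunctionField_ext K F
  let c := constLift (F := F) (M := M) j
  let e := AlgEquiv.ofInjective c (constLift_injective j hj)
  obtain ⟨π, hπ⟩ := exists_place_extending c.range
    ((Algebra.TensorProduct.lift a b fun _ _ => Commute.all _ _).comp e.symm.toAlgHom)
  have key : ∀ z : R ⊗[K] F, π.Sends (c z)
      (Algebra.TensorProduct.lift a b (fun _ _ => Commute.all _ _) z) := fun z => by
    obtain ⟨h, he⟩ := hπ (e z)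
    refine ⟨h, he.trans ?_⟩
    show Algebra.TensorProduct.lift a b (fun _ _ => Commute.all _ _) (e.symm (e z)) = _
    rw [AlgEquiv.symm_apply_apply]
  refine ⟨π, fun r => ?_, fun f => ?_⟩
  · simpa [c, constLift_tmul] using key (r ⊗ₜ 1)
  · simpa [c, constLift_tmul] using key (1 ⊗ₜ f)

end Pair

end Fermat.Agent.AbVar
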