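import Mathlib.RingTheory.Smooth.StandardSmoothCotangent
import Mathlib.RingTheory.Etale.Kaehler
import Mathlib.RingTheory.Etale.Basic
import Mathlib.RingTheory.Ideal.Cotangent
import Mathlib.RingTheory.MvPowerSeries.Equiv
import Mathlib.RingTheory.MvPolynomial.Ideal
import Mathlib.RingTheory.Filtration
import Mathlib.RingTheory.Nakayama
import Mathlib.RingTheory.MvPowerSeries.NoZeroDivisors
import Mathlib.RingTheory.AlgebraicIndependent.Basic
import Mathlib.RingTheory.Jacobson.Ring
import Mathlib.FieldTheory.IsAlgClosed.Basic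
import Mathlib.LinearAlgebra.Dimension.Free
import Mathlib.RingTheory.Localization.Module
import Mathlib.RingTheory.Localization.Submodule

/-!
# Coordinates of a smooth local algebra with rational residue field

A formally smooth noetherian local `K`-algebra `O` with residue field `K` whose differentials are
free of rank `g` maps to `K[[X₁,…,X_g]]` in a way which is an isomorphism modulo every power of the
maximal ideals. In particular it is a domain.
-/

set_option autoImplicit false

noncomputable section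

universe u

open MvPolynomial

namespace Fermat.Agent.AbVar

open IsLocalRing

variable {K : Type u} [Field K] {g : ℕ}

/-! ### Power series with few vanishing coefficients -/

theorem mem_span_X_pow_of_coeff (n : ℕ) (f : MvPowerSeries (Fin g) K)
    (h : ∀ d : Fin g →₀ ℕ, d.degree < n → MvPowerSeries.coeff d f = 0) :
    f ∈ Ideal.span (Set.range (MvPowerSeries.X : Fin g → MvPowerSeries (Fin g) K)) ^ n := by
  classical
  induction n generalizing f with
  | zero => simp
  | succ n ih =>
    let F : Fin g → MvPowerSeries (Fin g) K := fun i e =>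
      if ∀ j, j < i → e j = 0 then MvPowerSeries.coeff (e + Finsupp.single i 1) f else 0
    have hf : f = ∑ i, MvPowerSeries.X i * F i := by
      refine MvPowerSeries.ext fun d => ?_
      rw [map_sum]
      simp only [MvPowerSeries.X_def, MvPowerSeries.coeff_monomial_mul, one_mul]
      rcases eq_or_ne d 0 with rfl | hd
      · rw [h 0 (by simp)]
        refine (Finset.sum_eq_zero fun i _ => if_neg fun hle => ?_).symm
        simpa using hle i
      obtain ⟨i₀, hi₀, hmin⟩ : ∃ i₀, d i₀ ≠ 0 ∧ ∀ j, j < i₀ → d j = 0 := by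
        have hne : d.support.Nonempty := Finsupp.support_nonempty_iff.mpr hd
        exact ⟨d.support.min' hne, Finsupp.mem_support_iff.mp (d.support.min'_mem hne), fun j hj =>
          by_contra fun hj' => absurd (d.support.min'_le j (Finsupp.mem_support_iff.mpr hj'))
            (not_le.mpr hj)⟩
      rw [Finset.sum_eq_single i₀]
      · rw [if_pos (Finsupp.single_le_iff.mpr (Nat.one_le_iff_ne_zero.mpr hi₀))]
        show _ = F i₀ (d - Finsupp.single i₀ 1)
        simp only [F]
        rw [if_pos, tsub_add_cancel_of_le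
          (Finsupp.single_le_iff.mpr (Nat.one_le_iff_ne_zero.mpr hi₀))]
        intro j hj
        simp [Finsupp.tsub_apply, hmin j hj, hj.ne]
      · intro i _ hi
        split_ifs with hle
        · show F i (d - Finsupp.single i 1) = 0
          refine if_neg fun hall => ?_
          rcases lt_or_gt_of_ne hi with h' | h'
          · have := hmin i h'
            have := Finsupp.single_le_iff.mp hle
            omega
          · exact hi₀ (by simpa [Finsupp.tsub_apply, h'.ne] using hall i₀ h')
        · rfl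
      · simp
    rw [hf, pow_succ']
    refine Submodule.sum_mem _ fun i _ =>
      Ideal.mul_mem_mul (Ideal.subset_span ⟨i, rfl⟩) (ih _ fun e he => ?_)
    show F i e = 0
    simp only [F]
    split_ifs
    · refine h _ ?_
      rw [map_add, Finsupp.degree_single]
      omega
    · rfl

theorem maximalIdeal_mvPowerSeries :
    maximalIdeal (MvPowerSeries (Fin g) K) =
      Ideal.span (Set.range (MvPowerSeries.X : Fin g → MvPowerSeries (Fin g) K)) := by
  refine le_antisymm (fun f hf => ?_) (Ideal.span_le.mpr ?_)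
  · rw [mem_maximalIdeal, mem_nonunits_iff, MvPowerSeries.isUnit_iff_constantCoeff,
      isUnit_iff_ne_zero, not_not] at hf
    simpa using mem_span_X_pow_of_coeff 1 f fun d hd => by
      obtain rfl : d = 0 := by
        simpa using Finsupp.degree_eq_zero_iff d |>.mp (Nat.lt_one_iff.mp hd)
      rwa [MvPowerSeries.coeff_zero_eq_constantCoeff]
  · rintro _ ⟨i, rfl⟩
    rw [SetLike.mem_coe, mem_maximalIdeal, mem_nonunits_iff, MvPowerSeries.isUnit_iff_constantCoeff]
    simp

/-! ### Approximation by polynomials -/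

section Approx

variable {A : Type u} [CommRing A] [Algebra K A] (x : Fin g → A)

theorem map_idealOfVars_pow (n : ℕ) :
    Ideal.map (aeval x) (idealOfVars (Fin g) K ^ n) = Ideal.span (Set.range x) ^ n := by
  rw [Ideal.map_pow, idealOfVars, Ideal.map_span, ← Set.range_comp]
  simp [Function.comp_def]

variable {x}

theorem exists_approx (hres : ∀ a : A, ∃ c : K, a - algebraMap K A c ∈ Ideal.span (Set.range x))
    (n : ℕ) (a : A) :
    ∃ p : MvPolynomial (Fin g) K, a - aeval x p ∈ Ideal.span (Set.range x) ^ n := by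
  induction n with
  | zero => exact ⟨0, by simp⟩
  | succ n ih =>
    obtain ⟨p, hp⟩ := ih
    suffices h : ∀ y ∈ Ideal.map (aeval (R := K) x) (idealOfVars (Fin g) K ^ n),
        ∃ q : MvPolynomial (Fin g) K,
        y - aeval x q ∈ Ideal.span (Set.range x) ^ (n + 1) ∧ y ∈ Ideal.span (Set.range x) ^ n by
      obtain ⟨q, hq, -⟩ := h _ (by rwa [map_idealOfVars_pow])
      exact ⟨p + q, by rwa [map_add, ← sub_sub]⟩
    intro y hy
    induction hy using Submodule.span_induction with
    | mem y hy =>
      obtain ⟨q, hq, rfl⟩ := hy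
      exact ⟨q, by simp, map_idealOfVars_pow (K := K) x n ▸ Ideal.mem_map_of_mem (aeval x) hq⟩
    | zero => exact ⟨0, by simp, zero_mem _⟩
    | add y z _ _ hy hz =>
      obtain ⟨q, hq, hy⟩ := hy
      obtain ⟨r, hr, hz⟩ := hz
      exact ⟨q + r, by rw [map_add, add_sub_add_comm]; exact add_mem hq hr, add_mem hy hz⟩
    | smul r y _ hy =>
      obtain ⟨q, hq, hy⟩ := hy
      obtain ⟨c, hc⟩ := hres r
      refine ⟨C c * q, ?_, Ideal.mul_mem_left _ r hy⟩
      rw [map_mul, aeval_C, smul_eq_mul,
        show r * y - algebraMap K A c * aeval x q =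
          (r - algebraMap K A c) * y + algebraMap K A c * (y - aeval x q) by ring, pow_succ']
      exact add_mem (Ideal.mul_mem_mul hc hy) (Ideal.mul_mem_left _ _ (by rwa [pow_succ'] at hq))

end Approx

/-- An endomorphism congruent to the identity modulo the square of the variables. -/
theorem mem_pow_of_aeval_mem (e : Fin g → MvPolynomial (Fin g) K)
    (he : ∀ i, e i ∈ idealOfVars (Fin g) K ^ 2) {n : ℕ} {p : MvPolynomial (Fin g) K}
    (hp : aeval (fun i => X i + e i) p ∈ idealOfVars (Fin g) K ^ n) :
    p ∈ idealOfVars (Fin g) K ^ n := by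
  set 𝔭 := idealOfVars (Fin g) K with h𝔭
  set θ : MvPolynomial (Fin g) K →ₐ[K] MvPolynomial (Fin g) K := aeval fun i => X i + e i
  have hX : ∀ i, (X i : MvPolynomial (Fin g) K) ∈ 𝔭 := fun i => Ideal.subset_span ⟨i, rfl⟩
  have h0 : ∀ q, θ q - q ∈ 𝔭 := by
    intro q
    induction q using MvPolynomial.induction_on with
    | C a => simp [θ]
    | add a b ha hb =>
      rw [map_add, add_sub_add_comm]; exact add_mem ha hb
    | mul_X a i ha =>
      rw [map_mul]
      refine sub_mem ?_ (Ideal.mul_mem_left _ _ (hX i))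
      exact Ideal.mul_mem_left _ _ (by
        simp only [θ, aeval_X]
        exact add_mem (hX i) (Ideal.pow_le_self two_ne_zero (he i)))
  have hj : ∀ j, ∀ q ∈ 𝔭 ^ j, θ q - q ∈ 𝔭 ^ (j + 1) := by
    intro j
    induction j with
    | zero => intro q _; simpa using h0 q
    | succ j ih =>
      intro q hq
      rw [pow_succ'] at hq
      induction hq using Submodule.mul_induction_on' with
      | mem_mul_mem a ha b hb =>
        have ha1 : θ a - a ∈ 𝔭 ^ 2 := by
          clear hb b
          induction ha using Submodule.span_induction with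
          | mem a ha =>
            obtain ⟨i, rfl⟩ := ha
            simpa [θ] using he i
          | zero => simp
          | add u v _ _ hu hv => rw [map_add, add_sub_add_comm]; exact add_mem hu hv
          | smul r u hu hu' =>
            rw [smul_eq_mul, map_mul, show θ r * θ u - r * u =
              θ r * (θ u - u) + (θ r - r) * u by ring, pow_two]
            exact add_mem (Ideal.mul_mem_left _ _ (pow_two 𝔭 ▸ hu'))
              (Ideal.mul_mem_mul (h0 r) hu)
        have hθa : θ a ∈ 𝔭 := by
          have := add_mem (Ideal.pow_le_self two_ne_zero ha1) ha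
          rwa [sub_add_cancel] at this
        rw [map_mul, show θ a * θ b - a * b = θ a * (θ b - b) + (θ a - a) * b by ring]
        refine add_mem ?_ ?_
        · rw [pow_succ']; exact Ideal.mul_mem_mul hθa (ih b hb)
        · rw [show j + 1 + 1 = 2 + j by omega, pow_add]; exact Ideal.mul_mem_mul ha1 hb
      | add a _ b _ ha hb => rw [map_add, add_sub_add_comm]; exact add_mem ha hb
  suffices h : ∀ j ≤ n, p ∈ 𝔭 ^ j from h n le_rfl
  intro j hj'
  induction j with
  | zero => simp
  | succ j ih =>
    have h1 := hj j p (ih (by omega))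
    have h2 : θ p ∈ 𝔭 ^ (j + 1) := Ideal.pow_le_pow_right hj' hp
    have := sub_mem h2 h1
    rwa [sub_sub_cancel] at this

/-! ### The coordinates -/

variable {O : Type u} [CommRing O] [IsLocalRing O] [IsNoetherianRing O] [Algebra K O]

omit [IsNoetherianRing O] in
/-- The value at the rational point. -/
theorem exists_derivation (hres : ∀ o : O, ∃ c : K, o - algebraMap K O c ∈ maximalIdeal O) :
    ∃ δ : Derivation K O (maximalIdeal O).Cotangent, ∀ (o : O) (c : K)
      (h : o - algebraMap K O c ∈ maximalIdeal O),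
      δ o = (maximalIdeal O).toCotangent ⟨_, h⟩ := by
  choose ε hε using hres
  have huniq : ∀ (o : O) (c : K), o - algebraMap K O c ∈ maximalIdeal O → ε o = c := by
    intro o c h
    by_contra hne
    have h1 := sub_mem h (hε o)
    rw [sub_sub_sub_cancel_left, ← map_sub] at h1
    exact h1 ((isUnit_iff_ne_zero.mpr (sub_ne_zero.mpr hne)).map _)
  let d : O → (maximalIdeal O).Cotangent := fun o => (maximalIdeal O).toCotangent ⟨_, hε o⟩
  have hd : ∀ (o : O) (c : K) (h : o - algebraMap K O c ∈ maximalIdeal O),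
      d o = (maximalIdeal O).toCotangent ⟨_, h⟩ := fun o c h => by
    obtain rfl := huniq o c h
    rfl
  have hadd : ∀ a b, d (a + b) = d a + d b := fun a b => by
    have hab : a + b - algebraMap K O (ε a + ε b) ∈ maximalIdeal O := by
      rw [map_add, add_sub_add_comm]; exact add_mem (hε a) (hε b)
    rw [hd (a + b) _ hab, hd a _ (hε a), hd b _ (hε b), ← map_add (maximalIdeal O).toCotangent]
    exact congrArg _ (Subtype.ext (by simp [add_sub_add_comm]))
  let l : O →ₗ[K] (maximalIdeal O).Cotangent :=
    { toFun := d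
      map_add' := hadd
      map_smul' := fun c a => by
        have hm : c • a - algebraMap K O (c * ε a) =
            algebraMap K O c • (a - algebraMap K O (ε a)) := by
          rw [Algebra.smul_def, map_mul, smul_eq_mul, mul_sub]
        rw [RingHom.id_apply, hd (c • a) (c * ε a) (hm ▸ Ideal.mul_mem_left _ _ (hε a)),
          ← IsScalarTower.algebraMap_smul O c (d a), ← map_smul]
        exact congrArg _ (Subtype.ext hm) }
  refine ⟨Derivation.mk' l fun a b => ?_, hd⟩
  have hm : a * b - algebraMap K O (ε a * ε b) ∈ maximalIdeal O := by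
    rw [map_mul, show a * b - algebraMap K O (ε a) * algebraMap K O (ε b) =
      a * (b - algebraMap K O (ε b)) + algebraMap K O (ε b) * (a - algebraMap K O (ε a)) by ring]
    exact add_mem (Ideal.mul_mem_left _ _ (hε b)) (Ideal.mul_mem_left _ _ (hε a))
  show d (a * b) = a • d b + b • d a
  rw [hd (a * b) _ hm, ← map_smul, ← map_smul, ← map_add, Ideal.toCotangent_eq, pow_two]
  have he : (a * b - algebraMap K O (ε a * ε b)) -
      (a * (b - algebraMap K O (ε b)) + b * (a - algebraMap K O (ε a))) =
      -((a - algebraMap K O (ε a)) * (b - algebraMap K O (ε b))) := by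
    rw [map_mul]; ring
  show (a * b - algebraMap K O (ε a * ε b)) -
    (a * (b - algebraMap K O (ε b)) + b * (a - algebraMap K O (ε a))) ∈ _
  rw [he]
  exact neg_mem (Ideal.mul_mem_mul (hε a) (hε b))

variable [Algebra.EssFiniteType K O]

omit [Algebra.EssFiniteType K O] in
/-- **A regular system of parameters.** -/
theorem exists_params (hres : ∀ o : O, ∃ c : K, o - algebraMap K O c ∈ maximalIdeal O)
    (e : Module.Basis (Fin g) O (Ω[O⁄K])) :
    ∃ x : Fin g → O, maximalIdeal O = Ideal.span (Set.range x) ∧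
      ∀ c : Fin g → K, ∑ i, algebraMap K O (c i) * x i ∈ maximalIdeal O ^ 2 → c = 0 := by
  classical
  set 𝔪 := maximalIdeal O
  obtain ⟨δ, hδ⟩ := exists_derivation hres
  let L := δ.liftKaehlerDifferential
  let D := KaehlerDifferential.D K O
  choose x hx using fun i => 𝔪.toCotangent_surjective (L (e i))
  have hL : ∀ o, L (D o) = δ o := δ.liftKaehlerDifferential_comp_D
  have hmemL : ∀ a : 𝔪, δ (a : O) = 𝔪.toCotangent a := fun a => by
    rw [hδ a 0 (by simp)]
    exact congrArg _ (Subtype.ext (by simp))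
  have hDsq : ∀ a ∈ 𝔪 ^ 2, D a ∈ 𝔪 • (⊤ : Submodule O (Ω[O⁄K])) := fun a ha => by
    rw [pow_two] at ha
    induction ha using Submodule.mul_induction_on' with
    | mem_mul_mem u hu v hv =>
      rw [D.leibniz]
      exact add_mem (Submodule.smul_mem_smul hu trivial) (Submodule.smul_mem_smul hv trivial)
    | add u _ v _ hu hv => rw [map_add]; exact add_mem hu hv
  have hΨ : ∀ ω : Ω[O⁄K], ∃ a : 𝔪, 𝔪.toCotangent a = L ω ∧
      ω - D (a : O) ∈ 𝔪 • (⊤ : Submodule O (Ω[O⁄K])) := fun ω => by
    have hω : ω ∈ Submodule.span O (Set.range D) := by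
      rw [KaehlerDifferential.span_range_derivation]; trivial
    induction hω using Submodule.span_induction with
    | mem ω hω =>
      obtain ⟨o, rfl⟩ := hω
      obtain ⟨c, hc⟩ := hres o
      exact ⟨⟨_, hc⟩, by rw [hL, hδ o c hc], by simp⟩
    | zero => exact ⟨0, by simp, by simp⟩
    | add u v _ _ hu hv =>
      obtain ⟨a, ha, ha'⟩ := hu
      obtain ⟨b, hb, hb'⟩ := hv
      exact ⟨a + b, by rw [map_add, map_add, ha, hb], by
        rw [Submodule.coe_add, map_add, add_sub_add_comm]; exact add_mem ha' hb'⟩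
    | smul r u _ hu =>
      obtain ⟨a, ha, ha'⟩ := hu
      refine ⟨r • a, by rw [map_smul, map_smul, ha], ?_⟩
      rw [Submodule.coe_smul, smul_eq_mul, D.leibniz, ← sub_sub, ← smul_sub]
      exact sub_mem (Submodule.smul_mem _ r ha') (Submodule.smul_mem_smul a.2 trivial)
  have hDx : ∀ i, e i - D (x i : O) ∈ 𝔪 • (⊤ : Submodule O (Ω[O⁄K])) := fun i => by
    obtain ⟨a, ha, ha'⟩ := hΨ (e i)
    have h1 := hDsq _ ((𝔪.toCotangent_eq).mp (ha.trans (hx i).symm))
    rw [map_sub] at h1
    have := add_mem ha' h1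
    rwa [sub_add_sub_cancel] at this
  refine ⟨fun i => x i, le_antisymm ?_ ?_, fun c hc => ?_⟩
  · refine Submodule.le_of_le_smul_of_le_jacobson_bot (IsNoetherian.noetherian 𝔪)
      (maximalIdeal_le_jacobson ⊥) fun a ha => ?_
    have h1 : 𝔪.toCotangent ⟨a, ha⟩ = 𝔪.toCotangent (∑ i, e.repr (D a) i • x i) := by
      rw [← hmemL ⟨a, ha⟩, ← hL, map_sum]
      conv_lhs => rw [← e.sum_repr (D a), map_sum]
      exact Finset.sum_congr rfl fun i _ => by rw [map_smul, map_smul, hx]
    have h2 := (𝔪.toCotangent_eq).mp h1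
    rw [smul_eq_mul, ← pow_two]
    refine Submodule.mem_sup.mpr ⟨_, ?_, _, h2, add_sub_cancel _ _⟩
    rw [Submodule.coe_sum]
    exact Submodule.sum_mem _ fun i _ => Ideal.mul_mem_left _ _ (Ideal.subset_span ⟨i, rfl⟩)
  · exact Ideal.span_le.mpr (by rintro _ ⟨i, rfl⟩; exact (x i).2)
  · have h1 := hDsq _ hc
    rw [map_sum] at h1
    have h2 : ∀ i, D (algebraMap K O (c i) * (x i : O)) = algebraMap K O (c i) • D (x i : O) :=
      fun i => by rw [D.leibniz, D.map_algebraMap, smul_zero, add_zero]
    simp only [h2] at h1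
    have h3 : ∑ i, algebraMap K O (c i) • e i ∈ 𝔪 • (⊤ : Submodule O (Ω[O⁄K])) := by
      have := add_mem h1 (Submodule.sum_mem (t := Finset.univ) _ fun i _ =>
        Submodule.smul_mem _ (algebraMap K O (c i)) (hDx i))
      simpa [← Finset.sum_add_distrib, ← smul_add] using this
    have hrepr : ∀ v ∈ 𝔪 • (⊤ : Submodule O (Ω[O⁄K])), ∀ i, e.repr v i ∈ 𝔪 := fun v hv i => by
      refine Submodule.smul_induction_on hv (fun r hr u _ => ?_) fun u w hu hw => ?_
      · rw [map_smul, Finsupp.smul_apply, smul_eq_mul]; exact Ideal.mul_mem_right _ _ hr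
      · rw [map_add, Finsupp.add_apply]; exact add_mem hu hw
    funext i
    have h4 := hrepr _ h3 i
    rw [e.repr_sum_self] at h4
    by_contra hci
    exact h4 ((isUnit_iff_ne_zero.mpr hci).map _)

variable [Algebra.FormallySmooth K O]

omit [IsNoetherianRing O] [Algebra.EssFiniteType K O] in
theorem mem_pow_of_aeval_mem_pow {x : Fin g → O} (hx : maximalIdeal O = Ideal.span (Set.range x))
    (hres : ∀ o : O, ∃ c : K, o - algebraMap K O c ∈ maximalIdeal O)
    (hind : ∀ c : Fin g → K, ∑ i, algebraMap K O (c i) * x i ∈ maximalIdeal O ^ 2 → c = 0)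
    {n : ℕ} {p : MvPolynomial (Fin g) K} (hp : aeval x p ∈ maximalIdeal O ^ n) :
    p ∈ idealOfVars (Fin g) K ^ n := by
  classical
  set 𝔭 := idealOfVars (Fin g) K
  have hapx := exists_approx (x := x) (by rwa [← hx])
  simp only [← hx] at hapx
  have hmap := fun j => map_idealOfVars_pow (K := K) x j
  simp only [← hx] at hmap
  -- the case `n = 2`
  have htwo : ∀ q : MvPolynomial (Fin g) K, aeval x q ∈ maximalIdeal O ^ 2 → q ∈ 𝔭 ^ 2 := by
    intro q hq
    set ℓ : MvPolynomial (Fin g) K := C (coeff 0 q) + ∑ i, C (coeff (Finsupp.single i 1) q) * X i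
    have hℓ : q - ℓ ∈ 𝔭 ^ 2 := by
      refine (mem_pow_idealOfVars_iff' 2 _).mpr fun d hd => ?_
      rcases Nat.lt_succ_iff_lt_or_eq.mp hd with h | h
      · obtain rfl : d = 0 := (Finsupp.degree_eq_zero_iff d).mp (Nat.lt_one_iff.mp h)
        simp [ℓ, coeff_sum, coeff_C_mul, coeff_X]
      · obtain ⟨i, hi⟩ : ∃ i, 1 ≤ d i := by
          by_contra! hne
          have : d = 0 := by ext i; simpa using hne i
          simp [this] at h
        obtain ⟨e, rfl⟩ : ∃ e, d = Finsupp.single i 1 + e :=
          exists_add_of_le (Finsupp.single_le_iff.mpr hi)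
        rw [map_add, Finsupp.degree_single] at h
        obtain rfl : e = 0 := (Finsupp.degree_eq_zero_iff e).mp (by omega)
        rw [add_zero]
        have hne : (0 : Fin g →₀ ℕ) ≠ Finsupp.single i 1 := fun hc => by
          simpa using congrArg (fun v : Fin g →₀ ℕ => v i) hc
        simp [ℓ, coeff_sum, coeff_C_mul, coeff_X, coeff_C, Finsupp.single_left_inj, hne]
    have h1 : aeval x ℓ ∈ maximalIdeal O ^ 2 := by
      have := sub_mem hq (hmap 2 ▸ Ideal.mem_map_of_mem (aeval x) hℓ)
      rwa [map_sub, sub_sub_cancel] at this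
    simp only [ℓ, map_add, map_sum, map_mul, aeval_C, aeval_X] at h1
    have h0 : coeff 0 q = 0 := by
      by_contra hne
      have h2 : algebraMap K O (coeff 0 q) ∈ maximalIdeal O := by
        have := sub_mem (Ideal.pow_le_self two_ne_zero h1)
          (Submodule.sum_mem (maximalIdeal O) (t := Finset.univ)
            (f := fun i => algebraMap K O (coeff (Finsupp.single i 1) q) * x i) fun i _ =>
              Ideal.mul_mem_left _ _ (hx ▸ Ideal.subset_span ⟨i, rfl⟩))
        rwa [add_sub_cancel_right] at this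
      exact h2 ((isUnit_iff_ne_zero.mpr hne).map _)
    rw [h0, map_zero, zero_add] at h1
    have h3 := hind _ h1
    have : ℓ = 0 := by simp [ℓ, h0, congrFun h3]
    rwa [this, sub_zero] at hℓ
  rcases Nat.lt_or_ge n 2 with hn | hn
  · interval_cases n
    · simp
    · refine (mem_pow_idealOfVars_iff' 1 p).mpr fun d hd => ?_
      obtain rfl : d = 0 := (Finsupp.degree_eq_zero_iff d).mp (Nat.lt_one_iff.mp hd)
      have h1 : p - C (coeff 0 p) ∈ 𝔭 ^ 1 := (mem_pow_idealOfVars_iff' 1 _).mpr fun d hd => by
        obtain rfl : d = 0 := (Finsupp.degree_eq_zero_iff d).mp (Nat.lt_one_iff.mp hd)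
        simp
      have := sub_mem hp (hmap 1 ▸ Ideal.mem_map_of_mem (aeval x) h1)
      rw [map_sub, sub_sub_cancel, aeval_C, pow_one] at this
      by_contra hne
      exact this ((isUnit_iff_ne_zero.mpr hne).map _)
  -- invert modulo the square, then lift
  let ψ : MvPolynomial (Fin g) K ⧸ 𝔭 ^ 2 →ₐ[K] O ⧸ maximalIdeal O ^ 2 :=
    Ideal.Quotient.liftₐ (𝔭 ^ 2) ((Ideal.Quotient.mkₐ K _).comp (aeval x)) fun a ha =>
      Ideal.Quotient.eq_zero_iff_mem.mpr (hmap 2 ▸ Ideal.mem_map_of_mem (aeval x) ha)
  have hψ : Function.Bijective ψ := by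
    refine ⟨(injective_iff_map_eq_zero ψ).mpr fun a ha => ?_, fun b => ?_⟩
    · obtain ⟨a, rfl⟩ := Ideal.Quotient.mk_surjective a
      exact Ideal.Quotient.eq_zero_iff_mem.mpr (htwo a (Ideal.Quotient.eq_zero_iff_mem.mp ha))
    · obtain ⟨b, rfl⟩ := Ideal.Quotient.mk_surjective b
      obtain ⟨a, ha⟩ := hapx 2 b
      exact ⟨Ideal.Quotient.mk _ a, (Ideal.Quotient.eq.mpr ha).symm⟩
  let I : Ideal (MvPolynomial (Fin g) K ⧸ 𝔭 ^ n) := (𝔭 ^ 2).map (Ideal.Quotient.mk (𝔭 ^ n))
  have hI : IsNilpotent I := ⟨n, by
    rw [← Ideal.map_pow, Ideal.zero_eq_bot, eq_bot_iff, ← Ideal.map_quotient_self (𝔭 ^ n)]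
    exact Ideal.map_mono (by rw [← pow_mul]; exact Ideal.pow_le_pow_right (by omega))⟩
  let q₀ : MvPolynomial (Fin g) K ⧸ 𝔭 ^ 2 →ₐ[K]
      (MvPolynomial (Fin g) K ⧸ 𝔭 ^ n) ⧸ I :=
    Ideal.Quotient.liftₐ (𝔭 ^ 2) ((Ideal.Quotient.mkₐ K I).comp (Ideal.Quotient.mkₐ K (𝔭 ^ n)))
      fun a ha => Ideal.Quotient.eq_zero_iff_mem.mpr (Ideal.mem_map_of_mem _ ha)
  let χ₂ : O →ₐ[K] MvPolynomial (Fin g) K ⧸ 𝔭 ^ 2 :=
    (AlgEquiv.ofBijective ψ hψ).symm.toAlgHom.comp (Ideal.Quotient.mkₐ K _)
  let χ := Algebra.FormallySmooth.lift I hI (q₀.comp χ₂)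
  have hχ₂ : ∀ i, χ₂ (x i) = Ideal.Quotient.mk _ (X i) := fun i => by
    refine (AlgEquiv.ofBijective ψ hψ).injective ?_
    show (AlgEquiv.ofBijective ψ hψ) ((AlgEquiv.ofBijective ψ hψ).symm _) = _
    rw [AlgEquiv.apply_symm_apply]
    show Ideal.Quotient.mkₐ K _ (x i) = Ideal.Quotient.mk _ (aeval x (X i))
    rw [aeval_X]; rfl
  choose e₀ he₀ using fun i => Ideal.Quotient.mk_surjective (χ (x i))
  have he : ∀ i, e₀ i - X i ∈ 𝔭 ^ 2 := fun i => by
    have h1 := Algebra.FormallySmooth.mk_lift I hI (q₀.comp χ₂) (x i)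
    rw [AlgHom.comp_apply, hχ₂] at h1
    change Ideal.Quotient.mk I (χ (x i)) = Ideal.Quotient.mk I (Ideal.Quotient.mk _ (X i)) at h1
    rw [← he₀, Ideal.Quotient.eq, ← map_sub,
      Ideal.mem_map_iff_of_surjective _ Ideal.Quotient.mk_surjective] at h1
    obtain ⟨b, hb, hbe⟩ := h1
    rw [Ideal.Quotient.eq] at hbe
    have := sub_mem hb (Ideal.pow_le_pow_right hn hbe)
    rwa [sub_sub_cancel] at this
  have hcomp : χ.comp (aeval x) =
      (Ideal.Quotient.mkₐ K (𝔭 ^ n)).comp (aeval fun i => X i + (e₀ i - X i)) :=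
    MvPolynomial.algHom_ext fun i => by simp [he₀]
  have hχm : (maximalIdeal O).map χ ≤ 𝔭.map (Ideal.Quotient.mk (𝔭 ^ n)) := by
    rw [hx, Ideal.map_span, Ideal.span_le]
    rintro _ ⟨_, ⟨i, rfl⟩, rfl⟩
    rw [← he₀]
    refine Ideal.mem_map_of_mem _ ?_
    have := add_mem (Ideal.pow_le_self two_ne_zero (he i))
      (Ideal.subset_span ⟨i, rfl⟩ : (X i : MvPolynomial (Fin g) K) ∈ 𝔭)
    rwa [sub_add_cancel] at this
  have hzero : χ (aeval x p) = 0 := by
    have h1 := Ideal.mem_map_of_mem χ hp
    rw [Ideal.map_pow] at h1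
    have h2 := Ideal.pow_right_mono hχm n h1
    rwa [← Ideal.map_pow, Ideal.map_quotient_self, Ideal.mem_bot] at h2
  rw [← AlgHom.comp_apply, hcomp] at hzero
  exact mem_pow_of_aeval_mem _ he (Ideal.Quotient.eq_zero_iff_mem.mp hzero)

/-- Completion coordinates of a local `K`-algebra. -/
structure Coords (K : Type u) [Field K] (O : Type u) [CommRing O] [IsLocalRing O] [Algebra K O]
    (g : ℕ) where
  /-- the parameters -/
  x : Fin g → O
  /-- the expansion -/
  φ : O →ₐ[K] MvPowerSeries (Fin g) K
  map_x : ∀ i, φ (x i) = MvPowerSeries.X i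
  comap_pow : ∀ n, (maximalIdeal (MvPowerSeries (Fin g) K) ^ n).comap φ = maximalIdeal O ^ n
  surj_mod : ∀ n (s : MvPowerSeries (Fin g) K),
    ∃ r : O, s - φ r ∈ maximalIdeal (MvPowerSeries (Fin g) K) ^ n
  span_x : maximalIdeal O = Ideal.span (Set.range x)

omit [Algebra.EssFiniteType K O] in
/-- **Coordinates exist.** -/
theorem nonempty_coords (hres : ∀ o : O, ∃ c : K, o - algebraMap K O c ∈ maximalIdeal O)
    (e : Module.Basis (Fin g) O (Ω[O⁄K])) : Nonempty (Coords K O g) := by
  classical
  obtain ⟨x, hx, hind⟩ := exists_params hres e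
  set 𝔭 := idealOfVars (Fin g) K
  have hapx := exists_approx (x := x) (by rwa [← hx])
  simp only [← hx] at hapx
  choose P hP using hapx
  have huniq : ∀ {n : ℕ} {o : O} {p q : MvPolynomial (Fin g) K},
      o - aeval x p ∈ maximalIdeal O ^ n → o - aeval x q ∈ maximalIdeal O ^ n → p - q ∈ 𝔭 ^ n :=
    fun {n o p q} hp hq => mem_pow_of_aeval_mem_pow hx hres hind (by
      have := sub_mem hq hp
      rwa [sub_sub_sub_cancel_left, ← map_sub] at this)
  let f : O → MvPowerSeries (Fin g) K := fun o d => coeff d (P (d.degree + 1) o)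
  have hspec : ∀ {n : ℕ} {o : O} {p : MvPolynomial (Fin g) K},
      o - aeval x p ∈ maximalIdeal O ^ n → ∀ d : Fin g →₀ ℕ, d.degree < n →
        MvPowerSeries.coeff d (f o) = coeff d p := fun {n o p} hp d hd => by
    have h1 := huniq (hP (d.degree + 1) o) (Ideal.pow_le_pow_right (Nat.succ_le_of_lt hd) hp)
    have h2 := (mem_pow_idealOfVars_iff' _ _).mp h1 d (Nat.lt_succ_self _)
    rw [coeff_sub, sub_eq_zero] at h2
    exact h2
  have hcom : ∀ q : MvPolynomial (Fin g) K, f (aeval x q) = q := fun q =>
    MvPowerSeries.ext fun d => by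
      rw [hspec (n := d.degree + 1) (p := q) (by simp) d (Nat.lt_succ_self _), coeff_coe]
  have hmul : ∀ a b, f (a * b) = f a * f b := fun a b => MvPowerSeries.ext fun d => by
    set n := d.degree + 1
    have h1 : a * b - aeval x (P n a * P n b) ∈ maximalIdeal O ^ n := by
      rw [map_mul, show a * b - aeval x (P n a) * aeval x (P n b) =
        a * (b - aeval x (P n b)) + (a - aeval x (P n a)) * aeval x (P n b) by ring]
      exact add_mem (Ideal.mul_mem_left _ _ (hP n b)) (Ideal.mul_mem_right _ _ (hP n a))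
    rw [hspec h1 d (Nat.lt_succ_self _), coeff_mul, MvPowerSeries.coeff_mul]
    refine Finset.sum_congr rfl fun uv huv => ?_
    rw [Finset.mem_antidiagonal] at huv
    have hdeg : uv.1.degree + uv.2.degree = d.degree := by rw [← map_add, huv]
    rw [hspec (hP n a) uv.1 (by omega), hspec (hP n b) uv.2 (by omega)]
  have hadd : ∀ a b, f (a + b) = f a + f b := fun a b => MvPowerSeries.ext fun d => by
    set n := d.degree + 1
    have h1 : a + b - aeval x (P n a + P n b) ∈ maximalIdeal O ^ n := by
      rw [map_add, add_sub_add_comm]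
      exact add_mem (hP n a) (hP n b)
    rw [hspec h1 d (Nat.lt_succ_self _), map_add, coeff_add, hspec (hP n a) d (Nat.lt_succ_self _),
      hspec (hP n b) d (Nat.lt_succ_self _)]
  let φ : O →ₐ[K] MvPowerSeries (Fin g) K :=
    { toFun := f
      map_one' := by simpa using hcom 1
      map_mul' := hmul
      map_zero' := by simpa using hcom 0
      map_add' := hadd
      commutes' := fun c => by
        show f (algebraMap K O c) = _
        rw [← aeval_C (R := K) x c, hcom, coe_C, MvPowerSeries.algebraMap_apply,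
          Algebra.algebraMap_self, RingHom.id_apply] }
  have hφx : ∀ i, φ (x i) = MvPowerSeries.X i := fun i => by
    have := hcom (X i)
    rwa [aeval_X, coe_X] at this
  refine ⟨⟨x, φ, hφx, fun n => le_antisymm (fun o ho => ?_) ?_, fun n s => ?_, hx⟩⟩
  · have h1 : P n o ∈ 𝔭 ^ n := (mem_pow_idealOfVars_iff' _ _).mpr fun d hd => by
      rw [← hspec (hP n o) d hd]
      refine MvPowerSeries.coeff_of_lt_order (lt_of_lt_of_le (Nat.cast_lt.mpr hd) ?_)
      have key : ∀ j : ℕ, ∀ y ∈ maximalIdeal (MvPowerSeries (Fin g) K) ^ j, (j : ℕ∞) ≤ y.order := by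
        intro j
        induction j with
        | zero => intro y _; simp
        | succ j ih =>
          intro y hy
          rw [pow_succ] at hy
          induction hy using Submodule.mul_induction_on' with
          | mem_mul_mem u hu v hv =>
            refine le_trans ?_ MvPowerSeries.le_order_mul
            rw [Nat.cast_succ]
            refine add_le_add (ih u hu) (MvPowerSeries.one_le_order_iff_constCoeff_eq_zero.mpr ?_)
            rw [mem_maximalIdeal, mem_nonunits_iff, MvPowerSeries.isUnit_iff_constantCoeff,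
              isUnit_iff_ne_zero, not_not] at hv
            exact hv
          | add u _ v _ hu hv => exact le_trans (le_min hu hv) MvPowerSeries.min_order_le_add
      exact key n _ ho
    have h2 : aeval x (P n o) ∈ maximalIdeal O ^ n := by
      rw [hx, ← map_idealOfVars_pow (K := K)]; exact Ideal.mem_map_of_mem _ h1
    simpa using add_mem (hP n o) h2
  · rw [← Ideal.map_le_iff_le_comap, Ideal.map_pow]
    refine Ideal.pow_right_mono ?_ n
    rw [hx, Ideal.map_span, Ideal.span_le]
    rintro _ ⟨_, ⟨i, rfl⟩, rfl⟩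
    rw [hφx, maximalIdeal_mvPowerSeries]
    exact Ideal.subset_span ⟨i, rfl⟩
  · refine ⟨aeval x (MvPowerSeries.truncTotal n s), ?_⟩
    rw [maximalIdeal_mvPowerSeries]
    refine mem_span_X_pow_of_coeff n _ fun d hd => ?_
    rw [map_sub, show φ (aeval x _) = _ from hcom _, coeff_coe, MvPowerSeries.coeff_truncTotal _ hd,
      sub_self]

omit [Algebra.EssFiniteType K O] [Algebra.FormallySmooth K O] in
theorem Coords.injective (c : Coords K O g) : Function.Injective c.φ := by
  refine (injective_iff_map_eq_zero c.φ).mpr fun o ho => ?_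
  have h : o ∈ ⨅ n : ℕ, maximalIdeal O ^ n := Submodule.mem_iInf _ |>.mpr fun n => by
    rw [← c.comap_pow n, Ideal.mem_comap, ho]
    exact zero_mem _
  rwa [Ideal.iInf_pow_eq_bot_of_isLocalRing _ (maximalIdeal.isMaximal O).ne_top] at h

omit [Algebra.EssFiniteType K O] [Algebra.FormallySmooth K O] in
theorem Coords.isDomain (c : Coords K O g) : IsDomain O :=
  haveI : IsDomain (MvPowerSeries (Fin g) K) := NoZeroDivisors.to_isDomain _
  c.injective.isDomain c.φ

omit [IsNoetherianRing O] [Algebra.EssFiniteType K O] [Algebra.FormallySmooth K O] in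
theorem Coords.algebraicIndependent (c : Coords K O g) : AlgebraicIndependent K c.x := by
  refine algebraicIndependent_iff.mpr fun p hp => ?_
  have h := congrArg c.φ hp
  rw [map_zero, ← AlgHom.comp_apply] at h
  have he : c.φ.comp (aeval c.x) =
      Algebra.algHom K (MvPolynomial (Fin g) K) (MvPowerSeries (Fin g) K) :=
    MvPolynomial.algHom_ext fun i => by
      rw [AlgHom.comp_apply, aeval_X, c.map_x]
      exact (coe_X i).symm
  rw [he] at h
  exact coe_injective _ _ (h.trans coe_zero.symm)

omit [IsNoetherianRing O] [Algebra.EssFiniteType K O] [Algebra.FormallySmooth K O] in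
theorem Coords.exists_sub_mem (c : Coords K O g) (o : O) :
    ∃ a : K, o - algebraMap K O a ∈ maximalIdeal O := by
  refine ⟨MvPowerSeries.constantCoeff (c.φ o), ?_⟩
  have h := c.comap_pow 1
  rw [pow_one, pow_one] at h
  rw [← h, Ideal.mem_comap, map_sub, c.φ.commutes, mem_maximalIdeal, mem_nonunits_iff,
    MvPowerSeries.isUnit_iff_constantCoeff]
  simp [MvPowerSeries.algebraMap_apply]

omit [IsNoetherianRing O] [Algebra.EssFiniteType K O] [Algebra.FormallySmooth K O] in
/-- Elements are congruent to polynomials in the parameters. -/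
theorem Coords.exists_sub_aeval_mem (c : Coords K O g) (n : ℕ) (o : O) :
    ∃ p : MvPolynomial (Fin g) K, o - aeval c.x p ∈ maximalIdeal O ^ n := by
  have h := exists_approx (K := K) (x := c.x)
    (fun a => by rw [← c.span_x]; exact c.exists_sub_mem a) n o
  rwa [← c.span_x] at h

/-! ### Standard smooth algebras at rational points -/

/-- Closed points of a finite type algebra over an algebraically closed field are rational. -/
theorem exists_sub_algebraMap_mem [IsAlgClosed K] {B : Type u} [CommRing B] [Algebra K B]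
    [Algebra.FiniteType K B] (m : Ideal B) [m.IsMaximal] (b : B) :
    ∃ c : K, b - algebraMap K B c ∈ m := by
  let : Field (B ⧸ m) := Ideal.Quotient.field m
  have : Module.Finite K (B ⧸ m) := finite_of_finite_type_of_isJacobsonRing K (B ⧸ m)
  obtain ⟨c, hc⟩ := (IsAlgClosed.algebraMap_bijective_of_isIntegral (k := K)
    (K := B ⧸ m)).2 (Ideal.Quotient.mk m b)
  exact ⟨c, Ideal.Quotient.eq.mp hc.symm⟩

section StandardSmooth

variable {B : Type u} [CommRing B] [Algebra K B] (m : Ideal B) [m.IsMaximal]
  (Q : Type u) [CommRing Q] [IsLocalRing Q] [Algebra B Q] [Algebra K Q] [IsScalarTower K B Q]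
  [IsLocalization.AtPrime Q m]

include m

/-- The local ring at a closed point has residue field `K`. -/
theorem exists_sub_algebraMap_mem_maximalIdeal [IsAlgClosed K] [Algebra.FiniteType K B] (o : Q) :
    ∃ c : K, o - algebraMap K Q c ∈ maximalIdeal Q := by
  obtain ⟨⟨b, s⟩, hbs⟩ := IsLocalization.surj m.primeCompl o
  obtain ⟨d, hd⟩ := exists_sub_algebraMap_mem (K := K) m b
  obtain ⟨c, hc⟩ := exists_sub_algebraMap_mem (K := K) m (s : B)
  have hc0 : c ≠ 0 := by
    rintro rfl
    rw [map_zero, sub_zero] at hc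
    exact s.2 hc
  refine ⟨d / c, ?_⟩
  have h1 : b - algebraMap K B (d / c) * s ∈ m := by
    rw [show b - algebraMap K B (d / c) * s =
      (b - algebraMap K B d) - algebraMap K B (d / c) * ((s : B) - algebraMap K B c) by
      rw [mul_sub, ← map_mul, div_mul_cancel₀ d hc0]; ring]
    exact sub_mem hd (Ideal.mul_mem_left _ _ hc)
  have h2 := (IsLocalization.AtPrime.to_map_mem_maximal_iff Q m _).mpr h1
  rw [map_sub, map_mul, ← hbs, ← IsScalarTower.algebraMap_apply K B Q, ← sub_mul] at h2
  exact ((Ideal.IsMaximal.isPrime inferInstance).mem_or_mem h2).resolve_right fun h =>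
    s.2 ((IsLocalization.AtPrime.to_map_mem_maximal_iff Q m _).mp h)

/-- **Coordinates at a rational point of a standard smooth algebra.** -/
theorem nonempty_coords_of_standardSmooth [IsAlgClosed K] (g : ℕ)
    [Algebra.IsStandardSmoothOfRelativeDimension g K B] : Nonempty (Coords K Q g) := by
  have : Algebra.IsStandardSmooth K B :=
    Algebra.IsStandardSmoothOfRelativeDimension.isStandardSmooth g
  have : Nontrivial B := ⟨⟨0, 1, fun h => (inferInstance : m.IsMaximal).ne_top
    ((Ideal.eq_top_iff_one m).mpr (h ▸ zero_mem m))⟩⟩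
  have : IsNoetherianRing B := Algebra.FiniteType.isNoetherianRing K B
  have : IsNoetherianRing Q := IsLocalization.isNoetherianRing m.primeCompl Q inferInstance
  have : Algebra.EssFiniteType B Q := Algebra.EssFiniteType.of_isLocalization Q m.primeCompl
  have : Algebra.EssFiniteType K Q := Algebra.EssFiniteType.comp K B Q
  have : Algebra.FormallySmooth B Q := Algebra.FormallySmooth.of_isLocalization m.primeCompl
  have : Algebra.FormallySmooth K Q := Algebra.FormallySmooth.comp K B Q
  have hr : Module.finrank B (Ω[B⁄K]) = g := Module.finrank_eq_of_rank_eq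
    (Algebra.IsStandardSmoothOfRelativeDimension.rank_kaehlerDifferential g)
  let e : Module.Basis (Fin g) Q (Ω[Q⁄K]) :=
    (Module.finBasisOfFinrankEq B (Ω[B⁄K]) hr).ofIsLocalizedModule Q m.primeCompl
      (KaehlerDifferential.map K K B Q)
  exact nonempty_coords (exists_sub_algebraMap_mem_maximalIdeal m Q) e

end StandardSmooth

end Fermat.Agent.AbVar
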