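import Fermat.Agent.AbVar.Setup
import Fermat.Agent.AbVar.LocalAlgebra
import Fermat.Agent.AbVar.Unramified

/-!
# The abelian variety is integral and smooth at its rational points

Completion coordinates at the closed points (`AData.exists_coordsAt`), integrality
(`AData.isIntegral`) and a separating transcendence basis of the function field
(`AData.exists_transcendence_basis`).
-/

set_option autoImplicit false

noncomputable section

open CategoryTheory AlgebraicGeometry

namespace Fermat.Agent.AbVar

universe u

/-- Localizations at smaller primes of a domain localization are domains. -/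
theorem isDomain_of_atPrime_le {B : Type u} [CommRing B] {p m : Ideal B} [p.IsPrime] [m.IsPrime]
    (hpm : p ≤ m) (S T : Type u) [CommRing S] [CommRing T] [Algebra B S] [Algebra B T]
    [IsLocalization.AtPrime S m] [IsLocalization.AtPrime T p] [IsDomain S] : IsDomain T := by
  have key : ∀ b : B, algebraMap B S b = 0 → algebraMap B T b = 0 := fun b hb => by
    obtain ⟨t, ht⟩ := (IsLocalization.map_eq_zero_iff m.primeCompl S b).mp hb
    exact (IsLocalization.map_eq_zero_iff p.primeCompl T b).mpr ⟨⟨t, fun h => t.2 (hpm h)⟩, ht⟩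
  have : Nontrivial T := IsLocalization.AtPrime.nontrivial T p
  have : NoZeroDivisors T := ⟨fun {a b} hab => by
    obtain ⟨⟨a₀, s⟩, ha⟩ := IsLocalization.surj p.primeCompl a
    obtain ⟨⟨b₀, t⟩, hb⟩ := IsLocalization.surj p.primeCompl b
    have h0 : algebraMap B T (a₀ * b₀) = 0 := by
      rw [map_mul, ← ha, ← hb, show a * algebraMap B T s * (b * algebraMap B T t) =
        a * b * (algebraMap B T s * algebraMap B T t) by ring, hab, zero_mul]
    obtain ⟨c, hc⟩ := (IsLocalization.map_eq_zero_iff p.primeCompl T _).mp h0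
    have hS := congrArg (algebraMap B S) hc
    rw [map_mul, map_zero, map_mul, mul_eq_zero, mul_eq_zero] at hS
    rcases hS with h | h | h
    · have h' := key _ h
      exact absurd h' (IsUnit.ne_zero (IsLocalization.map_units T c))
    · refine Or.inl ((IsLocalization.map_units T s).mul_left_eq_zero.mp ?_)
      rw [ha]; exact key _ h
    · refine Or.inr ((IsLocalization.map_units T t).mul_left_eq_zero.mp ?_)
      rw [hb]; exact key _ h⟩
  exact NoZeroDivisors.to_isDomain T

/-- Generalisation in an affine open is inclusion of primes. -/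
theorem primeIdealOf_le_of_specializes {A : Scheme.{u}} {V : A.Opens} (hV : IsAffineOpen V)
    {z x : A} (h : z ⤳ x) (hz : z ∈ V) (hx : x ∈ V) :
    (hV.primeIdealOf ⟨z, hz⟩).asIdeal ≤ (hV.primeIdealOf ⟨x, hx⟩).asIdeal := by
  refine (PrimeSpectrum.le_iff_specializes _ _).mpr ?_
  refine (hV.fromSpec.isOpenEmbedding.isInducing.specializes_iff).mp ?_
  erw [hV.fromSpec_primeIdealOf, hV.fromSpec_primeIdealOf]
  exact h

/-- A connected noetherian scheme with integral local rings is irreducible. -/
theorem irreducibleSpace_of_isDomain_stalk (A : Scheme.{u}) [IsNoetherian A] [ConnectedSpace A]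
    (hdom : ∀ x : A, IsDomain (A.presheaf.stalk x)) : IrreducibleSpace A := by
  -- two components through a point coincide
  have key : ∀ C₁ ∈ irreducibleComponents A, ∀ C₂ ∈ irreducibleComponents A,
      (C₁ ∩ C₂).Nonempty → C₁ = C₂ := by
    intro C₁ h₁ C₂ h₂ ⟨x, hx₁, hx₂⟩
    obtain ⟨V, hV, hxV, -⟩ := exists_isAffineOpen_mem_and_subset (X := A) (x := x) (U := ⊤) trivial
    set y := hV.primeIdealOf ⟨x, hxV⟩
    let : Algebra Γ(A, V) (A.presheaf.stalk x) :=
      TopCat.Presheaf.algebra_section_stalk A.presheaf ⟨x, hxV⟩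
    have : IsLocalization.AtPrime (A.presheaf.stalk x) y.asIdeal :=
      hV.isLocalization_stalk ⟨x, hxV⟩
    have := hdom x
    let q : PrimeSpectrum Γ(A, V) :=
      ⟨RingHom.ker (algebraMap Γ(A, V) (A.presheaf.stalk x)), RingHom.ker_isPrime _⟩
    have hmin : ∀ z : A, z ⤳ x → hV.fromSpec q ⤳ z := by
      intro z hz
      have hzV : z ∈ V := hz.mem_open V.isOpen hxV
      suffices hle : q ≤ hV.primeIdealOf ⟨z, hzV⟩ by
        have h2 := ((PrimeSpectrum.le_iff_specializes _ _).mp hle).map hV.fromSpec.continuous
        erw [hV.fromSpec_primeIdealOf] at h2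
        exact h2
      intro b hb
      obtain ⟨t, ht⟩ :=
        (IsLocalization.map_eq_zero_iff y.asIdeal.primeCompl (A.presheaf.stalk x) b).mp hb
      refine ((hV.primeIdealOf ⟨z, hzV⟩).2.mem_or_mem (ht ▸ zero_mem _)).resolve_left fun h => ?_
      exact t.2 (primeIdealOf_le_of_specializes hV hz hzV hxV h)
    have hgen : ∀ C ∈ irreducibleComponents A, x ∈ C → C = closure {hV.fromSpec q} := by
      intro C hC hxC
      obtain ⟨η, hη⟩ := QuasiSober.sober hC.1 (isClosed_of_mem_irreducibleComponents C hC)
      have h' : C ⊆ closure {hV.fromSpec q} := by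
        rw [← hη.def]
        exact closure_minimal (Set.singleton_subset_iff.mpr
          (specializes_iff_mem_closure.mp (hmin η (hη.specializes hxC)))) isClosed_closure
      exact Set.Subset.antisymm h' (hC.2 isIrreducible_singleton.closure h')
    rw [hgen C₁ h₁ hx₁, hgen C₂ h₂ hx₂]
  obtain ⟨x₀⟩ := ConnectedSpace.toNonempty (α := A)
  set C := irreducibleComponent x₀
  have hC : C ∈ irreducibleComponents A := irreducibleComponent_mem_irreducibleComponents x₀
  have hfin := TopologicalSpace.NoetherianSpace.finite_irreducibleComponents (α := A)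
  have hopen : IsOpen C := by
    have he : C = (⋃₀ (irreducibleComponents A \ {C}))ᶜ := by
      ext z
      refine ⟨fun hz ⟨D, hD, hzD⟩ => hD.2 (key D hD.1 C hC ⟨z, hzD, hz⟩), fun hz => ?_⟩
      by_contra hzC
      exact hz ⟨irreducibleComponent z, ⟨irreducibleComponent_mem_irreducibleComponents z,
        fun h => hzC (h ▸ mem_irreducibleComponent)⟩, mem_irreducibleComponent⟩
    rw [he, isOpen_compl_iff, Set.sUnion_eq_biUnion]
    exact hfin.sdiff.isClosed_biUnion fun W hW => isClosed_of_mem_irreducibleComponents W hW.1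
  have huniv : C = Set.univ :=
    IsClopen.eq_univ ⟨isClosed_irreducibleComponent, hopen⟩ ⟨x₀, mem_irreducibleComponent⟩
  exact (irreducibleSpace_def A).mpr (by rw [Set.top_eq_univ, ← huniv]; exact hC.1)

namespace AData

variable {K : Type u} [Field K] (X : AData K)

/-- The constants in the sections over an open set. -/
def sectConst (V : X.A.Opens) : CommRingCat.of K ⟶ Γ(X.A, V) :=
  (Scheme.ΓSpecIso (CommRingCat.of K)).inv ≫ X.f.appTop ≫
    X.A.presheaf.map (homOfLE (le_top : V ≤ ⊤)).op

theorem sectConst_germ (V : X.A.Opens) (x : X.A) (hx : x ∈ V) :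
    X.sectConst V ≫ X.A.presheaf.germ V x hx = X.stalkConst x := by
  simp only [sectConst, stalkConst, Category.assoc]
  rw [TopCat.Presheaf.germ_res]

theorem exists_chart (x : X.A) :
    ∃ (V : X.A.Opens), IsAffineOpen V ∧ x ∈ V ∧
      (X.sectConst V).hom.IsStandardSmoothOfRelativeDimension X.g := by
  have := X.smooth
  obtain ⟨U, hU, V, hV, hx, e, hf⟩ :=
    SmoothOfRelativeDimension.exists_isStandardSmoothOfRelativeDimension (n := X.g) (f := X.f) x
  have : Subsingleton (Spec (CommRingCat.of K)) :=
    inferInstanceAs (Subsingleton (PrimeSpectrum K))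
  obtain rfl : U = ⊤ := eq_top_iff.mpr fun y _ => Subsingleton.elim (X.f x) y ▸ e hx
  refine ⟨V, hV, hx, ?_⟩
  exact RingHom.isStandardSmoothOfRelativeDimension_respectsIso.2 _
    (Scheme.ΓSpecIso (CommRingCat.of K)).symm.commRingCatIsoToRingEquiv hf

/-- An affine neighbourhood with all data. -/
theorem exists_chart_algebra (x : X.A) :
    ∃ (V : X.A.Opens) (_ : IsAffineOpen V) (hx : x ∈ V) (_ : Algebra K Γ(X.A, V)),
      letI := TopCat.Presheaf.algebra_section_stalk X.A.presheaf (⟨x, hx⟩ : V)
      IsScalarTower K Γ(X.A, V) (X.A.presheaf.stalk x) ∧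
        Algebra.IsStandardSmoothOfRelativeDimension X.g K Γ(X.A, V) := by
  obtain ⟨V, hV, hx, hs⟩ := X.exists_chart x
  let := (X.sectConst V).hom.toAlgebra
  let := TopCat.Presheaf.algebra_section_stalk X.A.presheaf (⟨x, hx⟩ : V)
  exact ⟨V, hV, hx, (X.sectConst V).hom.toAlgebra, IsScalarTower.of_algebraMap_eq fun c =>
    (DFunLike.congr_fun (congrArg CommRingCat.Hom.hom (X.sectConst_germ V x hx)) c).symm,
    hs.toAlgebra⟩

instance isNoetherian : IsNoetherian X.A := by
  have := X.bundle.proper
  have : IsLocallyNoetherian X.A := LocallyOfFiniteType.isLocallyNoetherian X.f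
  have : CompactSpace X.A := QuasiCompact.compactSpace_of_compactSpace X.f
  exact {}

theorem essFiniteType_stalk (x : X.A) : Algebra.EssFiniteType K (X.A.presheaf.stalk x) := by
  obtain ⟨V, hV, hx, hKV, htow, hs⟩ := X.exists_chart_algebra x
  let := TopCat.Presheaf.algebra_section_stalk X.A.presheaf (⟨x, hx⟩ : V)
  have := htow
  have : Algebra.IsStandardSmooth K Γ(X.A, V) :=
    Algebra.IsStandardSmoothOfRelativeDimension.isStandardSmooth X.g
  have : IsLocalization.AtPrime (X.A.presheaf.stalk x) (hV.primeIdealOf ⟨x, hx⟩).asIdeal :=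
    hV.isLocalization_stalk ⟨x, hx⟩
  have : Algebra.EssFiniteType Γ(X.A, V) (X.A.presheaf.stalk x) :=
    Algebra.EssFiniteType.of_isLocalization _ (hV.primeIdealOf ⟨x, hx⟩).asIdeal.primeCompl
  exact Algebra.EssFiniteType.comp K Γ(X.A, V) (X.A.presheaf.stalk x)

theorem isClosed_ptAt (P : X.Pt K) : IsClosed ({X.ptAt P} : Set X.A) := by
  have := X.bundle.proper
  have : IsClosedImmersion (P.1 ≫ X.f) := by
    rw [P.2]
    simp only [base, Algebra.algebraMap_self, CommRingCat.ofHom_id]
    infer_instance
  have : IsClosedImmersion P.1 := IsClosedImmersion.of_comp P.1 X.f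
  have : Subsingleton (Spec (CommRingCat.of K)) :=
    inferInstanceAs (Subsingleton (PrimeSpectrum K))
  have hr : Set.range P.1 = {X.ptAt P} := by
    refine Set.eq_singleton_iff_unique_mem.mpr ⟨⟨_, rfl⟩, ?_⟩
    rintro _ ⟨y, rfl⟩
    exact congrArg _ (Subsingleton.elim _ _)
  exact hr ▸ P.1.isClosedEmbedding.isClosed_range

/-- The closure of a point has a closed point. -/
theorem exists_isClosed_specializes (y : X.A) : ∃ x : X.A, IsClosed ({x} : Set X.A) ∧ y ⤳ x := by
  have := X.bundle.proper
  have : JacobsonSpace X.A := LocallyOfFiniteType.jacobsonSpace X.f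
  obtain ⟨x, hx, hx'⟩ := nonempty_inter_closedPoints (Z := closure ({y} : Set X.A))
    ⟨y, subset_closure rfl⟩ isClosed_closure.isLocallyClosed
  exact ⟨x, hx', specializes_iff_mem_closure.mpr hx⟩

variable [IsAlgClosed K]

/-- Completion coordinates at a closed point. -/
theorem exists_coordsAt (x : X.A) (hx : IsClosed ({x} : Set X.A)) :
    Nonempty (Coords K (X.A.presheaf.stalk x) X.g) := by
  obtain ⟨V, hV, hxV, hKV, htow, hs⟩ := X.exists_chart_algebra x
  let := TopCat.Presheaf.algebra_section_stalk X.A.presheaf (⟨x, hxV⟩ : V)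
  have := htow
  have : (hV.primeIdealOf ⟨x, hxV⟩).asIdeal.IsMaximal :=
    hV.primeIdealOf_isMaximal_of_isClosed ⟨x, hxV⟩ hx
  have : IsLocalization.AtPrime (X.A.presheaf.stalk x) (hV.primeIdealOf ⟨x, hxV⟩).asIdeal :=
    hV.isLocalization_stalk ⟨x, hxV⟩
  exact nonempty_coords_of_standardSmooth (hV.primeIdealOf ⟨x, hxV⟩).asIdeal
    (X.A.presheaf.stalk x) X.g

/-- Completion coordinates at a rational point. -/
theorem exists_coords (P : X.Pt K) :
    Nonempty (Coords K (X.A.presheaf.stalk (X.ptAt P)) X.g) :=
  X.exists_coordsAt _ (X.isClosed_ptAt P)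

/-- All local rings are domains. -/
theorem isDomain_stalk (y : X.A) : IsDomain (X.A.presheaf.stalk y) := by
  obtain ⟨x, hx, hyx⟩ := X.exists_isClosed_specializes y
  obtain ⟨c⟩ := X.exists_coordsAt x hx
  obtain ⟨V, hV, hxV, -⟩ := exists_isAffineOpen_mem_and_subset (X := X.A) (x := x) (U := ⊤) trivial
  have hyV : y ∈ V := hyx.mem_open V.isOpen hxV
  let := TopCat.Presheaf.algebra_section_stalk X.A.presheaf (⟨x, hxV⟩ : V)
  let := TopCat.Presheaf.algebra_section_stalk X.A.presheaf (⟨y, hyV⟩ : V)
  have : IsLocalization.AtPrime (X.A.presheaf.stalk x) (hV.primeIdealOf ⟨x, hxV⟩).asIdeal :=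
    hV.isLocalization_stalk ⟨x, hxV⟩
  have : IsLocalization.AtPrime (X.A.presheaf.stalk y) (hV.primeIdealOf ⟨y, hyV⟩).asIdeal :=
    hV.isLocalization_stalk ⟨y, hyV⟩
  have : IsDomain (X.A.presheaf.stalk x) := c.isDomain
  have hle := primeIdealOf_le_of_specializes hV hyx hyV hxV
  exact isDomain_of_atPrime_le hle (X.A.presheaf.stalk x) (X.A.presheaf.stalk y)

omit [IsAlgClosed K] in
theorem connectedSpace : ConnectedSpace X.A := by
  have : Subsingleton (Spec (CommRingCat.of K)) :=
    inferInstanceAs (Subsingleton (PrimeSpectrum K))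
  obtain ⟨s⟩ : Nonempty (Spec (CommRingCat.of K)) :=
    inferInstanceAs (Nonempty (PrimeSpectrum K))
  have h := X.bundle.connectedFibres s
  rw [show X.f.base ⁻¹' {s} = Set.univ from Set.eq_univ_of_forall fun a => Subsingleton.elim _ _]
    at h
  exact connectedSpace_iff_univ.mpr h

end AData

variable {K : Type u} [Field K] [IsAlgClosed K]

/-- **The abelian variety is integral.** -/
theorem AData.isIntegral (X : AData K) : IsIntegral X.A := by
  have := X.connectedSpace
  have := fun y => X.isDomain_stalk y
  have : IrreducibleSpace X.A := irreducibleSpace_of_isDomain_stalk X.A X.isDomain_stalk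
  have : AlgebraicGeometry.IsReduced X.A := isReduced_of_isReduced_stalk X.A
  exact isIntegral_of_irreducibleSpace_of_isReduced X.A

instance (X : AData K) : IsIntegral X.A := X.isIntegral

/-- The constants in a local ring and in the function field. -/
instance AData.isScalarTower_stalk_functionField (X : AData K) (x : X.A) :
    IsScalarTower K (X.A.presheaf.stalk x) X.A.functionField := by
  refine IsScalarTower.of_algebraMap_eq fun c => ?_
  have h : X.stalkConst x ≫
      X.A.presheaf.stalkSpecializes ((genericPoint_spec X.A).specializes trivial) =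
      X.stalkConst (genericPoint X.A) := by
    simp only [AData.stalkConst, Category.assoc]
    exact congrArg (fun t => (Scheme.ΓSpecIso (CommRingCat.of K)).inv ≫ X.f.appTop ≫ t)
      (TopCat.Presheaf.germ_stalkSpecializes _ _ _)
  exact (DFunLike.congr_fun (congrArg CommRingCat.Hom.hom h) c).symm

/-- The function field has a separating transcendence basis of length `g`. -/
theorem AData.exists_transcendence_basis (X : AData K) :
    ∃ x : Fin X.g → X.A.functionField, AlgebraicIndependent K x ∧
      Module.Finite (IntermediateField.adjoin K (Set.range x)) X.A.functionField ∧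
      Algebra.IsSeparable (IntermediateField.adjoin K (Set.range x)) X.A.functionField := by
  obtain ⟨x, hx, -⟩ := X.exists_isClosed_specializes (genericPoint X.A)
  obtain ⟨c⟩ := X.exists_coordsAt x hx
  have := X.essFiniteType_stalk x
  let i : X.A.presheaf.stalk x →ₐ[K] X.A.functionField := IsScalarTower.toAlgHom K _ _
  have hi : Function.Injective i := IsFractionRing.injective _ _
  refine ⟨i ∘ c.x, c.algebraicIndependent.map' hi, ?_⟩
  refine finite_separable_of_truncation (O := X.A.presheaf.stalk x) _ fun n o => ?_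
  obtain ⟨p, hp⟩ := c.exists_sub_aeval_mem n o
  refine ⟨MvPolynomial.aeval c.x p, ?_, hp⟩
  refine IntermediateField.algebra_adjoin_le_adjoin K _ ?_
  rw [Algebra.adjoin_range_eq_range_aeval]
  refine ⟨p, ?_⟩
  show MvPolynomial.aeval (i ∘ c.x) p = i (MvPolynomial.aeval c.x p)
  have he : i.comp (MvPolynomial.aeval c.x) = MvPolynomial.aeval (i ∘ c.x) :=
    MvPolynomial.algHom_ext fun j => by simp
  exact (DFunLike.congr_fun he p).symm

end Fermat.Agent.AbVar
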