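import Fermat.Agent.AbVar.Points
import Fermat.Agent.AbVar.Integral

/-!
# The function field and the generic point

The function field `AData.FF` of an abelian variety and the tautological point with values in it.
-/

set_option autoImplicit false

noncomputable section

open CategoryTheory AlgebraicGeometry

namespace Fermat.Agent.AbVar

universe u

variable {K : Type u} [Field K] [IsAlgClosed K] (X : AData K)

/-- The function field. -/
abbrev AData.FF : Type u := X.A.functionField

/-- The generic point. -/
def AData.genPt : X.Pt X.FF := X.ofStalkHom (AlgHom.id K (X.A.presheaf.stalk (genericPoint X.A)))

end Fermat.Agent.AbVar
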