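import Mathlib

/-!
# Valuation rings over a field of constants and their classes

`ClGroup K L` is the group of families of elements of `L*` modulo units, indexed by the valuation
rings of `L` over `K`: locally principal divisors on the Zariski–Riemann space, without sheaves.
-/

set_option autoImplicit false

noncomputable section

open scoped Polynomial

namespace Fermat.Agent.AbVar

universe u

variable (K : Type u) [Field K]

/-- A valuation ring of `L` containing the constants. -/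
@[ext]
structure KVal (L : Type u) [Field L] [Algebra K L] where
  /-- the valuation ring -/
  toVal : ValuationSubring L
  algebraMap_mem' : ∀ c : K, algebraMap K L c ∈ toVal

/-- A place with values in `Λ`: a valuation ring and a local homomorphism to `Λ`. -/
@[ext]
structure KPlace (L Λ : Type u) [Field L] [Algebra K L] [Field Λ] [Algebra K Λ] where
  /-- the valuation ring -/
  toKVal : KVal K L
  /-- the value map -/
  res : toKVal.toVal →+* Λ
  res_algebraMap : ∀ c : K, res ⟨algebraMap K L c, toKVal.algebraMap_mem' c⟩ = algebraMap K Λ c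
  isUnit_of_res_ne_zero : ∀ x, res x ≠ 0 → IsUnit x

variable {K} {L : Type u} [Field L] [Algebra K L] {L' : Type u} [Field L'] [Algebra K L']
  {Λ : Type u} [Field Λ] [Algebra K Λ] {Λ' : Type u} [Field Λ'] [Algebra K Λ']

namespace KVal

variable (V : KVal K L)

instance : Algebra K V.toVal :=
  ((algebraMap K L).codRestrict V.toVal.toSubring V.algebraMap_mem').toAlgebra

instance : IsScalarTower K V.toVal L := IsScalarTower.of_algebraMap_eq fun _ => rfl

variable (K L) in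
/-- The trivial valuation ring. -/
def triv : KVal K L := ⟨⊤, fun _ => ValuationSubring.mem_top _⟩

theorem mem_triv (x : L) : x ∈ (triv K L).toVal := ValuationSubring.mem_top x

/-- Restriction along an embedding. -/
def comap (V : KVal K L') (φ : L →ₐ[K] L') : KVal K L :=
  ⟨V.toVal.comap φ.toRingHom, fun c => by
    rw [ValuationSubring.mem_comap]
    show φ (algebraMap K L c) ∈ V.toVal
    rw [φ.commutes]; exact V.algebraMap_mem' c⟩

theorem mem_comap {V : KVal K L'} {φ : L →ₐ[K] L'} {x : L} :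
    x ∈ (V.comap φ).toVal ↔ φ x ∈ V.toVal := ValuationSubring.mem_comap

/-- Units of the valuation ring, inside the units of the field. -/
abbrev units : Subgroup Lˣ := V.toVal.unitGroup

theorem mem_units_iff {x : Lˣ} : x ∈ V.units ↔ (x : L) ∈ V.toVal ∧ (x : L)⁻¹ ∈ V.toVal := by
  rw [ValuationSubring.mem_unitGroup_iff]
  constructor
  · intro h
    refine ⟨(V.toVal.valuation_le_one_iff _).1 h.le, (V.toVal.valuation_le_one_iff _).1 ?_⟩
    rw [map_inv₀, h, inv_one]
  · rintro ⟨h1, h2⟩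
    refine le_antisymm ((V.toVal.valuation_le_one_iff _).2 h1) ?_
    have h3 := (V.toVal.valuation_le_one_iff _).2 h2
    rwa [map_inv₀, inv_le_one₀] at h3
    exact zero_lt_iff.2 ((Valuation.ne_zero_iff _).2 x.ne_zero)

/-- The class of an element modulo the units of the valuation ring. -/
def cls : Additive Lˣ →+ Additive (Lˣ ⧸ V.units) := (QuotientGroup.mk' V.units).toAdditive

theorem cls_eq_iff {x y : Lˣ} : V.cls (Additive.ofMul x) = V.cls (Additive.ofMul y) ↔
    (x : L)⁻¹ * (y : L) ∈ V.toVal ∧ (y : L)⁻¹ * (x : L) ∈ V.toVal := by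
  have h : V.cls (Additive.ofMul x) = V.cls (Additive.ofMul y) ↔ x⁻¹ * y ∈ V.units :=
    QuotientGroup.eq (s := V.units) (a := x) (b := y)
  rw [h, mem_units_iff]
  simp [mul_inv_rev]

theorem cls_surjective : Function.Surjective V.cls := fun x => by
  obtain ⟨y, hy⟩ := QuotientGroup.mk'_surjective V.units x.toMul
  exact ⟨Additive.ofMul y, hy⟩

/-- The map of classes along an embedding. -/
def clsMap (W : KVal K L') (φ : L →ₐ[K] L') :
    Additive (Lˣ ⧸ (W.comap φ).units) →+ Additive (L'ˣ ⧸ W.units) :=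
  (QuotientGroup.map (W.comap φ).units W.units (Units.map φ.toMonoidHom) fun x hx => by
    rw [mem_units_iff, mem_comap, mem_comap, map_inv₀] at hx
    rw [Subgroup.mem_comap, mem_units_iff]
    exact hx).toAdditive

theorem clsMap_cls (W : KVal K L') (φ : L →ₐ[K] L') (x : Lˣ) :
    W.clsMap φ ((W.comap φ).cls (Additive.ofMul x)) =
      W.cls (Additive.ofMul (Units.map φ.toMonoidHom x)) := rfl

end KVal

namespace KPlace

theorem res_ne_zero_iff (π : KPlace K L Λ) (x : π.toKVal.toVal) : π.res x ≠ 0 ↔ IsUnit x :=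
  ⟨π.isUnit_of_res_ne_zero x, fun h => (h.map π.res).ne_zero⟩

theorem inv_mem_of_res_ne_zero (π : KPlace K L Λ) {x : π.toKVal.toVal} (h : π.res x ≠ 0) :
    (x : L)⁻¹ ∈ π.toKVal.toVal := by
  obtain ⟨u, rfl⟩ := π.isUnit_of_res_ne_zero x h
  have h1 : ((u : π.toKVal.toVal) : L) * (((u⁻¹ : _ˣ) : π.toKVal.toVal) : L) = 1 := by
    rw [← MulMemClass.coe_mul, Units.mul_inv]; rfl
  rw [inv_eq_of_mul_eq_one_right h1]
  exact SetLike.coe_mem _

theorem res_eq_zero_of_inv_notMem (π : KPlace K L Λ) {x : π.toKVal.toVal}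
    (h : (x : L)⁻¹ ∉ π.toKVal.toVal) : π.res x = 0 :=
  by_contra fun h0 => h (π.inv_mem_of_res_ne_zero h0)

/-- The value map as a map of algebras. -/
def resAlg (π : KPlace K L Λ) : π.toKVal.toVal →ₐ[K] Λ :=
  { π.res with commutes' := π.res_algebraMap }

variable (K L) in
/-- An embedding is a place. -/
def ofHom (φ : L →ₐ[K] Λ) : KPlace K L Λ where
  toKVal := KVal.triv K L
  res := φ.toRingHom.comp (KVal.triv K L).toVal.subtype
  res_algebraMap c := φ.commutes c
  isUnit_of_res_ne_zero x hx := by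
    have hx0 : (x : L) ≠ 0 := fun h => hx (by simp [h])
    exact IsUnit.of_mul_eq_one ⟨(x : L)⁻¹, ValuationSubring.mem_top _⟩
      (Subtype.ext (mul_inv_cancel₀ hx0))

/-- The valuation ring cut out by a valuation ring of the values. -/
def pull (π : KPlace K L Λ) (W : KVal K Λ) : KVal K L where
  toVal := {
    carrier := {x | ∃ h : x ∈ π.toKVal.toVal, π.res ⟨x, h⟩ ∈ W.toVal}
    mul_mem' := fun {a b} ⟨ha, ha'⟩ ⟨hb, hb'⟩ => ⟨mul_mem ha hb, by
      rw [show (⟨a * b, mul_mem ha hb⟩ : π.toKVal.toVal) = ⟨a, ha⟩ * ⟨b, hb⟩ from rfl, map_mul]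
      exact mul_mem ha' hb'⟩
    one_mem' := ⟨one_mem _, by
      rw [show (⟨1, one_mem _⟩ : π.toKVal.toVal) = 1 from rfl, map_one]; exact one_mem _⟩
    add_mem' := fun {a b} ⟨ha, ha'⟩ ⟨hb, hb'⟩ => ⟨add_mem ha hb, by
      rw [show (⟨a + b, add_mem ha hb⟩ : π.toKVal.toVal) = ⟨a, ha⟩ + ⟨b, hb⟩ from rfl, map_add]
      exact add_mem ha' hb'⟩
    zero_mem' := ⟨zero_mem _, by
      rw [show (⟨0, zero_mem _⟩ : π.toKVal.toVal) = 0 from rfl, map_zero]; exact zero_mem _⟩
    neg_mem' := fun {a} ⟨ha, ha'⟩ => ⟨neg_mem ha, by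
      rw [show (⟨-a, neg_mem ha⟩ : π.toKVal.toVal) = -⟨a, ha⟩ from rfl, map_neg]
      exact neg_mem ha'⟩
    mem_or_inv_mem' := fun x => by
      by_cases hx : x ∈ π.toKVal.toVal
      · by_cases h0 : π.res ⟨x, hx⟩ = 0
        · exact Or.inl ⟨hx, by rw [h0]; exact zero_mem _⟩
        have hi : x⁻¹ ∈ π.toKVal.toVal := π.inv_mem_of_res_ne_zero h0
        rcases W.toVal.mem_or_inv_mem (π.res ⟨x, hx⟩) with h | h
        · exact Or.inl ⟨hx, h⟩
        · refine Or.inr ⟨hi, ?_⟩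
          have hne : x ≠ 0 := fun e => h0 (by
            rw [show (⟨x, hx⟩ : π.toKVal.toVal) = 0 from Subtype.ext e, map_zero])
          rwa [show π.res ⟨x⁻¹, hi⟩ = (π.res ⟨x, hx⟩)⁻¹ from
            (inv_eq_of_mul_eq_one_right (by
              rw [← map_mul, show (⟨x, hx⟩ : π.toKVal.toVal) * ⟨x⁻¹, hi⟩ = 1 from
                Subtype.ext (mul_inv_cancel₀ hne), map_one])).symm]
      · have hi : x⁻¹ ∈ π.toKVal.toVal := (π.toKVal.toVal.mem_or_inv_mem x).resolve_left hx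
        refine Or.inr ⟨hi, ?_⟩
        rw [π.res_eq_zero_of_inv_notMem (x := ⟨x⁻¹, hi⟩) (by simpa using hx)]
        exact zero_mem _ }
  algebraMap_mem' c := ⟨π.toKVal.algebraMap_mem' c, by
    rw [π.res_algebraMap]; exact W.algebraMap_mem' c⟩

theorem mem_pull {π : KPlace K L Λ} {W : KVal K Λ} {x : L} :
    x ∈ (π.pull W).toVal ↔ ∃ h : x ∈ π.toKVal.toVal, π.res ⟨x, h⟩ ∈ W.toVal := Iff.rfl

/-- Composition of places. -/
def comp (π : KPlace K L Λ) (ρ : KPlace K Λ Λ') : KPlace K L Λ' where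
  toKVal := π.pull ρ.toKVal
  res := ρ.res.comp
    ((π.res.comp ((π.pull ρ.toKVal).toVal.toSubring.subtype.codRestrict π.toKVal.toVal.toSubring
      fun x => (mem_pull.1 x.2).1)).codRestrict ρ.toKVal.toVal.toSubring
      fun x => (mem_pull.1 x.2).2)
  res_algebraMap c := by
    refine Eq.trans ?_ (ρ.res_algebraMap c)
    exact congrArg ρ.res (Subtype.ext (π.res_algebraMap c))
  isUnit_of_res_ne_zero x hx := by
    obtain ⟨h1, h2⟩ := mem_pull.1 x.2
    have h3 : (π.res ⟨(x : L), h1⟩)⁻¹ ∈ ρ.toKVal.toVal := ρ.inv_mem_of_res_ne_zero hx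
    have hne : π.res ⟨(x : L), h1⟩ ≠ 0 := fun h0 => hx (by
      refine Eq.trans ?_ (map_zero ρ.res)
      exact congrArg ρ.res (Subtype.ext h0))
    have hx0 : (x : L) ≠ 0 := fun e => hne (by
      rw [show (⟨(x : L), h1⟩ : π.toKVal.toVal) = 0 from Subtype.ext e, map_zero])
    have hi := π.inv_mem_of_res_ne_zero hne
    refine IsUnit.of_mul_eq_one ⟨(x : L)⁻¹, hi, ?_⟩ (Subtype.ext (mul_inv_cancel₀ hx0))
    rwa [show π.res ⟨(x : L)⁻¹, hi⟩ = (π.res ⟨(x : L), h1⟩)⁻¹ from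
      (inv_eq_of_mul_eq_one_right (by
        rw [← map_mul, show (⟨(x : L), h1⟩ : π.toKVal.toVal) * ⟨(x : L)⁻¹, hi⟩ = 1 from
          Subtype.ext (mul_inv_cancel₀ hx0), map_one])).symm]

/-- Restriction of a place along an embedding. -/
def comap (π : KPlace K L' Λ) (φ : L →ₐ[K] L') : KPlace K L Λ where
  toKVal := π.toKVal.comap φ
  res := π.res.comp ((φ.toRingHom.comp (π.toKVal.comap φ).toVal.toSubring.subtype).codRestrict
    π.toKVal.toVal.toSubring fun x => KVal.mem_comap.1 x.2)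
  res_algebraMap c := by
    refine Eq.trans ?_ (π.res_algebraMap c)
    exact congrArg π.res (Subtype.ext (φ.commutes c))
  isUnit_of_res_ne_zero x hx := by
    have h := π.inv_mem_of_res_ne_zero hx
    have hx0 : (x : L) ≠ 0 := fun e => hx (by
      refine Eq.trans ?_ (map_zero π.res)
      exact congrArg π.res (Subtype.ext (by show φ (x : L) = 0; rw [e, map_zero])))
    refine IsUnit.of_mul_eq_one ⟨(x : L)⁻¹, ?_⟩ (Subtype.ext (mul_inv_cancel₀ hx0))
    rw [KVal.mem_comap, map_inv₀]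
    exact h

/-- The place extends the embedding `φ` of `F`. -/
def Extends {F : Type u} [Field F] [Algebra K F] (π : KPlace K L Λ) (i : F →ₐ[K] L)
    (φ : F →ₐ[K] Λ) : Prop :=
  ∀ x : F, ∃ h : i x ∈ π.toKVal.toVal, π.res ⟨i x, h⟩ = φ x

end KPlace

/-- Families of local equations. -/
abbrev ClGroup (K : Type u) [Field K] (L : Type u) [Field L] [Algebra K L] : Type u :=
  ∀ V : KVal K L, Additive (Lˣ ⧸ V.units)

variable (K L) in
/-- Principal families. -/
def princ : Additive Lˣ →+ ClGroup K L where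
  toFun x V := V.cls x
  map_zero' := funext fun V => map_zero V.cls
  map_add' x y := funext fun V => map_add V.cls x y

theorem princ_apply (x : Additive Lˣ) (V : KVal K L) : princ K L x V = V.cls x := rfl

/-- The family is principal. -/
def IsPrinc (β : ClGroup K L) : Prop := β ∈ (princ K L).range

/-- Pullback of families along an embedding. -/
def mapCl (φ : L →ₐ[K] L') : ClGroup K L →+ ClGroup K L' where
  toFun β W := W.clsMap φ (β (W.comap φ))
  map_zero' := funext fun W => by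
    show W.clsMap φ (0 : Additive (Lˣ ⧸ (W.comap φ).units)) = (0 : Additive (L'ˣ ⧸ W.units))
    exact map_zero (W.clsMap φ)
  map_add' β γ := funext fun W => map_add (W.clsMap φ) (β (W.comap φ)) (γ (W.comap φ))

theorem mapCl_apply (φ : L →ₐ[K] L') (β : ClGroup K L) (W : KVal K L') :
    mapCl φ β W = W.clsMap φ (β (W.comap φ)) := rfl

theorem mapCl_princ (φ : L →ₐ[K] L') (x : Lˣ) :
    mapCl φ (princ K L (Additive.ofMul x)) =
      princ K L' (Additive.ofMul (Units.map φ.toMonoidHom x)) :=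
  funext fun W => W.clsMap_cls φ x

theorem IsPrinc.map {β : ClGroup K L} (h : IsPrinc β) (φ : L →ₐ[K] L') : IsPrinc (mapCl φ β) := by
  obtain ⟨x, rfl⟩ := h
  exact ⟨Additive.ofMul (Units.map φ.toMonoidHom x.toMul), (mapCl_princ φ x.toMul).symm⟩

/-- `β'` is the specialisation of `β` at the place, up to a constant of `L`. -/
def SpecTo (π : KPlace K L Λ) (β : ClGroup K L) (β' : ClGroup K Λ) : Prop :=
  ∃ c : Lˣ, ∀ W : KVal K Λ, ∃ (x : Lˣ) (hx : (x : L) ∈ π.toKVal.toVal) (y : Λˣ),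
    (x : L)⁻¹ ∈ π.toKVal.toVal ∧ π.res ⟨x, hx⟩ = y ∧
      β (π.pull W) = (π.pull W).cls (Additive.ofMul (c * x)) ∧ β' W = W.cls (Additive.ofMul y)

/-- Specialisations of principal families are principal. -/
theorem SpecTo.isPrinc {π : KPlace K L Λ} {β : ClGroup K L} {β' : ClGroup K Λ}
    (h : SpecTo π β β') (hβ : IsPrinc β) : IsPrinc β' := by
  obtain ⟨c, hc⟩ := h
  obtain ⟨e, rfl⟩ := hβ
  set u : Lˣ := c⁻¹ * e.toMul with hu
  have key : ∀ (W : KVal K Λ) (x : Lˣ),
      princ K L e (π.pull W) = (π.pull W).cls (Additive.ofMul (c * x)) →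
        (x : L)⁻¹ * (u : L) ∈ (π.pull W).toVal ∧ (u : L)⁻¹ * (x : L) ∈ (π.pull W).toVal := by
    intro W x hx
    rw [princ_apply, ← ofMul_toMul e, KVal.cls_eq_iff] at hx
    obtain ⟨h1, h2⟩ := hx
    rw [hu]
    simp only [Units.val_mul, Units.val_inv_eq_inv_val, mul_inv_rev, inv_inv] at h1 h2 ⊢
    exact ⟨by simpa [mul_comm, mul_left_comm, mul_assoc] using h2,
      by simpa [mul_comm, mul_left_comm, mul_assoc] using h1⟩
  obtain ⟨hum, hui⟩ : (u : L) ∈ π.toKVal.toVal ∧ (u : L)⁻¹ ∈ π.toKVal.toVal := by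
    obtain ⟨x, hx, y, hxi, hxy, hβW, -⟩ := hc (KVal.triv K Λ)
    obtain ⟨h1, h2⟩ := key _ x hβW
    exact ⟨by simpa [← mul_assoc] using mul_mem hx (KPlace.mem_pull.1 h1).1,
      by simpa [mul_assoc] using mul_mem (KPlace.mem_pull.1 h2).1 hxi⟩
  have hz : π.res ⟨u, hum⟩ ≠ 0 := fun h0 => by
    have h1 : (⟨u, hum⟩ : π.toKVal.toVal) * ⟨(u : L)⁻¹, hui⟩ = 1 :=
      Subtype.ext (mul_inv_cancel₀ u.ne_zero)
    have h2 := congrArg π.res h1
    rw [map_mul, h0, zero_mul, map_one] at h2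
    exact zero_ne_one h2
  refine ⟨Additive.ofMul (Units.mk0 _ hz), funext fun W => ?_⟩
  obtain ⟨x, hx, y, hxi, hxy, hβW, hyW⟩ := hc W
  obtain ⟨h1, h2⟩ := key W x hβW
  obtain ⟨h1m, h1W⟩ := KPlace.mem_pull.1 h1
  obtain ⟨h2m, h2W⟩ := KPlace.mem_pull.1 h2
  rw [princ_apply, hyW, KVal.cls_eq_iff]
  have e1 : π.res ⟨(x : L)⁻¹ * (u : L), h1m⟩ = (y : Λ)⁻¹ * π.res ⟨u, hum⟩ := by
    rw [eq_inv_mul_iff_mul_eq₀ y.ne_zero, ← hxy, ← map_mul]
    exact congrArg π.res (Subtype.ext (mul_inv_cancel_left₀ x.ne_zero _))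
  have e2 : π.res ⟨(u : L)⁻¹ * (x : L), h2m⟩ = (π.res ⟨u, hum⟩)⁻¹ * (y : Λ) := by
    rw [eq_inv_mul_iff_mul_eq₀ hz, ← hxy, ← map_mul]
    exact congrArg π.res (Subtype.ext (mul_inv_cancel_left₀ u.ne_zero _))
  rw [e1] at h1W
  rw [e2] at h2W
  exact ⟨h2W, h1W⟩

theorem SpecTo.add {π : KPlace K L Λ} {β γ : ClGroup K L} {β' γ' : ClGroup K Λ}
    (h : SpecTo π β β') (h' : SpecTo π γ γ') : SpecTo π (β + γ) (β' + γ') := by
  obtain ⟨c, hc⟩ := h
  obtain ⟨d, hd⟩ := h'
  refine ⟨c * d, fun W => ?_⟩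
  obtain ⟨x, hx, y, hxi, hxy, hβ, hy⟩ := hc W
  obtain ⟨z, hz, w, hzi, hzw, hγ, hw⟩ := hd W
  refine ⟨x * z, mul_mem hx hz, y * w, ?_, ?_, ?_, ?_⟩
  · rw [Units.val_mul, mul_inv_rev]
    exact mul_mem hzi hxi
  · refine (map_mul π.res ⟨(x : L), hx⟩ ⟨(z : L), hz⟩).trans ?_
    rw [Units.val_mul, hxy, hzw]
  · rw [Pi.add_apply, hβ, hγ, mul_mul_mul_comm, ofMul_mul (c * x) (d * z), map_add]
  · rw [Pi.add_apply, hy, hw, ofMul_mul y w, map_add]

theorem SpecTo.neg {π : KPlace K L Λ} {β : ClGroup K L} {β' : ClGroup K Λ}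
    (h : SpecTo π β β') : SpecTo π (-β) (-β') := by
  obtain ⟨c, hc⟩ := h
  refine ⟨c⁻¹, fun W => ?_⟩
  obtain ⟨x, hx, y, hxi, hxy, hβ, hy⟩ := hc W
  refine ⟨x⁻¹, by rwa [Units.val_inv_eq_inv_val], y⁻¹, ?_, ?_, ?_, ?_⟩
  · rwa [Units.val_inv_eq_inv_val, inv_inv]
  · rw [Units.val_inv_eq_inv_val y]
    refine eq_inv_of_mul_eq_one_right ?_
    rw [← hxy, ← map_mul]
    exact (congrArg π.res (Subtype.ext (by simp))).trans (map_one π.res)
  · rw [Pi.neg_apply, hβ, ← mul_inv]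
    exact (map_neg (π.pull W).cls (Additive.ofMul (c * x))).symm
  · rw [Pi.neg_apply, hy]
    exact (map_neg W.cls (Additive.ofMul y)).symm

theorem SpecTo.sub {π : KPlace K L Λ} {β γ : ClGroup K L} {β' γ' : ClGroup K Λ}
    (h : SpecTo π β β') (h' : SpecTo π γ γ') : SpecTo π (β - γ) (β' - γ') := by
  have e₁ : β + -γ = β - γ := funext fun V => (sub_eq_add_neg (β V) (γ V)).symm
  have e₂ : β' + -γ' = β' - γ' := funext fun V => (sub_eq_add_neg (β' V) (γ' V)).symm
  exact e₁ ▸ e₂ ▸ h.add h'.neg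

/-- Graphs of partial homomorphisms. -/
private def partialHomGraphs (K L Λ : Type u) [Field K] [Field L] [Algebra K L] [Field Λ]
    [Algebra K Λ] : Set (Subalgebra K (L × Λ)) :=
  {G | ∀ g ∈ G, g.1 = 0 → g.2 = 0}

/-- Maximal extensions of homomorphisms into algebraically closed fields are places. -/
theorem exists_place_extending [IsAlgClosed Λ] (S : Subalgebra K L) (φ : S →ₐ[K] Λ) :
    ∃ π : KPlace K L Λ, ∀ s : S, ∃ h : (s : L) ∈ π.toKVal.toVal, π.res ⟨s, h⟩ = φ s := by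
  classical
  have hG₀ : (S.val.prod φ).range ∈ partialHomGraphs K L Λ := by
    rintro _ ⟨s, rfl⟩ h0
    have hs : s = 0 := Subtype.ext h0
    simp [hs]
  obtain ⟨G, hle, hmax⟩ := zorn_le_nonempty₀ (partialHomGraphs K L Λ) (fun C hC hchain G hG =>
    ⟨sSup C, fun g hg h0 => by
      have : Nonempty C := ⟨⟨G, hG⟩⟩
      have hmem := (Subalgebra.coe_iSup_of_directed (K := fun i : C => (i : Subalgebra K (L × Λ)))
        (hchain.directed))
      rw [sSup_eq_iSup', ← SetLike.mem_coe, hmem, Set.mem_iUnion] at hg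
      obtain ⟨⟨H, hH⟩, hgH⟩ := hg
      exact hC hH g hgH h0, fun _ => le_sSup⟩) _ hG₀
  have hG : G ∈ partialHomGraphs K L Λ := hmax.prop
  have grow : ∀ G', G ≤ G' → G' ∈ partialHomGraphs K L Λ → G' ≤ G := fun G' h h' =>
    hmax.le_of_ge h' h
  have uniq : ∀ {a b : L × Λ}, a ∈ G → b ∈ G → a.1 = b.1 → a.2 = b.2 := fun ha hb h =>
    sub_eq_zero.1 (hG _ (sub_mem ha hb) (sub_eq_zero.2 h))
  -- localisation at the kernel
  have hinv : ∀ {a : L × Λ}, a ∈ G → a.2 ≠ 0 → (a.1⁻¹, a.2⁻¹) ∈ G := by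
    intro a ha ha2
    have ha1 : a.1 ≠ 0 := fun h => ha2 (hG a ha h)
    have hmul : a * (a.1⁻¹, a.2⁻¹) = 1 :=
      Prod.ext (mul_inv_cancel₀ ha1) (mul_inv_cancel₀ ha2)
    let G' := Algebra.adjoin K ((G : Set (L × Λ)) ∪ {(a.1⁻¹, a.2⁻¹)})
    have key : ∀ g ∈ G', ∃ n : ℕ, a ^ n * g ∈ G := fun g hg => by
      induction hg using Algebra.adjoin_induction with
      | mem z hz =>
        rcases hz with hz | hz
        · exact ⟨0, by simpa using hz⟩
        · exact ⟨1, by rw [Set.mem_singleton_iff.1 hz, pow_one, hmul]; exact one_mem _⟩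
      | algebraMap r => exact ⟨0, by simpa using Subalgebra.algebraMap_mem G r⟩
      | add z w _ _ hz hw =>
        obtain ⟨n, hn⟩ := hz
        obtain ⟨m, hm⟩ := hw
        refine ⟨n + m, ?_⟩
        rw [show a ^ (n + m) * (z + w) = a ^ m * (a ^ n * z) + a ^ n * (a ^ m * w) by ring]
        exact add_mem (mul_mem (pow_mem ha m) hn) (mul_mem (pow_mem ha n) hm)
      | mul z w _ _ hz hw =>
        obtain ⟨n, hn⟩ := hz
        obtain ⟨m, hm⟩ := hw
        refine ⟨n + m, ?_⟩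
        rw [show a ^ (n + m) * (z * w) = (a ^ n * z) * (a ^ m * w) by ring]
        exact mul_mem hn hm
    refine grow G' (fun g hg => Algebra.subset_adjoin (Or.inl hg)) (fun g hg h0 => ?_)
      (Algebra.subset_adjoin (Or.inr rfl))
    obtain ⟨n, hn⟩ := key g hg
    have h := hG _ hn (by simp [h0])
    rw [Prod.snd_mul, Prod.pow_snd] at h
    exact (mul_eq_zero.1 h).resolve_left (pow_ne_zero n ha2)
  let fstG : G →ₐ[K] L := (AlgHom.fst K L Λ).comp G.val
  let sndG : G →ₐ[K] Λ := (AlgHom.snd K L Λ).comp G.val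
  have hinj : Function.Injective fstG := fun a b h => Subtype.ext
    (Prod.ext h (uniq a.2 b.2 h))
  let R : Subring L := fstG.toRingHom.range
  let e : G ≃+* R := RingEquiv.ofBijective fstG.toRingHom.rangeRestrict
    ⟨fun a b h => hinj (congrArg Subtype.val h), fstG.toRingHom.rangeRestrict_surjective⟩
  let ψ : R →+* Λ := sndG.toRingHom.comp e.symm.toRingHom
  have hψ : ∀ g : G, ψ ⟨(g : L × Λ).1, ⟨g, rfl⟩⟩ = (g : L × Λ).2 := fun g => by
    have h : e.symm ⟨(g : L × Λ).1, ⟨g, rfl⟩⟩ = g := e.injective (by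
      rw [RingEquiv.apply_symm_apply]; exact Subtype.ext rfl)
    show (e.symm ⟨(g : L × Λ).1, ⟨g, rfl⟩⟩ : L × Λ).2 = _
    rw [h]
  -- a valuation ring dominating the maximal domain
  obtain ⟨B, hRB, hBn⟩ := Ideal.image_subset_nonunits_valuationSubring (RingHom.ker ψ)
    (RingHom.ker_ne_top ψ)
  have hfG : ∀ g : G, (g : L × Λ).1 ∈ B := fun g => hRB ⟨g, rfl⟩
  have hker : ∀ g : G, (g : L × Λ).2 = 0 → B.valuation (g : L × Λ).1 < 1 := fun g hg =>
    (ValuationSubring.mem_nonunits_iff B).1 (hBn ⟨⟨_, ⟨g, rfl⟩⟩, (hψ g).trans hg, rfl⟩)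
  have hBR : ∀ x ∈ B, ∃ g : G, (g : L × Λ).1 = x := by
    intro x hx
    let F₀ : Subfield Λ :=
      { sndG.toRingHom.range with
        inv_mem' := by
          rintro _ ⟨g, rfl⟩
          by_cases h : (g : L × Λ).2 = 0
          · exact ⟨0, by show (0 : Λ) = _; simp [h, sndG]⟩
          · exact ⟨⟨_, hinv g.2 h⟩, rfl⟩ }
    let ρ : G →+* F₀ := sndG.toRingHom.codRestrict F₀ fun g => ⟨g, rfl⟩
    have hρ : Function.Surjective ρ := by
      rintro ⟨_, g, rfl⟩
      exact ⟨g, rfl⟩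
    let I : Ideal F₀[X] := Ideal.map (Polynomial.mapRingHom ρ)
      (RingHom.ker (Polynomial.eval₂RingHom fstG.toRingHom x))
    have hI : I ≠ ⊤ := fun htop => by
      have h1 : (1 : F₀[X]) ∈ I := htop ▸ Submodule.mem_top
      obtain ⟨q, hq, hq1⟩ :=
        (Ideal.mem_map_iff_of_surjective _ (Polynomial.map_surjective ρ hρ)).1 h1
      have hc : ∀ i, ((q - 1).coeff i : L × Λ).2 = 0 := fun i => by
        have h := congrArg (fun r : F₀[X] => r.coeff i)
          (show (q - 1).map ρ = 0 from (Polynomial.map_sub ρ).trans (by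
            rw [Polynomial.map_one]; exact sub_eq_zero.2 hq1))
        simp only [Polynomial.coeff_map, Polynomial.coeff_zero] at h
        exact congrArg Subtype.val h
      have hneg : (q - 1).eval₂ fstG.toRingHom x = -1 := by
        rw [Polynomial.eval₂_sub, Polynomial.eval₂_one,
          show q.eval₂ fstG.toRingHom x = 0 from RingHom.mem_ker.1 hq, zero_sub]
      have hlt : B.valuation ((q - 1).eval₂ fstG.toRingHom x) < 1 := by
        rw [Polynomial.eval₂_eq_sum, Polynomial.sum]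
        refine Valuation.map_sum_lt _ one_ne_zero fun i _ => ?_
        rw [map_mul]
        exact mul_lt_one_of_lt_of_le (hker _ (hc i))
          ((B.valuation_le_one_iff _).2 (pow_mem hx i))
      rw [hneg, Valuation.map_neg, map_one] at hlt
      exact lt_irrefl _ hlt
    obtain ⟨g₀, hg₀⟩ := (IsPrincipalIdealRing.principal I).principal
    obtain ⟨lam, hlam⟩ : ∃ lam : Λ, g₀.eval₂ (F₀.subtype) lam = 0 := by
      by_cases h0 : g₀ = 0
      · exact ⟨0, by rw [h0, Polynomial.eval₂_zero]⟩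
      · refine IsAlgClosed.exists_eval₂_eq_zero_of_injective F₀.subtype Subtype.val_injective g₀ ?_
        intro hdeg
        exact hI (hg₀ ▸ Ideal.span_singleton_eq_top.2 (Polynomial.isUnit_iff_degree_eq_zero.2 hdeg))
    let G' : Subalgebra K (L × Λ) :=
      ((Polynomial.aeval (R := G) ((x, lam) : L × Λ)).restrictScalars K).range
    have hfst : ∀ q : G[X], (Polynomial.aeval (R := G) ((x, lam) : L × Λ) q).1 =
        q.eval₂ fstG.toRingHom x := fun q => by
      rw [Polynomial.aeval_def]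
      exact Polynomial.hom_eval₂ _ _ (RingHom.fst L Λ) _
    have hsnd : ∀ q : G[X], (Polynomial.aeval (R := G) ((x, lam) : L × Λ) q).2 =
        (q.map ρ).eval₂ F₀.subtype lam := fun q => by
      rw [Polynomial.eval₂_map, Polynomial.aeval_def]
      exact Polynomial.hom_eval₂ _ _ (RingHom.snd L Λ) _
    have hsub : G' ≤ G := by
      refine grow G' (fun g hg => ⟨Polynomial.C ⟨g, hg⟩, ?_⟩) ?_
      · exact Polynomial.aeval_C _ _
      · rintro _ ⟨q, rfl⟩ h0
        change (Polynomial.aeval (R := G) ((x, lam) : L × Λ) q).1 = 0 at h0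
        show (Polynomial.aeval (R := G) ((x, lam) : L × Λ) q).2 = 0
        rw [hfst] at h0
        have hmem : q.map ρ ∈ I := Ideal.mem_map_of_mem _ (RingHom.mem_ker.2 h0)
        rw [hg₀] at hmem
        obtain ⟨r, hr⟩ := Ideal.mem_span_singleton'.1 hmem
        rw [hsnd, ← hr, Polynomial.eval₂_mul, hlam, mul_zero]
    have hx' : ((x, lam) : L × Λ) ∈ G' := ⟨Polynomial.X, Polynomial.aeval_X _⟩
    exact ⟨⟨_, hsub hx'⟩, rfl⟩
  let toR : B →+* R := B.subtype.codRestrict R fun y => by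
    obtain ⟨g, hg⟩ := hBR y y.2
    exact ⟨g, hg⟩
  let res : B →+* Λ := ψ.comp toR
  have hres : ∀ (g : G) (h : (g : L × Λ).1 ∈ B), res ⟨_, h⟩ = (g : L × Λ).2 := fun g h => hψ g
  refine ⟨⟨⟨B, fun c => hfG ⟨_, Subalgebra.algebraMap_mem G c⟩⟩, res, fun c =>
    hres ⟨_, Subalgebra.algebraMap_mem G c⟩ _, fun y hy => ?_⟩, fun s => ?_⟩
  · obtain ⟨g, hg⟩ := hBR y y.2
    have hy2 : (g : L × Λ).2 ≠ 0 := by
      rw [← hres g (hfG g)]
      rwa [show (⟨(g : L × Λ).1, hfG g⟩ : B) = y from Subtype.ext hg]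
    have hy0 : (y : L) ≠ 0 := fun h => hy2 (hG g g.2 (hg.trans h))
    refine IsUnit.of_mul_eq_one ⟨(y : L)⁻¹, ?_⟩ (Subtype.ext (mul_inv_cancel₀ hy0))
    rw [← hg]
    exact hfG ⟨_, hinv g.2 hy2⟩
  · have hs : ((s : L), φ s) ∈ G := hle ⟨s, rfl⟩
    exact ⟨hfG ⟨_, hs⟩, hres ⟨_, hs⟩ (hfG ⟨_, hs⟩)⟩

end Fermat.Agent.AbVar
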