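import Fermat.Agent.AbVar.SqueezeEstimates

/-!
# The degree of multiplication by `n`

Counting functions with bounded poles along the iterates of multiplication by `n` squeezes its
degree to `n ^ (2 * g)` (`finrank_eq_pow`).
-/

set_option autoImplicit false

noncomputable section

namespace Fermat.Agent.AbVar

universe u

variable {K : Type u} [Field K] [IsAlgClosed K] {X : AData K}

namespace Squeeze

/-- Exponential comparison. -/
theorem le_of_forall_pow_le {a b A : ℕ} (hb : 0 < b) (h : ∀ k, a ^ k ≤ A * b ^ k) : a ≤ b := by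
  by_contra hab
  have hk := (Nat.pow_le_pow_left (show b + 1 ≤ a by omega) (A * b + 1)).trans (h (A * b + 1))
  have hbin : ∀ k, b ^ (k + 1) + (k + 1) * b ^ k ≤ (b + 1) ^ (k + 1) := by
    intro k
    induction k with
    | zero => simp
    | succ k ih =>
      have h1 := Nat.mul_le_mul_right (b + 1) ih
      rw [← pow_succ] at h1
      refine le_trans ?_ h1
      rw [pow_succ b (k + 1), pow_succ b k]
      ring_nf
      omega
  have h2 := (hbin (A * b)).trans hk
  have h3 : 0 < b ^ (A * b) := pow_pos hb _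
  rw [pow_succ] at h2
  nlinarith

/-- The embeddings of the squeeze: `s` after the iterates of `σ`. -/
def embSeq {L : Type u} [Field L] [Algebra K L] (s : X.FF →ₐ[K] L) (σ : X.FF →ₐ[K] X.FF) :
    ℕ → (X.FF →ₐ[K] L)
  | 0 => s
  | k + 1 => (embSeq s σ k).comp σ

theorem hasDeg_embSeq {L : Type u} [Field L] [Algebra K L] {s : X.FF →ₐ[K] L}
    {σ : X.FF →ₐ[K] X.FF} {d e : ℕ} (hs : HasDeg s e) (hσ : HasDeg σ d) :
    ∀ k, HasDeg (embSeq s σ k) (d ^ k * e)
  | 0 => by rw [pow_zero, one_mul]; exact hs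
  | k + 1 => by
    rw [show d ^ (k + 1) * e = d * (d ^ k * e) by ring]
    exact hσ.comp (hasDeg_embSeq hs hσ k)

theorem ptMap_embSeq {L : Type u} [Field L] [Algebra K L] (s : X.FF →ₐ[K] L)
    {σ : X.FF →ₐ[K] X.FF} {n : ℕ} (hσ : X.ptMap σ X.genPt = n • X.genPt) :
    ∀ k, X.ptMap (embSeq s σ k) X.genPt = n ^ k • X.ptMap s X.genPt
  | 0 => by rw [pow_zero, one_smul]; rfl
  | k + 1 => by
    rw [show embSeq s σ (k + 1) = (embSeq s σ k).comp σ from rfl, ← AData.ptMap_comp, hσ,
      map_nsmul, ptMap_embSeq s hσ k, ← mul_nsmul', pow_succ']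

omit [IsAlgClosed K] in
theorem mapCl_sub {L L' : Type u} [Field L] [Algebra K L] [Field L'] [Algebra K L']
    (φ : L →ₐ[K] L') (a b : ClGroup K L) : mapCl φ (a - b) = mapCl φ a - mapCl φ b :=
  funext fun W => map_sub (W.clsMap φ) (a (W.comap φ)) (b (W.comap φ))

omit [IsAlgClosed K] in
theorem isPrinc_add {L : Type u} [Field L] [Algebra K L] {a b : ClGroup K L} (ha : IsPrinc a)
    (hb : IsPrinc b) : IsPrinc (a + b) := by
  obtain ⟨u, rfl⟩ := ha
  obtain ⟨v, rfl⟩ := hb
  exact ⟨u + v, map_add _ u v⟩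

omit [IsAlgClosed K] in
theorem isPrinc_sub {L : Type u} [Field L] [Algebra K L] {a b : ClGroup K L} (ha : IsPrinc a)
    (hb : IsPrinc b) : IsPrinc (a - b) := by
  obtain ⟨u, rfl⟩ := ha
  obtain ⟨v, rfl⟩ := hb
  exact ⟨u - v, funext fun V => map_sub V.cls u v⟩

omit [IsAlgClosed K] in
theorem isPrinc_nsmul {L : Type u} [Field L] [Algebra K L] {a : ClGroup K L} (ha : IsPrinc a)
    (m : ℕ) : IsPrinc (m • a) := by
  obtain ⟨u, rfl⟩ := ha
  exact ⟨m • u, map_nsmul _ m u⟩

theorem isPrinc_mapCl_sub (D : GoodClass X) {L : Type u} [Field L] [Algebra K L]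
    (φ : X.FF →ₐ[K] L) : IsPrinc (mapCl φ D.h - D.cls (X.ptMap φ X.genPt)) := by
  have e : mapCl φ D.h - D.cls (X.ptMap φ X.genPt) = mapCl φ (D.h - D.cls X.genPt) := by
    rw [D.cls_map]
    exact (mapCl_sub φ D.h (D.cls X.genPt)).symm
  exact e ▸ D.h_eq.map φ

theorem nsmul_regroup {G : Type*} [AddCommGroup G] (a b p q : G) (m M N : ℕ) :
    (m * M) • a - (m * M * N) • p =
      m • (M • (b - N • q)) + ((m * M) • (a - b) - (m * M * N) • (p - q)) := by
  simp only [smul_sub, smul_smul, mul_assoc]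
  abel

/-- The classes of the iterates: quadratic growth, up to a multiple and a principal class. -/
theorem exists_isPrinc_embSeq (D : GoodClass X) {n : ℕ} {σ : X.FF →ₐ[K] X.FF}
    (hσ : X.ptMap σ X.genPt = n • X.genPt) {L : Type u} [Field L] [Algebra K L]
    (s : X.FF →ₐ[K] L)
    (hcube : ∀ m : ℕ, IsPrinc
      (D.cls (m • X.ptMap ((IsScalarTower.toAlgHom K L (AlgebraicClosure L)).comp s) X.genPt) -
        (m ^ 2) • D.cls (X.ptMap ((IsScalarTower.toAlgHom K L (AlgebraicClosure L)).comp s)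
          X.genPt))) (k : ℕ) :
    ∃ M : ℕ, 0 < M ∧ ∀ m, IsPrinc ((m * M) • mapCl (embSeq s σ k) D.h -
        (m * M * (n ^ k) ^ 2) • mapCl s D.h) := by
  have h1 : IsPrinc (mapCl (IsScalarTower.toAlgHom K L (AlgebraicClosure L))
      (D.cls (X.ptMap (embSeq s σ k) X.genPt) - (n ^ k) ^ 2 • D.cls (X.ptMap s X.genPt))) := by
    have e1 := mapCl_sub (IsScalarTower.toAlgHom K L (AlgebraicClosure L))
      (D.cls (X.ptMap (embSeq s σ k) X.genPt)) ((n ^ k) ^ 2 • D.cls (X.ptMap s X.genPt))
    have e2 := map_nsmul (mapCl (IsScalarTower.toAlgHom K L (AlgebraicClosure L)))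
      ((n ^ k) ^ 2) (D.cls (X.ptMap s X.genPt))
    refine e1 ▸ ?_
    rw [e2, ← D.cls_map, ← D.cls_map, ptMap_embSeq s hσ k, map_nsmul, AData.ptMap_comp]
    exact hcube (n ^ k)
  obtain ⟨M, hM, hMγ⟩ := exists_nsmul_isPrinc h1
  refine ⟨M, hM, fun m => ?_⟩
  rw [nsmul_regroup (mapCl (embSeq s σ k) D.h) (D.cls (X.ptMap (embSeq s σ k) X.genPt))
    (mapCl s D.h) (D.cls (X.ptMap s X.genPt))]
  exact isPrinc_add (isPrinc_nsmul hMγ m) (isPrinc_sub (isPrinc_nsmul (isPrinc_mapCl_sub D _) _)
      (isPrinc_nsmul (isPrinc_mapCl_sub D _) _))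

end Squeeze

open Squeeze in
/-- **Multiplication by `n` has degree `n ^ (2 * g)`.** -/
theorem finrank_eq_pow (D : GoodClass X) {n : ℕ} (hn : n ≠ 0)
    (σ : X.FF →ₐ[K] X.FF) (hσ : X.ptMap σ X.genPt = n • X.genPt)
    (hσfin : Module.Finite σ.fieldRange X.FF) (hσsep : Algebra.IsSeparable σ.fieldRange X.FF)
    {L : Type u} [Field L] [Algebra K L] (s : X.FF →ₐ[K] L)
    (hsfin : Module.Finite s.fieldRange L) (hssep : Algebra.IsSeparable s.fieldRange L)
    (x : Fin X.g → X.FF) (hx : AlgebraicIndependent K x)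
    (hxfin : Module.Finite (IntermediateField.adjoin K (Set.range x)) X.FF)
    (hxsep : Algebra.IsSeparable (IntermediateField.adjoin K (Set.range x)) X.FF)
    (hcube : ∀ m : ℕ, IsPrinc
      (D.cls (m • X.ptMap ((IsScalarTower.toAlgHom K L (AlgebraicClosure L)).comp s) X.genPt) -
        (m ^ 2) • D.cls (X.ptMap ((IsScalarTower.toAlgHom K L (AlgebraicClosure L)).comp s)
          X.genPt))) :
    Module.finrank σ.fieldRange X.FF = n ^ (2 * X.g) := by
  classical
  have hdσ := HasDeg.of_fieldRange σ hσfin hσsep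
  have hds := HasDeg.of_fieldRange s hsfin hssep
  set d := Module.finrank σ.fieldRange X.FF
  set e := Module.finrank s.fieldRange L
  have he : 0 < e := by
    have := hsfin
    exact Module.finrank_pos
  have hd : 0 < d := by
    have := hσfin
    exact Module.finrank_pos
  obtain ⟨y, hy, hyY⟩ := exists_indep_of_generators D x hx hxfin
  obtain ⟨c, r₀, hupper⟩ := exists_upper D x hx hxfin hxsep L
  have hmap := exists_isPrinc_embSeq D hσ s hcube
  have key : ∀ k, d ^ k ≤ r₀ * (c * (X.g + 1) + 1) ^ X.g * (n ^ (2 * X.g)) ^ k ∧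
      (n ^ (2 * X.g)) ^ k ≤ r₀ * (c * (X.g + 1) + 1) ^ X.g * d ^ k := by
    intro k
    obtain ⟨M, hM, hprinc⟩ := hmap k
    have hφ := hasDeg_embSeq hds hdσ k
    obtain ⟨rk, hlow⟩ := exists_lower D hy hyY (embSeq s σ k) hφ
    obtain ⟨rs, hlow0⟩ := exists_lower D hy hyY s hds
    obtain ⟨uk, hup⟩ := hupper _ _ hφ
    obtain ⟨us, hup0⟩ := hupper _ _ hds
    set N := (n ^ k) ^ 2 with hN
    have hN1 : 1 ≤ N := pow_pos (pow_pos (Nat.pos_of_ne_zero hn) k) 2
    have hNg : N ^ X.g = (n ^ (2 * X.g)) ^ k := by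
      rw [hN, ← pow_mul, ← pow_mul, ← pow_mul]; ring_nf
    set t := rk + rs + uk + us + 1 with ht
    have htM : t ≤ M * t := Nat.le_mul_of_pos_left t hM
    set m := (X.g + 1) * t with hm
    have heq : Module.finrank K (Bdd (mag (mapCl (embSeq s σ k) D.h) ^ (m * M))) =
        Module.finrank K (Bdd (mag (mapCl s D.h) ^ (m * M * N))) := by
      rw [← mag_nsmul, ← mag_nsmul]
      have : Module.Finite K (Bdd (mag ((m * M * N) • mapCl s D.h))) := by
        rw [mag_nsmul]; exact (hup0 _).1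
      exact (finrank_eq_of_isPrinc_sub (hprinc m)).2
    constructor
    · have hle : X.g * (M * t) + rk ≤ m * M := by rw [hm]; nlinarith
      have h1 := hlow (M * t) (hup _).1
      have := (hup (m * M)).1
      have h2 := (h1.trans (Submodule.finrank_mono
        (bdd_pow_mono (one_le_mag D _) hle))).trans (heq.le.trans (hup0 (m * M * N)).2)
      have h3 : c * (m * M * N) + us + 1 ≤ (c * (X.g + 1) + 1) * N * (M * t + 1) := by
        have : us + 1 ≤ N * (M * t + 1) :=
          le_trans (by omega) (Nat.le_mul_of_pos_left _ hN1)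
        calc c * (m * M * N) + us + 1 ≤ c * (X.g + 1) * N * (M * t + 1) + N * (M * t + 1) := by
              rw [hm, add_assoc]
              refine add_le_add ?_ this
              calc c * ((X.g + 1) * t * M * N) = c * (X.g + 1) * N * (M * t) := by ring
                _ ≤ _ := Nat.mul_le_mul_left _ (Nat.le_succ _)
          _ = _ := by ring
      have h4 := h2.trans (Nat.mul_le_mul_left _ (Nat.pow_le_pow_left h3 _))
      rw [mul_pow, mul_pow, hNg] at h4
      refine Nat.le_of_mul_le_mul_right ?_ (Nat.mul_pos he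
        (pow_pos (show 0 < M * t + 1 by omega) X.g))
      calc d ^ k * (e * (M * t + 1) ^ X.g) = d ^ k * e * (M * t + 1) ^ X.g := by ring
        _ ≤ _ := h4
        _ = _ := by ring
    · have hle : X.g * (M * t * N) + rs ≤ m * M * N := by
        have : rs ≤ M * t * N := le_trans (by omega) (Nat.le_mul_of_pos_right _ hN1)
        rw [hm]; nlinarith
      have h1 := hlow0 (M * t * N) (hup0 _).1
      have := (hup0 (m * M * N)).1
      have h2 := (h1.trans (Submodule.finrank_mono
        (bdd_pow_mono (one_le_mag D _) hle))).trans (heq.ge.trans (hup (m * M)).2)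
      have h3 : c * (m * M) + uk + 1 ≤ (c * (X.g + 1) + 1) * (M * t) := by
        have : uk + 1 ≤ M * t := by omega
        rw [hm]; nlinarith
      have h4 := ((Nat.mul_le_mul_left e (Nat.pow_le_pow_left
        (Nat.le_succ (M * t * N)) X.g)).trans h2).trans
        (Nat.mul_le_mul_left _ (Nat.pow_le_pow_left h3 _))
      rw [mul_pow (M * t), mul_pow (c * (X.g + 1) + 1), hNg] at h4
      have hMt : 0 < M * t := by omega
      refine Nat.le_of_mul_le_mul_right ?_ (Nat.mul_pos he (pow_pos hMt X.g))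
      calc (n ^ (2 * X.g)) ^ k * (e * (M * t) ^ X.g)
          = e * ((M * t) ^ X.g * (n ^ (2 * X.g)) ^ k) := by ring
        _ ≤ _ := h4
        _ = _ := by ring
  exact le_antisymm
    (le_of_forall_pow_le (pow_pos (Nat.pos_of_ne_zero hn) _) fun k => (key k).1)
    (le_of_forall_pow_le hd fun k => (key k).2)

end Fermat.Agent.AbVar
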