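import Fermat.Agent.AbVar.TangentTorsion

/-!
# Multiplication by `n` on the generic point

For `n` invertible in `K` it induces a finite separable endomorphism of the function field whose
degree is the number of rational `n`-torsion points (`exists_nsmul_endo`).
-/

set_option autoImplicit false

noncomputable section

open CategoryTheory AlgebraicGeometry Cardinal
open IsLocalRing (closedPoint)

namespace Fermat.Agent.AbVar

universe u

variable {K : Type u} [Field K] [IsAlgClosed K] (X : AData K)

theorem AData.isLocalHom_id_stalk :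
    IsLocalHom (AlgHom.id K (X.A.presheaf.stalk (genericPoint X.A))).toRingHom :=
  ⟨fun _ h => h⟩

theorem AData.exists_evalAt_genPt (b : X.FF) : ∃ a, X.evalAt X.genPt a = b := by
  have h : Set.range (X.evalAt X.genPt) =
      Set.range (AlgHom.id K (X.A.presheaf.stalk (genericPoint X.A))) :=
    AData.range_evalAt X.isLocalHom_id_stalk rfl
  show b ∈ Set.range (X.evalAt X.genPt)
  rw [h]
  exact ⟨b, rfl⟩

/-- The function field is finite separable over the coordinates of `n • genPt + t`. -/
theorem AData.finite_separable_of_evalAt_mem {n : ℕ} (hn : (n : K) ≠ 0) (t : X.Pt K)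
    (Q : X.Pt X.FF) (hQ : Q = n • X.genPt + X.ptMap (Algebra.ofId K X.FF) t)
    (E : IntermediateField K X.FF) (hE : ∀ a, X.evalAt Q a ∈ E) :
    Module.Finite E X.FF ∧ Algebra.IsSeparable E X.FF := by
  have : Algebra.EssFiniteType K X.FF := X.essFiniteType_stalk (genericPoint X.A)
  have : Algebra.EssFiniteType E X.FF := Algebra.EssFiniteType.of_comp K E X.FF
  have : Algebra.FormallyUnramified E X.FF := formallyUnramified_of_derivation fun d => by
    ext b
    obtain ⟨a, rfl⟩ := X.exists_evalAt_genPt b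
    exact derivation_eq_zero hn X.genPt Q t hQ (d.restrictScalars K)
      (fun a' => d.map_algebraMap ⟨_, hE a'⟩) a
  exact ⟨Algebra.FormallyUnramified.finite_of_free E X.FF,
    Algebra.FormallyUnramified.isSeparable E X.FF⟩

/-- The endomorphism of the function field of `P ↦ n • P + t`. -/
theorem AData.exists_endo {n : ℕ} (hn : (n : K) ≠ 0) (t : X.Pt K) :
    ∃ σ : X.FF →ₐ[K] X.FF, X.ptMap σ X.genPt = n • X.genPt + X.ptMap (Algebra.ofId K X.FF) t ∧
      Module.Finite σ.fieldRange X.FF ∧ Algebra.IsSeparable σ.fieldRange X.FF := by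
  obtain ⟨Q, hQ⟩ : ∃ Q, Q = n • X.genPt + X.ptMap (Algebra.ofId K X.FF) t := ⟨_, rfl⟩
  set y := X.ptAt Q with hy
  set ψ := X.evalAt Q
  -- the coordinates contain a transcendence basis
  have := (X.finite_separable_of_evalAt_mem hn t Q hQ (IntermediateField.adjoin K (Set.range ψ))
    fun a => IntermediateField.subset_adjoin K _ ⟨a, rfl⟩).1
  have : Algebra.IsAlgebraic (Algebra.adjoin K (Set.range ψ)) X.FF :=
    IntermediateField.isAlgebraic_adjoin_iff_top.1 (Algebra.IsAlgebraic.of_finite _ _)
  obtain ⟨T, hT, hTb⟩ := exists_isTranscendenceBasis_subset (R := K) (A := X.FF) (Set.range ψ)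
  have fin : Algebra.trdeg K X.FF < ℵ₀ := by
    obtain ⟨x0, hx0, hfin0, -⟩ := X.exists_transcendence_basis
    have := hfin0
    have : Algebra.IsAlgebraic (Algebra.adjoin K (Set.range x0)) X.FF :=
      IntermediateField.isAlgebraic_adjoin_iff_top.1 (Algebra.IsAlgebraic.of_finite _ _)
    exact (Algebra.IsAlgebraic.trdeg_le_cardinalMk K (Set.range x0)).trans_lt
      (Cardinal.lt_aleph0_of_finite _)
  have : IsDomain (X.A.presheaf.stalk y) := X.isDomain_stalk y
  choose x hx using fun s : T => hT s.2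
  have hxi : AlgebraicIndependent K x := AlgebraicIndependent.of_comp ψ (by
    rw [show (ψ ∘ x) = Subtype.val from funext hx]
    exact hTb.1)
  have hle : Algebra.trdeg K (X.A.presheaf.stalk y) ≤ Algebra.trdeg K X.FF :=
    trdeg_le_of_injective (IsScalarTower.toAlgHom K _ X.FF)
      (IsFractionRing.injective (X.A.presheaf.stalk y) X.FF)
  have hxb : IsTranscendenceBasis K x := hxi.isTranscendenceBasis_of_trdeg_le
    (hle.trans_lt fin) (hle.trans_eq hTb.cardinalMk_eq_trdeg.symm)
  -- so the local ring is a field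
  have hinj : ∀ b, ψ b = 0 → b = 0 := by
    intro b hb
    by_contra hb0
    have := hxb.isAlgebraic
    obtain ⟨r, hr0, c, hc⟩ := (Algebra.IsAlgebraic.isAlgebraic
      (R := Algebra.adjoin K (Set.range x)) b).exists_nonzero_dvd
      (mem_nonZeroDivisors_of_ne_zero hb0)
    obtain ⟨p, hp⟩ : (r : X.A.presheaf.stalk y) ∈ (MvPolynomial.aeval (R := K) x).range :=
      Algebra.adjoin_range_eq_range_aeval K x ▸ r.2
    have h0 : MvPolynomial.aeval (fun s : T => (s : X.FF)) p = 0 := by
      have h1 : ψ.comp (MvPolynomial.aeval x) = MvPolynomial.aeval (fun s : T => (s : X.FF)) :=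
        MvPolynomial.algHom_ext fun s => by simp [hx]
      rw [← h1, AlgHom.comp_apply]
      show ψ ((MvPolynomial.aeval (R := K) x).toRingHom p) = 0
      rw [show (MvPolynomial.aeval (R := K) x).toRingHom p = b * c from hp.trans hc, map_mul, hb,
        zero_mul]
    refine hr0 (Subtype.ext ?_)
    rw [← hp, (algebraicIndependent_iff.1 hTb.1) p h0]
    simp
  have hyη : y = genericPoint X.A := by
    obtain ⟨p, hp⟩ : genericPoint X.A ∈ Set.range (X.A.fromSpecStalk y) := by
      rw [Scheme.range_fromSpecStalk]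
      exact (genericPoint_spec X.A).specializes trivial
    refine Eq.trans ?_ hp
    refine (Scheme.fromSpecStalk_closedPoint (X := X.A) (x := y)).symm.trans (congrArg _ ?_)
    refine (PrimeSpectrum.ext (le_antisymm (fun b hb => ?_)
      (IsLocalRing.le_maximalIdeal p.2.ne_top)))
    have hb' : ψ b = 0 := by
      by_contra h0
      exact hb ((AData.isLocalHom_evalAt Q).map_nonunit b (isUnit_iff_ne_zero.2 h0))
    rw [hinj b hb']
    exact zero_mem _
  obtain ⟨σ, hσ, hσQ⟩ := AData.exists_stalkHom Q hyη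
  refine ⟨σ, ?_, ?_⟩
  · rw [← hQ, AData.genPt, AData.ptMap_ofStalkHom]
    exact hσQ
  · refine X.finite_separable_of_evalAt_mem hn t Q hQ _ fun a => ?_
    have hmem : X.evalAt Q a ∈ Set.range σ := AData.range_evalAt hσ hσQ ▸ Set.mem_range_self a
    exact hmem

/-- A homomorphism of the function field is determined by the image of the generic point. -/
theorem AData.hom_ext_genPt {L : Type u} [Field L] [Algebra K L] {φ φ' : X.FF →ₐ[K] L}
    (h : X.ptMap φ X.genPt = X.ptMap φ' X.genPt) : φ = φ' := by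
  rw [AData.genPt, AData.ptMap_ofStalkHom, AData.ptMap_ofStalkHom] at h
  exact AData.ofStalkHom_injective (AData.isLocalHom_of_field φ) (AData.isLocalHom_of_field φ') h

/-- Multiplication by `n` has as degree the number of rational `n`-torsion points. -/
theorem exists_nsmul_endo {n : ℕ} (hn : (n : K) ≠ 0) :
    ∃ σ : X.FF →ₐ[K] X.FF, X.ptMap σ X.genPt = n • X.genPt ∧
      Module.Finite σ.fieldRange X.FF ∧ Algebra.IsSeparable σ.fieldRange X.FF ∧
      Module.finrank σ.fieldRange X.FF = Nat.card {P : X.Pt K // n • P = 0} := by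
  obtain ⟨σ, hσ, hfin, hsep⟩ := X.exists_endo hn 0
  rw [map_zero, add_zero] at hσ
  refine ⟨σ, hσ, hfin, hsep, ?_⟩
  have := hfin
  have := hsep
  let Ω := AlgebraicClosure X.FF
  let i : X.FF →ₐ[K] Ω := IsScalarTower.toAlgHom K X.FF Ω
  choose τ hτ using fun t : X.Pt K => X.exists_endo (n := 1) (by simp) t
  have key : ∀ φ : X.FF →ₐ[K] Ω, X.ptMap (φ.comp σ) X.genPt = n • X.ptMap φ X.genPt := fun φ => by
    rw [← AData.ptMap_comp, hσ, map_nsmul]
  have hv : ∀ t, X.ptMap (i.comp (τ t)) X.genPt =
      X.ptMap i X.genPt + X.ptMap (Algebra.ofId K Ω) t := fun t => by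
    rw [← AData.ptMap_comp, (hτ t).1, one_smul, map_add, AData.ptMap_comp,
      Subsingleton.elim (i.comp (Algebra.ofId K X.FF)) (Algebra.ofId K Ω)]
  let e1 : {P : X.Pt K // n • P = 0} ≃ {φ : X.FF →ₐ[K] Ω // φ.comp σ = i.comp σ} :=
    Equiv.ofBijective (fun t => ⟨i.comp (τ t.1), X.hom_ext_genPt (by
      rw [key, key, hv, nsmul_add, ← map_nsmul (X.ptMap (Algebra.ofId K Ω)), t.2, map_zero,
        add_zero])⟩) (by
      refine ⟨fun s t h => Subtype.ext (AData.ptMap_injective_of_field (Algebra.ofId K Ω) ?_),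
        fun φ => ?_⟩
      · have h' := congrArg (fun φ : X.FF →ₐ[K] Ω => X.ptMap φ X.genPt) (congrArg Subtype.val h)
        simpa only [hv, add_right_inj] using h'
      · obtain ⟨t, ht, hte⟩ := exists_of_nsmul_eq_zero hn
          (X.ptMap φ.1 X.genPt - X.ptMap i X.genPt) (by
            rw [nsmul_sub, ← key, ← key, φ.2, sub_self])
        exact ⟨⟨t, ht⟩, Subtype.ext (X.hom_ext_genPt (by rw [hv, hte, add_sub_cancel]))⟩)
  let e2 : {φ : X.FF →ₐ[K] Ω // φ.comp σ = i.comp σ} ≃ (X.FF →ₐ[σ.fieldRange] Ω) :=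
    { toFun := fun φ => { φ.1.toRingHom with
        commutes' := fun b => by
          obtain ⟨_, a, rfl⟩ := b
          exact AlgHom.congr_fun φ.2 a }
      invFun := fun φ => ⟨φ.restrictScalars K, AlgHom.ext fun a =>
        φ.commutes (⟨σ a, a, rfl⟩ : σ.fieldRange)⟩
      left_inv := fun _ => rfl
      right_inv := fun _ => rfl }
  rw [Nat.card_congr (e1.trans e2)]
  exact (AlgHom.natCard_of_splits σ.fieldRange X.FF Ω fun _ => IsAlgClosed.splits _).symm

end Fermat.Agent.AbVar
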