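import Fermat.Agent.AbVar.Cube
import Fermat.Agent.AbVar.Curves
import Fermat.Agent.AbVar.Squeeze
import Fermat.Agent.AbVar.Tangent
import Fermat.Agent.AbVar.Cartier

/-!
# The number of `n`-torsion points

An abelian variety of dimension `g` over an algebraically closed field in which `n` is invertible
has `n ^ (2 * g)` points killed by `n`: multiplication by `n` is separable of that degree.
-/

set_option autoImplicit false

noncomputable section

open CategoryTheory AlgebraicGeometry NeronModelInfra GoodReductionJacobian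

namespace Fermat.Agent.AbVar

universe u

variable {K : Type u} [Field K] [IsAlgClosed K]

/-- There are `n ^ (2 * g)` rational points killed by `n`. -/
theorem natCard_torsion (X : AData K) {n : ℕ} (hn : (n : K) ≠ 0) :
    Nat.card {P : X.Pt K // n • P = 0} = n ^ (2 * X.g) := by
  have hn0 : n ≠ 0 := by
    rintro rfl
    exact hn Nat.cast_zero
  obtain ⟨σ, hσ, hσfin, hσsep, hcard⟩ := exists_nsmul_endo X hn
  obtain ⟨L, _, _, s, hsfin, hssep, hsum⟩ := exists_sum_curves X
  obtain ⟨x, hx, hxfin, hxsep⟩ := X.exists_transcendence_basis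
  obtain ⟨D⟩ := exists_goodClass X
  rw [← hcard]
  refine finrank_eq_pow D hn0 σ hσ hσfin hσsep s hsfin hssep x hx hxfin hxsep fun m => ?_
  rw [← AData.ptMap_comp]
  exact isPrinc_cls_nsmul_sub D.toClassData D.symm hsum _ m

theorem natCard_torsion_sections (X : AData K) {n : ℕ} (hn : (n : K) ≠ 0) :
    Nat.card {x : SchemeHomOver (𝟙 (Spec (CommRingCat.of K))) X.f //
        X.G.IsTorsionPoint (𝟙 (Spec (CommRingCat.of K))) n x} = n ^ (2 * X.g) := by
  rw [← natCard_torsion X hn]
  have key : ∀ {t : Spec (CommRingCat.of K) ⟶ Spec (CommRingCat.of K)}, t = AData.base K K →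
      Nat.card {x : SchemeHomOver t X.f // X.G.IsTorsionPoint t n x} =
        Nat.card {P : X.Pt K // n • P = 0} := by
    rintro t rfl
    exact Nat.card_congr (Equiv.subtypeEquivRight fun x => by rw [AData.nsmul_eq]; rfl)
  exact key (by simp [AData.base])

/-- **The number of `n`-torsion points of an abelian variety is `n ^ (2 * g)`.** -/
theorem natCard_isTorsionPoint {A : Scheme.{u}} (f : A ⟶ Spec (CommRingCat.of K))
    (L : RelativeGroupLaw K f) (hc : L.IsCommutative) (hA : AbelianSchemePropertyBundle K f)
    (g : ℕ) [hg : SmoothOfRelativeDimension g f] (n : ℕ) (hn : (n : K) ≠ 0) :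
    Nat.card {x : SchemeHomOver (𝟙 (Spec (CommRingCat.of K))) f //
        L.IsTorsionPoint (𝟙 (Spec (CommRingCat.of K))) n x} = n ^ (2 * g) :=
  natCard_torsion_sections ⟨A, f, L, hc, hA, g, hg⟩ hn

end Fermat.Agent.AbVar
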