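import Fermat.Agent.AbVar.PointsLocal

/-!
# The valuative criterion: reduction of points at places

Points with values in a field extend uniquely to its valuation rings, which gives the reduction
`X.red π` of points at a place.
-/

set_option autoImplicit false

noncomputable section

open CategoryTheory AlgebraicGeometry NeronModelInfra

namespace Fermat.Agent.AbVar

universe u

variable {K : Type u} [Field K] {X : AData K} {L : Type u} [Field L] [Algebra K L]
  {L' : Type u} [Field L'] [Algebra K L'] {Λ : Type u} [Field Λ] [Algebra K Λ]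
  {Λ' : Type u} [Field Λ'] [Algebra K Λ']

/-- The inclusion of the valuation ring. -/
def KVal.incl (V : KVal K L) : V.toVal →ₐ[K] L :=
  { V.toVal.subtype with commutes' := fun _ => rfl }

namespace AData

theorem base_comp_incl (V : KVal K L) :
    Spec.map (CommRingCat.ofHom (algebraMap V.toVal L)) ≫ base K V.toVal = base K L :=
  base_comp V.incl

/-- The valuative criterion for points. -/
theorem ptMap_incl_bijective (V : KVal K L) : Function.Bijective (X.ptMap V.incl) := by
  have hvc : ValuativeCriterion X.f := by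
    have := X.bundle.proper
    exact ValuativeCriterion.iff.2
      ⟨((UniversallyClosed.eq_valuativeCriterion ▸ (inferInstance : UniversallyClosed X.f) :
          (ValuativeCriterion.Existence ⊓ @QuasiCompact) X.f)).1,
        IsSeparated.valuativeCriterion X.f⟩
  constructor
  · intro P Q h
    let Sq : ValuativeCommSq X.f :=
      { R := V.toVal
        K := L
        i₁ := (X.ptMap V.incl P).1
        i₂ := base K V.toVal
        commSq := ⟨(X.ptMap V.incl P).2.trans (base_comp_incl V).symm⟩ }
    obtain ⟨hu⟩ := hvc Sq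
    let lP : Sq.commSq.LiftStruct := { l := P.1, fac_left := rfl, fac_right := P.2 }
    let lQ : Sq.commSq.LiftStruct :=
      { l := Q.1, fac_left := (congrArg Subtype.val h).symm, fac_right := Q.2 }
    exact Pt.ext (congrArg CommSq.LiftStruct.l ((hu.uniq lP).trans (hu.uniq lQ).symm))
  · intro P
    let Sq : ValuativeCommSq X.f :=
      { R := V.toVal
        K := L
        i₁ := P.1
        i₂ := base K V.toVal
        commSq := ⟨P.2.trans (base_comp_incl V).symm⟩ }
    obtain ⟨hu⟩ := hvc Sq
    exact ⟨⟨hu.default.l, hu.default.fac_right⟩, Pt.ext hu.default.fac_left⟩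

/-- Points with values in a field extend to every valuation ring. -/
def valEquiv (V : KVal K L) : X.Pt V.toVal ≃+ X.Pt L :=
  AddEquiv.ofBijective (X.ptMap V.incl) (ptMap_incl_bijective V)

/-- The value of a point at a place. -/
def red (π : KPlace K L Λ) : X.Pt L →+ X.Pt Λ :=
  (X.ptMap π.resAlg).comp (valEquiv π.toKVal).symm.toAddMonoidHom

theorem red_ptMap_incl (π : KPlace K L Λ) (Q : X.Pt π.toKVal.toVal) :
    X.red π (X.ptMap π.toKVal.incl Q) = X.ptMap π.resAlg Q :=
  congrArg (X.ptMap π.resAlg) ((valEquiv π.toKVal).symm_apply_apply Q)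

theorem red_ptMap (π : KPlace K L Λ) {R : Type u} [CommRing R] [Algebra K R] (φ : R →ₐ[K] L)
    (φ' : R →ₐ[K] Λ) (h : ∀ r, ∃ hr : φ r ∈ π.toKVal.toVal, π.res ⟨φ r, hr⟩ = φ' r)
    (P : X.Pt R) : X.red π (X.ptMap φ P) = X.ptMap φ' P := by
  let ψ : R →ₐ[K] π.toKVal.toVal :=
    { φ.toRingHom.codRestrict π.toKVal.toVal.toSubring fun r => (h r).1 with
      commutes' := fun c => Subtype.ext (φ.commutes c) }
  have h1 : π.toKVal.incl.comp ψ = φ := AlgHom.ext fun _ => rfl
  have h2 : π.resAlg.comp ψ = φ' := AlgHom.ext fun r => (h r).2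
  rw [← h1, ← ptMap_comp, red_ptMap_incl, ptMap_comp, h2]

/-- Reduction at an embedding. -/
theorem red_ofHom (φ : L →ₐ[K] Λ) (P : X.Pt L) :
    X.red (KPlace.ofHom K L φ) P = X.ptMap φ P := by
  have h := red_ptMap (KPlace.ofHom K L φ) (AlgHom.id K L) φ
    (fun r => ⟨KVal.mem_triv r, rfl⟩) P
  rwa [ptMap_id] at h

end AData

end Fermat.Agent.AbVar
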