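import Fermat.Agent.AbVar.Setup

/-!
# Points with values in local rings

A point with values in a local ring is the same as a point of the scheme with a local
homomorphism out of its local ring.  In particular a change of fields of values is injective on
points, and the points over the origin are described by the evaluation at the origin.
-/

set_option autoImplicit false

noncomputable section

open CategoryTheory AlgebraicGeometry
open IsLocalRing (closedPoint)

namespace Fermat.Agent.AbVar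

universe u

variable {K : Type u} [Field K] {X : AData K}
  {R : Type u} [CommRing R] [Algebra K R] [IsLocalRing R]
  {S : Type u} [CommRing S] [Algebra K S] [IsLocalRing S]

namespace AData

theorem isLocalHom_evalAt (P : X.Pt R) : IsLocalHom (X.evalAt P).toRingHom :=
  Scheme.isLocalHom_stalkClosedPointTo' P.1

theorem ofStalkHom_evalAt (P : X.Pt R) : X.ofStalkHom (X.evalAt P) = P :=
  Pt.ext (Scheme.Spec_stalkClosedPointTo_fromSpecStalk P.1)

theorem ptAt_ofStalkHom {x : X.A} (φ : X.A.presheaf.stalk x →ₐ[K] R) (hφ : IsLocalHom φ.toRingHom) :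
    X.ptAt (X.ofStalkHom φ) = x := by
  exact congrArg Sigma.fst ((SpecToEquivOfLocalRing X.A (CommRingCat.of R)).apply_symm_apply
    ⟨x, ⟨CommRingCat.ofHom φ.toRingHom, hφ⟩⟩)

/-- A point through `x` is given by a local homomorphism out of the local ring at `x`. -/
theorem exists_stalkHom (P : X.Pt R) {x : X.A} (h : X.ptAt P = x) :
    ∃ φ : X.A.presheaf.stalk x →ₐ[K] R, IsLocalHom φ.toRingHom ∧ X.ofStalkHom φ = P := by
  subst h
  exact ⟨X.evalAt P, isLocalHom_evalAt P, ofStalkHom_evalAt P⟩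

/-- Local homomorphisms with the same point agree. -/
theorem ofStalkHom_injective {x : X.A} {φ ψ : X.A.presheaf.stalk x →ₐ[K] R}
    (hφ : IsLocalHom φ.toRingHom) (hψ : IsLocalHom ψ.toRingHom)
    (h : X.ofStalkHom φ = X.ofStalkHom ψ) : φ = ψ := by
  have h1 : (SpecToEquivOfLocalRing X.A (CommRingCat.of R)).symm
      ⟨x, ⟨CommRingCat.ofHom φ.toRingHom, hφ⟩⟩ =
    (SpecToEquivOfLocalRing X.A (CommRingCat.of R)).symm
      ⟨x, ⟨CommRingCat.ofHom ψ.toRingHom, hψ⟩⟩ := congrArg Subtype.val h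
  have h2 := (SpecToEquivOfLocalRing X.A (CommRingCat.of R)).symm.injective h1
  simp only [Sigma.mk.injEq, heq_eq_eq, true_and, Subtype.mk.injEq] at h2
  exact AlgHom.coe_ringHom_injective (congrArg CommRingCat.Hom.hom h2)

omit [IsLocalRing R] [IsLocalRing S] in
theorem ptMap_ofStalkHom {x : X.A} (ψ : R →ₐ[K] S) (φ : X.A.presheaf.stalk x →ₐ[K] R) :
    X.ptMap ψ (X.ofStalkHom φ) = X.ofStalkHom (ψ.comp φ) := by
  apply Pt.ext
  rw [ptMap_val]
  show Spec.map _ ≫ Spec.map _ ≫ _ = Spec.map _ ≫ _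
  rw [← Category.assoc, ← Spec.map_comp, ← CommRingCat.ofHom_comp]
  rfl

omit [IsLocalRing R] [IsLocalRing S] in
theorem isLocalHom_comp {A : Type u} [CommRing A] [Algebra K A] {φ : A →ₐ[K] R} {ψ : R →ₐ[K] S}
    (hφ : IsLocalHom φ.toRingHom) (hψ : IsLocalHom ψ.toRingHom) :
    IsLocalHom (ψ.comp φ).toRingHom :=
  ⟨fun a ha => hφ.map_nonunit a (hψ.map_nonunit _ ha)⟩

/-- A local change of the algebra keeps the point. -/
theorem ptAt_ptMap (ψ : R →ₐ[K] S) (hψ : IsLocalHom ψ.toRingHom) (P : X.Pt R) :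
    X.ptAt (X.ptMap ψ P) = X.ptAt P := by
  conv_lhs => rw [← ofStalkHom_evalAt P, ptMap_ofStalkHom]
  exact ptAt_ofStalkHom _ (isLocalHom_comp (isLocalHom_evalAt P) hψ)

theorem isLocalHom_of_field {F : Type u} [Field F] [Algebra K F] {T : Type u} [CommRing T]
    [Nontrivial T] [Algebra K T] (j : F →ₐ[K] T) : IsLocalHom j.toRingHom :=
  ⟨fun a ha => isUnit_iff_ne_zero.2 fun h0 => by
    rw [h0, map_zero] at ha
    exact not_isUnit_zero ha⟩

/-- An injective change of fields of values is injective on points. -/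
theorem ptMap_injective_of_field {F L : Type u} [Field F] [Algebra K F] [Field L] [Algebra K L]
    (j : F →ₐ[K] L) : Function.Injective (X.ptMap j) := by
  intro P Q h
  have hx : X.ptAt Q = X.ptAt P := by
    rw [← ptAt_ptMap j (isLocalHom_of_field j) Q, ← h, ptAt_ptMap j (isLocalHom_of_field j) P]
  obtain ⟨φ, hφ, rfl⟩ := exists_stalkHom Q hx
  have hP := ofStalkHom_evalAt P
  have hl : X.ofStalkHom (j.comp (X.evalAt P)) = X.ptMap j P := by rw [← ptMap_ofStalkHom, hP]
  rw [ptMap_ofStalkHom, ← hl] at h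
  have h2 := ofStalkHom_injective (isLocalHom_comp (isLocalHom_evalAt P) (isLocalHom_of_field j))
    (isLocalHom_comp hφ (isLocalHom_of_field j)) h
  refine hP.symm.trans (congrArg X.ofStalkHom ?_)
  exact AlgHom.ext fun a => j.injective (AlgHom.congr_fun h2 a)

theorem range_eq_of_ofStalkHom {x y : X.A} {φ : X.A.presheaf.stalk x →ₐ[K] R}
    {ψ : X.A.presheaf.stalk y →ₐ[K] R} (hφ : IsLocalHom φ.toRingHom)
    (hψ : IsLocalHom ψ.toRingHom) (h : X.ofStalkHom φ = X.ofStalkHom ψ) :
    Set.range φ = Set.range ψ := by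
  obtain rfl : x = y := by rw [← ptAt_ofStalkHom φ hφ, h, ptAt_ofStalkHom ψ hψ]
  rw [ofStalkHom_injective hφ hψ h]

theorem range_evalAt {x : X.A} {φ : X.A.presheaf.stalk x →ₐ[K] R} (hφ : IsLocalHom φ.toRingHom)
    {P : X.Pt R} (h : X.ofStalkHom φ = P) : Set.range (X.evalAt P) = Set.range φ :=
  range_eq_of_ofStalkHom (isLocalHom_evalAt P) hφ ((ofStalkHom_evalAt P).trans h.symm)

variable (X) in
/-- The origin. -/
def origin : X.A := X.ptAt (0 : X.Pt K)

variable (X) in
/-- Evaluation at the origin. -/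
def ev0 : X.A.presheaf.stalk X.origin →ₐ[K] K := X.evalAt (0 : X.Pt K)

theorem isLocalHom_ev0 : IsLocalHom X.ev0.toRingHom := isLocalHom_evalAt _

omit [IsLocalRing R] in
theorem ofStalkHom_ev0 : X.ofStalkHom ((Algebra.ofId K R).comp X.ev0) = (0 : X.Pt R) := by
  rw [← ptMap_ofStalkHom]
  show X.ptMap _ (X.ofStalkHom (X.evalAt (0 : X.Pt K))) = 0
  rw [ofStalkHom_evalAt, map_zero]

theorem isLocalHom_ofId_ev0 : IsLocalHom ((Algebra.ofId K R).comp X.ev0).toRingHom :=
  isLocalHom_comp isLocalHom_ev0 (isLocalHom_of_field _)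

theorem ptAt_zero : X.ptAt (0 : X.Pt R) = X.origin := by
  rw [← ofStalkHom_ev0]
  exact ptAt_ofStalkHom _ isLocalHom_ofId_ev0

end AData

end Fermat.Agent.AbVar
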