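import Fermat.Agent.AbVar.KVal
import Fermat.Prelude.Def_JacJ1Iface
import Fermat.Prelude.Def_GoodReductionJacobian_RelativeGroupLawKernel

/-!
# An abelian variety over a field: points over algebras

The data `AData`, the group of points over an algebra, and evaluation of a point with values in a
local ring on the local ring of its image.
-/

set_option autoImplicit false

noncomputable section

open CategoryTheory CategoryTheory.Limits AlgebraicGeometry NeronModelInfra GoodReductionJacobian
open IsLocalRing (closedPoint)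

namespace Fermat.Agent.AbVar

universe u

/-- The data of statement S26. -/
structure AData (K : Type u) [Field K] : Type (u + 1) where
  /-- the scheme -/
  A : Scheme.{u}
  /-- the structure map -/
  f : A ⟶ Spec (CommRingCat.of K)
  /-- the group law -/
  G : RelativeGroupLaw K f
  comm : G.IsCommutative
  bundle : AbelianSchemePropertyBundle K f
  /-- the dimension -/
  g : ℕ
  smooth : SmoothOfRelativeDimension g f

variable {K : Type u} [Field K]

namespace AData

variable (X : AData K)

variable (K) in
/-- The structure map of `Spec R`. -/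
abbrev base (R : Type u) [CommRing R] [Algebra K R] :
    Spec (CommRingCat.of R) ⟶ Spec (CommRingCat.of K) :=
  Spec.map (CommRingCat.ofHom (algebraMap K R))

/-- Points with values in a `K`-algebra. -/
abbrev Pt (R : Type u) [CommRing R] [Algebra K R] : Type u := SchemeHomOver (base K R) X.f

variable {X} {R : Type u} [CommRing R] [Algebra K R] {S : Type u} [CommRing S] [Algebra K S]
  {T : Type u} [CommRing T] [Algebra K T]

@[ext] theorem Pt.ext {P Q : X.Pt R} (h : P.1 = Q.1) : P = Q := Subtype.ext h

instance : Zero (X.Pt R) := ⟨X.G.one _⟩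

instance : Add (X.Pt R) := ⟨X.G.mul _⟩

instance : Neg (X.Pt R) := ⟨X.G.inv _⟩

instance : AddCommGroup (X.Pt R) :=
  { nsmul := nsmulRec
    zsmul := zsmulRec
    add_assoc := X.G.mul_assoc _
    zero_add := X.G.one_mul _
    add_zero := X.G.mul_one _
    add_comm := X.comm _
    neg_add_cancel := X.G.inv_mul_cancel _ }

theorem nsmul_eq (n : ℕ) (P : X.Pt R) : n • P = X.G.nsmul (base K R) n P := by
  induction n with
  | zero => rw [zero_nsmul]; rfl
  | succ n ih => rw [succ_nsmul, ih]; rfl

theorem base_comp (φ : R →ₐ[K] S) :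
    Spec.map (CommRingCat.ofHom φ.toRingHom) ≫ base K R = base K S := by
  rw [← Spec.map_comp, ← CommRingCat.ofHom_comp]
  exact congrArg (fun h => Spec.map (CommRingCat.ofHom h)) φ.comp_algebraMap

/-- Change of the algebra. -/
def ptMap (φ : R →ₐ[K] S) : X.Pt R →+ X.Pt S where
  toFun P := schemeHomOverComp (Spec.map (CommRingCat.ofHom φ.toRingHom)) (base_comp φ) P
  map_zero' := X.G.one_natural _ _ _ _
  map_add' := X.G.mul_natural _ _ _ _

theorem ptMap_val (φ : R →ₐ[K] S) (P : X.Pt R) :
    (X.ptMap φ P).1 = Spec.map (CommRingCat.ofHom φ.toRingHom) ≫ P.1 := rfl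

@[simp] theorem ptMap_id (P : X.Pt R) : X.ptMap (AlgHom.id K R) P = P := by
  apply Pt.ext
  rw [ptMap_val]
  simp

theorem ptMap_comp (φ : R →ₐ[K] S) (ψ : S →ₐ[K] T) (P : X.Pt R) :
    X.ptMap ψ (X.ptMap φ P) = X.ptMap (ψ.comp φ) P := by
  apply Pt.ext
  rw [ptMap_val, ptMap_val, ptMap_val, ← Category.assoc, ← Spec.map_comp,
    ← CommRingCat.ofHom_comp]
  rfl

variable (X)

/-- The constants in a local ring. -/
def stalkConst (x : X.A) : CommRingCat.of K ⟶ X.A.presheaf.stalk x :=
  (Scheme.ΓSpecIso (CommRingCat.of K)).inv ≫ X.f.appTop ≫ X.A.presheaf.germ ⊤ x trivial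

instance stalkAlgebra (x : X.A) : Algebra K (X.A.presheaf.stalk x) := (X.stalkConst x).hom.toAlgebra

theorem fromSpecStalk_f (x : X.A) : X.A.fromSpecStalk x ≫ X.f = Spec.map (X.stalkConst x) := by
  rw [← cancel_mono (Spec (CommRingCat.of K)).toSpecΓ, Category.assoc,
    Scheme.toSpecΓ_naturality, ← Category.assoc, Scheme.fromSpecStalk_toSpecΓ,
    ← SpecMap_ΓSpecIso_hom, ← Spec.map_comp, ← Spec.map_comp]
  congr 1
  simp [stalkConst]

/-- The point of a point with values in a local ring. -/
def ptAt [IsLocalRing R] (P : X.Pt R) : X.A := P.1 (closedPoint R)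

/-- Evaluation at a point. -/
def evalAt [IsLocalRing R] (P : X.Pt R) : X.A.presheaf.stalk (X.ptAt P) →ₐ[K] R :=
  { (Scheme.stalkClosedPointTo P.1).hom with
    commutes' := fun c => by
      have h : X.stalkConst (X.ptAt P) ≫ Scheme.stalkClosedPointTo P.1 =
          CommRingCat.ofHom (algebraMap K R) := by
        apply Spec.map_injective
        refine (Spec.map_comp _ _).trans ?_
        rw [← X.fromSpecStalk_f]
        erw [Scheme.Spec_stalkClosedPointTo_fromSpecStalk_assoc]
        exact P.2
      exact DFunLike.congr_fun (congrArg CommRingCat.Hom.hom h) c }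

/-- The point of a local homomorphism of the local ring at `x`. -/
def ofStalkHom {x : X.A} (φ : X.A.presheaf.stalk x →ₐ[K] R) : X.Pt R :=
  ⟨Spec.map (CommRingCat.ofHom φ.toRingHom) ≫ X.A.fromSpecStalk x, by
    rw [Category.assoc, X.fromSpecStalk_f, ← Spec.map_comp]
    congr 1
    ext c
    exact φ.commutes c⟩

end AData

end Fermat.Agent.AbVar
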