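import Fermat.Agent.AbVar.KVal

/-!
# Elements bounded at every valuation ring over the constants

`Bdd μ` is the space of the elements whose absolute value at every valuation ring is at most the
prescribed one.  For `μ` a power of `max 1 |S|` these are the functions with bounded poles.
-/

set_option autoImplicit false

noncomputable section

namespace Fermat.Agent.AbVar.Squeeze

universe u

variable {K : Type u} [Field K] {L : Type u} [Field L] [Algebra K L] {L' : Type u} [Field L']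
  [Algebra K L']

/-- The absolute value at a valuation ring. -/
abbrev absV (V : KVal K L) : Valuation L V.toVal.ValueGroup := V.toVal.valuation

theorem absV_algebraMap_le (V : KVal K L) (c : K) : absV V (algebraMap K L c) ≤ 1 :=
  (V.toVal.valuation_le_one_iff _).2 (V.algebraMap_mem' c)

theorem absV_map_le_iff (φ : L →ₐ[K] L') (W : KVal K L') (a b : L) :
    absV W (φ a) ≤ absV W (φ b) ↔ absV (W.comap φ) a ≤ absV (W.comap φ) b := by
  rw [ValuationSubring.valuation_le_iff, ValuationSubring.valuation_le_iff]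
  constructor
  · rintro ⟨c, hc⟩
    rcases eq_or_ne b 0 with rfl | hb
    · rw [map_zero, mul_zero, eq_comm, map_eq_zero_iff φ φ.injective] at hc
      exact ⟨0, by simp [hc]⟩
    · refine ⟨⟨a / b, KVal.mem_comap.2 ?_⟩, div_mul_cancel₀ a hb⟩
      rw [map_div₀, ← hc, mul_div_assoc, div_self (by simpa using hb), mul_one]
      exact c.2
  · rintro ⟨c, rfl⟩
    exact ⟨⟨φ c, KVal.mem_comap.1 c.2⟩, (map_mul φ _ _).symm⟩

/-- Every valuation ring extends to every extension. -/
theorem exists_comap_eq (φ : L →ₐ[K] L') (V : KVal K L) : ∃ W : KVal K L', W.comap φ = V := by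
  obtain ⟨A, hA, hloc⟩ :=
    IsLocalRing.exists_factor_valuationRing (φ.toRingHom.comp V.toVal.subtype)
  refine ⟨⟨A, fun c => ?_⟩, ?_⟩
  · simpa using hA ⟨algebraMap K L c, V.algebraMap_mem' c⟩
  · refine KVal.ext (SetLike.ext fun x => ⟨fun hx => ?_, fun hx => ?_⟩)
    · by_contra hxV
      have hx0 : x ≠ 0 := fun h => hxV (h ▸ zero_mem _)
      have hi : x⁻¹ ∈ V.toVal := (V.toVal.mem_or_inv_mem x).resolve_left hxV
      have hu : IsUnit ((φ.toRingHom.comp V.toVal.subtype).codRestrict A.toSubring hA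
          ⟨x⁻¹, hi⟩) := by
        refine IsUnit.of_mul_eq_one ⟨φ x, KVal.mem_comap.1 hx⟩ (Subtype.ext ?_)
        show φ x⁻¹ * φ x = 1
        rw [← map_mul, inv_mul_cancel₀ hx0, map_one]
      obtain ⟨w, hw⟩ := isUnit_iff_exists_inv.1 (hloc.map_nonunit _ hu)
      apply hxV
      have h1 : x⁻¹ * (w : L) = 1 := congrArg Subtype.val hw
      have h2 : (w : L) = x := by
        rw [inv_mul_eq_one₀ hx0] at h1
        exact h1.symm
      exact h2 ▸ w.2
    · exact KVal.mem_comap.2 (hA ⟨x, hx⟩)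

/-- The elements with absolute value at most `μ` everywhere. -/
def Bdd (μ : ∀ V : KVal K L, V.toVal.ValueGroup) : Submodule K L where
  carrier := {f | ∀ V, absV V f ≤ μ V}
  add_mem' := fun hf hg V => Valuation.map_add_le _ (hf V) (hg V)
  zero_mem' := fun V => by rw [map_zero]; exact zero_le
  smul_mem' := fun c f hf V => by
    rw [Algebra.smul_def, map_mul]
    exact (mul_le_of_le_one_left zero_le (absV_algebraMap_le V c)).trans (hf V)

theorem bdd_mono {μ ν : ∀ V : KVal K L, V.toVal.ValueGroup} (h : ∀ V, μ V ≤ ν V) :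
    Bdd μ ≤ Bdd ν := fun _ hf V => (hf V).trans (h V)

theorem mul_mem_bdd {μ ν : ∀ V : KVal K L, V.toVal.ValueGroup} {f g : L} (hf : f ∈ Bdd μ)
    (hg : g ∈ Bdd ν) : f * g ∈ Bdd (μ * ν) := fun V => by
  rw [map_mul]
  exact mul_le_mul' (hf V) (hg V)

theorem bdd_pow_mono {μ : ∀ V : KVal K L, V.toVal.ValueGroup} (h1 : ∀ V, 1 ≤ μ V) {r s : ℕ}
    (hrs : r ≤ s) : Bdd (μ ^ r) ≤ Bdd (μ ^ s) :=
  bdd_mono fun V => pow_le_pow_right₀ (h1 V) hrs

/-- The elements bounded by some power of `μ`. -/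
def bddAlg (μ : ∀ V : KVal K L, V.toVal.ValueGroup) (h1 : ∀ V, 1 ≤ μ V) : Subalgebra K L where
  carrier := {f | ∃ r : ℕ, f ∈ Bdd (μ ^ r)}
  mul_mem' := fun ⟨r, hr⟩ ⟨s, hs⟩ => ⟨r + s, by rw [pow_add]; exact mul_mem_bdd hr hs⟩
  one_mem' := ⟨0, fun V => by simp⟩
  add_mem' := fun ⟨r, hr⟩ ⟨s, hs⟩ => ⟨max r s,
    add_mem (bdd_pow_mono h1 (le_max_left r s) hr) (bdd_pow_mono h1 (le_max_right r s) hs)⟩
  zero_mem' := ⟨0, zero_mem _⟩
  algebraMap_mem' := fun c => ⟨0, fun V => by simpa using absV_algebraMap_le V c⟩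

theorem mem_bddAlg_iff {μ : ∀ V : KVal K L, V.toVal.ValueGroup} {h1 : ∀ V, 1 ≤ μ V} {f : L} :
    f ∈ bddAlg μ h1 ↔ ∃ r : ℕ, f ∈ Bdd (μ ^ r) := Iff.rfl

/-- A common exponent for finitely many bounded elements. -/
theorem exists_common_pow {μ : ∀ V : KVal K L, V.toVal.ValueGroup} {h1 : ∀ V, 1 ≤ μ V}
    (S : Finset L) (hS : ∀ f ∈ S, f ∈ bddAlg μ h1) : ∃ r : ℕ, ∀ f ∈ S, f ∈ Bdd (μ ^ r) := by
  choose! r hr using fun f (hf : f ∈ S) => mem_bddAlg_iff.1 (hS f hf)
  exact ⟨S.sup r, fun f hf => bdd_pow_mono h1 (Finset.le_sup hf) (hr f hf)⟩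

/-- The bounded elements are integrally closed. -/
theorem mem_bddAlg_of_isIntegral {μ : ∀ V : KVal K L, V.toVal.ValueGroup} {h1 : ∀ V, 1 ≤ μ V}
    {A : Type u} [CommRing A] [Algebra A L] (hA : ∀ a : A, algebraMap A L a ∈ bddAlg μ h1) {z : L}
    (hz : IsIntegral A z) : z ∈ bddAlg μ h1 := by
  classical
  obtain ⟨p, hp, hpz⟩ := hz
  obtain ⟨r, hr⟩ := exists_common_pow (h1 := h1)
    ((Finset.range p.natDegree).image fun i => algebraMap A L (p.coeff i)) (fun f hf => by
      obtain ⟨i, _, rfl⟩ := Finset.mem_image.1 hf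
      exact hA _)
  refine ⟨r, fun V => ?_⟩
  by_contra hcon
  rw [not_le] at hcon
  rw [Pi.pow_apply] at hcon
  have hone : 1 ≤ absV V z := (one_le_pow₀ (h1 V)).trans hcon.le
  have hz0 : 0 < absV V z := zero_lt_one.trans_le hone
  have hsum : z ^ p.natDegree +
      ∑ i ∈ Finset.range p.natDegree, algebraMap A L (p.coeff i) * z ^ i = 0 := by
    have h := hpz
    rw [← Polynomial.aeval_def, hp.as_sum] at h
    simpa using h
  have hlt : absV V (∑ i ∈ Finset.range p.natDegree, algebraMap A L (p.coeff i) * z ^ i) <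
      absV V (z ^ p.natDegree) := by
    rw [map_pow]
    refine Valuation.map_sum_lt _ (pow_ne_zero _ hz0.ne') fun i hi => ?_
    have hi' : i + 1 ≤ p.natDegree := Finset.mem_range.1 hi
    rw [map_mul, map_pow]
    refine lt_of_lt_of_le ?_ (pow_le_pow_right₀ hone hi')
    rw [pow_succ' (absV V z) i]
    refine mul_lt_mul_of_pos_right ?_ (pow_pos hz0 i)
    exact (hr _ (Finset.mem_image_of_mem _ hi) V).trans_lt (by simpa using hcon)
  rw [eq_neg_of_add_eq_zero_left hsum, Valuation.map_neg] at hlt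
  exact lt_irrefl _ hlt

/-- An element algebraic over a field generated by bounded elements has a bounded multiple. -/
theorem exists_smul_mem_bddAlg {F : Type u} [Field F] [Algebra K F] [Algebra F L]
    [IsScalarTower K F L] [Algebra.IsAlgebraic F L] {S : Set F}
    (hfrac : ∀ z : F, ∃ r ∈ Algebra.adjoin K S, ∃ s ∈ Algebra.adjoin K S, z = r / s)
    {μ : ∀ V : KVal K L, V.toVal.ValueGroup} {h1 : ∀ V, 1 ≤ μ V}
    (hS : ∀ s ∈ S, algebraMap F L s ∈ bddAlg μ h1) (b : L) :
    ∃ q : F, q ≠ 0 ∧ algebraMap F L q ∈ bddAlg μ h1 ∧ q • b ∈ bddAlg μ h1 := by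
  let A := Algebra.adjoin K S
  have hA : ∀ a : A, algebraMap A L a ∈ bddAlg μ h1 := fun a => by
    have h : A ≤ (bddAlg μ h1).comap (IsScalarTower.toAlgHom K F L) := Algebra.adjoin_le hS
    exact h a.2
  have : Algebra.IsAlgebraic A F := ⟨fun z => by
    obtain ⟨r, hr, s, hs, rfl⟩ := hfrac z
    rw [div_eq_mul_inv]
    exact (isAlgebraic_algebraMap (⟨r, hr⟩ : A)).mul
      (IsAlgebraic.inv (isAlgebraic_algebraMap (⟨s, hs⟩ : A)))⟩
  have : Algebra.IsAlgebraic A L := Algebra.IsAlgebraic.trans A F L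
  obtain ⟨q, hq, hint⟩ := (Algebra.IsAlgebraic.isAlgebraic (R := A) b).exists_integral_multiple
  refine ⟨q, fun h => hq (Subtype.ext h), hA q, ?_⟩
  have h := mem_bddAlg_of_isIntegral hA hint
  rwa [show ((q : F) • b) = q • b from rfl]

/-- `max 1 |s|` over a finite set. -/
def mu (S : Finset L) (V : KVal K L) : V.toVal.ValueGroup :=
  letI := Classical.decEq L
  (insert 1 S).sup' (Finset.insert_nonempty _ _) (absV V)

theorem one_le_mu (S : Finset L) (V : KVal K L) : 1 ≤ mu S V := by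
  classical
  exact le_of_eq_of_le (map_one (absV V)).symm
    (Finset.le_sup' (f := absV V) (Finset.mem_insert_self _ _))

theorem le_mu {S : Finset L} {s : L} (hs : s ∈ S) (V : KVal K L) : absV V s ≤ mu S V := by
  classical
  exact Finset.le_sup' (f := absV V) (Finset.mem_insert_of_mem hs)

theorem exists_mu_eq (S : Finset L) (V : KVal K L) :
    ∃ w, (w = 1 ∨ w ∈ S) ∧ mu S V = absV V w := by
  classical
  obtain ⟨w, hw, h⟩ := Finset.exists_mem_eq_sup' (Finset.insert_nonempty (1 : L) S) (absV V)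
  exact ⟨w, Finset.mem_insert.1 hw, h⟩

theorem mem_bddAlg_mu {S : Finset L} {s : L} (hs : s ∈ S) :
    s ∈ bddAlg (mu (K := K) S) (one_le_mu S) :=
  ⟨1, fun V => by simpa using le_mu hs V⟩

theorem map_mem_bdd [DecidableEq L'] (φ : L →ₐ[K] L') {S : Finset L} {r : ℕ} {f : L}
    (hf : f ∈ Bdd (mu (K := K) S ^ r)) : φ f ∈ Bdd (mu (K := K) (S.image φ) ^ r) := fun W => by
  obtain ⟨w, hw, hmu⟩ := exists_mu_eq S (W.comap φ)
  have h := hf (W.comap φ)
  rw [Pi.pow_apply, hmu, ← map_pow, ← absV_map_le_iff, map_pow, map_pow] at h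
  refine h.trans (pow_le_pow_left₀ zero_le ?_ r)
  rcases hw with rfl | hw
  · rw [map_one, map_one]; exact one_le_mu _ W
  · exact le_mu (Finset.mem_image_of_mem _ hw) W

theorem mem_bdd_of_map [DecidableEq L'] (φ : L →ₐ[K] L') {S : Finset L} {r : ℕ} {f : L}
    (hf : φ f ∈ Bdd (mu (K := K) (S.image φ) ^ r)) : f ∈ Bdd (mu (K := K) S ^ r) := fun V => by
  obtain ⟨W, rfl⟩ := exists_comap_eq φ V
  obtain ⟨w', hw', hmu⟩ := exists_mu_eq (K := K) (S.image φ) W
  have h := hf W
  rw [Pi.pow_apply, hmu, ← map_pow] at h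
  obtain ⟨w, hwle, rfl⟩ : ∃ w, absV (W.comap φ) w ≤ mu S (W.comap φ) ∧ φ w = w' := by
    rcases hw' with rfl | hw'
    · exact ⟨1, by simpa using one_le_mu S (W.comap φ), map_one φ⟩
    · obtain ⟨w, hw, rfl⟩ := Finset.mem_image.1 hw'
      exact ⟨w, le_mu hw _, rfl⟩
  rw [← map_pow, absV_map_le_iff, map_pow] at h
  exact h.trans (pow_le_pow_left₀ zero_le hwle r)

end Fermat.Agent.AbVar.Squeeze
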