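import Fermat.Agent.AbVar.SqueezeBound

/-!
# The functions with poles bounded by a class, and descent of principality

Classes differing by a principal one give spaces of the same dimension, and a class principal over
an algebraic closure has a principal multiple (`exists_nsmul_isPrinc`).
-/

set_option autoImplicit false

noncomputable section

namespace Fermat.Agent.AbVar.Squeeze

universe u

variable {K : Type u} [Field K] {L : Type u} [Field L] [Algebra K L] {L' : Type u} [Field L']
  [Algebra K L']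

/-- A local equation. -/
def rep (β : ClGroup K L) (V : KVal K L) : Lˣ := (V.cls_surjective (β V)).choose.toMul

theorem cls_rep (β : ClGroup K L) (V : KVal K L) : V.cls (Additive.ofMul (rep β V)) = β V :=
  (V.cls_surjective (β V)).choose_spec

theorem absV_eq_of_cls_eq (V : KVal K L) {x y : Lˣ}
    (h : V.cls (Additive.ofMul x) = V.cls (Additive.ofMul y)) : absV V x = absV V y := by
  obtain ⟨h1, h2⟩ := V.cls_eq_iff.1 h
  exact le_antisymm
    ((ValuationSubring.valuation_le_iff _ _ _).2 ⟨⟨_, h2⟩, by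
      show (y : L)⁻¹ * x * y = x
      rw [mul_comm ((y : L)⁻¹), mul_assoc, inv_mul_cancel₀ y.ne_zero, mul_one]⟩)
    ((ValuationSubring.valuation_le_iff _ _ _).2 ⟨⟨_, h1⟩, by
      show (x : L)⁻¹ * y * x = y
      rw [mul_comm ((x : L)⁻¹), mul_assoc, inv_mul_cancel₀ x.ne_zero, mul_one]⟩)

/-- The allowed absolute value. -/
def mag (β : ClGroup K L) (V : KVal K L) : V.toVal.ValueGroup := (absV V (rep β V : L))⁻¹

theorem mag_eq (β : ClGroup K L) (V : KVal K L) {x : Lˣ}
    (h : β V = V.cls (Additive.ofMul x)) : mag β V = (absV V (x : L))⁻¹ := by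
  rw [mag, absV_eq_of_cls_eq V ((cls_rep β V).trans h)]

theorem mag_add (β γ : ClGroup K L) : mag (β + γ) = mag β * mag γ := funext fun V => by
  rw [mag_eq (β + γ) V (x := rep β V * rep γ V) (by
    rw [ofMul_mul, map_add, cls_rep, cls_rep]; rfl), Pi.mul_apply, mag, mag, Units.val_mul, map_mul,
    mul_inv]

theorem mag_nsmul (β : ClGroup K L) (m : ℕ) : mag (m • β) = mag β ^ m := funext fun V => by
  rw [mag_eq (m • β) V (x := rep β V ^ m) (by rw [ofMul_pow, map_nsmul, cls_rep]; rfl),
    Pi.pow_apply, mag, Units.val_pow_eq_pow_val, map_pow, inv_pow]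

theorem mag_princ (x : Lˣ) (V : KVal K L) :
    mag (princ K L (Additive.ofMul x)) V = (absV V (x : L))⁻¹ := mag_eq _ V rfl

theorem mapCl_apply_cls (φ : L →ₐ[K] L') (β : ClGroup K L) (W : KVal K L') :
    mapCl φ β W =
      W.cls (Additive.ofMul (Units.map φ.toMonoidHom (rep β (W.comap φ)))) := by
  rw [← W.clsMap_cls φ, cls_rep]
  rfl

theorem mag_mapCl (φ : L →ₐ[K] L') (β : ClGroup K L) (W : KVal K L') :
    mag (mapCl φ β) W = (absV W (φ (rep β (W.comap φ) : L)))⁻¹ :=
  mag_eq _ W (mapCl_apply_cls φ β W)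

/-- Adding a principal class does not increase the dimension. -/
theorem finite_and_finrank_le_add_princ (β : ClGroup K L) {π : ClGroup K L} (hπ : IsPrinc π)
    [Module.Finite K (Bdd (mag β))] :
    Module.Finite K (Bdd (mag (β + π))) ∧
      Module.finrank K (Bdd (mag (β + π))) ≤ Module.finrank K (Bdd (mag β)) := by
  obtain ⟨u, rfl⟩ := hπ
  have hu : ∀ f ∈ Bdd (mag (β + princ K L u)), (u.toMul : L) * f ∈ Bdd (mag β) :=
    fun f hf V => by
      have h := hf V
      rw [mag_add, Pi.mul_apply] at h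
      rw [show mag (princ K L u) V = (absV V (u.toMul : L))⁻¹ from mag_princ u.toMul V] at h
      have hne : absV V (u.toMul : L) ≠ 0 := (Valuation.ne_zero_iff _).2 u.toMul.ne_zero
      rw [map_mul]
      refine (mul_le_mul_right h _).trans (le_of_eq ?_)
      rw [mul_left_comm, mul_inv_cancel₀ hne, mul_one]
  let Φ : Bdd (mag (β + princ K L u)) →ₗ[K] Bdd (mag β) :=
    LinearMap.codRestrict (Bdd (mag β))
      ((LinearMap.mulLeft K (u.toMul : L)).comp (Bdd (mag (β + princ K L u))).subtype)
      fun f => hu f f.2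
  have hΦ : Function.Injective Φ := fun f g h => Subtype.ext
    (mul_left_cancel₀ u.toMul.ne_zero (congrArg Subtype.val h))
  exact ⟨Module.Finite.of_injective Φ hΦ, LinearMap.finrank_le_finrank_of_injective hΦ⟩

/-- Classes differing by a principal one have spaces of the same dimension. -/
theorem finrank_eq_of_isPrinc_sub {β γ : ClGroup K L} (h : IsPrinc (β - γ))
    [Module.Finite K (Bdd (mag γ))] :
    Module.Finite K (Bdd (mag β)) ∧
      Module.finrank K (Bdd (mag β)) = Module.finrank K (Bdd (mag γ)) := by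
  obtain ⟨h1, h2⟩ := finite_and_finrank_le_add_princ γ h
  have e : γ + (β - γ) = β := add_sub_cancel γ β
  have e' : β + (γ - β) = γ := add_sub_cancel β γ
  rw [e] at h1 h2
  have h' : IsPrinc (γ - β) := by
    obtain ⟨v, hv⟩ := h
    exact ⟨-v, by rw [map_neg, hv]; exact neg_sub β γ⟩
  obtain ⟨-, h4⟩ := finite_and_finrank_le_add_princ β h'
  rw [e'] at h4
  exact ⟨h1, le_antisymm h2 h4⟩

/-- **Descent**: a class that is principal over an algebraic closure has a principal multiple. -/
theorem exists_nsmul_isPrinc {Ω : Type u} [Field Ω] [Algebra L Ω] [Algebra K Ω]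
    [IsScalarTower K L Ω] [IsAlgClosure L Ω] {γ : ClGroup K L}
    (h : IsPrinc (mapCl (IsScalarTower.toAlgHom K L Ω) γ)) :
    ∃ M : ℕ, 0 < M ∧ IsPrinc (M • γ) := by
  obtain ⟨u, hu⟩ := h
  let z : Ω := u.toMul
  have hz0 : z ≠ 0 := u.toMul.ne_zero
  have : IsAlgClosed Ω := IsAlgClosure.isAlgClosed L
  have : Algebra.IsAlgebraic L Ω := IsAlgClosure.isAlgebraic
  have hint : IsIntegral L z := (Algebra.IsAlgebraic.isAlgebraic z).isIntegral
  let p := minpoly L z
  have hp : p.Monic := minpoly.monic hint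
  let rts : Multiset Ω := (p.map (algebraMap L Ω)).roots
  have hcard : rts.card = p.natDegree := by
    rw [← Polynomial.natDegree_map (algebraMap L Ω) (p := p)]
    exact (IsAlgClosed.splits _).natDegree_eq_card_roots.symm
  have ha0 : p.coeff 0 ≠ 0 := minpoly.coeff_zero_ne_zero hint hz0
  have hcoef : algebraMap L Ω (p.coeff 0) = (-1) ^ p.natDegree * rts.prod := by
    rw [← Polynomial.coeff_map,
      (IsAlgClosed.splits _).coeff_zero_eq_prod_roots_of_monic (hp.map _),
      Polynomial.natDegree_map]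
  refine ⟨p.natDegree, minpoly.natDegree_pos hint,
    ⟨Additive.ofMul (Units.mk0 _ ha0), funext fun V => ?_⟩⟩
  obtain ⟨W, hW⟩ := exists_comap_eq (IsScalarTower.toAlgHom K L Ω) V
  subst hW
  set V := W.comap (IsScalarTower.toAlgHom K L Ω)
  set x : Lˣ := rep γ V
  have hroot : ∀ r ∈ rts, absV W r = absV W (algebraMap L Ω (x : L)) := fun r hr => by
    obtain ⟨τ, hτ⟩ : ∃ τ : Ω ≃ₐ[L] Ω, τ z = r := by
      refine minpoly.exists_algEquiv_of_root' (Algebra.IsAlgebraic.isAlgebraic z) ?_
      have hr' := (Polynomial.mem_roots'.1 hr).2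
      rwa [Polynomial.IsRoot, Polynomial.eval_map, ← Polynomial.aeval_def] at hr'
    let τ' : Ω →ₐ[K] Ω := τ.toAlgHom.restrictScalars K
    have hτW : (W.comap τ').comap (IsScalarTower.toAlgHom K L Ω) = V := by
      refine KVal.ext (SetLike.ext fun y => ?_)
      rw [KVal.mem_comap, KVal.mem_comap, KVal.mem_comap]
      simp [τ']
    have e := congrFun hu (W.comap τ')
    rw [mapCl_apply_cls] at e
    rw [hτW] at e
    have e' : absV (W.comap τ') z = absV (W.comap τ') (algebraMap L Ω (x : L)) :=
      absV_eq_of_cls_eq (x := u.toMul) (W.comap τ') e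
    have e1 := (absV_map_le_iff τ' W _ _).2 e'.le
    have e2 := (absV_map_le_iff τ' W _ _).2 e'.ge
    have h1 : τ' z = r := hτ
    have h2 : τ' (algebraMap L Ω (x : L)) = algebraMap L Ω (x : L) := τ.commutes _
    rw [h1, h2] at e1 e2
    exact le_antisymm e1 e2
  have hprod : absV W rts.prod = absV W (algebraMap L Ω ((x : L) ^ p.natDegree)) := by
    rw [map_multiset_prod, Multiset.map_congr rfl hroot, Multiset.map_const',
      Multiset.prod_replicate, hcard, map_pow, map_pow]
  have hval : absV W (algebraMap L Ω (p.coeff 0)) =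
      absV W (algebraMap L Ω ((x : L) ^ p.natDegree)) := by
    rw [hcoef, map_mul, map_pow, Valuation.map_neg, map_one, one_pow, one_mul, hprod]
  have hV : absV V (p.coeff 0) = absV V ((x : L) ^ p.natDegree) :=
    le_antisymm ((absV_map_le_iff (IsScalarTower.toAlgHom K L Ω) W _ _).1 hval.le)
      ((absV_map_le_iff (IsScalarTower.toAlgHom K L Ω) W _ _).1 hval.ge)
  show V.cls (Additive.ofMul (Units.mk0 _ ha0)) = p.natDegree • γ V
  rw [← cls_rep γ V, ← map_nsmul, ← ofMul_pow, KVal.cls_eq_iff]
  constructor <;>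
  · rw [← ValuationSubring.valuation_le_one_iff, map_mul, map_inv₀, Units.val_mk0,
      Units.val_pow_eq_pow_val]
    change (absV V _)⁻¹ * absV V _ ≤ 1
    rw [hV, inv_mul_cancel₀ ((Valuation.ne_zero_iff _).2 (pow_ne_zero _ x.ne_zero))]

end Fermat.Agent.AbVar.Squeeze
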