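import Fermat.Agent.AbVar.SqueezeBound

/-!
# How many functions with bounded poles: the upper estimate

Functions on a finite separable extension of `K(x₁, …, x_g)` with poles bounded by `N` times the
poles of `1, x₁, …, x_g` form a space of dimension at most a constant times `(N + c)^g`: their
traces against a basis are polynomials in the `xᵢ` of degree at most `N + c`.
-/

set_option autoImplicit false

noncomputable section

namespace Fermat.Agent.AbVar.Squeeze

universe u

variable {K : Type u} [Field K]

section Poly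

variable {g : ℕ}

/-- The polynomials in `g` variables. -/
abbrev Poly (K : Type u) [Field K] (g : ℕ) : Type u := MvPolynomial (Fin g) K

/-- The rational functions in `g` variables. -/
abbrev Rat' (K : Type u) [Field K] (g : ℕ) : Type u := FractionRing (Poly K g)

/-- The valuation given by the total degree. -/
def degVal (K : Type u) [Field K] (g : ℕ) : Valuation (Poly K g) (WithZero (Multiplicative ℤ)) :=
  letI := Classical.decEq (Poly K g)
  { toFun := fun p => if p = 0 then 0 else WithZero.exp (p.totalDegree : ℤ)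
    map_zero' := if_pos rfl
    map_one' := by simp [MvPolynomial.totalDegree_one]
    map_mul' := fun p q => by
      rcases eq_or_ne p 0 with rfl | hp
      · simp
      rcases eq_or_ne q 0 with rfl | hq
      · simp
      rw [if_neg (mul_ne_zero hp hq), if_neg hp, if_neg hq,
        MvPolynomial.totalDegree_mul_of_isDomain hp hq, Nat.cast_add, WithZero.exp_add]
    map_add_le_max' := fun p q => by
      rcases eq_or_ne p 0 with rfl | hp
      · simp
      rcases eq_or_ne q 0 with rfl | hq
      · simp
      by_cases h : p + q = 0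
      · simp [h]
      rw [if_neg h, if_neg hp, if_neg hq, le_max_iff, WithZero.exp_le_exp, WithZero.exp_le_exp,
        Nat.cast_le, Nat.cast_le]
      exact le_max_iff.1 (MvPolynomial.totalDegree_add p q) }

theorem degVal_apply {p : Poly K g} (hp : p ≠ 0) :
    degVal K g p = WithZero.exp (p.totalDegree : ℤ) := if_neg hp

theorem degVal_le_exp {p : Poly K g} {M : ℕ} (h : p.totalDegree ≤ M) :
    degVal K g p ≤ WithZero.exp (M : ℤ) := by
  rcases eq_or_ne p 0 with rfl | hp
  · rw [map_zero]; exact zero_le
  · rw [degVal_apply hp, WithZero.exp_le_exp]; exact_mod_cast h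

theorem totalDegree_le_of_degVal_le {p : Poly K g} {M : ℕ}
    (h : degVal K g p ≤ WithZero.exp (M : ℤ)) : p.totalDegree ≤ M := by
  rcases eq_or_ne p 0 with rfl | hp
  · simp
  · rw [degVal_apply hp, WithZero.exp_le_exp] at h
    exact_mod_cast h

theorem degVal_supp (K : Type u) [Field K] (g : ℕ) :
    nonZeroDivisors (Poly K g) ≤ (degVal K g).supp.primeCompl := fun p hp h => by
  rw [SetLike.mem_coe, Valuation.mem_supp_iff, degVal_apply (nonZeroDivisors.ne_zero hp)] at h
  exact WithZero.exp_ne_zero h

/-- The valuation at infinity of the rational functions. -/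
def degValRat (K : Type u) [Field K] (g : ℕ) : Valuation (Rat' K g) (WithZero (Multiplicative ℤ)) :=
  (degVal K g).extendToLocalization (degVal_supp K g) (Rat' K g)

theorem degValRat_algebraMap (p : Poly K g) :
    degValRat K g (algebraMap (Poly K g) (Rat' K g) p) = degVal K g p :=
  Valuation.extendToLocalization_apply_map_apply _ (degVal_supp K g) _ p

/-- The valuation ring at infinity of the rational functions. -/
def infPlace (K : Type u) [Field K] (g : ℕ) : KVal K (Rat' K g) :=
  ⟨(degValRat K g).valuationSubring, fun c => by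
    rw [Valuation.mem_valuationSubring_iff,
      IsScalarTower.algebraMap_apply K (Poly K g) (Rat' K g), degValRat_algebraMap]
    refine (degVal_le_exp (M := 0) ?_).trans (by simp)
    simp [MvPolynomial.algebraMap_eq]⟩

/-- The variables among the rational functions. -/
def ratX (K : Type u) [Field K] (g : ℕ) : Finset (Rat' K g) :=
  letI := Classical.decEq (Rat' K g)
  Finset.univ.image fun i => algebraMap (Poly K g) (Rat' K g) (MvPolynomial.X i)

theorem mem_ratX {w : Rat' K g} :
    w ∈ ratX K g ↔ ∃ i, algebraMap (Poly K g) (Rat' K g) (MvPolynomial.X i) = w := by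
  let := Classical.decEq (Rat' K g)
  refine Finset.mem_image.trans ?_
  simp

/-- A rational function with no finite poles is a polynomial. -/
theorem exists_algebraMap_eq_of_mem {t : Rat' K g}
    (h : ∀ V : KVal K (Rat' K g),
      (∀ p : Poly K g, algebraMap (Poly K g) (Rat' K g) p ∈ V.toVal) → t ∈ V.toVal) :
    ∃ p : Poly K g, algebraMap (Poly K g) (Rat' K g) p = t := by
  by_contra hne
  let R : Subring (Rat' K g) := (algebraMap (Poly K g) (Rat' K g)).range
  have : IsIntegrallyClosedIn R (Rat' K g) := by
    refine Subring.isIntegrallyClosedIn_iff.2 fun {x} hx => ?_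
    obtain ⟨q, hq, hqx⟩ := hx
    obtain ⟨q', hq', -, hq'm⟩ := Polynomial.lifts_and_natDegree_eq_and_monic
      ((Polynomial.mem_lifts q).2 (Polynomial.map_surjective _
        (algebraMap (Poly K g) (Rat' K g)).rangeRestrict_surjective q)) hq
    have hint : IsIntegral (Poly K g) x := by
      refine ⟨q', hq'm, ?_⟩
      rw [← hqx, ← hq', Polynomial.eval₂_map]
      rfl
    obtain ⟨y, hy⟩ := IsIntegrallyClosed.isIntegral_iff.1 hint
    exact ⟨y, hy⟩
  obtain ⟨V, hRV, htV⟩ := Subring.exists_le_valuationSubring_of_isIntegrallyClosedIn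
    (R := R) (x := t) fun ⟨p, hp⟩ => hne ⟨p, hp⟩
  refine htV (h ⟨V, fun c => hRV ⟨algebraMap K (Poly K g) c, ?_⟩⟩ fun p => hRV ⟨p, rfl⟩)
  exact (IsScalarTower.algebraMap_apply K (Poly K g) (Rat' K g) c).symm

/-- A rational function with poles bounded by `M` times those of the variables is a polynomial of
degree at most `M`. -/
theorem exists_poly_of_mem_bdd {t : Rat' K g} {M : ℕ}
    (h : t ∈ Bdd (mu (K := K) (ratX K g) ^ M)) :
    ∃ p : Poly K g, p.totalDegree ≤ M ∧ algebraMap (Poly K g) (Rat' K g) p = t := by
  classical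
  obtain ⟨p, rfl⟩ := exists_algebraMap_eq_of_mem (t := t) fun V hV => by
    refine (V.toVal.valuation_le_one_iff _).1 ((h V).trans (pow_le_one₀ zero_le ?_))
    obtain ⟨w, hw, hmu⟩ := exists_mu_eq (ratX K g) V
    rw [hmu]
    rcases hw with rfl | hw
    · rw [map_one]
    · obtain ⟨i, rfl⟩ := mem_ratX.1 hw
      exact (V.toVal.valuation_le_one_iff _).2 (hV _)
  refine ⟨p, totalDegree_le_of_degVal_le ?_, rfl⟩
  obtain ⟨w, hw, hmu⟩ := exists_mu_eq (ratX K g) (infPlace K g)
  have h1 := h (infPlace K g)
  rw [Pi.pow_apply, hmu, ← map_pow, ValuationSubring.valuation_le_iff] at h1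
  obtain ⟨c, hc⟩ := h1
  have hc1 : degValRat K g (c : Rat' K g) ≤ 1 := c.2
  have hw1 : degValRat K g w ≤ WithZero.exp (1 : ℤ) := by
    rcases hw with rfl | hw
    · rw [map_one, ← WithZero.exp_zero, WithZero.exp_le_exp]; exact zero_le_one
    · obtain ⟨i, rfl⟩ := mem_ratX.1 hw
      rw [degValRat_algebraMap]
      exact degVal_le_exp (M := 1) (MvPolynomial.totalDegree_X i).le
  calc degVal K g p = degValRat K g ((c : Rat' K g) * w ^ M) := by
        rw [hc, degValRat_algebraMap]
    _ ≤ 1 * WithZero.exp (1 : ℤ) ^ M := by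
        rw [map_mul, map_pow]
        exact mul_le_mul' hc1 (pow_le_pow_left₀ zero_le hw1 M)
    _ = WithZero.exp (M : ℤ) := by rw [one_mul, ← WithZero.exp_nsmul, nsmul_one]

/-- The polynomials of total degree at most `M`, among the rational functions. -/
def polySpace (K : Type u) [Field K] (g M : ℕ) : Submodule K (Rat' K g) :=
  (MvPolynomial.restrictTotalDegree (Fin g) K M).map
    (IsScalarTower.toAlgHom K (Poly K g) (Rat' K g)).toLinearMap

theorem finite_restrictDegree (K : Type u) [Field K] (g M : ℕ) :
    Module.Finite K (MvPolynomial.restrictDegree (Fin g) K M) ∧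
      Module.finrank K (MvPolynomial.restrictDegree (Fin g) K M) = (M + 1) ^ g := by
  let e : ({n | ∀ i, n i ≤ M} : Set (Fin g →₀ ℕ)) ≃ (Fin g → Fin (M + 1)) :=
    { toFun := fun n i => ⟨n.1 i, Nat.lt_succ_of_le (n.2 i)⟩
      invFun := fun f => ⟨Finsupp.equivFunOnFinite.symm fun i => (f i : ℕ),
        fun i => Nat.lt_succ_iff.1 (f i).2⟩
      left_inv := fun n => Subtype.ext (Finsupp.ext fun i => rfl)
      right_inv := fun f => funext fun i => Fin.ext rfl }
  let b : Module.Basis _ K (MvPolynomial.restrictDegree (Fin g) K M) :=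
    (MvPolynomial.basisRestrictSupport K {n : Fin g →₀ ℕ | ∀ i, n i ≤ M}).reindex e
  refine ⟨Module.Finite.of_basis b, ?_⟩
  rw [Module.finrank_eq_card_basis b, Fintype.card_fun, Fintype.card_fin, Fintype.card_fin]

theorem finite_restrictTotalDegree (K : Type u) [Field K] (g M : ℕ) :
    Module.Finite K (MvPolynomial.restrictTotalDegree (Fin g) K M) ∧
      Module.finrank K (MvPolynomial.restrictTotalDegree (Fin g) K M) ≤ (M + 1) ^ g := by
  obtain ⟨hfin, hrank⟩ := finite_restrictDegree K g M
  have hle := MvPolynomial.restrictTotalDegree_le_restrictDegree (Fin g) K M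
  exact ⟨Submodule.finiteDimensional_of_le hle, (Submodule.finrank_mono hle).trans hrank.le⟩

theorem finite_polySpace (K : Type u) [Field K] (g M : ℕ) :
    Module.Finite K (polySpace K g M) ∧ Module.finrank K (polySpace K g M) ≤ (M + 1) ^ g := by
  obtain ⟨hfin, hrank⟩ := finite_restrictTotalDegree K g M
  exact ⟨inferInstanceAs (Module.Finite K (Submodule.map _ _)),
    (Submodule.finrank_map_le _ _).trans hrank⟩

end Poly

variable {F : Type u} [Field F] [Algebra K F] {L : Type u} [Field L] [Algebra K L] [Algebra F L]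
  [IsScalarTower K F L] {g : ℕ}

/-- The trace of a bounded element is bounded. -/
theorem trace_mem_bdd [FiniteDimensional F L] [Algebra.IsSeparable F L] [DecidableEq L]
    (S : Finset F) {M : ℕ} {z : L}
    (hz : z ∈ Bdd (mu (K := K) (S.image (algebraMap F L)) ^ M)) :
    Algebra.trace F L z ∈ Bdd (mu (K := K) S ^ M) := by
  classical
  refine mem_bdd_of_map (IsScalarTower.toAlgHom K F (AlgebraicClosure L)) ?_
  rw [IsScalarTower.coe_toAlgHom', trace_eq_sum_embeddings (AlgebraicClosure L)]
  refine Submodule.sum_mem _ fun σ _ => ?_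
  have h := map_mem_bdd (σ.restrictScalars K) hz
  rw [Finset.image_image] at h
  convert h using 4
  · exact Finset.image_congr fun a _ => (σ.commutes a).symm
  · rfl

/-- **Upper estimate**: dimension of the spaces of elements with bounded poles. -/
theorem exists_finrank_bdd_le [FiniteDimensional F L] [Algebra.IsSeparable F L] [DecidableEq L]
    (ψ : Rat' K g ≃ₐ[K] F) (x : Fin g → F)
    (hx : ∀ i, ψ (algebraMap (Poly K g) (Rat' K g) (MvPolynomial.X i)) = x i) :
    ∃ c' : ℕ, ∀ N : ℕ,
      Module.Finite K (Bdd (mu (K := K) (Finset.univ.image (algebraMap F L ∘ x)) ^ N)) ∧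
      Module.finrank K (Bdd (mu (K := K) (Finset.univ.image (algebraMap F L ∘ x)) ^ N)) ≤
        Module.finrank F L * (N + c' + 1) ^ g := by
  classical
  set S : Finset F := Finset.univ.image x with hS
  have hSL : Finset.univ.image (algebraMap F L ∘ x) = S.image (algebraMap F L) := by
    rw [hS, Finset.image_image]
  rw [hSL]
  set μ := mu (K := K) (S.image (algebraMap F L)) with hμ
  have hψS : S = (ratX K g).image ψ.toAlgHom := by
    ext z
    simp [hS, mem_ratX, ← hx]
  have hfrac : ∀ z : F, ∃ r ∈ Algebra.adjoin K (Set.range x),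
      ∃ s ∈ Algebra.adjoin K (Set.range x), z = r / s := fun z => by
    have hmem : ∀ p : Poly K g, ψ (algebraMap (Poly K g) (Rat' K g) p) ∈
        Algebra.adjoin K (Set.range x) := fun p => by
      rw [Algebra.adjoin_range_eq_range_aeval]
      refine ⟨p, ?_⟩
      refine DFunLike.congr_fun (MvPolynomial.algHom_ext (f := MvPolynomial.aeval x)
        (g := ψ.toAlgHom.comp (IsScalarTower.toAlgHom K (Poly K g) (Rat' K g))) fun i => ?_) p
      simp [hx]
    obtain ⟨⟨p, q⟩, hpq⟩ := IsLocalization.mk'_surjective (nonZeroDivisors (Poly K g)) (ψ.symm z)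
    refine ⟨_, hmem p, _, hmem q, ?_⟩
    rw [← map_div₀, ← IsFractionRing.mk'_eq_div, ← AlgEquiv.symm_apply_eq]
    exact hpq.symm
  have hSμ : ∀ s ∈ Set.range x, algebraMap F L s ∈ bddAlg μ (one_le_mu _) := by
    rintro _ ⟨i, rfl⟩
    exact mem_bddAlg_mu (Finset.mem_image_of_mem _ (Finset.mem_image_of_mem x (Finset.mem_univ i)))
  let b := Module.finBasis F L
  choose q hq0 _ hqb using fun i => exists_smul_mem_bddAlg (K := K) hfrac hSμ (b i)
  let b' := b.isUnitSMul fun i => isUnit_iff_ne_zero.2 (hq0 i)
  obtain ⟨c', hc'⟩ := exists_common_pow (h1 := one_le_mu _) (Finset.univ.image fun i => b' i)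
    fun f hf => by
      obtain ⟨i, -, rfl⟩ := Finset.mem_image.1 hf
      rw [Module.Basis.isUnitSMul_apply]
      exact hqb i
  refine ⟨c', fun N => ?_⟩
  obtain ⟨hfin, hrank⟩ := finite_polySpace K g (N + c')
  let Φ : Bdd (μ ^ N) →ₗ[K] Fin (Module.finrank F L) → polySpace K g (N + c') :=
    LinearMap.pi fun i => LinearMap.codRestrict (polySpace K g (N + c'))
      (ψ.symm.toLinearMap.comp (((Algebra.trace F L).restrictScalars K).comp
        ((LinearMap.mulRight K (b' i)).comp (Bdd (μ ^ N)).subtype))) fun f => by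
        have hfb : (f : L) * b' i ∈ Bdd (μ ^ (N + c')) := by
          rw [pow_add]
          exact mul_mem_bdd f.2 (hc' _ (Finset.mem_image_of_mem _ (Finset.mem_univ i)))
        have ht := trace_mem_bdd S hfb
        have ht' : ψ.toAlgHom (ψ.symm (Algebra.trace F L ((f : L) * b' i))) ∈
            Bdd (mu (K := K) ((ratX K g).image ψ.toAlgHom) ^ (N + c')) := by
          rw [← hψS]
          simpa using ht
        obtain ⟨p, hp, hpt⟩ := exists_poly_of_mem_bdd (mem_bdd_of_map ψ.toAlgHom ht')
        exact ⟨p, (MvPolynomial.mem_restrictTotalDegree (σ := Fin g) _ p).2 hp, hpt⟩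
  have hΦ : Function.Injective Φ := by
    rw [injective_iff_map_eq_zero]
    intro f hf
    by_contra hf0
    have hf0' : (f : L) ≠ 0 := fun h => hf0 (Subtype.ext h)
    have hT : (Algebra.trace F L).comp (LinearMap.mulLeft F (f : L)) = 0 := b'.ext fun i => by
      have h := congrArg Subtype.val (congrFun hf i)
      simpa [Φ] using h
    apply Algebra.trace_ne_zero F L
    refine LinearMap.ext fun w => ?_
    have h := DFunLike.congr_fun hT ((f : L)⁻¹ * w)
    simpa [hf0'] using h
  refine ⟨Module.Finite.of_injective Φ hΦ,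
    (LinearMap.finrank_le_finrank_of_injective hΦ).trans ?_⟩
  rw [Module.finrank_pi_fintype, Finset.sum_const, Finset.card_univ, Fintype.card_fin,
    smul_eq_mul]
  exact Nat.mul_le_mul_left _ hrank

end Fermat.Agent.AbVar.Squeeze
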