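import Fermat.Agent.AbVar.Classes
import Fermat.Agent.AbVar.SqueezeUpper
import Fermat.Agent.AbVar.SqueezeClass

/-!
# Both estimates for the pullback of the good class along a finite separable embedding

The functions with poles bounded by multiples of the pullback along an embedding of degree `e`
grow like `e` times a power of the multiple, from below (`exists_lower`) and from above
(`exists_upper`).
-/

set_option autoImplicit false

noncomputable section

namespace Fermat.Agent.AbVar.Squeeze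

universe u

variable {K : Type u} [Field K]

/-- An embedding of fields, finite separable of degree `d`. -/
def HasDeg {F L : Type u} [Field F] [Algebra K F] [Field L] [Algebra K L] (φ : F →ₐ[K] L)
    (d : ℕ) : Prop :=
  letI := φ.toRingHom.toAlgebra
  Module.Finite F L ∧ Algebra.IsSeparable F L ∧ Module.finrank F L = d

theorem HasDeg.comp {F E L : Type u} [Field F] [Algebra K F] [Field E] [Algebra K E] [Field L]
    [Algebra K L] {φ : F →ₐ[K] E} {ψ : E →ₐ[K] L} {a b : ℕ} (hφ : HasDeg φ a) (hψ : HasDeg ψ b) :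
    HasDeg (ψ.comp φ) (a * b) := by
  let := φ.toRingHom.toAlgebra
  let := ψ.toRingHom.toAlgebra
  let := (ψ.comp φ).toRingHom.toAlgebra
  have : IsScalarTower F E L := IsScalarTower.of_algebraMap_eq fun _ => rfl
  obtain ⟨h1, h2, h3⟩ := hφ
  obtain ⟨k1, k2, k3⟩ := hψ
  exact ⟨Module.Finite.trans E L, Algebra.IsSeparable.trans F E L, by
    rw [← Module.finrank_mul_finrank F E L, h3, k3]⟩

theorem HasDeg.of_fieldRange {F L : Type u} [Field F] [Algebra K F] [Field L] [Algebra K L]
    (φ : F →ₐ[K] L) (hfin : Module.Finite φ.fieldRange L)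
    (hsep : Algebra.IsSeparable φ.fieldRange L) :
    HasDeg φ (Module.finrank φ.fieldRange L) := by
  let := φ.toRingHom.toAlgebra
  let e : φ.fieldRange ≃+* F := (AlgEquiv.ofInjectiveField φ).symm.toRingEquiv
  have he : (algebraMap F L).comp e.toRingHom =
      (RingEquiv.refl L).toRingHom.comp (algebraMap φ.fieldRange L) := by
    ext z
    show φ ((AlgEquiv.ofInjectiveField φ).symm z) = (z : L)
    exact congrArg Subtype.val ((AlgEquiv.ofInjectiveField φ).apply_symm_apply z)
  exact ⟨Module.Finite.of_equiv_equiv e (RingEquiv.refl L) he,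
    Algebra.IsSeparable.of_equiv_equiv e (RingEquiv.refl L) he,
    (Algebra.finrank_eq_of_equiv_equiv e (RingEquiv.refl L) he).symm⟩

theorem HasDeg.of_algebraMap {F L : Type u} [Field F] [Algebra K F] [Field L] [Algebra K L]
    [Algebra F L] [IsScalarTower K F L] [Module.Finite F L] [Algebra.IsSeparable F L] :
    HasDeg (IsScalarTower.toAlgHom K F L) (Module.finrank F L) := by
  rename_i instA _ _ _
  have h : (IsScalarTower.toAlgHom K F L).toRingHom.toAlgebra = instA :=
    Algebra.algebra_ext _ _ fun _ => rfl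
  have key : ∀ i : Algebra F L, i = instA → @Module.Finite F L _ _ i.toModule ∧
      @Algebra.IsSeparable F L _ _ i ∧
      @Module.finrank F L _ _ i.toModule = @Module.finrank F L _ _ instA.toModule := by
    rintro i rfl
    exact ⟨inferInstance, inferInstance, rfl⟩
  unfold HasDeg
  exact key (IsScalarTower.toAlgHom K F L).toRingHom.toAlgebra h

variable [IsAlgClosed K] {X : AData K} (D : GoodClass X)

/-- A transcendence basis among the generators. -/
theorem exists_indep_of_generators (x : Fin X.g → X.FF) (hx : AlgebraicIndependent K x)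
    (hxfin : Module.Finite (IntermediateField.adjoin K (Set.range x)) X.FF) :
    ∃ y : Fin X.g → X.FF, AlgebraicIndependent K y ∧ ∀ i, y i ∈ D.Y := by
  have key : ∀ S : Set X.FF, Algebra.IsAlgebraic (IntermediateField.adjoin K S) X.FF →
      Algebra.IsAlgebraic (Algebra.adjoin K S) X.FF := fun S h => by
    let : Algebra (Algebra.adjoin K S) (IntermediateField.adjoin K S) :=
      (Subalgebra.inclusion (IntermediateField.algebra_adjoin_le_adjoin K S)).toRingHom.toAlgebra
    have : IsScalarTower (Algebra.adjoin K S) (IntermediateField.adjoin K S) X.FF :=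
      IsScalarTower.of_algebraMap_eq fun _ => rfl
    have : Algebra.IsAlgebraic (Algebra.adjoin K S) (IntermediateField.adjoin K S) := ⟨fun z => by
      rw [← isAlgebraic_algebraMap_iff (A := X.FF) (Subtype.val_injective)]
      obtain ⟨r, hr, s, hs, hz⟩ := IntermediateField.mem_adjoin_iff_div.1 z.2
      show IsAlgebraic (Algebra.adjoin K S) (z : X.FF)
      rw [hz, div_eq_mul_inv]
      exact (isAlgebraic_algebraMap (⟨r, hr⟩ : Algebra.adjoin K S)).mul
        (IsAlgebraic.inv (isAlgebraic_algebraMap (⟨s, hs⟩ : Algebra.adjoin K S)))⟩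
    exact Algebra.IsAlgebraic.trans _ (IntermediateField.adjoin K S) _
  have hxb : IsTranscendenceBasis K x := hx.isTranscendenceBasis_iff_isAlgebraic.2
    (key _ inferInstance)
  have : Algebra.IsAlgebraic (Algebra.adjoin K (D.Y : Set X.FF)) X.FF := key _ ⟨fun z =>
    isAlgebraic_algebraMap (⟨z, by rw [D.Y_gen]; trivial⟩ :
      IntermediateField.adjoin K (D.Y : Set X.FF))⟩
  obtain ⟨t, htY, ht⟩ := exists_isTranscendenceBasis_subset (R := K) (D.Y : Set X.FF)
  have hc := IsTranscendenceBasis.lift_cardinalMk_eq hxb ht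
  obtain ⟨e⟩ := Cardinal.lift_mk_eq'.1 hc
  exact ⟨fun i => (e i : X.FF), ht.1.comp e e.injective, fun i => htY (e i).2⟩

theorem mem_bdd_mag {L : Type u} [Field L] [Algebra K L] (φ : X.FF →ₐ[K] L) {y : X.FF}
    (hy : y ∈ D.Y) : φ y ∈ Bdd (mag (mapCl φ D.h)) := fun W => by
  have h := D.Y_mem y hy (W.comap φ) (rep D.h (W.comap φ)) (cls_rep _ _).symm
  rw [mag_mapCl, ← one_div,
    le_div_iff₀ ((zero_lt_iff).2 ((Valuation.ne_zero_iff _).2 (by simp))), ← map_mul, ← map_mul]
  exact (W.toVal.valuation_le_one_iff _).2 (KVal.mem_comap.1 h)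

theorem one_le_mag {L : Type u} [Field L] [Algebra K L] (φ : X.FF →ₐ[K] L) (W : KVal K L) :
    1 ≤ mag (mapCl φ D.h) W := by
  have h := D.effective (W.comap φ) (rep D.h (W.comap φ)) (cls_rep _ _).symm
  rw [mag_mapCl, one_le_inv₀ ((zero_lt_iff).2 ((Valuation.ne_zero_iff _).2 (by simp)))]
  exact (W.toVal.valuation_le_one_iff _).2 (KVal.mem_comap.1 h)

theorem exists_mag_le {L : Type u} [Field L] [Algebra K L] [DecidableEq L] :
    ∃ C : ℕ, ∀ (φ : X.FF →ₐ[K] L) (W : KVal K L),
      mag (mapCl φ D.h) W ≤ mu (K := K) (D.Y.image φ) W ^ C := by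
  obtain ⟨C, hC⟩ := D.bound
  refine ⟨C, fun φ W => ?_⟩
  obtain ⟨l, hlen, hl, hne, hmem⟩ := hC (W.comap φ) (rep D.h (W.comap φ)) (cls_rep _ _).symm
  have hp : ∀ l : List X.FF, (∀ y ∈ l, y ∈ D.Y) →
      absV W (φ l.prod) ≤ mu (K := K) (D.Y.image φ) W ^ l.length := by
    intro l hl
    induction l with
    | nil => simp
    | cons a l ih =>
      rw [List.prod_cons, map_mul, map_mul, List.length_cons, pow_succ']
      exact mul_le_mul' (le_mu (Finset.mem_image_of_mem _ (hl a (List.mem_cons_self ..))) W)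
        (ih fun y hy => hl y (List.mem_cons_of_mem _ hy))
  refine le_trans ?_ ((hp l hl).trans (pow_le_pow_right₀ (one_le_mu _ W) hlen))
  have h := (W.toVal.valuation_le_one_iff _).2 (KVal.mem_comap.1 hmem)
  rw [map_mul, map_inv₀, map_inv₀, map_mul, map_inv₀, map_inv₀, mul_inv_le_iff₀
    ((zero_lt_iff).2 ((Valuation.ne_zero_iff _).2 (by simpa using hne))), one_mul] at h
  rw [mag_mapCl]
  exact h

/-- **Lower estimate**. -/
theorem exists_lower {y : Fin X.g → X.FF} (hy : AlgebraicIndependent K y)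
    (hyY : ∀ i, y i ∈ D.Y) {L : Type u} [Field L] [Algebra K L] (φ : X.FF →ₐ[K] L) {e : ℕ}
    (hφ : HasDeg φ e) :
    ∃ r : ℕ, ∀ j : ℕ, Module.Finite K (Bdd (mag (mapCl φ D.h) ^ (X.g * j + r))) →
      e * (j + 1) ^ X.g ≤ Module.finrank K (Bdd (mag (mapCl φ D.h) ^ (X.g * j + r))) := by
  classical
  let := φ.toRingHom.toAlgebra
  have : IsScalarTower K X.FF L :=
    IsScalarTower.of_algebraMap_eq fun c => (φ.commutes c).symm
  obtain ⟨hfin, -, rfl⟩ := hφ
  set μ := mag (mapCl φ D.h) with hμ
  have h1 : ∀ W, 1 ≤ μ W := one_le_mag D φ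
  have hY : ∀ z ∈ (D.Y : Set X.FF), algebraMap X.FF L z ∈ bddAlg μ h1 := fun z hz =>
    ⟨1, by rw [pow_one]; exact mem_bdd_mag D φ hz⟩
  have hfrac : ∀ z : X.FF, ∃ r ∈ Algebra.adjoin K (D.Y : Set X.FF),
      ∃ s ∈ Algebra.adjoin K (D.Y : Set X.FF), z = r / s := fun z =>
    IntermediateField.mem_adjoin_iff_div.1 (by rw [D.Y_gen]; trivial)
  let b := Module.finBasis X.FF L
  choose q hq0 _ hqb using fun i => exists_smul_mem_bddAlg (K := K) hfrac hY (b i)
  let b' := b.isUnitSMul fun i => isUnit_iff_ne_zero.2 (hq0 i)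
  obtain ⟨r, hr⟩ := exists_common_pow (h1 := h1) (Finset.univ.image fun i => b' i)
    fun f hf => by
      obtain ⟨i, -, rfl⟩ := Finset.mem_image.1 hf
      rw [Module.Basis.isUnitSMul_apply]
      exact hqb i
  refine ⟨r, fun j hfinB => ?_⟩
  obtain ⟨hPfin, hPrank⟩ := finite_restrictDegree K X.g j
  have hmon : ∀ p ∈ MvPolynomial.restrictDegree (Fin X.g) K j,
      φ (MvPolynomial.aeval y p) ∈ Bdd (μ ^ (X.g * j)) := fun p hp => by
    rw [MvPolynomial.as_sum p, map_sum, map_sum]
    refine Submodule.sum_mem _ fun d hd => ?_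
    rw [MvPolynomial.aeval_monomial, map_mul, AlgHom.commutes, ← Algebra.smul_def]
    refine Submodule.smul_mem _ _ ?_
    rw [Finsupp.prod_fintype _ _ (fun i => pow_zero _), map_prod]
    intro W
    rw [map_prod, Pi.pow_apply]
    calc ∏ i, absV W (φ (y i ^ d i)) ≤ ∏ _i : Fin X.g, μ W ^ j := by
          refine Finset.prod_le_prod' fun i _ => ?_
          rw [map_pow, map_pow]
          exact (pow_le_pow_left₀ zero_le (mem_bdd_mag D φ (hyY i) W) _).trans
            (pow_le_pow_right₀ (h1 W) ((MvPolynomial.mem_restrictDegree _ _ _).1 hp d hd i))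
      _ = μ W ^ (X.g * j) := by
          rw [Finset.prod_const, Finset.card_univ, Fintype.card_fin, ← pow_mul, mul_comm]
  let Φ : (Fin (Module.finrank X.FF L) → MvPolynomial.restrictDegree (Fin X.g) K j) →ₗ[K]
      Bdd (μ ^ (X.g * j + r)) :=
    LinearMap.codRestrict _ (∑ i, ((LinearMap.mulRight K (b' i)).comp
      ((φ.comp (MvPolynomial.aeval y)).toLinearMap.comp
        ((MvPolynomial.restrictDegree (Fin X.g) K j).subtype.comp (LinearMap.proj i)))))
      fun P => by
        simp only [LinearMap.sum_apply]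
        refine Submodule.sum_mem _ fun i _ => ?_
        rw [pow_add]
        exact mul_mem_bdd (hmon _ (P i).2) (hr _ (Finset.mem_image_of_mem _ (Finset.mem_univ i)))
  have hΦ : Function.Injective Φ := by
    rw [injective_iff_map_eq_zero]
    intro P hP
    have h0 : ∑ i, MvPolynomial.aeval y (P i : MvPolynomial (Fin X.g) K) • b' i = 0 := by
      have h := congrArg Subtype.val hP
      simp only [Φ, LinearMap.codRestrict_apply, LinearMap.sum_apply] at h
      exact Eq.trans (Finset.sum_congr rfl fun i _ => Algebra.smul_def _ _) h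
    funext i
    exact Subtype.ext ((algebraicIndependent_iff.1 hy) _
      (Fintype.linearIndependent_iff.1 b'.linearIndependent _ h0 i))
  have h := LinearMap.finrank_le_finrank_of_injective hΦ
  rwa [Module.finrank_pi_fintype, Finset.sum_const, Finset.card_univ, Fintype.card_fin,
    smul_eq_mul, hPrank] at h

/-- **Upper estimate**. -/
theorem exists_upper (x : Fin X.g → X.FF) (hx : AlgebraicIndependent K x)
    (hxfin : Module.Finite (IntermediateField.adjoin K (Set.range x)) X.FF)
    (hxsep : Algebra.IsSeparable (IntermediateField.adjoin K (Set.range x)) X.FF)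
    (L : Type u) [Field L] [Algebra K L] :
    ∃ c r₀ : ℕ, ∀ (φ : X.FF →ₐ[K] L) (e : ℕ), HasDeg φ e → ∃ r : ℕ, ∀ j : ℕ,
      Module.Finite K (Bdd (mag (mapCl φ D.h) ^ j)) ∧
      Module.finrank K (Bdd (mag (mapCl φ D.h) ^ j)) ≤ e * r₀ * (c * j + r + 1) ^ X.g := by
  classical
  let F := IntermediateField.adjoin K (Set.range x)
  obtain ⟨C, hC⟩ := exists_mag_le D (L := L)
  let ψ : Rat' K X.g ≃ₐ[K] F := hx.aevalEquivField
  let x' : Fin X.g → F := fun i => ⟨x i, IntermediateField.subset_adjoin K _ ⟨i, rfl⟩⟩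
  let S : Finset X.FF := Finset.univ.image x
  have hfrac : ∀ z : F, ∃ r ∈ Algebra.adjoin K (Set.range x'),
      ∃ s ∈ Algebra.adjoin K (Set.range x'), z = r / s := fun z => by
    obtain ⟨r, hr, s, hs, hz⟩ := IntermediateField.mem_adjoin_iff_div.1 z.2
    have hmap : Algebra.adjoin K (Set.range x) = (Algebra.adjoin K (Set.range x')).map F.val := by
      rw [AlgHom.map_adjoin, ← Set.range_comp]
      rfl
    rw [hmap, Subalgebra.mem_map] at hr hs
    obtain ⟨r', hr', rfl⟩ := hr
    obtain ⟨s', hs', rfl⟩ := hs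
    exact ⟨r', hr', s', hs', Subtype.ext hz⟩
  have hS : ∀ s ∈ Set.range x', algebraMap F X.FF s ∈ bddAlg (mu (K := K) S) (one_le_mu S) := by
    rintro _ ⟨i, rfl⟩
    exact mem_bddAlg_mu (Finset.mem_image_of_mem x (Finset.mem_univ i))
  choose q hq0 hqmem hqy using fun w : X.FF => exists_smul_mem_bddAlg (K := K) hfrac hS w
  let a : X.FF := ∏ w ∈ D.Y, algebraMap F X.FF (q w)
  have ha0 : a ≠ 0 := Finset.prod_ne_zero_iff.2 fun w _ => by simpa using hq0 w
  have ha : a ∈ bddAlg (mu (K := K) S) (one_le_mu S) := Subalgebra.prod_mem _ fun w _ => hqmem w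
  obtain ⟨c₁, hc₁⟩ := exists_common_pow (h1 := one_le_mu S) (insert a (D.Y.image (a * ·)))
    fun f hf => by
      rcases Finset.mem_insert.1 hf with rfl | hf
      · exact ha
      obtain ⟨w, hw, rfl⟩ := Finset.mem_image.1 hf
      show a * w ∈ bddAlg (mu (K := K) S) (one_le_mu S)
      rw [show a * w = (∏ v ∈ D.Y.erase w, algebraMap F X.FF (q v)) * (q w • w) by
        rw [Algebra.smul_def, ← mul_assoc, Finset.prod_erase_mul _ _ hw]]
      exact mul_mem (Subalgebra.prod_mem _ fun v _ => hqmem v) (hqy w)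
  refine ⟨c₁ * C, Module.finrank F X.FF, fun φ e hφ => ?_⟩
  have hdeg := HasDeg.comp (HasDeg.of_algebraMap (K := K) (F := F) (L := X.FF)) hφ
  let : Algebra F L := (φ.comp (IsScalarTower.toAlgHom K F X.FF)).toRingHom.toAlgebra
  have : IsScalarTower K F L := IsScalarTower.of_algebraMap_eq fun c => (φ.commutes c).symm
  obtain ⟨hfin, hsep, hrk⟩ := hdeg
  obtain ⟨c', hc'⟩ := exists_finrank_bdd_le (L := L) ψ x' fun i => Subtype.ext
    ((hx.aevalEquivField_algebraMap_apply_coe _).trans (MvPolynomial.aeval_X (R := K) x i))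
  refine ⟨c', fun j => ?_⟩
  obtain ⟨hBfin, hBrank⟩ := hc' (c₁ * C * j)
  have himg : Finset.univ.image (algebraMap F L ∘ x') = S.image φ := by
    rw [show S.image φ = Finset.univ.image (φ ∘ x) from Finset.image_image]
    rfl
  rw [himg] at hBfin hBrank
  have hmem : ∀ f ∈ Bdd (mag (mapCl φ D.h) ^ j),
      φ a ^ (C * j) * f ∈ Bdd (mu (K := K) (S.image φ) ^ (c₁ * C * j)) := fun f hf W => by
    obtain ⟨w', hw', hmu⟩ := exists_mu_eq (K := K) (D.Y.image φ) W
    have hkey : absV W (φ a) * mu (K := K) (D.Y.image φ) W ≤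
        mu (K := K) (S.image φ) W ^ c₁ := by
      rw [hmu, ← map_mul]
      rcases hw' with rfl | hw'
      · rw [mul_one]; exact map_mem_bdd φ (hc₁ a (Finset.mem_insert_self _ _)) W
      · obtain ⟨w, hw, rfl⟩ := Finset.mem_image.1 hw'
        rw [← map_mul]
        exact map_mem_bdd φ (hc₁ _ (Finset.mem_insert_of_mem (Finset.mem_image_of_mem _ hw))) W
    have hfW := hf W
    rw [Pi.pow_apply] at hfW
    rw [map_mul, map_pow, Pi.pow_apply]
    calc absV W (φ a) ^ (C * j) * absV W f
        ≤ absV W (φ a) ^ (C * j) * (mu (K := K) (D.Y.image φ) W ^ C) ^ j :=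
          mul_le_mul' le_rfl (hfW.trans (pow_le_pow_left₀ zero_le (hC φ W) j))
      _ = (absV W (φ a) * mu (K := K) (D.Y.image φ) W) ^ (C * j) := by
          rw [mul_pow, ← pow_mul]
      _ ≤ (mu (K := K) (S.image φ) W ^ c₁) ^ (C * j) := pow_le_pow_left₀ zero_le hkey _
      _ = mu (K := K) (S.image φ) W ^ (c₁ * C * j) := by rw [← pow_mul, mul_assoc]
  let Φ : Bdd (mag (mapCl φ D.h) ^ j) →ₗ[K] Bdd (mu (K := K) (S.image φ) ^ (c₁ * C * j)) :=
    LinearMap.codRestrict _ ((LinearMap.mulLeft K (φ a ^ (C * j))).comp (Submodule.subtype _))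
      fun f => hmem f f.2
  have hΦ : Function.Injective Φ := fun f f' h => Subtype.ext
    (mul_left_cancel₀ (pow_ne_zero _ (by simpa using ha0)) (congrArg Subtype.val h))
  refine ⟨Module.Finite.of_injective Φ hΦ,
    (LinearMap.finrank_le_finrank_of_injective hΦ).trans ?_⟩
  rw [hrk, mul_comm (Module.finrank F X.FF) e] at hBrank
  exact hBrank

end Fermat.Agent.AbVar.Squeeze
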