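import Fermat.Agent.AbVar.PointsLocal
import Mathlib.Algebra.DualNumber

/-!
# Deformations over the dual numbers

The group law adds tangent vectors at the origin (Eckmann-Hilton), so multiplication by `n` is
injective on points over `L[ε]` above a given `L`-point when `n` is invertible.
-/

set_option autoImplicit false

noncomputable section

open TrivSqZeroExt
open scoped DualNumber

namespace Fermat.Agent.AbVar

universe u

variable {K : Type u} [Field K] {X : AData K} {L : Type u} [Field L] [Algebra K L]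

theorem isLocalRing_tsze (M : Type u) [AddCommGroup M] [Module L M] [Module Lᵐᵒᵖ M]
    [IsCentralScalar L M] : IsLocalRing (TrivSqZeroExt L M) :=
  .of_isUnit_or_isUnit_one_sub_self fun a => by
    simp only [isUnit_iff_isUnit_fst, isUnit_iff_ne_zero, fst_sub, fst_one]
    rcases eq_or_ne a.fst 0 with h | h
    · exact Or.inr (by simp [h])
    · exact Or.inl h

instance : IsLocalRing (DualNumber L) := isLocalRing_tsze L

instance : IsLocalRing (TrivSqZeroExt L (L × L)) := isLocalRing_tsze (L × L)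

variable (L) in
/-- The first part. -/
def fstK : DualNumber L →ₐ[K] L := (fstHom L L L).restrictScalars K

theorem isLocalHom_fstK : IsLocalHom (fstK (K := K) L).toRingHom :=
  ⟨fun _ ha => isUnit_iff_isUnit_fst.2 ha⟩

/-- A map of square zero extensions over `L`. -/
def mapK {M N : Type u} [AddCommGroup M] [Module L M] [Module Lᵐᵒᵖ M] [IsCentralScalar L M]
    [Module K M] [IsScalarTower K L M] [IsScalarTower K Lᵐᵒᵖ M]
    [AddCommGroup N] [Module L N] [Module Lᵐᵒᵖ N] [IsCentralScalar L N] [Module K N]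
    [IsScalarTower K L N] [IsScalarTower K Lᵐᵒᵖ N] (f : M →ₗ[L] N) :
    TrivSqZeroExt L M →ₐ[K] TrivSqZeroExt L N :=
  (TrivSqZeroExt.map f).restrictScalars K

@[simp] theorem fst_mapK {M N : Type u} [AddCommGroup M] [Module L M] [Module Lᵐᵒᵖ M]
    [IsCentralScalar L M] [Module K M] [IsScalarTower K L M] [IsScalarTower K Lᵐᵒᵖ M]
    [AddCommGroup N] [Module L N] [Module Lᵐᵒᵖ N] [IsCentralScalar L N] [Module K N]
    [IsScalarTower K L N] [IsScalarTower K Lᵐᵒᵖ N] (f : M →ₗ[L] N) (x : TrivSqZeroExt L M) :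
    fst (mapK (K := K) f x) = fst x := TrivSqZeroExt.fst_map f x

@[simp] theorem snd_mapK {M N : Type u} [AddCommGroup M] [Module L M] [Module Lᵐᵒᵖ M]
    [IsCentralScalar L M] [Module K M] [IsScalarTower K L M] [IsScalarTower K Lᵐᵒᵖ M]
    [AddCommGroup N] [Module L N] [Module Lᵐᵒᵖ N] [IsCentralScalar L N] [Module K N]
    [IsScalarTower K L N] [IsScalarTower K Lᵐᵒᵖ N] (f : M →ₗ[L] N) (x : TrivSqZeroExt L M) :
    snd (mapK (K := K) f x) = f (snd x) := TrivSqZeroExt.snd_map f x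

theorem algebraMap_dual (c : K) :
    algebraMap K (DualNumber L) c = inl (algebraMap K L c) := rfl

/-- A deformation of the zero hom. -/
def IsDef (φ : X.A.presheaf.stalk X.origin →ₐ[K] DualNumber L) : Prop :=
  ∀ a, fst (φ a) = algebraMap K L (X.ev0 a)

theorem IsDef.isLocalHom {φ : X.A.presheaf.stalk X.origin →ₐ[K] DualNumber L} (hφ : IsDef φ) :
    IsLocalHom φ.toRingHom :=
  ⟨fun a ha => by
    have h : IsUnit (fst (φ a)) := isUnit_iff_isUnit_fst.1 ha
    rw [hφ a, isUnit_iff_ne_zero, map_ne_zero] at h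
    exact AData.isLocalHom_ev0.map_nonunit a (isUnit_iff_ne_zero.2 h)⟩

theorem IsDef.ext {φ ψ : X.A.presheaf.stalk X.origin →ₐ[K] DualNumber L} (hφ : IsDef φ)
    (hψ : IsDef ψ) (h : ∀ a, snd (φ a) = snd (ψ a)) : φ = ψ :=
  AlgHom.ext fun a => TrivSqZeroExt.ext (by rw [hφ a, hψ a]) (h a)

/-- **Eckmann-Hilton.** The group law adds tangent vectors. -/
theorem IsDef.exists_add {φ ψ : X.A.presheaf.stalk X.origin →ₐ[K] DualNumber L} (hφ : IsDef φ)
    (hψ : IsDef ψ) : ∃ χ : X.A.presheaf.stalk X.origin →ₐ[K] DualNumber L, IsDef χ ∧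
      (∀ a, snd (χ a) = snd (φ a) + snd (ψ a)) ∧
      X.ofStalkHom φ + X.ofStalkHom ψ = X.ofStalkHom χ := by
  let π₁ : TrivSqZeroExt L (L × L) →ₐ[K] DualNumber L := mapK (LinearMap.fst L L L)
  let π₂ : TrivSqZeroExt L (L × L) →ₐ[K] DualNumber L := mapK (LinearMap.snd L L L)
  let s : TrivSqZeroExt L (L × L) →ₐ[K] DualNumber L :=
    mapK (LinearMap.fst L L L + LinearMap.snd L L L)
  let i₁ : DualNumber L →ₐ[K] TrivSqZeroExt L (L × L) := mapK (LinearMap.inl L L L)
  let i₂ : DualNumber L →ₐ[K] TrivSqZeroExt L (L × L) := mapK (LinearMap.inr L L L)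
  let Φ : X.A.presheaf.stalk X.origin →ₐ[K] TrivSqZeroExt L (L × L) :=
    { toFun := fun a => (inl (fst (φ a)) + inr (snd (φ a), snd (ψ a)))
      map_one' := by ext <;> simp
      map_mul' := fun a b => by
        have e : ∀ a, fst (ψ a) = fst (φ a) := fun a => (hψ a).trans (hφ a).symm
        ext <;> simp [e]
      map_zero' := by ext <;> simp
      map_add' := fun a b => by ext <;> simp
      commutes' := fun c => by
        show inl (fst (φ (algebraMap K _ c))) + inr (snd (φ (algebraMap K _ c)),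
          snd (ψ (algebraMap K _ c))) = inl (algebraMap K L c)
        rw [φ.commutes, ψ.commutes, algebraMap_dual]
        ext <;> simp }
  have hΦfst : ∀ a, fst (Φ a) = algebraMap K L (X.ev0 a) := fun a => by
    show fst (inl (fst (φ a)) + inr (snd (φ a), snd (ψ a))) = _
    simp [hφ a]
  have hΦsnd : ∀ a, snd (Φ a) = (snd (φ a), snd (ψ a)) := fun a => by
    show snd (inl (fst (φ a)) + inr (snd (φ a), snd (ψ a))) = _
    simp
  have hΦ : IsLocalHom Φ.toRingHom := ⟨fun a ha => by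
    have h : IsUnit (fst (Φ a)) := isUnit_iff_isUnit_fst.1 ha
    rw [hΦfst a, isUnit_iff_ne_zero, map_ne_zero] at h
    exact AData.isLocalHom_ev0.map_nonunit a (isUnit_iff_ne_zero.2 h)⟩
  have h1 : π₁.comp Φ = φ := AlgHom.ext fun a => TrivSqZeroExt.ext
    (by simp [π₁, hΦfst, hφ a]) (by simp [π₁, hΦsnd])
  have h2 : π₂.comp Φ = ψ := AlgHom.ext fun a => TrivSqZeroExt.ext
    (by simp [π₂, hΦfst, hψ a]) (by simp [π₂, hΦsnd])
  have hs : IsDef (s.comp Φ) := fun a => by simp [s, hΦfst]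
  -- points of the big extension are determined by the projections
  have key : ∀ w : X.Pt (TrivSqZeroExt L (L × L)), X.ptMap π₁ w = X.ofStalkHom φ →
      X.ptMap π₂ w = X.ofStalkHom ψ → w = X.ofStalkHom Φ := by
    intro w w1 w2
    have hπ : IsLocalHom π₁.toRingHom := ⟨fun a ha => isUnit_iff_isUnit_fst.2 (by
      have h : IsUnit (fst (π₁ a)) := isUnit_iff_isUnit_fst.1 ha
      simpa [π₁] using h)⟩
    have hπ' : IsLocalHom π₂.toRingHom := ⟨fun a ha => isUnit_iff_isUnit_fst.2 (by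
      have h : IsUnit (fst (π₂ a)) := isUnit_iff_isUnit_fst.1 ha
      simpa [π₂] using h)⟩
    have hw : X.ptAt w = X.origin := by
      rw [← AData.ptAt_ptMap π₁ hπ w, w1, AData.ptAt_ofStalkHom φ hφ.isLocalHom]
    obtain ⟨W, hW, rfl⟩ := AData.exists_stalkHom w hw
    rw [AData.ptMap_ofStalkHom] at w1 w2
    have e1 := AData.ofStalkHom_injective (AData.isLocalHom_comp hW hπ) hφ.isLocalHom w1
    have e2 := AData.ofStalkHom_injective (AData.isLocalHom_comp hW hπ') hψ.isLocalHom w2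
    congr 1
    refine AlgHom.ext fun a => TrivSqZeroExt.ext ?_ (Prod.ext ?_ ?_)
    · rw [hΦfst, ← hφ a, ← e1]; simp [π₁]
    · rw [hΦsnd]; simp [← e1, π₁]
    · rw [hΦsnd]; simp [← e2, π₂]
  have hz : ∀ (π : TrivSqZeroExt L (L × L) →ₐ[K] DualNumber L)
      (i : DualNumber L →ₐ[K] TrivSqZeroExt L (L × L))
      (χ : X.A.presheaf.stalk X.origin →ₐ[K] DualNumber L), IsDef χ →
      (∀ x, π (i x) = inl (fst x)) → X.ptMap π (X.ptMap i (X.ofStalkHom χ)) = 0 := by
    intro π i χ hχ hπi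
    rw [AData.ptMap_ofStalkHom, AData.ptMap_ofStalkHom, ← AData.ofStalkHom_ev0 (X := X)]
    congr 1
    refine AlgHom.ext fun a => ?_
    rw [AlgHom.comp_apply, AlgHom.comp_apply, hπi, hχ a]
    rfl
  have hid : ∀ (π : TrivSqZeroExt L (L × L) →ₐ[K] DualNumber L)
      (i : DualNumber L →ₐ[K] TrivSqZeroExt L (L × L)) (P : X.Pt (DualNumber L)),
      (∀ x, π (i x) = x) → X.ptMap π (X.ptMap i P) = P := by
    intro π i P h
    rw [AData.ptMap_comp, show π.comp i = AlgHom.id K _ from AlgHom.ext h, AData.ptMap_id]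
  have hw := key (X.ptMap i₁ (X.ofStalkHom φ) + X.ptMap i₂ (X.ofStalkHom ψ))
    (by rw [map_add, hid π₁ i₁ _ fun x => by ext <;> simp [π₁, i₁],
      hz π₁ i₂ ψ hψ fun x => by ext <;> simp [π₁, i₂], add_zero])
    (by rw [map_add, hid π₂ i₂ _ fun x => by ext <;> simp [π₂, i₂],
      hz π₂ i₁ φ hφ fun x => by ext <;> simp [π₂, i₁], zero_add])
  refine ⟨s.comp Φ, hs, fun a => by simp [s, hΦsnd], ?_⟩
  rw [← AData.ptMap_ofStalkHom, ← hw, map_add, hid s i₁ _ fun x => by ext <;> simp [s, i₁],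
    hid s i₂ _ fun x => by ext <;> simp [s, i₂]]

/-- Deformations of the zero point are homs to the dual numbers. -/
theorem exists_isDef {v : X.Pt (DualNumber L)} (h : X.ptMap (fstK L) v = 0) :
    ∃ φ : X.A.presheaf.stalk X.origin →ₐ[K] DualNumber L, IsDef φ ∧ X.ofStalkHom φ = v := by
  have hv : X.ptAt v = X.origin := by
    rw [← AData.ptAt_ptMap (fstK L) isLocalHom_fstK v, h, AData.ptAt_zero]
  obtain ⟨φ, hφ, rfl⟩ := AData.exists_stalkHom v hv
  rw [AData.ptMap_ofStalkHom, ← AData.ofStalkHom_ev0 (X := X)] at h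
  have e := AData.ofStalkHom_injective (AData.isLocalHom_comp hφ isLocalHom_fstK)
    AData.isLocalHom_ofId_ev0 h
  exact ⟨φ, fun a => AlgHom.congr_fun e a, rfl⟩

theorem IsDef.exists_nsmul {φ : X.A.presheaf.stalk X.origin →ₐ[K] DualNumber L} (hφ : IsDef φ) :
    ∀ k : ℕ, ∃ χ : X.A.presheaf.stalk X.origin →ₐ[K] DualNumber L, IsDef χ ∧
      (∀ a, snd (χ a) = k • snd (φ a)) ∧ k • X.ofStalkHom φ = X.ofStalkHom χ
  | 0 => ⟨(Algebra.ofId K _).comp X.ev0, fun a => rfl,
      fun a => by rw [zero_smul]; rfl, by rw [zero_smul, AData.ofStalkHom_ev0]⟩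
  | k + 1 => by
    obtain ⟨χ, hχ, hsnd, he⟩ := IsDef.exists_nsmul hφ k
    obtain ⟨χ', hχ', hsnd', he'⟩ := hχ.exists_add hφ
    exact ⟨χ', hχ', fun a => by rw [hsnd', hsnd, succ_nsmul],
      by rw [succ_nsmul, he, he']⟩

/-- **Multiplication by `n` is injective on deformations.** -/
theorem eq_of_nsmul_eq {n : ℕ} (hn : (n : K) ≠ 0) {P Q : X.Pt (DualNumber L)}
    (h0 : X.ptMap (fstK L) P = X.ptMap (fstK L) Q) (h : n • P = n • Q) : P = Q := by
  rw [← sub_eq_zero]
  obtain ⟨φ, hφ, he⟩ := exists_isDef (v := P - Q) (by rw [map_sub, h0, sub_self])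
  obtain ⟨χ, hχ, hsnd, hk⟩ := hφ.exists_nsmul n
  have h1 : X.ofStalkHom χ = 0 := by rw [← hk, he, nsmul_sub, h, sub_self]
  rw [← AData.ofStalkHom_ev0 (X := X)] at h1
  have h2 := AData.ofStalkHom_injective hχ.isLocalHom AData.isLocalHom_ofId_ev0 h1
  rw [← he, ← AData.ofStalkHom_ev0 (X := X)]
  congr 1
  refine IsDef.ext hφ (fun a => rfl) fun a => ?_
  have h3 := congrArg snd (AlgHom.congr_fun h2 a)
  rw [hsnd] at h3
  have hnL : (n : L) ≠ 0 := by
    rw [← map_natCast (algebraMap K L)]; exact (map_ne_zero _).2 hn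
  rw [AlgHom.comp_apply, Algebra.ofId_apply, algebraMap_dual, snd_inl] at h3 ⊢
  rw [nsmul_eq_mul] at h3
  exact (mul_eq_zero.1 h3).resolve_left hnL

end Fermat.Agent.AbVar
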