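import Fermat.Agent.AbVar.TangentDual
import Fermat.Agent.AbVar.Generic

/-!
# Rigidity of multiplication by `n`; torsion points are rational

A derivation killing the coordinates of `n • P` kills those of `P`, so torsion points with values
in a field come from rational points (`exists_of_nsmul_eq_zero`).
-/

set_option autoImplicit false

noncomputable section

open CategoryTheory AlgebraicGeometry TrivSqZeroExt TopologicalSpace NeronModelInfra
  GoodReductionJacobian
open IsLocalRing (closedPoint)
open scoped DualNumber

namespace Fermat.Agent.AbVar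

universe u

section Rigid

variable {K : Type u} [Field K] {X : AData K} {F : Type u} [Field F] [Algebra K F]

/-- The hom to the dual numbers of a derivation. -/
def derivHom (d : Derivation K F F) : F →ₐ[K] DualNumber F where
  toFun a := inl a + inr (d a)
  map_one' := by ext <;> simp
  map_mul' a b := by
    ext
    · simp
    · simp
      ring
  map_zero' := by ext <;> simp
  map_add' a b := by ext <;> simp
  commutes' c := by
    show inl (algebraMap K F c) + inr (d (algebraMap K F c)) = inl (algebraMap K F c)
    simp

/-- **Rigidity.** A derivation killing the coordinates of `n • P + t` kills those of `P`. -/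
theorem derivation_eq_zero {n : ℕ} (hn : (n : K) ≠ 0) (P Q : X.Pt F) (t : X.Pt K)
    (hQ : Q = n • P + X.ptMap (Algebra.ofId K F) t) (d : Derivation K F F)
    (hd : ∀ a, d (X.evalAt Q a) = 0) (a : X.A.presheaf.stalk (X.ptAt P)) :
    d (X.evalAt P a) = 0 := by
  let c : F →ₐ[K] DualNumber F := derivHom (0 : Derivation K F F)
  have hQ' : X.ptMap (derivHom d) Q = X.ptMap c Q := by
    conv_lhs => rw [← AData.ofStalkHom_evalAt Q, AData.ptMap_ofStalkHom]
    conv_rhs => rw [← AData.ofStalkHom_evalAt Q, AData.ptMap_ofStalkHom]
    congr 1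
    refine AlgHom.ext fun b => ?_
    show (inl (X.evalAt Q b) + inr (d (X.evalAt Q b)) : DualNumber F) =
      inl (X.evalAt Q b) + inr ((0 : Derivation K F F) (X.evalAt Q b))
    rw [hd b, Derivation.zero_apply]
  subst hQ
  have hn' : n • X.ptMap (derivHom d) P = n • X.ptMap c P := by
    have e : ∀ j : F →ₐ[K] DualNumber F, X.ptMap j (X.ptMap (Algebra.ofId K F) t) =
        X.ptMap (Algebra.ofId K _) t := fun j => by
      rw [AData.ptMap_comp, Subsingleton.elim (j.comp (Algebra.ofId K F)) (Algebra.ofId K _)]
    rw [map_add, map_add, map_nsmul, map_nsmul, e, e] at hQ'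
    exact add_right_cancel hQ'
  have h0 : X.ptMap (fstK F) (X.ptMap (derivHom d) P) = X.ptMap (fstK F) (X.ptMap c P) := by
    have e : ∀ d' : Derivation K F F, (fstK F).comp (derivHom d') = AlgHom.id K F :=
      fun d' => AlgHom.ext fun b => by
        show fst (inl b + inr (d' b)) = b
        simp
    rw [AData.ptMap_comp, AData.ptMap_comp, e, e]
  have h1 := eq_of_nsmul_eq hn h0 hn'
  rw [← AData.ofStalkHom_evalAt P, AData.ptMap_ofStalkHom, AData.ptMap_ofStalkHom] at h1
  have h2 := AlgHom.congr_fun (AData.ofStalkHom_injective
    (AData.isLocalHom_comp (AData.isLocalHom_evalAt P) (AData.isLocalHom_of_field _))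
    (AData.isLocalHom_comp (AData.isLocalHom_evalAt P) (AData.isLocalHom_of_field _)) h1) a
  have h3 := congrArg TrivSqZeroExt.snd h2
  simpa [c, derivHom] using h3

/-- An extension without nonzero derivations is formally unramified. -/
theorem formallyUnramified_of_derivation {E : Type u} [Field E] [Algebra E F]
    (h : ∀ d : Derivation E F F, d = 0) : Algebra.FormallyUnramified E F := by
  have hz : ∀ x : KaehlerDifferential E F, x = 0 := fun x =>
    (Module.forall_dual_apply_eq_zero_iff F x).1 fun φ => by
      have h0 := h (φ.compDer (KaehlerDifferential.D E F))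
      have hx : x ∈ Submodule.span F (Set.range (KaehlerDifferential.D E F)) := by
        rw [KaehlerDifferential.span_range_derivation]; trivial
      induction hx using Submodule.span_induction with
      | mem y hy =>
        obtain ⟨b, rfl⟩ := hy
        exact DFunLike.congr_fun h0 b
      | zero => exact map_zero φ
      | add y z _ _ hy hz => rw [map_add, hy, hz, add_zero]
      | smul b y _ hy => rw [map_smul, hy, smul_zero]
  exact ⟨⟨fun x y => (hz x).trans (hz y).symm⟩⟩

end Rigid

variable {K : Type u} [Field K] [IsAlgClosed K] {X : AData K}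

/-- The value at a point of a point with values in the residue field. -/
def residuePt (X : AData K) (x : X.A) :
    X.Pt (IsLocalRing.ResidueField (X.A.presheaf.stalk x)) :=
  X.ofStalkHom (IsScalarTower.toAlgHom K (X.A.presheaf.stalk x)
    (IsLocalRing.ResidueField (X.A.presheaf.stalk x)))

omit [IsAlgClosed K] in
theorem isLocalHom_residueHom (x : X.A) : IsLocalHom (IsScalarTower.toAlgHom K
    (X.A.presheaf.stalk x) (IsLocalRing.ResidueField (X.A.presheaf.stalk x))).toRingHom :=
  ⟨fun a ha => by
    by_contra hm
    exact ha.ne_zero ((IsLocalRing.residue_eq_zero_iff a).2 hm)⟩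

/-- A torsion point with values in the residue field is rational. -/
theorem bijective_algebraMap_residue {n : ℕ} (hn : (n : K) ≠ 0) (x : X.A)
    (h : n • residuePt X x = 0) :
    Function.Bijective (algebraMap K (IsLocalRing.ResidueField (X.A.presheaf.stalk x))) := by
  set k := IsLocalRing.ResidueField (X.A.presheaf.stalk x)
  have := X.essFiniteType_stalk x
  have : Algebra.EssFiniteType K k := Algebra.EssFiniteType.of_surjective
    (IsScalarTower.toAlgHom K (X.A.presheaf.stalk x) k) IsLocalRing.residue_surjective
  have : Algebra.FormallyUnramified K k := formallyUnramified_of_derivation fun d => by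
    ext b
    obtain ⟨Q, hQ, hd⟩ : ∃ Q : X.Pt k, Q = n • residuePt X x + X.ptMap (Algebra.ofId K k) 0 ∧
        ∀ a, d (X.evalAt Q a) = 0 := by
      refine ⟨_, rfl, ?_⟩
      rw [map_zero, add_zero, h]
      intro a
      have hr := AData.range_evalAt AData.isLocalHom_ofId_ev0
        (AData.ofStalkHom_ev0 (X := X) (R := k))
      obtain ⟨a', ha'⟩ : X.evalAt (0 : X.Pt k) a ∈ Set.range ((Algebra.ofId K k).comp X.ev0) :=
        hr ▸ Set.mem_range_self a
      rw [← ha', AlgHom.comp_apply, Algebra.ofId_apply, Derivation.map_algebraMap]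
    obtain ⟨a, ha⟩ : b ∈ Set.range (X.evalAt (residuePt X x)) := by
      rw [AData.range_evalAt (isLocalHom_residueHom x) (P := residuePt X x) rfl]
      exact IsLocalRing.residue_surjective b
    rw [← ha]
    exact derivation_eq_zero hn (residuePt X x) Q 0 hQ d hd a
  have : Module.Finite K k := Algebra.FormallyUnramified.finite_of_free K k
  exact IsAlgClosed.algebraMap_bijective_of_isIntegral

/-- **Torsion points are rational.** -/
theorem exists_of_nsmul_eq_zero {L : Type u} [Field L] [Algebra K L] {n : ℕ} (hn : (n : K) ≠ 0)
    (P : X.Pt L) (h : n • P = 0) : ∃ t : X.Pt K, n • t = 0 ∧ X.ptMap (Algebra.ofId K L) t = P := by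
  set x := X.ptAt P
  set k := IsLocalRing.ResidueField (X.A.presheaf.stalk x)
  have hker : ∀ a, IsLocalRing.residue (X.A.presheaf.stalk x) a = 0 →
      X.evalAt P a = 0 := fun a ha => by
    by_contra h0
    exact ((IsLocalRing.residue_eq_zero_iff a).1 ha)
      ((AData.isLocalHom_evalAt P).map_nonunit a (isUnit_iff_ne_zero.2 h0))
  let j : k →ₐ[K] L := Ideal.Quotient.liftₐ _ (X.evalAt P) fun a ha =>
    hker a ((IsLocalRing.residue_eq_zero_iff a).2 ha)
  have hj : X.ptMap j (residuePt X x) = P := by
    rw [residuePt, AData.ptMap_ofStalkHom]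
    conv_rhs => rw [← AData.ofStalkHom_evalAt P]
    rfl
  have h1 : n • residuePt X x = 0 := AData.ptMap_injective_of_field j (by
    rw [map_nsmul, hj, h, map_zero])
  let e : K ≃ₐ[K] k := AlgEquiv.ofBijective (Algebra.ofId K k)
    (bijective_algebraMap_residue hn x h1)
  refine ⟨X.ptMap e.symm.toAlgHom (residuePt X x), by rw [← map_nsmul, h1, map_zero], ?_⟩
  have he : (Algebra.ofId K L).comp e.symm.toAlgHom = j := by
    refine AlgHom.ext fun y => ?_
    obtain ⟨c, rfl⟩ := e.surjective y
    show algebraMap K L (e.symm (e c)) = j (algebraMap K k c)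
    rw [AlgEquiv.symm_apply_apply, j.commutes]
  rw [AData.ptMap_comp, he, hj]

end Fermat.Agent.AbVar
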